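import Fermat.Agent.LocalEC.Decomposition
import Fermat.Agent.LocalEC.VarChange
import Fermat.Agent.FrobTrace.Det
import Fermat.Prelude.Def_FLTPrelim_Modularity

/-!
# The torsion of the Frey curve through an integral model
-/

set_option autoImplicit false
set_option linter.style.haveILetI false
set_option maxHeartbeats 800000

noncomputable section

open WeierstrassCurve WeierstrassCurve.Affine
open WeierstrassCurve.Affine.Point (galoisRepModuleEnd galoisRepModuleEnd_apply)

namespace FLTAgent.MazurPrinciple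

open FLTAgent.LocalEC
open scoped WeierstrassCurve.Affine

local notation "QA" => AlgebraicClosure ℚ
local notation "GG" => (AlgebraicClosure ℚ ≃ₐ[ℚ] AlgebraicClosure ℚ)

variable (P : FreyPackage)

/-- The representation on the `p`-torsion of the Frey curve. -/
def freyRho : GG →* Module.End (ZMod P.p) (freyTorsion P) :=
  galoisRepModuleEnd (S := ℚ) (K := QA) P.freyCurve P.p

theorem freyRho_apply (σ : GG) (x : freyTorsion P) : freyRho P σ x = σ • x := rfl

theorem some_ext {K : Type*} [CommRing K] {W' : WeierstrassCurve.Affine K} {x y x' y' : K}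
    {h : W'.Nonsingular x y} {h' : W'.Nonsingular x' y'} (ex : x = x') (ey : y = y') :
    Point.some x y h = Point.some x' y' h' := by subst ex ey; rfl

theorem finrank_freyTorsion [Fact P.p.Prime] :
    Module.finrank (ZMod P.p) (freyTorsion P) = 2 := by
  haveI : WeierstrassCurve.IsElliptic (P.freyCurve⁄QA) := freyBar_isElliptic P
  exact FLTAgent.Torsion.finrank_torsionBy (W := P.freyCurve) (K := QA)
    (Nat.cast_ne_zero.mpr P.hp0)

theorem finite_freyTorsion : Finite (freyTorsion P) := by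
  haveI : WeierstrassCurve.IsElliptic (P.freyCurve⁄QA) := freyBar_isElliptic P
  exact FLTAgent.Torsion.finite_torsionBy (W := P.freyCurve) (K := QA)
    (Nat.cast_ne_zero.mpr P.hp0)

variable {P}

/-- The change of coordinates to an integral model, over `ℚ̄`. -/
def modelChange {W : WeierstrassCurve ℤ} {C : VariableChange ℚ}
    (hC : C • P.freyCurve = W.map (Int.castRingHom ℚ)) :
    PointChange (freyBar P) (FrobTrace.barCurve W) where
  u := algebraMap ℚ QA C.u
  r := algebraMap ℚ QA C.r
  s := algebraMap ℚ QA C.s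
  t := algebraMap ℚ QA C.t
  hu := (_root_.map_ne_zero _).2 C.u.ne_zero
  h₁ := by
    have h := congrArg WeierstrassCurve.a₁ hC
    simp only [variableChange_def, WeierstrassCurve.map_a₁, Units.val_inv_eq_inv_val,
      eq_intCast] at h
    have h' : (C.u : ℚ) * (W.a₁ : ℚ) = P.freyCurve.a₁ + 2 * C.s := by
      rw [← h, ← mul_assoc, mul_inv_cancel₀ C.u.ne_zero, one_mul]
    have h'' := congrArg (algebraMap ℚ QA) h'
    simpa [FrobTrace.barCurve, freyBar, WeierstrassCurve.map] using h''
  h₂ := by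
    have h := congrArg WeierstrassCurve.a₂ hC
    simp only [variableChange_def, WeierstrassCurve.map_a₂, Units.val_inv_eq_inv_val,
      eq_intCast] at h
    have h' : (C.u : ℚ) ^ 2 * (W.a₂ : ℚ) =
        P.freyCurve.a₂ - C.s * P.freyCurve.a₁ + 3 * C.r - C.s ^ 2 := by
      rw [← h, ← mul_assoc, ← mul_pow, mul_inv_cancel₀ C.u.ne_zero, one_pow, one_mul]
    have h'' := congrArg (algebraMap ℚ QA) h'
    simpa [FrobTrace.barCurve, freyBar, WeierstrassCurve.map] using h''
  h₃ := by
    have h := congrArg WeierstrassCurve.a₃ hC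
    simp only [variableChange_def, WeierstrassCurve.map_a₃, Units.val_inv_eq_inv_val,
      eq_intCast] at h
    have h' : (C.u : ℚ) ^ 3 * (W.a₃ : ℚ) =
        P.freyCurve.a₃ + C.r * P.freyCurve.a₁ + 2 * C.t := by
      rw [← h, ← mul_assoc, ← mul_pow, mul_inv_cancel₀ C.u.ne_zero, one_pow, one_mul]
    have h'' := congrArg (algebraMap ℚ QA) h'
    simpa [FrobTrace.barCurve, freyBar, WeierstrassCurve.map] using h''
  h₄ := by
    have h := congrArg WeierstrassCurve.a₄ hC
    simp only [variableChange_def, WeierstrassCurve.map_a₄, Units.val_inv_eq_inv_val,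
      eq_intCast] at h
    have h' : (C.u : ℚ) ^ 4 * (W.a₄ : ℚ) = P.freyCurve.a₄ - C.s * P.freyCurve.a₃ +
        2 * C.r * P.freyCurve.a₂ - (C.t + C.r * C.s) * P.freyCurve.a₁ + 3 * C.r ^ 2 -
          2 * C.s * C.t := by
      rw [← h, ← mul_assoc, ← mul_pow, mul_inv_cancel₀ C.u.ne_zero, one_pow, one_mul]
    have h'' := congrArg (algebraMap ℚ QA) h'
    simpa [FrobTrace.barCurve, freyBar, WeierstrassCurve.map] using h''
  h₆ := by
    have h := congrArg WeierstrassCurve.a₆ hC
    simp only [variableChange_def, WeierstrassCurve.map_a₆, Units.val_inv_eq_inv_val,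
      eq_intCast] at h
    have h' : (C.u : ℚ) ^ 6 * (W.a₆ : ℚ) = P.freyCurve.a₆ + C.r * P.freyCurve.a₄ +
        C.r ^ 2 * P.freyCurve.a₂ + C.r ^ 3 - C.t * P.freyCurve.a₃ - C.t ^ 2 -
          C.r * C.t * P.freyCurve.a₁ := by
      rw [← h, ← mul_assoc, ← mul_pow, mul_inv_cancel₀ C.u.ne_zero, one_pow, one_mul]
    have h'' := congrArg (algebraMap ℚ QA) h'
    simpa [FrobTrace.barCurve, freyBar, WeierstrassCurve.map] using h''

theorem discr_ne_zero {W : WeierstrassCurve ℤ} (hW : W.IsIntegralModelOf P.freyCurve) :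
    W.Δ ≠ 0 := by
  obtain ⟨C, hC⟩ := hW
  intro h
  have h1 := congrArg WeierstrassCurve.Δ hC
  rw [WeierstrassCurve.map_Δ, h, map_zero, variableChange_Δ, mul_eq_zero] at h1
  rcases h1 with h1 | h1
  · exact (Units.ne_zero (C.u⁻¹)) (eq_zero_of_pow_eq_zero h1)
  · have h2 := freyBar_Δ P
    rw [show (freyBar P).Δ = algebraMap ℚ QA P.freyCurve.Δ from WeierstrassCurve.map_Δ _ _, h1,
      map_zero] at h2
    exact (div_ne_zero (pow_ne_zero _ (mul_ne_zero (mul_ne_zero
      (pow_ne_zero _ (Int.cast_ne_zero.mpr P.ha0)) (pow_ne_zero _ (Int.cast_ne_zero.mpr P.hb0)))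
      (pow_ne_zero _ (Int.cast_ne_zero.mpr P.hc0)))) (by norm_num)) h2.symm

/-- Trace and determinant of a Frobenius element on the torsion of the Frey curve. -/
theorem freyRho_frobenius [Fact P.p.Prime] {W : WeierstrassCurve ℤ}
    (hW : W.IsIntegralModelOf P.freyCurve) {ℓ : ℕ} (hℓ : ℓ.Prime) (hgood : W.IsGoodPrimeFor ℓ)
    (hne : ℓ ≠ P.p) {A : ValuationSubring QA} (hA : A.LiesOverPrime ℓ) {τ : GG}
    (hτ : A.IsFrobeniusAt τ ℓ) :
    LinearMap.trace (ZMod P.p) (freyTorsion P) (freyRho P τ) = (W.apOfModel ℓ : ZMod P.p) ∧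
      LinearMap.det (freyRho P τ) = (ℓ : ZMod P.p) := by
  haveI : Fact ℓ.Prime := ⟨hℓ⟩
  obtain ⟨C, hC⟩ := hW
  let D := modelChange hC
  set V := Submodule.torsionBy ℤ ((W.map (Int.castRingHom ℚ))⁄QA).Point P.p
  have hmem : ∀ x : V, D.pointMap (x : (FrobTrace.barCurve W).Point) ∈
      Submodule.torsionBy ℤ (freyBar P).Point P.p := fun x => by
    rw [torsion_iff, ← map_nsmul]
    have h := Torsion.mem_torsionBy_iff_nsmul.mp x.2
    exact (congrArg D.pointMap h).trans (map_zero _)
  let e₀ : V →ₗ[ZMod P.p] freyTorsion P :=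
    AddMonoidHom.toZModLinearMap P.p
      ((D.pointMap.comp (V.subtype.toAddMonoidHom)).codRestrict
        (Submodule.torsionBy ℤ (freyBar P).Point P.p).toAddSubgroup hmem)
  have he : ∀ x : V, (e₀ x).1 = D.pointMap x.1 := fun x => rfl
  have hinj : Function.Injective e₀ := fun x y h =>
    Subtype.ext (D.pointMap_injective ((he x).symm.trans ((congrArg Subtype.val h).trans (he y))))
  have hsurj : Function.Surjective e₀ := by
    rintro ⟨Q, hQ⟩
    rcases Q with _ | ⟨x, y, h⟩
    · exact ⟨0, map_zero e₀⟩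
    · obtain ⟨x', y', he', ex, ey⟩ := D.exists_preimage (W' := FrobTrace.barCurve W) h.1
      subst ex ey
      have h' := D.nonsingular_of_map he' h
      refine ⟨⟨Point.some x' y' h', Torsion.mem_torsionBy_iff_nsmul.mpr (D.pointMap_injective ?_)⟩,
        Subtype.ext rfl⟩
      rw [map_nsmul, map_zero]
      exact (torsion_iff P).mp hQ
  let e : V ≃ₗ[ZMod P.p] freyTorsion P := LinearEquiv.ofBijective e₀ ⟨hinj, hsurj⟩
  have hcomm : ∀ x : V, e (τ • x) = τ • e x := fun x => by
    refine Subtype.ext ?_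
    show D.pointMap (τ • (x : (FrobTrace.barCurve W).Point)) = τ • D.pointMap x
    rcases (x : (FrobTrace.barCurve W).Point) with _ | ⟨a, b, hab⟩
    · exact (map_zero D.pointMap).trans (congrArg (τ • ·) (map_zero D.pointMap)).symm
    · show (Point.some (D.X (τ a)) (D.Y (τ a) (τ b)) _ : (freyBar P).Point) =
        Point.some (τ (D.X a)) (τ (D.Y a b)) _
      exact some_ext (by simp [PointChange.X, D, modelChange])
        (by simp [PointChange.Y, D, modelChange])
  have hconj : e.toLinearMap ∘ₗ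
      galoisRepModuleEnd (S := ℚ) (K := QA) (W.map (Int.castRingHom ℚ)) P.p τ ∘ₗ
        e.symm.toLinearMap = freyRho P τ := by
    refine LinearMap.ext fun Q => ?_
    rw [LinearMap.comp_apply, LinearMap.comp_apply, LinearEquiv.coe_coe, LinearEquiv.coe_coe,
      galoisRepModuleEnd_apply, hcomm, e.apply_symm_apply, freyRho_apply]
  obtain ⟨ht, hd⟩ := FrobTrace.trace_det_frobenius (p := P.p) hgood (Ne.symm hne) hA hτ
  refine ⟨?_, ?_⟩
  · rw [← hconj, ← LinearMap.comp_assoc, ← LinearEquiv.conj_apply, LinearMap.trace_conj', ht]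
  · rw [← hconj, LinearMap.det_conj, hd]

end FLTAgent.MazurPrinciple
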