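import Fermat.Agent.MazurPrinciple.GlobalAlgebra
import Fermat.Agent.MazurPrinciple.GlobalModel
import Fermat.Agent.EigenLattice.Push
import Fermat.Agent.Reducible.Frey

/-!
# The eigenspace of the system of the Frey curve in the `p`-torsion of `J₀(N)`
-/

set_option autoImplicit false
set_option linter.style.haveILetI false
set_option linter.unusedSectionVars false
set_option synthInstance.maxHeartbeats 400000
set_option maxHeartbeats 1000000

noncomputable section

namespace FLTAgent.MazurPrinciple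

open Matrix FLTAgent.EigenLattice
open ModularCurve (JZero modularFunctionFieldBar)
open AlgebraicCurve

local notation "QA" => AlgebraicClosure ℚ
local notation "GG" => (AlgebraicClosure ℚ ≃ₐ[ℚ] AlgebraicClosure ℚ)

variable (N : ℕ) [NeZero N] (κ : AlgebraicClosure ℚ →+* ℂ) (p : ℕ) [Fact p.Prime] [NeZero p]
  (S : Finset ℕ) (a : ℕ → ℤ)

local notation "HH" => CuspForm.heckeAlgebra N 2 (∅ : Set ℕ)
local notation "Vec" => (Ix N → ZMod p)

/-- A Hecke operator modulo `p`. -/
abbrev heckeP (t : HH) : Matrix (Ix N) (Ix N) (ZMod p) :=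
  (heckeMx N t).map (Int.castRingHom (ZMod p))

/-- The classes with the system `a` outside `S`. -/
def eigenSpace : Submodule (ZMod p) Vec where
  carrier := {v | ∀ q : Nat.Primes, ¬ (q : ℕ) ∣ N → (q : ℕ) ∉ S →
    heckeP N p (CuspForms.heckeGen N q q.2) *ᵥ v = (a q : ZMod p) • v}
  add_mem' ha hb q h1 h2 := by rw [Matrix.mulVec_add, ha q h1 h2, hb q h1 h2, smul_add]
  zero_mem' q _ _ := by rw [Matrix.mulVec_zero, smul_zero]
  smul_mem' c v hv q h1 h2 := by rw [Matrix.mulVec_smul, hv q h1 h2, smul_comm]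

theorem galMx_mem (σ : GG) {v : Vec} (hv : v ∈ eigenSpace N p S a) :
    galMx (N := N) κ p σ *ᵥ v ∈ eigenSpace N p S a := fun q h1 h2 => by
  rw [Matrix.mulVec_mulVec, ← galMx_heckeGen κ p σ q, ← Matrix.mulVec_mulVec, hv q h1 h2,
    Matrix.mulVec_smul]

/-- The Galois action on the eigenspace. -/
def eigenSpaceRep : GG →* Module.End (ZMod p) (eigenSpace N p S a) where
  toFun σ := (Matrix.toLin' (galMx (N := N) κ p σ)).restrict fun v hv => by
    rw [Matrix.toLin'_apply]; exact galMx_mem N κ p S a σ hv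
  map_one' := LinearMap.ext fun v => Subtype.ext (by
    rw [LinearMap.coe_restrict_apply, Matrix.toLin'_apply, galMx_one, Matrix.one_mulVec]; rfl)
  map_mul' σ τ := LinearMap.ext fun v => Subtype.ext (by
    rw [LinearMap.coe_restrict_apply, Matrix.toLin'_apply, galMx_mul, Module.End.mul_apply,
      LinearMap.coe_restrict_apply, LinearMap.coe_restrict_apply, Matrix.toLin'_apply,
      Matrix.toLin'_apply, Matrix.mulVec_mulVec])

theorem coe_eigenSpaceRep (σ : GG) (v : eigenSpace N p S a) :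
    (eigenSpaceRep N κ p S a σ v : Vec) = galMx (N := N) κ p σ *ᵥ (v : Vec) := by
  exact Matrix.toLin'_apply _ _

/-- The class of a coordinate vector. -/
def classOf (v : Vec) : JZero N :=
  ((torsCoord (N := N) κ p).symm v : Pic0.torsion QA (modularFunctionFieldBar N) p)

theorem nsmul_classOf (v : Vec) : p • classOf N κ p v = 0 := by
  have h := Pic0.mem_torsion.1 ((torsCoord (N := N) κ p).symm v).2
  rwa [natCast_zsmul] at h

theorem classOf_injective : Function.Injective (classOf N κ p) := fun _ _ h =>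
  (torsCoord (N := N) κ p).symm.injective (Subtype.ext h)

theorem classOf_zero : classOf N κ p 0 = 0 := by
  rw [classOf, map_zero]; rfl

theorem classOf_smul (k : ℕ) (v : Vec) :
    classOf N κ p ((k : ZMod p) • v) = k • classOf N κ p v := by
  rw [classOf, Nat.cast_smul_eq_nsmul, map_nsmul]; rfl

theorem smul_classOf (σ : GG) (v : Vec) :
    σ • classOf N κ p v = classOf N κ p (galMx (N := N) κ p σ *ᵥ v) := by
  set c := (torsCoord (N := N) κ p).symm v with hc
  have h : galMx (N := N) κ p σ *ᵥ v =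
      torsCoord κ p (ModularCurve.JZero.torsionGaloisRep N p σ c) := by
    rw [← galMx_mulVec, hc, AddEquiv.apply_symm_apply]
  rw [classOf, classOf, h, AddEquiv.symm_apply_apply, ModularCurve.JZero.coe_torsionGaloisRep_apply]

theorem hecke_classOf {v : Vec} (hv : v ∈ eigenSpace N p S a) (l : ℕ) [NeZero l] (hl : l.Prime)
    (hlN : ¬ l ∣ N) (hlS : l ∉ S) :
    ModularCurve.heckeOperatorAlong QA N l (classOf N κ p v) = a l • classOf N κ p v := by
  obtain ⟨q, rfl⟩ : ∃ q : Nat.Primes, (q : ℕ) = l := ⟨⟨l, hl⟩, rfl⟩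
  set c := (torsCoord (N := N) κ p).symm v with hc
  have h1 : TorsionHom.heckeTors p q c = a q • c := (torsCoord (N := N) κ p).injective (by
    rw [torsCoord_heckeTors, map_zsmul, hc, AddEquiv.apply_symm_apply, hv q hlN hlS,
      Int.cast_smul_eq_zsmul])
  have h2 := congrArg Subtype.val h1
  rw [TorsionHom.coe_heckeTors, ModularCurve.heckeOperatorBar_apply] at h2
  exact h2

/-- The system as a character of the free algebra. -/
def systemEval : MvPolynomial (GoodIdx N S) ℤ →+* ℤ :=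
  MvPolynomial.eval fun q : GoodIdx N S => a q.1

theorem evalGood_mulVec (P : MvPolynomial (GoodIdx N S) ℤ) {v : Vec}
    (hv : v ∈ eigenSpace N p S a) :
    heckeP N p (evalGood N S N P) *ᵥ v = (systemEval N S a P : ZMod p) • v := by
  induction P using MvPolynomial.induction_on with
  | C c =>
    rw [eq_intCast MvPolynomial.C c, map_intCast, map_intCast, heckeP, heckeMx_intCast,
      show (c : Matrix (Ix N) (Ix N) ℤ).map (Int.castRingHom (ZMod p)) =
        (c : Matrix (Ix N) (Ix N) (ZMod p)) from map_intCast (Int.castRingHom (ZMod p)).mapMatrix c,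
      Int.cast_id, ← zsmul_one c, Matrix.smul_mulVec, Matrix.one_mulVec, Int.cast_smul_eq_zsmul]
  | add P Q hP hQ =>
    rw [map_add, map_add, heckeP, heckeMx_add, Matrix.map_add _ (map_add _), Matrix.add_mulVec, hP,
      hQ, Int.cast_add, add_smul]
  | mul_X P q hP =>
    rw [map_mul, map_mul, evalGood_X, heckeP, heckeMx_mul, Matrix.map_mul, ← Matrix.mulVec_mulVec,
      hP, Matrix.mulVec_smul, hv q.1 q.2.1 q.2.2, Int.cast_mul, smul_smul]
    rw [systemEval, MvPolynomial.eval_X]

/-- An operator with invertible value which vanishes at the lower level kills the push forward. -/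
theorem pushPic_classOf {M l : ℕ} [NeZero M] [NeZero l] [NeZero (M * l)]
    (φ : modularFunctionFieldBar M →ₐ[QA] modularFunctionFieldBar (M * l))
    (hφ : ∀ (σ : GG) (x : modularFunctionFieldBar M),
      φ (ModularCurve.arithmeticGalois (L := QA) (ModularCurve.modularFunctionFieldFull M) σ • x) =
        ModularCurve.arithmeticGalois (L := QA) (ModularCurve.modularFunctionFieldFull (M * l)) σ •
          φ x)
    (hpS : p ∈ S) (P : MvPolynomial (GoodIdx (M * l) S) ℤ) (hP0 : evalGood (M * l) S M P = 0)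
    (hPa : (systemEval (M * l) S a P : ZMod p) ≠ 0) {v : Ix (M * l) → ZMod p}
    (hv : v ∈ eigenSpace (M * l) p S a) :
    pushPic M l φ (classOf (M * l) κ p v) = 0 := by
  set c : ZMod p := (systemEval (M * l) S a P : ZMod p)
  have h := pushPic_opAct_eq_zero κ p φ hφ S
    (fun q hq hd => (Nat.prime_dvd_prime_iff_eq hq Fact.out).1 hd ▸ hpS) P hP0
    ((torsCoord (N := M * l) κ p).symm (c⁻¹ • v))
  have e : opAct κ p (evalGood (M * l) S (M * l) P)
      ((torsCoord (N := M * l) κ p).symm (c⁻¹ • v)) = (torsCoord (N := M * l) κ p).symm v := by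
    refine (torsCoord (N := M * l) κ p).injective ?_
    rw [torsCoord_opAct, AddEquiv.apply_symm_apply, AddEquiv.apply_symm_apply,
      evalGood_mulVec (M * l) p S a P (Submodule.smul_mem _ _ hv), smul_smul,
      mul_inv_cancel₀ hPa, one_smul]
  rwa [e] at h

/-- Every character of the system gives a nonzero class. -/
theorem eigenSpace_ne_bot {K : Type*} [Field K] [CharP K p] (χ : HH →+* K)
    (hχ : ∀ q : Nat.Primes, ¬ (q : ℕ) ∣ N → (q : ℕ) ∉ S →
      χ (CuspForms.heckeGen N q q.2) = (a q : K)) :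
    eigenSpace N p S a ≠ ⊥ := by
  obtain ⟨φ, hφ, hker⟩ := PeriodHecke.exists_Hpar_zmod_killed_ker N p χ
  refine (Submodule.ne_bot_iff _).2 ⟨vecEquiv N (ZMod p) φ, fun q h1 h2 => ?_, fun h => hφ
    ((vecEquiv N (ZMod p)).injective (h.trans (map_zero _).symm))⟩
  set t := CuspForms.heckeGen N q q.2
  have h := hker (t - (a q : HH)) (by rw [map_sub, map_intCast, hχ q h1 h2, sub_self])
  rw [map_sub, map_intCast] at h
  have h3 : PeriodHecke.actA N (ZMod p) t φ = a q • φ := sub_eq_zero.1 h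
  rw [heckeP, ← vecEquiv_actA, h3, map_zsmul, Int.cast_smul_eq_zsmul]

end FLTAgent.MazurPrinciple

namespace FLTAgent.MazurPrinciple

open Matrix FLTAgent.EigenLattice FLTAgent.LocalEC

local notation "QA" => AlgebraicClosure ℚ
local notation "GG" => (AlgebraicClosure ℚ ≃ₐ[ℚ] AlgebraicClosure ℚ)

variable (P : FreyPackage) [Fact P.p.Prime] [NeZero P.p] (N : ℕ) [NeZero N]
  (κ : AlgebraicClosure ℚ →+* ℂ) (S : Finset ℕ) (a : ℕ → ℤ)

/-- Frobenius at the good primes outside `S` has trace `a` on the torsion of the Frey curve. -/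
def HasSystem : Prop :=
  ∀ ℓ : ℕ, ℓ.Prime → ¬ ℓ ∣ N → ℓ ∉ S → ∀ A : ValuationSubring QA, A.LiesOverPrime ℓ →
    ∀ τ : GG, A.IsFrobeniusAt τ ℓ →
      LinearMap.trace (ZMod P.p) (freyTorsion P) (freyRho P τ) = (a ℓ : ZMod P.p) ∧
        LinearMap.det (freyRho P τ) = (ℓ : ZMod P.p)

variable {P N S a}

/-- An element agrees with a power of a Frobenius element at a good prime on both modules. -/
theorem exists_frobenius_pow (g : GG) :
    ∃ (ℓ : ℕ) (A : ValuationSubring QA) (τ : GG) (k : ℕ), ℓ.Prime ∧ ¬ ℓ ∣ N ∧ ℓ ∉ S ∧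
      A.LiesOverPrime ℓ ∧ A.IsFrobeniusAt τ ℓ ∧ freyRho P g = freyRho P τ ^ k ∧
      galMx (N := N) κ P.p g = galMx (N := N) κ P.p (τ ^ k) := by
  haveI : Algebra.IsAlgebraic ℚ QA := AlgebraicClosure.isAlgebraic ℚ
  haveI := finite_freyTorsion P
  obtain ⟨L₁, hL₁, h1⟩ := Torsion.exists_finite_level_torsionBy (S := ℚ) (W := P.freyCurve)
    (K := QA) (n := P.p)
  obtain ⟨L₂, hL₂, h2⟩ := exists_level_galMx (N := N) κ P.p
  haveI := hL₁
  haveI := hL₂
  obtain ⟨ℓ, A, τ, k, hℓ, hℓS, hA, hτ, hg⟩ :=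
    Frobenius.exists_frobenius_pow_eqOn (L₁ ⊔ L₂) g (S ∪ N.primeFactors)
  have hfix : ∀ x ∈ L₁ ⊔ L₂, ((τ ^ k)⁻¹ * g) x = x := fun x hx => by
    rw [AlgEquiv.mul_apply, hg x hx]
    exact (τ ^ k).symm_apply_apply x
  refine ⟨ℓ, A, τ, k, hℓ, fun h => hℓS (Finset.mem_union_right _
    (Nat.mem_primeFactors.2 ⟨hℓ, h, NeZero.ne N⟩)), fun h => hℓS (Finset.mem_union_left _ h),
    hA, hτ, ?_, ?_⟩
  · conv_lhs => rw [← mul_inv_cancel_left (τ ^ k) g, map_mul, map_pow]
    rw [show freyRho P ((τ ^ k)⁻¹ * g) = 1 from LinearMap.ext fun x =>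
      h1 _ (fun y hy => hfix y ((le_sup_left : L₁ ≤ L₁ ⊔ L₂) hy)) x, mul_one]
  · conv_lhs => rw [← mul_inv_cancel_left (τ ^ k) g, galMx_mul]
    rw [h2 _ fun y hy => hfix y ((le_sup_right : L₂ ≤ L₁ ⊔ L₂) hy), mul_one]

/-- Every element satisfies its characteristic relation of the torsion of the Frey curve. -/
theorem eigenSpace_relation (hpS : P.p ∈ S) (hE : HasSystem P N S a) (g : GG) :
    eigenSpaceRep N κ P.p S a g * eigenSpaceRep N κ P.p S a g -
      LinearMap.trace (ZMod P.p) (freyTorsion P) (freyRho P g) • eigenSpaceRep N κ P.p S a g +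
      LinearMap.det (freyRho P g) • 1 = 0 := by
  haveI := finite_freyTorsion P
  obtain ⟨ℓ, A, τ, k, hℓ, hℓN, hℓS, hA, hτ, e1, e2⟩ :=
    exists_frobenius_pow (N := N) (S := S) κ g (P := P)
  have e3 : eigenSpaceRep N κ P.p S a g = eigenSpaceRep N κ P.p S a τ ^ k := by
    rw [← map_pow]
    exact LinearMap.ext fun v => Subtype.ext (by rw [coe_eigenSpaceRep, coe_eigenSpaceRep, e2])
  rw [e1, e3]
  refine pow_relation (finrank_freyTorsion P) (freyRho P τ) _ ?_ k
  obtain ⟨ht, hd⟩ := hE ℓ hℓ hℓN hℓS A hA τ hτ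
  rw [ht, hd]
  refine LinearMap.ext fun v => Subtype.ext ?_
  have hℓp : ¬ ℓ ∣ P.p := fun h =>
    hℓS ((Nat.prime_dvd_prime_iff_eq hℓ P.pp).1 h ▸ hpS)
  have h := congrArg (fun X => X *ᵥ (v : Ix N → ZMod P.p))
    (galMx_frobenius (N := N) κ P.p hℓ hℓN hℓp hA hτ)
  rw [Matrix.add_mulVec, Matrix.sub_mulVec, ← Matrix.mulVec_mulVec, ← Matrix.mulVec_mulVec,
    galMx_mem N κ P.p S a τ v.2 ⟨ℓ, hℓ⟩ hℓN hℓS, Matrix.smul_mulVec, Matrix.one_mulVec,
    Matrix.zero_mulVec] at h
  simp only [LinearMap.add_apply, LinearMap.sub_apply, LinearMap.smul_apply, Module.End.mul_apply,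
    Module.End.one_apply, LinearMap.zero_apply, Submodule.coe_add, Submodule.coe_sub,
    Submodule.coe_smul, Submodule.coe_zero, coe_eigenSpaceRep]
  exact h

/-- A nonzero stable part fixed by the kernel of the representation. -/
theorem exists_stable_fixed (hpS : P.p ∈ S) (hE : HasSystem P N S a)
    (h0 : eigenSpace N P.p S a ≠ ⊥) :
    ∃ W : Submodule (ZMod P.p) (eigenSpace N P.p S a), W ≠ ⊥ ∧
      (∀ g, ∀ w ∈ W, eigenSpaceRep N κ P.p S a g w ∈ W) ∧
      ∀ g, freyRho P g = 1 → ∀ w ∈ W, eigenSpaceRep N κ P.p S a g w = w := by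
  haveI := finite_freyTorsion P
  haveI : Nontrivial (eigenSpace N P.p S a) := Submodule.nontrivial_iff_ne_bot.2 h0
  set r := eigenSpaceRep N κ P.p S a
  let K : Subgroup GG := (freyRho P).ker
  obtain ⟨v, hv0, hv⟩ := exists_fixed_of_unipotent r K fun g hg => by
    have h := eigenSpace_relation κ hpS hE g
    rw [MonoidHom.mem_ker.1 hg, LinearMap.trace_one, finrank_freyTorsion, map_one, one_smul,
      Nat.cast_ofNat, two_smul] at h
    rw [sub_mul, mul_sub, mul_one, one_mul, ← h]
    abel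
  refine ⟨{ carrier := {w | ∀ g ∈ K, r g w = w}
            zero_mem' := fun g _ => map_zero _
            add_mem' := fun ha hb g hg => by rw [map_add, ha g hg, hb g hg]
            smul_mem' := fun c x hx g hg => by rw [map_smul, hx g hg] },
    (Submodule.ne_bot_iff _).2 ⟨v, hv, hv0⟩, fun γ w hw g hg => ?_,
    fun g hg w hw => hw g (MonoidHom.mem_ker.2 hg)⟩
  have h := congrArg (r γ) (hw _ (Subgroup.Normal.conj_mem' (MonoidHom.normal_ker _) g hg γ))
  rwa [← Module.End.mul_apply, ← map_mul, mul_assoc, mul_inv_cancel_left, map_mul,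
    Module.End.mul_apply] at h

/-- Some good prime is not of Eisenstein type. -/
theorem exists_not_eisenstein (hE : HasSystem P N S a)
    (hirr : ∀ L : Submodule (ZMod P.p) (freyTorsion P),
      (∀ g, ∀ x ∈ L, freyRho P g x ∈ L) → L = ⊥ ∨ L = ⊤) :
    ∃ l : ℕ, l.Prime ∧ ¬ l ∣ N ∧ l ∉ S ∧ ¬ (P.p : ℤ) ∣ a l - (l + 1) := by
  by_contra hcon
  push Not at hcon
  haveI := finite_freyTorsion P
  refine not_forall_trace_eq (finrank_freyTorsion P) (freyRho P) hirr fun g => ?_
  obtain ⟨ℓ, A, τ, k, hℓ, hℓN, hℓS, hA, hτ, e1, -⟩ :=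
    exists_frobenius_pow (S := S) (N := N) FLTAgent.Kronecker.complexEmb g (P := P)
  obtain ⟨ht, hd⟩ := hE ℓ hℓ hℓN hℓS A hA τ hτ
  set f := freyRho P τ
  have ht' : LinearMap.trace (ZMod P.p) (freyTorsion P) f = 1 + LinearMap.det f := by
    have h := (ZMod.intCast_zmod_eq_zero_iff_dvd _ _).2 (hcon ℓ hℓ hℓN hℓS)
    push_cast at h
    rw [ht, hd]
    linear_combination h
  have key : ∀ i, LinearMap.trace (ZMod P.p) (freyTorsion P) (f ^ i) = 1 + LinearMap.det f ^ i ∧
      LinearMap.trace (ZMod P.p) (freyTorsion P) (f ^ (i + 1)) = 1 + LinearMap.det f ^ (i + 1) := by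
    intro i
    induction i with
    | zero =>
      rw [pow_zero, LinearMap.trace_one, finrank_freyTorsion, zero_add, pow_one, pow_one,
        pow_zero, ht']
      norm_num
    | succ i ih =>
      refine ⟨ih.2, ?_⟩
      have h := congrArg (fun x => LinearMap.trace (ZMod P.p) (freyTorsion P) (f ^ i * x))
        (end_mul_self (finrank_freyTorsion P) f)
      simp only [mul_add, mul_sub, mul_smul_comm, mul_one, mul_zero, map_add, map_sub, map_smul,
        smul_eq_mul, map_zero, ← pow_two, ← pow_add, ← pow_succ, ih.1, ih.2, ht'] at h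
      linear_combination h
  rw [e1, (key k).1, map_pow]

end FLTAgent.MazurPrinciple
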