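import Fermat.Agent.MazurPrinciple.Zeros

/-!
# Counting zeros by their images below, using the reduction of the norm
-/

set_option autoImplicit false
set_option linter.style.haveILetI false
set_option linter.unusedSectionVars false

noncomputable section

namespace FLTAgent.MazurPrinciple

open AlgebraicCurve FLTAgent.Curves FLTAgent.Specialization FLTAgent.BadRed Polynomial
  IntermediateField

section Models

variable {L k : Type*} [Field L] [Field k] {A : ValuationSubring L} {π : A →+* k}
  {F Fb : Type*} [Field F] [Field Fb] [Algebra L F] [Algebra k Fb]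
  [IsAlgClosed L] [IsFunctionField L F] [IsAlgClosed k] [IsFunctionField k Fb]
  {M : Model π F Fb}

theorem single_le_of_le {K E : Type*} [Field K] [Field E] [Algebra K E] {D : Divisor K E}
    (hD : 0 ≤ D) {R : Place K E} {n : ℤ} (h : n ≤ D R) : Finsupp.single R n ≤ D := fun v => by
  classical
  rw [Finsupp.single_apply]
  split_ifs with hv
  · subst hv; exact h
  · exact hD v

theorem le_divMap_place (hM : M.Smooth) {D : Divisor L F} (hD : 0 ≤ D) (R : Place L F) :
    D R ≤ Model.divMap hM D (Model.place hM R) := by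
  have h := Model.divMap_mono hM (single_le_of_le hD (le_refl (D R))) (Model.place hM R)
  rwa [Model.divMap_single, Finsupp.single_eq_same] at h

/-- The value of a function at a place, away from the images of its poles. -/
theorem place_value (hM : M.Smooth) {ψ : F} {w : Fb} (hw : M.Res ψ w) {E : Divisor L F}
    (hE : 0 ≤ E) (hψ : ψ ∈ riemannRochSpace E) {R : Place L F}
    (hP : Model.divMap hM E (Model.place hM R) = 0) :
    OrdGE R 0 ψ ∧ OrdGE (Model.place hM R) 0 w ∧
      ∃ h : ev R ψ ∈ A, π ⟨_, h⟩ = ev (Model.place hM R) w := by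
  classical
  set P := Model.place hM R
  have hER : E R = 0 := le_antisymm (hP ▸ le_divMap_place hM hE R) (hE R)
  have hreg : OrdGE R 0 ψ := by simpa [hER] using mem_rrSpace.1 hψ R
  have key : ∀ (φ : F) (v : Fb), M.Res φ v → φ ∈ riemannRochSpace E → OrdGE R 1 φ →
      OrdGE P 1 v := by
    intro φ v hv hφ hR
    have hφ' : φ ∈ riemannRochSpace (E - Finsupp.single R 1) := mem_rrSpace.2 fun u => by
      rw [Finsupp.sub_apply, Finsupp.single_apply]
      split_ifs with hu
      · subst hu; simpa [hER] using hR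
      · simpa using mem_rrSpace.1 hφ u
    have h := mem_rrSpace.1 (Model.res_mem_rrSpace hM hφ' hv) P
    rw [map_sub, Finsupp.sub_apply, Model.divMap_single, hP, Finsupp.single_eq_same] at h
    simpa using h
  have hc : ev R ψ ∈ A := by
    by_contra hcA
    have hc0 : ev R ψ ≠ 0 := fun h0 => hcA (h0 ▸ zero_mem A)
    have hci : (ev R ψ)⁻¹ ∈ A := (A.mem_or_inv_mem _).resolve_left hcA
    have hπ : π ⟨_, hci⟩ = 0 := Reduction.map_eq_zero_of_inv_notMem M.surj (by simpa using hcA)
    have hr : M.Res ((ev R ψ)⁻¹ • ψ - 1) (-1) := by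
      simpa [hπ] using (hw.smul ⟨_, hci⟩).sub M.res_one
    have hR : OrdGE R 1 ((ev R ψ)⁻¹ • ψ - 1) := by
      have h := (ev_spec R hreg).smul (ev R ψ)⁻¹
      rwa [smul_sub, Algebra.smul_def _ (algebraMap L F (ev R ψ)), ← map_mul, inv_mul_cancel₀ hc0,
        map_one] at h
    have h := key _ _ hr (Submodule.sub_mem _ (Submodule.smul_mem _ _ hψ) (one_mem_rrSpace hE)) hR
    have := h.le_ord (neg_ne_zero.2 one_ne_zero)
    rw [FLTAgent.Curves.ord_neg, P.ord_one] at this
    omega
  have hr := hw.sub (M.res_algebraMap ⟨_, hc⟩)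
  have h := key _ _ hr (Submodule.sub_mem _ hψ
    (mem_rrSpace.2 fun u => (ordGE_algebraMap u _).mono (by
      have := hE u
      simp only [Finsupp.coe_zero, Pi.zero_apply] at this
      omega))) (ev_spec R hreg)
  refine ⟨hreg, ?_, hc, (ev_eq _ h).symm⟩
  simpa using (h.mono zero_le_one).add (ordGE_algebraMap P (π ⟨_, hc⟩))

/-- Places over finite points are integral points. -/
theorem place_finite (hM : M.Smooth) {R : Place L F}
    (hP : 0 ≤ (Model.place hM R).ord M.xb) : 0 ≤ R.ord M.x ∧ ev R M.x ∈ A := by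
  have hE := poleDiv_nonneg (K := L) M.x
  have hd : Model.divMap hM (poleDiv L M.x) (Model.place hM R) = 0 := by
    rw [divMap_poleDiv hM, poleDiv_eq_zero hP]
  obtain ⟨h1, -, h2, -⟩ := place_value hM M.x_res hE
    (by have := mem_rrSpace_poles (K := L) (x := M.x) (f := M.x) (m := 1) |>.2
          ⟨integralWrt_self _, fun v _ => ordGE_of_le (by simp)⟩
        simpa using this) hd
  exact ⟨h1.le_ord (ne_zero_of_transcendental M.transcendental_x), h2⟩

end Models

variable {L k : Type*} [Field L] [Field k] {A : ValuationSubring L} {π : A →+* k}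
  {FC Fb F : Type*} [Field FC] [Field Fb] [Field F] [Algebra L FC]
  [Algebra k Fb] [Algebra L F] [IsAlgClosed L] [IsFunctionField L FC] [IsFunctionField L F]
  [IsAlgClosed k] [IsFunctionField k Fb] {p : ℕ} {S : Sheet π FC Fb F p}
  (U : UnitData S) (V : RatVal π p) (hS : S.Good)

include hS in
theorem inChart_of_red {Q : Place L F} (h : 0 ≤ (red hS Q).ord S.MC.xb) : InChart S Q := by
  obtain ⟨h1, h2⟩ := place_finite hS.smooth h
  have hx : OrdGE (below S.α Q) 0 S.MC.x := ordGE_of_le h1
  refine ⟨?_, ?_⟩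
  · rw [Sheet.X, ord_map_eq]
    positivity
  · rw [Sheet.X, ev_map S.α Q hx]
    exact h2

include hS in
/-- Zeros counted by their images below are the zeros of the reduced norm. -/
theorem red_divOf {Z : F} (hZ : Z ≠ 0) {c : L} {g : Fb} (hg : g ≠ 0)
    (h : S.MC.Res (c • @Algebra.norm FC F _ _ (algebraAlong S.α) Z) g) :
    Finsupp.mapDomain (red hS) (divOf L Z) = divOf k g := by
  classical
  letI := algebraAlong S.α
  haveI := isScalarTower_along S.α
  haveI := isIntegral_along S.α (isIntegral_toRingHom S.α)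
  haveI : Module.Finite FC F := Kronecker.moduleFinite_of_functionField L
  haveI : HasPrincipalDivisors L F := hasPrincipalDivisors
  set N := Algebra.norm FC Z
  have hN : N ≠ 0 := Algebra.norm_ne_zero_iff.2 hZ
  have hc : c ≠ 0 := by
    rintro rfl
    rw [zero_smul] at h
    exact hg (h.unique S.MC.res_zero)
  have h1 : Finsupp.mapDomain (below S.α) (divOf L Z) = divOf L (c • N) := by
    ext v
    rw [divOf_apply, Algebra.smul_def, v.ord_mul (by simpa using hc) hN, ord_algebraMap, zero_add,
      Kronecker.ord_norm v hZ, Finsupp.mapDomain, Finsupp.sum, Finsupp.finsetSum_apply]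
    simp only [Finsupp.single_apply, divOf_apply]
    rw [← Finset.sum_filter]
    refine Finset.sum_subset (fun w hw => ?_) (fun w hw hw' => ?_)
    · rw [Finset.mem_filter] at hw
      rw [Place.mem_fiber]
      exact hw.2
    · rw [Place.mem_fiber] at hw
      rw [Finset.mem_filter, not_and'] at hw'
      have := hw' hw
      rwa [Finsupp.mem_support_iff, not_not, divOf_apply] at this
  calc Finsupp.mapDomain (red hS) (divOf L Z)
      = Finsupp.mapDomain (Model.place hS.smooth)
          (Finsupp.mapDomain (below S.α) (divOf L Z)) := Finsupp.mapDomain_comp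
    _ = Model.divMap hS.smooth (divOf L (c • N)) := by rw [h1]; rfl
    _ = divOf k g := Model.divMap_divOf hS.smooth h hg

variable {ψA ψB : FC} {wA wB : Fb}

/-- The reduced norm of `numFun`. -/
def numNorm (U : UnitData S) (e : ℕ) (ch : k) (a b : Fb) : Fb :=
  a ^ e * (a ^ (e * p) + algebraMap k Fb (ch ^ p) * U.ub * b ^ (e * p))

include U V hS

theorem red_divOf_numFun [Fact p.Prime] (hwA : S.MC.Res ψA wA) (hwB : S.MC.Res ψB wB)
    (e : ℕ) (c : A) (hne : numNorm U e (π c) wA wB ≠ 0) :
    numFun S U e (c : L) ψA ψB ≠ 0 ∧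
      Finsupp.mapDomain (red hS) (divOf L (numFun S U e (c : L) ψA ψB)) =
        divOf k (numNorm U e (π c) wA wB) := by
  haveI : CharP k p := by
    refine (CharP.charP_iff_prime_eq_zero Fact.out).2 ?_
    rw [← map_natCast π]; exact UnitData.map_p V
  haveI : CharP Fb p := (Algebra.charP_iff k Fb p).1 inferInstance
  have hinj : ∀ x y : Fb, x ^ p = y ^ p → x = y := fun x y h => by
    have := sub_pow_char (R := Fb) (p := p) x y
    rw [h, sub_self] at this
    exact sub_eq_zero.1 (pow_eq_zero_iff (Nat.Prime.ne_zero Fact.out) |>.1 this)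
  set ch := π c
  have hA0 : wA ^ e ≠ 0 := fun h => hne (by simp [numNorm, h])
  set a₂ := S.V wA ^ e / U.ub + algebraMap k Fb ch * S.V wB ^ e
  set b := wA ^ (e * p) / U.ub + algebraMap k Fb (ch ^ p) * wB ^ (e * p)
  have hb : S.V b = a₂ ^ p := by
    simp only [a₂, b]
    rw [map_add, map_div₀, map_pow, U.V_ub, map_mul, AlgHom.commutes, map_pow, map_pow,
      add_pow_char, mul_pow, div_pow, ← map_pow (algebraMap k Fb), pow_mul, pow_mul, map_pow]
  have hg : U.ub * wA ^ e * b = numNorm U e ch wA wB := by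
    have := U.ub_ne
    simp only [b, numNorm]
    field_simp
  have ha₁ : U.ub * wA ^ e ≠ 0 := mul_ne_zero U.ub_ne hA0
  have hb0 : b ≠ 0 := fun h0 => hne (by rw [← hg, h0, mul_zero])
  have ha₂ : a₂ ≠ 0 := fun h0 => hb0 (S.V_injective (by
    rw [hb, h0, map_zero, zero_pow (Nat.Prime.ne_zero Fact.out)]))
  set Z := numFun S U e (c : L) ψA ψB with hZ
  have r₁ : S.R₁.Res ((1 : L) • Z) (U.ub * wA ^ e) := by
    have h := (U.u_res.mul ((S.α₁ _ _ hwA).pow e)).add
      ((S.R₁.res_algebraMap (c * (p : A) ^ U.w)).mul ((S.α₁ _ _ hwB).pow e))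
    rw [map_mul π, map_pow π, UnitData.map_p V, zero_pow U.w_pos.ne', mul_zero, map_zero,
      zero_mul, add_zero] at h
    rw [one_smul]
    simpa [hZ, numFun] using h
  have r₂ : S.R₂.Res (((p : L) ^ U.w)⁻¹ • Z) a₂ := by
    have h := ((U.u'_res.inv U.ub_ne).mul ((S.α₂ _ _ hwA).pow e)).add
      ((S.R₂.res_algebraMap c).mul ((S.α₂ _ _ hwB).pow e))
    have hp0 : ((p : L) ^ U.w) ≠ 0 := pow_ne_zero _ V.p_ne
    have e1 : U.u'⁻¹ = ((p : L) ^ U.w)⁻¹ • U.u := by
      rw [Algebra.smul_def, map_inv₀, ← U.mul_eq]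
      have := U.u_ne
      have := U.u'_ne
      field_simp
    convert h using 1
    · rw [hZ, numFun, e1, smul_add, smul_mul_assoc, ← Algebra.smul_def, smul_smul,
        show ((p : L) ^ U.w)⁻¹ * ((c : L) * (p : L) ^ U.w) = c by rw [mul_comm (c : L), ← mul_assoc, inv_mul_cancel₀ hp0, one_mul]]
      simp only [Algebra.smul_def]
    · simp only [a₂, div_eq_inv_mul]; rfl
  refine ⟨fun h0 => ?_, ?_⟩
  · rw [one_smul, h0] at r₁
    exact ha₁ (r₁.unique S.R₁.res_zero)
  · refine red_divOf hS (fun h0 => ?_) hne (hg ▸ S.exists_norm_res hinj ha₁ ha₂ r₁ r₂ hb)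
    rw [one_smul, h0] at r₁
    exact ha₁ (r₁.unique S.R₁.res_zero)

end FLTAgent.MazurPrinciple
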