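import Fermat.Agent.MazurPrinciple.Node

/-!
# The zeros of functions `u · α(a)ᵉ + c · p¹² · α(b)ᵉ`
-/

set_option autoImplicit false
set_option linter.style.haveILetI false
set_option linter.unusedSectionVars false

noncomputable section

namespace FLTAgent.MazurPrinciple

open AlgebraicCurve FLTAgent.Curves FLTAgent.Specialization FLTAgent.BadRed Polynomial
  IntermediateField

variable {L k : Type*} [Field L] [Field k] {A : ValuationSubring L} {π : A →+* k}
  {FC Fb F : Type*} [Field FC] [Field Fb] [Field F] [Algebra L FC]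
  [Algebra k Fb] [Algebra L F] [IsAlgClosed L] [IsFunctionField L FC] [IsFunctionField L F]
  [IsAlgClosed k] [IsFunctionField k Fb] {p : ℕ} {S : Sheet π FC Fb F p}

namespace UnitData

variable (U : UnitData S)

/-- The finite zeros of the reduction of `u`: the glued points. -/
def nodes : Finset (Place k Fb) :=
  open Classical in
  (divOf k U.ub).support.filter fun P => 0 ≤ P.ord S.MC.xb ∧ 0 < P.ord U.ub

theorem mem_nodes {P : Place k Fb} :
    P ∈ U.nodes ↔ 0 ≤ P.ord S.MC.xb ∧ 0 < P.ord U.ub := by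
  simp only [nodes, Finset.mem_filter, Finsupp.mem_support_iff, divOf_apply, and_iff_right_iff_imp]
  exact fun h => h.2.ne'

theorem mem_nodes_iff {P : Place k Fb} (hP : 0 ≤ P.ord S.MC.xb) :
    P ∈ U.nodes ↔ ev P U.ub = 0 := by
  have h := U.ub_reg P hP
  rw [mem_nodes, ev_eq_zero_iff P h, and_iff_right hP]
  exact ⟨fun h1 => ordGE_of_le (by omega), fun h1 => by have := h1.le_ord U.ub_ne; omega⟩

/-- The same data seen from the second sheet. -/
def swap (hS' : ∀ h, (S.swap h).Good) (h : finrankAlong L S.β = p + 1) : UnitData (S.swap h) where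
  u := U.u'
  u' := U.u
  ub := U.ub
  w := U.w
  w_pos := U.w_pos
  mul_eq := by rw [mul_comm]; exact U.mul_eq
  u_int := integralWrt_trans (hS' h).β_int U.u'_int
  u'_int := integralWrt_trans (hS' h).β_int U.u_int
  u_res := U.u'_res
  u'_res := U.u_res
  ub_reg := U.ub_reg
  ub_ne := U.ub_ne
  V_ub := U.V_ub

end UnitData

theorem InChart.swap (hS : S.Good) {Q : Place L F} (hQ : InChart S Q)
    (h : finrankAlong L S.β = p + 1) : InChart (S.swap h) Q := by
  have hm := chart_value_mem hS.β_int (S.β₁ _ _ S.MC.x_res).mem (S.β₂ _ _ S.MC.x_res).mem hQ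
  exact ⟨(hQ.ordGE hS.β_int).le_ord ((map_ne_zero S.β).2
    (ne_zero_of_transcendental S.MC.transcendental_x)), hm⟩

variable (U : UnitData S) (V : RatVal π p) (hS : S.Good)

include U V hS

theorem v_ev_α {Q : Place L F} (hQ : InChart S Q) {ψ : FC} {w : Fb}
    (hψ : IntegralWrt L S.MC.x ψ) (hw : S.MC.Res ψ w) :
    (ev (red hS Q) w ≠ 0 → ev Q (S.α ψ) ≠ 0 ∧ V.v (ev Q (S.α ψ)) = 0) ∧
      (ev Q (S.α ψ) ≠ 0 → 0 ≤ V.v (ev Q (S.α ψ)) ∧
        (ev (red hS Q) w = 0 ↔ 0 < V.v (ev Q (S.α ψ)))) := by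
  have hm := ev_α_mem hS hQ hψ hw
  have he := (red_spec hS hQ hψ hw).2
  refine ⟨fun h => V.v_eq_zero_of_res (a := ⟨_, hm⟩) (he ▸ h), fun h => ⟨?_, ?_⟩⟩
  · exact (V.mem_iff _ h).1 hm
  · rw [← he]; exact V.res_iff ⟨_, hm⟩ h

/-- Near a glued point, either close to an end of the thin set or of bounded values. -/
theorem exists_min_bound {t : Place k Fb} (ht : t ∈ U.nodes) {ψ : FC} {w : Fb}
    (hψ : IntegralWrt L S.MC.x ψ) (hw : S.MC.Res ψ w) (hwt : ev t w = 0) :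
    ∃ (δ : ℚ) (N : ℕ), 0 < δ ∧ ∀ Q : Place L F, InChart S Q → red hS Q = t →
      ev Q (S.α ψ) = 0 ∨
        min (min (U.theta V Q) (U.w - U.theta V Q)) δ ≤ N * V.v (ev Q (S.α ψ)) := by
  classical
  have ht' := U.mem_nodes.1 ht
  have hp : 1 < p := S.one_lt
  set N : ℕ := ∑ P ∈ U.nodes, (P.ord U.ub).toNat with hNdef
  have hN : ∀ P ∈ U.nodes, P.ord U.ub ≤ N := fun P hP => by
    have h := Finset.single_le_sum (f := fun P => (P.ord U.ub).toNat) (fun _ _ => Nat.zero_le _) hP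
    have := Int.self_le_toNat (P.ord U.ub)
    rw [hNdef]
    exact this.trans (by exact_mod_cast h)
  obtain ⟨ψ', w', hψ', hw', hw'0, -, hw'P, hw't⟩ := exists_clear hS 0 le_rfl
    (∑ P ∈ U.nodes.erase t, Finsupp.single P 1)
    (Finset.sum_nonneg fun _ _ => Finsupp.single_nonneg.2 zero_le_one) {t}
    (by simpa using ht'.1)
  have hw't0 : t.ord w' = 0 := by
    rw [hw't t (Finset.mem_singleton_self t), map_zero, Finsupp.finsetSum_apply]
    simp [Finsupp.single_apply]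
  have hhreg : IntegralWrt k S.MC.xb ((w * w') ^ N / U.ub) := fun P hP => by
    rcases eq_or_ne (w * w') 0 with h0 | h0
    · rcases N.eq_zero_or_pos with hN0 | hN0
      · exact absurd (hN t ht) (by omega)
      · rw [h0, zero_pow hN0.ne', zero_div]; exact ordGE_zero _ _
    obtain ⟨hw0, -⟩ := mul_ne_zero_iff.1 h0
    refine ordGE_of_le ?_
    rw [ord_div P (pow_ne_zero _ h0) U.ub_ne, ord_pow, P.ord_mul hw0 hw'0]
    have h1 : 0 ≤ P.ord w := (S.MC.integralWrt_res hψ hw P hP).le_ord hw0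
    have h2 : 0 ≤ P.ord w' := (S.MC.integralWrt_res hψ' hw' P hP).le_ord hw'0
    by_cases hPN : P ∈ U.nodes
    · have h3 : 1 ≤ P.ord w + P.ord w' := by
        rcases eq_or_ne P t with rfl | hPt
        · have := ((ev_eq_zero_iff P (S.MC.integralWrt_res hψ hw P hP)).1 hwt).le_ord hw0
          omega
        · have := hw'P P hP
          rw [map_zero, Finsupp.finsetSum_apply, Finset.sum_eq_single_of_mem P
            (Finset.mem_erase.2 ⟨hPt, hPN⟩) (fun b _ hb => Finsupp.single_eq_of_ne (Ne.symm hb)),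
            Finsupp.single_eq_same] at this
          simp only [Finsupp.coe_zero, Pi.zero_apply, add_zero] at this
          omega
      have := hN P hPN
      nlinarith
    · have : P.ord U.ub ≤ 0 := not_lt.1 fun h => hPN (U.mem_nodes.2 ⟨hP, h⟩)
      nlinarith
  obtain ⟨ψg, hψg, hwg⟩ := exists_regular_lift hS hhreg
  obtain ⟨ψu, hψu, hwu⟩ := exists_regular_lift hS U.ub_reg
  set Z := (S.α ψ * S.α ψ') ^ N - U.u * S.α ψg - U.u' * (S.α ψg * S.β ψu ^ (p - 1)) with hZ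
  have hi1 := integralWrt_pow (integralWrt_mul (integralWrt_α (S := S) hψ)
    (integralWrt_α (S := S) hψ')) N
  have hi2 := integralWrt_mul U.u_int (integralWrt_α (S := S) hψg)
  have hi3 := integralWrt_mul U.u'_int (integralWrt_mul (integralWrt_α (S := S) hψg)
    (integralWrt_pow (integralWrt_β hS hψu) (p - 1)))
  have hint : IntegralWrt L S.X Z := integralWrt_sub (integralWrt_sub hi1 hi2) hi3
  have hr1 : S.R₁.Res Z 0 := by
    have := ((((S.α₁ _ _ hw).mul (S.α₁ _ _ hw')).pow N).sub (U.u_res.mul (S.α₁ _ _ hwg))).sub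
      ((U.u'_res₁ V).mul ((S.α₁ _ _ hwg).mul ((S.β₁ _ _ hwu).pow (p - 1))))
    convert this using 1
    rw [mul_div_cancel₀ _ U.ub_ne]
    ring
  have hr2 : S.R₂.Res Z 0 := by
    have := ((((S.α₂ _ _ hw).mul (S.α₂ _ _ hw')).pow N).sub
      ((U.u_res₂ V).mul (S.α₂ _ _ hwg))).sub
      (U.u'_res.mul ((S.α₂ _ _ hwg).mul ((S.β₂ _ _ hwu).pow (p - 1))))
    convert this using 1
    rw [map_div₀, map_pow, map_mul, U.V_ub, zero_mul, sub_zero,
      show U.ub ^ p = U.ub * U.ub ^ (p - 1) by rw [← pow_succ', Nat.sub_add_cancel hp.le]]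
    have := U.ub_ne
    field_simp
    ring
  obtain ⟨t₀, ht₀, ht₀'⟩ := S.exists_nonunit
  obtain ⟨s, hs, hs', y, hy, hZy⟩ := LRed.exists_small S.orth_one S.MC.surj
    (show (S.pair 1).Res Z 0 from ⟨hr1, by simpa using hr2⟩) ht₀ ht₀'
  refine ⟨V.v s, N, (V.res_iff s hs').1 hs, fun Q hQ hred => ?_⟩
  rcases eq_or_ne (ev Q (S.α ψ)) 0 with h0 | h0
  · exact Or.inl h0
  right
  obtain ⟨hy1, hy2⟩ := S.integral_iff_mem.1 hy
  have hyX : IntegralWrt L S.X y := fun v hv => by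
    simpa [hZy, smul_smul, inv_mul_cancel₀ hs'] using (hint v hv).smul (s : L)⁻¹
  have hev : ev Q Z = (s : L) * ev Q y := by rw [hZy, ev_smul Q _ (hQ.ordGE hyX)]
  have hZge : V.GE (V.v s) (ev Q Z) := by
    rw [hev]
    simpa using RatVal.GE.mul V (Or.inr le_rfl : V.GE (V.v s) (s : L))
      (V.mem_iff_GE.1 (chart_value_mem hyX hy1 hy2 hQ))
  rw [hZ, ev_sub Q (hQ.ordGE (integralWrt_sub hi1 hi2)) (hQ.ordGE hi3),
    ev_sub Q (hQ.ordGE hi1) (hQ.ordGE hi2),
    ev_pow Q (hQ.ordGE (integralWrt_mul (integralWrt_α hψ) (integralWrt_α hψ'))),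
    ev_mul Q (hQ.ordGE U.u_int) (hQ.ordGE (integralWrt_α hψg)),
    ev_mul Q (hQ.ordGE U.u'_int) (hQ.ordGE (integralWrt_mul (integralWrt_α hψg)
      (integralWrt_pow (integralWrt_β hS hψu) (p - 1)))),
    ev_mul Q (hQ.ordGE (integralWrt_α hψ)) (hQ.ordGE (integralWrt_α hψ'))] at hZge
  set a := ev Q U.u * ev Q (S.α ψg)
  set b := ev Q U.u' * ev Q (S.α ψg * S.β ψu ^ (p - 1))
  set x := (ev Q (S.α ψ) * ev Q (S.α ψ')) ^ N
  set μ := min (min (U.theta V Q) (U.w - U.theta V Q)) (V.v s)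
  have ha : V.GE μ a := by
    have h := RatVal.GE.mul V (Or.inr le_rfl : V.GE (U.theta V Q) (ev Q U.u))
      (V.mem_iff_GE.1 (ev_α_mem hS hQ hψg hwg))
    rw [add_zero] at h
    exact h.mono V ((min_le_left _ _).trans (min_le_left _ _))
  have hb : V.GE μ b := by
    have h := RatVal.GE.mul V (Or.inr (U.v_ev' V hQ).ge : V.GE (U.w - U.theta V Q) (ev Q U.u'))
      (V.mem_iff_GE.1 (chart_value_mem
        (integralWrt_mul (integralWrt_α hψg) (integralWrt_pow (integralWrt_β hS hψu) (p - 1)))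
        (mul_mem (S.α₁ _ _ hwg).mem (pow_mem (S.β₁ _ _ hwu).mem _))
        (mul_mem (S.α₂ _ _ hwg).mem (pow_mem (S.β₂ _ _ hwu).mem _)) hQ))
    rw [add_zero] at h
    exact h.mono V ((min_le_left _ _).trans (min_le_right _ _))
  have hx : V.GE μ x := by
    have h := ((hZge.mono V (min_le_right _ _ : μ ≤ _)).add V hb).add V ha
    rwa [sub_add_cancel, sub_add_cancel] at h
  obtain ⟨hne', hv'⟩ := (v_ev_α U V hS hQ hψ' hw').1
    (hred ▸ ev_ne_zero_of_ord hw'0 hw't0)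
  have h1 := hx.le V (pow_ne_zero _ (mul_ne_zero h0 hne'))
  rw [V.v_pow (mul_ne_zero h0 hne'), V.v_mul _ _ h0 hne', hv', add_zero] at h1
  exact h1

variable {ψA ψB : FC} {wA wB : Fb} (hA : IntegralWrt L S.MC.x ψA) (hwA : S.MC.Res ψA wA)
  (hwA0 : wA ≠ 0) (hB : IntegralWrt L S.MC.x ψB) (hwB : S.MC.Res ψB wB)

/-- The function whose zeros are studied. -/
def numFun (S : Sheet π FC Fb F p) (U : UnitData S) (e : ℕ) (c : L) (a b : FC) : F :=
  U.u * S.α a ^ e + algebraMap L F (c * (p : L) ^ U.w) * S.α b ^ e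

include hA hB

omit hwA0 hwA hwB in
theorem numFun_int (e : ℕ) (c : L) : IntegralWrt L S.X (numFun S U e c ψA ψB) :=
  integralWrt_add (integralWrt_mul U.u_int (integralWrt_pow (integralWrt_α hA) e))
    (integralWrt_mul (integralWrt_algebraMap _ _) (integralWrt_pow (integralWrt_α hB) e))

include hwA hwB

variable {e : ℕ} (he : 0 < e) {c : A} (hc : π c ≠ 0) {Q : Place L F} (hQ : InChart S Q)
  (h0 : ev Q (numFun S U e c ψA ψB) = 0)

include hQ h0

omit hwA hwB in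
theorem numFun_eq : ev Q U.u * ev Q (S.α ψA) ^ e =
    -((c : L) * (p : L) ^ U.w * ev Q (S.α ψB) ^ e) := by
  have h := h0
  have ha : OrdGE Q 0 (S.α ψA ^ e) := by simpa using (hQ.ordGE (integralWrt_α hA)).pow e
  have hb : OrdGE Q 0 (S.α ψB ^ e) := by simpa using (hQ.ordGE (integralWrt_α hB)).pow e
  rw [numFun, ev_add Q (by simpa using (hQ.ordGE U.u_int).mul ha)
      (by have := (ordGE_algebraMap Q ((c : L) * (p : L) ^ U.w)).mul hb
          rwa [add_zero] at this),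
    ev_mul Q (hQ.ordGE U.u_int) ha, ev_mul Q (ordGE_algebraMap Q _) hb, ev_const,
    ev_pow Q (hQ.ordGE (integralWrt_α hA)), ev_pow Q (hQ.ordGE (integralWrt_α hB))] at h
  exact eq_neg_of_add_eq_zero_left h

include he hc

theorem numFun_val (hB0 : ev Q (S.α ψB) ≠ 0) : ev Q (S.α ψA) ≠ 0 ∧
    U.theta V Q + e * V.v (ev Q (S.α ψA)) = U.w + e * V.v (ev Q (S.α ψB)) := by
  obtain ⟨hcne, hcv⟩ := V.v_eq_zero_of_res hc
  have hp : (p : L) ^ U.w ≠ 0 := pow_ne_zero _ V.p_ne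
  have h := numFun_eq U V hS hA hB hQ h0
  have hR : (c : L) * (p : L) ^ U.w * ev Q (S.α ψB) ^ e ≠ 0 :=
    mul_ne_zero (mul_ne_zero hcne hp) (pow_ne_zero _ hB0)
  have hA0 : ev Q (S.α ψA) ≠ 0 := fun h1 => by
    rw [h1, zero_pow he.ne', mul_zero] at h
    exact hR (neg_eq_zero.1 h.symm)
  refine ⟨hA0, ?_⟩
  have h2 := congrArg V.v h
  rw [V.v_neg, V.v_mul _ _ (U.ev_ne V hQ) (pow_ne_zero _ hA0), V.v_pow hA0,
    V.v_mul _ _ (mul_ne_zero hcne hp) (pow_ne_zero _ hB0), V.v_mul _ _ hcne hp, hcv,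
    V.v_pow V.p_ne, V.v_p, V.v_pow hB0] at h2
  rw [UnitData.theta]
  push_cast at h2
  linarith

/-- Zeros away from the glued points. -/
theorem numFun_zero_general (hnode : ev (red hS Q) U.ub ≠ 0)
    (hcop : ev (red hS Q) wA = 0 → ev (red hS Q) wB ≠ 0) :
    U.theta V Q = 0 ∧ ev (red hS Q) wA = 0 ∨ U.theta V Q = U.w ∧ ev (red hS Q) wA ≠ 0 := by
  rcases U.theta_cases V hQ hS hnode with hθ | hθ
  · refine Or.inl ⟨hθ, ?_⟩
    have hm := ev_α_mem hS hQ hA hwA
    have hmB := ev_α_mem hS hQ hB hwB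
    have h := congrArg π (show (⟨_, U.ev_mem V hQ⟩ : A) * ⟨_, hm⟩ ^ e =
      -(c * (p : A) ^ U.w * ⟨_, hmB⟩ ^ e) from Subtype.ext (by
        push_cast; exact numFun_eq U V hS hA hB hQ h0))
    rw [map_mul, map_pow, map_neg, map_mul, map_mul, map_pow, UnitData.map_p V,
      zero_pow U.w_pos.ne', mul_zero, zero_mul, neg_zero,
      (U.ev_ub_of_theta_zero V hQ hS hθ).1, mul_eq_zero, or_iff_right hnode] at h
    exact (red_spec hS hQ hA hwA).2 ▸ (pow_eq_zero_iff he.ne').1 h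
  · refine Or.inr ⟨hθ, fun hA0 => ?_⟩
    obtain ⟨hBne, hBv⟩ := (v_ev_α U V hS hQ hB hwB).1 (hcop hA0)
    obtain ⟨hAne, hv⟩ := numFun_val U V hS hA hwA hB hwB he hc hQ h0 hBne
    rw [hθ, hBv] at hv
    have h3 := ((v_ev_α U V hS hQ hA hwA).2 hAne).2.1 hA0
    have : (0 : ℚ) < e := by exact_mod_cast he
    nlinarith

omit hQ h0 hc he

variable (hdeg : finrankAlong L S.β = p + 1) (hS' : ∀ h, (S.swap h).Good)
include hwA0 hdeg hS'

/-- Zeros at glued points cluster, for large exponents, on the first sheet. -/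
theorem exists_numFun_zero_node (hBn : ∀ t ∈ U.nodes, ev t wB ≠ 0) {ρ : ℚ} (hρ : 0 < ρ) :
    ∃ e₀ : ℕ, 0 < e₀ ∧ ∀ e : ℕ, e₀ ≤ e → ∀ c : A, π c ≠ 0 → ∀ Q : Place L F, InChart S Q →
      red hS Q ∈ U.nodes → ev Q (numFun S U e c ψA ψB) = 0 →
        ev (red hS Q) wA = 0 ∧ U.theta V Q < ρ ∧
          U.theta V Q * ((red hS Q).ord U.ub + e * (red hS Q).ord wA : ℤ) =
            U.w * (red hS Q).ord U.ub := by
  classical
  set U' := U.swap hS' hdeg
  have hnodes' : ∀ t' ∈ U'.nodes, ∃ η : ℚ, 0 < η ∧ ∀ Q : Place L F, InChart (S.swap hdeg) Q →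
      red (hS' hdeg) Q = t' → U'.theta V Q < η → ev Q (S.α ψA) ≠ 0 ∧
        (t'.ord U.ub : ℚ) * V.v (ev Q (S.α ψA)) = t'.ord (S.V wA) * U'.theta V Q := by
    intro t' ht'
    exact node_order U' V (hS' hdeg) (U'.mem_nodes.1 ht').1 (U'.mem_nodes.1 ht').2
      (integralWrt_trans (hS' hdeg).β_int (integralWrt_α hA)) (S.α₂ _ _ hwA)
      ((map_ne_zero S.V).2 hwA0)
  choose! η hη hη' using hnodes'
  have hord : ∀ t ∈ U.nodes, ∃ ρ' : ℚ, 0 < ρ' ∧ ∀ Q : Place L F, InChart S Q → red hS Q = t →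
      U.theta V Q < ρ' → ev Q (S.α ψA) ≠ 0 ∧
        (t.ord U.ub : ℚ) * V.v (ev Q (S.α ψA)) = t.ord wA * U.theta V Q := fun t ht =>
    node_order U V hS (U.mem_nodes.1 ht).1 (U.mem_nodes.1 ht).2 (integralWrt_α hA)
      (S.α₁ _ _ hwA) hwA0
  choose! ρ' hρ' hρord using hord
  have hmin : ∀ t ∈ U.nodes, ∃ (δ : ℚ) (N : ℕ), 0 < δ ∧ (ev t wA = 0 →
      ∀ Q : Place L F, InChart S Q → red hS Q = t → ev Q (S.α ψA) = 0 ∨
        min (min (U.theta V Q) (U.w - U.theta V Q)) δ ≤ N * V.v (ev Q (S.α ψA))) := by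
    intro t ht
    by_cases h : ev t wA = 0
    · obtain ⟨δ, N, hδ, h'⟩ := exists_min_bound U V hS ht hA hwA h
      exact ⟨δ, N, hδ, fun _ => h'⟩
    · exact ⟨1, 0, one_pos, fun h' => absurd h' h⟩
  choose! δ N hδ hN using hmin
  set εs : Finset ℚ := insert ρ (insert 1 (U.nodes.image δ ∪ U.nodes.image ρ' ∪ U'.nodes.image η))
  have hne : εs.Nonempty := ⟨ρ, Finset.mem_insert_self _ _⟩
  set ε := εs.min' hne
  have hε : 0 < ε := by
    rw [Finset.lt_min'_iff]
    intro y hy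
    simp only [εs, Finset.mem_insert, Finset.mem_union, Finset.mem_image] at hy
    rcases hy with rfl | rfl | (⟨t, ht, rfl⟩ | ⟨t, ht, rfl⟩) | ⟨t, ht, rfl⟩
    exacts [hρ, one_pos, hδ t ht, hρ' t ht, hη t ht]
  have hεle : ∀ y ∈ εs, ε ≤ y := fun y hy => Finset.min'_le _ y hy
  obtain ⟨e₁, he₁⟩ := exists_nat_gt (U.w * (∑ t ∈ U.nodes, N t : ℕ) / ε : ℚ)
  refine ⟨e₁ + (∑ t ∈ U'.nodes, (t.ord U.ub).toNat) + 1, by omega,
    fun e he c hc Q hQ hnode h0 => ?_⟩
  have hnode' := (U.mem_nodes.1 hnode)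
  obtain ⟨hθ1, hθ2⟩ := U.theta_pos_of_node V hQ hS ((U.mem_nodes_iff hnode'.1).1 hnode)
  obtain ⟨hBne, hBv⟩ := (v_ev_α U V hS hQ hB hwB).1 (hBn _ hnode)
  obtain ⟨hAne, hv⟩ := numFun_val U V hS hA hwA hB hwB (show 0 < e by omega) hc hQ h0 hBne
  rw [hBv, mul_zero, add_zero] at hv
  obtain ⟨hA0', hA0⟩ := (v_ev_α U V hS hQ hA hwA).2 hAne
  have hepos : (0 : ℚ) < e := by
    have : 0 < e := by omega
    exact_mod_cast this
  have hwA' : ev (red hS Q) wA = 0 := hA0.2 (by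
    by_contra hle
    push Not at hle
    nlinarith)
  have hsmall : (N (red hS Q) : ℚ) * V.v (ev Q (S.α ψA)) < ε := by
    have h1 : (N (red hS Q) : ℚ) ≤ (∑ t ∈ U.nodes, N t : ℕ) := by
      exact_mod_cast Finset.single_le_sum (fun _ _ => Nat.zero_le _) hnode
    have h2 : (e₁ : ℚ) < e := by
      have : e₁ < e := by omega
      exact_mod_cast this
    rw [div_lt_iff₀ hε] at he₁
    have h3 : e * V.v (ev Q (S.α ψA)) ≤ U.w := by linarith
    nlinarith [hA0.1 hwA']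
  have hmin := (hN _ hnode hwA' Q hQ rfl).resolve_left hAne
  have hδ' : ε ≤ δ (red hS Q) := hεle _ (by
    simp only [εs, Finset.mem_insert, Finset.mem_union, Finset.mem_image]
    exact Or.inr (Or.inr (Or.inl (Or.inl ⟨_, hnode, rfl⟩))))
  have hor : U.theta V Q < ε ∨ U.w - U.theta V Q < ε := by
    by_contra hcon
    push Not at hcon
    have := lt_of_le_of_lt hmin hsmall
    rcases min_lt_iff.1 this with h | h
    · rcases min_lt_iff.1 h with h | h <;> linarith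
    · linarith
  rcases hor with hθ | hθ
  · refine ⟨hwA', hθ.trans_le (hεle _ (Finset.mem_insert_self _ _)), ?_⟩
    obtain ⟨-, ho⟩ := hρord _ hnode Q hQ rfl (hθ.trans_le (hεle _ (by
      simp only [εs, Finset.mem_insert, Finset.mem_union, Finset.mem_image]
      exact Or.inr (Or.inr (Or.inl (Or.inr ⟨_, hnode, rfl⟩))))))
    push_cast
    linear_combination (-(e : ℚ)) * ho + ((red hS Q).ord U.ub : ℚ) * hv
  · exfalso
    have hQ' := hQ.swap hS hdeg
    have hθ' : U'.theta V Q = U.w - U.theta V Q := U.v_ev' V hQ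
    have hw : (U'.w : ℚ) = U.w := rfl
    have ht' : red (hS' hdeg) Q ∈ U'.nodes := by
      rw [U'.mem_nodes_iff (red_finite (hS' hdeg) hQ')]
      by_contra hne'
      rcases U'.theta_cases V hQ' (hS' hdeg) hne' with h | h <;> rw [hθ'] at h <;> linarith
    obtain ⟨-, ho⟩ := hη' _ ht' Q hQ' rfl (by
      rw [hθ']
      exact hθ.trans_le (hεle _ (by
        simp only [εs, Finset.mem_insert, Finset.mem_union, Finset.mem_image]
        exact Or.inr (Or.inr (Or.inr ⟨_, ht', rfl⟩)))))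
    rw [hθ', show (U.w : ℚ) - U.theta V Q = e * V.v (ev Q (S.α ψA)) by linarith,
      ← mul_assoc] at ho
    have hvpos := hA0.1 hwA'
    have h4 := mul_right_cancel₀ hvpos.ne' ho
    have h5 : (red (hS' hdeg) Q).ord U.ub = (red (hS' hdeg) Q).ord (S.V wA) * e := by
      exact_mod_cast h4
    have h6 : 0 < (red (hS' hdeg) Q).ord U.ub := (U'.mem_nodes.1 ht').2
    have h7 : (red (hS' hdeg) Q).ord U.ub < e := by
      have h := Finset.single_le_sum (f := fun t => (t.ord U.ub).toNat) (fun _ _ => Nat.zero_le _)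
        ht'
      have := Int.self_le_toNat ((red (hS' hdeg) Q).ord U.ub)
      omega
    rw [h5] at h6 h7
    have h8 : 1 ≤ (red (hS' hdeg) Q).ord (S.V wA) := by
      by_contra hle
      push Not at hle
      nlinarith
    nlinarith

end FLTAgent.MazurPrinciple
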