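import Fermat.Agent.MazurPrinciple.UnitBasic
import Fermat.Agent.MazurPrinciple.Zeros
import Fermat.Agent.GoodModel.Final

/-!
# A glued point of multiplicity prime to `p`

The reduced measuring function is a polynomial of degree `p - 1` in `j`. In the coordinate of an
auxiliary level it becomes a polynomial of degree `6 (p - 1)` away from the cusps, so it has a zero
whose multiplicity is prime to `p`; the same then holds at every level.
-/

set_option autoImplicit false
set_option linter.style.haveILetI false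
set_option maxHeartbeats 1000000
set_option synthInstance.maxHeartbeats 400000

noncomputable section

open ModularCurve AlgebraicCurve IntermediateField Polynomial

namespace FLTAgent.MazurPrinciple

open FLTAgent.Curves FLTAgent.Specialization FLTAgent.BadRed

local notation "QA" => AlgebraicClosure ℚ

section Rational

variable {K F : Type*} [Field K] [Field F] [Algebra K F] [IsAlgClosed K]

/-- A root of multiplicity prime to `p` when the degree is prime to `p`. -/
theorem exists_root_not_dvd {p : ℕ} {g : K[X]} (hg : g ≠ 0) (hp : ¬ p ∣ g.natDegree) :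
    ∃ a, 0 < g.rootMultiplicity a ∧ ¬ p ∣ g.rootMultiplicity a := by
  classical
  by_contra h
  push Not at h
  refine hp ?_
  rw [(IsAlgClosed.splits g).natDegree_eq_card_roots, ← Multiset.toFinset_sum_count_eq]
  refine Finset.dvd_sum fun a _ => ?_
  rw [count_roots]
  rcases Nat.eq_zero_or_pos (g.rootMultiplicity a) with h0 | h0
  · rw [h0]; exact dvd_zero p
  · exact h a h0

/-- `G (P / Q) Q ^ n`, cleared of denominators. -/
def pullPoly (G P Q : K[X]) (n : ℕ) : K[X] :=
  ∑ i ∈ Finset.range (n + 1), C (G.coeff i) * P ^ i * Q ^ (n - i)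

variable {G P Q : K[X]}

theorem natDegree_pullPoly (hG : G ≠ 0) (hQ : Q.Monic) (hP : P.natDegree = Q.natDegree + 1) :
    pullPoly G P Q G.natDegree ≠ 0 ∧
      (pullPoly G P Q G.natDegree).natDegree = G.natDegree * P.natDegree := by
  set n := G.natDegree with hn
  set top := C (G.coeff n) * P ^ n * Q ^ (n - n)
  have hP0 : P ≠ 0 := fun h => by simp [h] at hP
  have hc : G.coeff n ≠ 0 := leadingCoeff_ne_zero.2 hG
  have htop : top.natDegree = n * P.natDegree := by
    simp only [top, Nat.sub_self, pow_zero, mul_one]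
    rw [natDegree_C_mul hc, natDegree_pow]
  have htop0 : top ≠ 0 := by simp [top, hc, hP0]
  have hrest : ∀ i ∈ Finset.range n, (C (G.coeff i) * P ^ i * Q ^ (n - i)).degree < top.degree := by
    intro i hi
    rw [degree_eq_natDegree htop0, htop]
    rcases eq_or_ne (C (G.coeff i) * P ^ i * Q ^ (n - i)) 0 with h0 | h0
    · rw [h0, degree_zero]; exact WithBot.bot_lt_coe _
    rw [degree_eq_natDegree h0, Nat.cast_lt]
    refine lt_of_le_of_lt (natDegree_mul_le.trans (add_le_add ((natDegree_C_mul_le _ _).trans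
      natDegree_pow_le) natDegree_pow_le)) ?_
    obtain ⟨d, hd⟩ := Nat.exists_eq_add_of_le (Finset.mem_range.1 hi)
    rw [hP, hd, show i.succ + d - i = d + 1 by omega, Nat.succ_eq_add_one]
    nlinarith
  have hsum : pullPoly G P Q n = (∑ i ∈ Finset.range n,
      C (G.coeff i) * P ^ i * Q ^ (n - i)) + top := Finset.sum_range_succ _ _
  have hlt : (∑ i ∈ Finset.range n, C (G.coeff i) * P ^ i * Q ^ (n - i)).degree < top.degree :=
    (degree_sum_le _ _).trans_lt ((Finset.sup_lt_iff
      (bot_lt_iff_ne_bot.2 (fun h => htop0 (degree_eq_bot.1 h)))).2 hrest)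
  have hd : (pullPoly G P Q n).degree = top.degree := by
    rw [hsum, degree_add_eq_right_of_degree_lt hlt]
  refine ⟨fun h => ?_, ?_⟩
  · rw [h, degree_zero] at hd
    exact htop0 (degree_eq_bot.1 hd.symm)
  · rw [natDegree_eq_of_degree_eq hd, htop]

theorem eval_pullPoly_of_pole (hG : G ≠ 0) {a : K} (hQ : Q.eval a = 0) (hP : P.eval a ≠ 0) :
    (pullPoly G P Q G.natDegree).eval a ≠ 0 := by
  rw [pullPoly, Finset.sum_range_succ, eval_add, eval_finset_sum, Finset.sum_eq_zero, zero_add]
  · simp [hP, leadingCoeff_ne_zero.2 hG, coeff_natDegree]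
  · intro i hi
    rw [Finset.mem_range] at hi
    simp [hQ, zero_pow (show G.natDegree - i ≠ 0 by omega)]

theorem aeval_pullPoly {x j : F} (h : j * aeval x Q = aeval x P) :
    aeval x (pullPoly G P Q G.natDegree) = aeval x Q ^ G.natDegree * aeval j G := by
  rw [pullPoly, map_sum, aeval_eq_sum_range (p := G) j, Finset.mul_sum]
  refine Finset.sum_congr rfl fun i hi => ?_
  rw [Finset.mem_range] at hi
  rw [map_mul, map_mul, aeval_C, map_pow, map_pow, ← h, Algebra.smul_def, mul_pow]
  calc _ = algebraMap K F (G.coeff i) * j ^ i * (aeval x Q ^ i * aeval x Q ^ (G.natDegree - i)) := by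
        ring
    _ = _ := by rw [← pow_add, Nat.add_sub_cancel' (by omega)]; ring

variable [Curves.IsFunctionField K F]

/-- The order of a polynomial in `x` above one of its roots. -/
theorem ord_aeval_root {x : F} (hx : Transcendental K x) {v : Place K F} {a : K}
    (hv : 0 < v.ord (x - algebraMap K F a)) {g : K[X]} (hg : g ≠ 0) :
    v.ord (aeval x g) = g.rootMultiplicity a * v.ord (x - algebraMap K F a) := by
  obtain ⟨q, hq, hroot⟩ := exists_eq_pow_rootMultiplicity_mul_and_not_dvd g hg a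
  have hqa : q.eval a ≠ 0 := fun h => hroot (dvd_iff_isRoot.2 h)
  have h1 : v.ord (aeval x q) = 0 := by
    have h := ord_aeval_eq_zero hv (p := q.comp (X + C a))
      (by rw [coeff_zero_eq_eval_zero, eval_comp, eval_add, eval_X, eval_C, zero_add]; exact hqa)
    simpa [aeval_comp] using h.1
  have h2 : aeval x q ≠ 0 := fun h => hx ⟨q, fun h0 => hqa (by simp [h0]), h⟩
  have h3 : x - algebraMap K F a ≠ 0 :=
    ne_zero_of_transcendental (transcendental_sub hx a)
  conv_lhs => rw [hq, map_mul, map_pow, map_sub, aeval_X, aeval_C]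
  rw [v.ord_mul (pow_ne_zero _ h3) h2, Curves.ord_pow, h1, add_zero]

theorem eq_of_ord_sub_pos {x : F} (hx : Transcendental K x) {v : Place K F} {a b : K}
    (ha : 0 < v.ord (x - algebraMap K F a)) (hb : 0 < v.ord (x - algebraMap K F b)) : a = b := by
  have e1 := (ramIdx_eq hx ha).symm
  by_contra hne
  have h := (ordGE_of_le (show (1 : ℤ) ≤ v.ord (x - algebraMap K F b) by omega)).sub
    (ordGE_of_le (show (1 : ℤ) ≤ v.ord (x - algebraMap K F a) by omega))
  rw [sub_sub_sub_cancel_left, ← map_sub] at h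
  rcases h with h | h
  · exact hne (sub_eq_zero.1 ((map_eq_zero_iff _ (algebraMap K F).injective).1 h))
  · rw [ord_algebraMap] at h; omega

end Rational

section Level

variable {p : ℕ} [Fact p.Prime] [NeZero p]

open FLTAgent.GoodModel in
theorem exists_levelSeries {A : ValuationSubring QA} (hA : A.LiesOverPrime p) (M0 N' : ℕ)
    [NeZero M0] [NeZero N'] (hM0 : M0 = 2 ∨ M0 = 3) (hdvd : ¬ p ∣ M0 * N') :
    ∃ (S : Subring ℂ) (_ : A ≃+* S), Nonempty (LevelSeries S M0 N') := by
  haveI : NeZero (M0 * N') := ⟨mul_ne_zero (NeZero.ne M0) (NeZero.ne N')⟩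
  set S : Subring ℂ := A.toSubring.map qaToC with hS
  have hbij : Function.Bijective ((qaToC.comp A.subtype).codRestrict S
      fun a => ⟨a.1, a.2, rfl⟩) := by
    refine ⟨fun a b hab => Subtype.ext (qaToC.injective (congrArg Subtype.val hab)), ?_⟩
    rintro ⟨_, a, ha, rfl⟩
    exact ⟨⟨a, ha⟩, rfl⟩
  let e : A ≃+* S := RingEquiv.ofBijective _ hbij
  obtain ⟨z, hz⟩ := HasEnoughRootsOfUnity.exists_primitiveRoot QA (M0 * N')
  obtain ⟨i, -, hi⟩ := (hz.map_of_injective qaToC.injective).eq_pow_of_pow_eq_one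
    (ξ := (zetaN (M0 * N') : ℂ))
    (Complex.isPrimitiveRoot_exp _ (NeZero.ne (M0 * N'))).pow_eq_one
  have hn : 0 < M0 * N' := Nat.pos_of_ne_zero (NeZero.ne _)
  have hz0 : z ≠ 0 := hz.ne_zero hn.ne'
  have hzA : z ∈ A ∧ z⁻¹ ∈ A := by
    have h1 : z ^ (M0 * N' - 1) * z = 1 := by
      rw [← pow_succ, Nat.sub_add_cancel hn, hz.pow_eq_one]
    have h2 : z⁻¹ = z ^ (M0 * N' - 1) := (eq_inv_of_mul_eq_one_left h1).symm
    rcases A.mem_or_inv_mem z with h | h
    · exact ⟨h, h2 ▸ pow_mem h _⟩
    · refine ⟨?_, h⟩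
      have h3 : z = z⁻¹ ^ (M0 * N' - 1) := by rw [inv_pow, ← h2, inv_inv]
      rw [h3]
      exact pow_mem h _
  let u : Aˣ := ⟨⟨z, hzA.1⟩, ⟨z⁻¹, hzA.2⟩, Subtype.ext (mul_inv_cancel₀ hz0),
    Subtype.ext (inv_mul_cancel₀ hz0)⟩
  set ζ : Sˣ := Units.map (e.toRingHom : A →* S) (u ^ i) with hζdef
  have hζ : ((ζ : S) : ℂ) = zetaN (M0 * N') := by
    rw [hζdef, Units.coe_map, MonoidHom.coe_coe, RingEquiv.toRingHom_eq_coe, RingHom.coe_coe,
      Units.val_pow_eq_pow_val, map_pow, SubmonoidClass.coe_pow, ← hi]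
    rfl
  have hu : IsUnit ((M0 * N' : ℕ) : S) := by
    rw [← map_natCast e.toRingHom]
    refine IsUnit.map _ ?_
    by_contra hnu
    exact natCast_ne_zero_residue hA hdvd (by
      rw [← map_natCast (IsLocalRing.residue A)]
      exact (IsLocalRing.residue_eq_zero_iff _).2 hnu)
  exact ⟨S, e, nonempty_levelSeries (S := S) (M0 := M0) (N' := N') hM0 rfl ζ hζ hu⟩

variable {A : ValuationSubring QA} {k : Type*} [Field k] [IsAlgClosed k] {π : A →+* k}

theorem coe_aeval {E : IntermediateField k (LaurentSeries k)} (y : E) (g : k[X]) :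
    ((aeval y g : E) : LaurentSeries k) = aeval (y : LaurentSeries k) g :=
  (aeval_algHom_apply E.val y g).symm

theorem order_single_mul {k : Type*} [Field k] {n : ℤ} {S : PowerSeries k}
    (hS : PowerSeries.constantCoeff S = 1) :
    (HahnSeries.single n (1 : k) * HahnSeries.ofPowerSeries ℤ k S).order = n := by
  have hk : (HahnSeries.single n (1 : k) * HahnSeries.ofPowerSeries ℤ k S).coeff n ≠ 0 := by
    rw [HahnSeries.coeff_single_mul, sub_self, show (0 : ℤ) = ((0 : ℕ) : ℤ) from rfl,
      HahnSeries.ofPowerSeries_apply_coeff, PowerSeries.coeff_zero_eq_constantCoeff_apply, hS]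
    simp
  refine le_antisymm (HahnSeries.order_le_of_coeff_ne_zero hk)
    ((HahnSeries.le_order_iff_forall fun h => hk (by rw [h, HahnSeries.coeff_zero])).2 fun j hj => ?_)
  rw [HahnSeries.coeff_single_mul, ofPowerSeries_coeff_of_neg _ (by omega), mul_zero]

theorem order_unitSer (k : Type*) [Field k] (p : ℕ) [Fact p.Prime] [NeZero p] :
    (unitSer k p).order = 1 - (p : ℤ) := by
  have h1 : (ModEq.deltaSer k).order = 1 := order_single_mul (by
    rw [← PowerSeries.coeff_zero_eq_constantCoeff_apply, PowerSeries.coeff_map,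
      PowerSeries.coeff_zero_eq_constantCoeff_apply, constantCoeff_dedekindEtaUnit]
    simp)
  have hne := ModEq.deltaSer_mul_inv k
  have hn1 : ModEq.deltaSer k ≠ 0 := left_ne_zero_of_mul_eq_one hne
  have hn2 : ModEq.deltaInvSer k ≠ 0 := right_ne_zero_of_mul_eq_one hne
  have h2 : (ModEq.deltaInvSer k).order = -1 := by
    have := congrArg HahnSeries.order hne
    rw [HahnSeries.order_mul hn1 hn2, h1, HahnSeries.order_one] at this
    omega
  rw [unitSer, HahnSeries.order_mul hn1 ((map_ne_zero_iff _ (qExpand_injective p)).2 hn2),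
    Mazur.order_qExpand, h1, h2]
  ring

theorem order_aeval_jqModC {k : Type*} [Field k] {G : k[X]} (hG : G ≠ 0) :
    (aeval (jqModC k) G).order = -(G.natDegree : ℤ) := by
  have hc : (aeval (jqModC k) G).coeff (-(G.natDegree : ℤ)) = G.leadingCoeff := by
    rw [aeval_eq_sum_range, HahnSeries.coeff_sum, Finset.sum_eq_single G.natDegree]
    · rw [Algebra.smul_def, algebraMap_laurentSeries_eq_single, HahnSeries.coeff_single_zero_mul,
        coeff_jqModC_pow_self, mul_one, coeff_natDegree]
    · intro i hi hne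
      rw [Finset.mem_range] at hi
      rw [Algebra.smul_def, algebraMap_laurentSeries_eq_single, HahnSeries.coeff_single_zero_mul,
        coeff_jqModC_pow_of_lt k (by omega), mul_zero]
    · simp
  have hne : (aeval (jqModC k) G).coeff (-(G.natDegree : ℤ)) ≠ 0 := by
    rw [hc]; exact leadingCoeff_ne_zero.2 hG
  refine le_antisymm (HahnSeries.order_le_of_coeff_ne_zero hne)
    ((HahnSeries.le_order_iff_forall fun h => hne (by rw [h, HahnSeries.coeff_zero])).2
      fun m hm => ?_)
  rw [aeval_eq_sum_range, HahnSeries.coeff_sum, Finset.sum_eq_zero]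
  intro i hi
  rw [Finset.mem_range] at hi
  rw [Algebra.smul_def, algebraMap_laurentSeries_eq_single, HahnSeries.coeff_single_zero_mul,
    coeff_jqModC_pow_of_lt k (by omega), mul_zero]

theorem fullC_one_le (k : Type*) [Field k] :
    modularFunctionFieldFullC k 1 ≤ k⟮jqModC k⟯ := by
  rw [modularFunctionFieldFullC, IntermediateField.adjoin_le_iff]
  rintro _ ⟨d, hne, hd, rfl⟩
  haveI := hne
  obtain rfl : d = 1 := Nat.dvd_one.1 hd
  rw [SetLike.mem_coe, qExpand_one_apply]
  exact mem_adjoin_simple_self k _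

/-- At level one, integral functions are polynomials in `j`. -/
theorem exists_poly_of_integral [Curves.IsFunctionField k (modularFunctionFieldFullC k 1)]
    {j w : modularFunctionFieldFullC k 1} (hj : (j : LaurentSeries k) = jqModC k)
    (hjt : Transcendental k j) (hw : IntegralWrt k j w) :
    ∃ G : k[X], w = aeval j G := by
  obtain ⟨a, b, hb, hab⟩ : ∃ a b : k[X], aeval j b ≠ 0 ∧ w = aeval j a / aeval j b := by
    obtain ⟨a, b, hab⟩ := (IntermediateField.mem_adjoin_simple_iff k _).1 (fullC_one_le k w.2)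
    rcases eq_or_ne (aeval j b) 0 with h0 | h0
    · refine ⟨0, 1, by simp, Subtype.ext ?_⟩
      rw [hab, ← hj, ← coe_aeval, ← coe_aeval, h0]
      simp
    · refine ⟨a, b, h0, Subtype.ext ?_⟩
      rw [IntermediateField.coe_div, hab, ← hj, coe_aeval, coe_aeval]
  obtain ⟨a', b', hab', hcop⟩ : ∃ a' b' : k[X], a * b' = a' * b ∧ IsCoprime a' b' := by
    rcases eq_or_ne a 0 with rfl | ha
    · exact ⟨0, 1, by simp, isCoprime_one_right⟩
    obtain ⟨a', b', c, hu, rfl, rfl⟩ := UniqueFactorizationMonoid.exists_reduced_factors a ha b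
    exact ⟨a', b', by ring, hu.isCoprime⟩
  have hb0 : b ≠ 0 := fun h => hb (by simp [h])
  have hb' : b' ≠ 0 := fun h => by
    rw [h, mul_zero, eq_comm, mul_eq_zero, or_iff_left hb0] at hab'
    obtain ⟨s, t, hst⟩ := hcop
    simp [h, hab'] at hst
  have hw' : w * aeval j b' = aeval j a' := by
    have h := congrArg (aeval j) hab'
    rw [map_mul, map_mul] at h
    rw [hab, div_mul_eq_mul_div, h, mul_div_assoc, div_self hb, mul_one]
  by_cases hdeg : b'.natDegree = 0
  · obtain ⟨c, rfl⟩ : ∃ c, C c = b' := ⟨_, (eq_C_of_natDegree_eq_zero hdeg).symm⟩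
    refine ⟨C c⁻¹ * a', ?_⟩
    have hc : c ≠ 0 := fun h => hb' (by rw [h, map_zero])
    rw [map_mul, ← hw', aeval_C, aeval_C, mul_comm w, ← mul_assoc, ← map_mul, inv_mul_cancel₀ hc,
      map_one, one_mul]
  obtain ⟨r, hr⟩ := IsAlgClosed.exists_root b'
    (fun h => hdeg (natDegree_eq_of_degree_eq_some h))
  obtain ⟨v, hv⟩ := exists_ord_pos (transcendental_sub hjt r)
  have hb'v : 0 < v.ord (aeval j b') := by
    rw [ord_aeval_root hjt hv hb']
    exact mul_pos (by exact_mod_cast (rootMultiplicity_pos hb').2 hr) hv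
  have ha' : a'.eval r ≠ 0 := fun h => by
    obtain ⟨s, t, hst⟩ := hcop
    simpa [h, hr.eq_zero] using congrArg (eval r) hst
  have ha'0 : a' ≠ 0 := fun h => ha' (by simp [h])
  have ha'v : v.ord (aeval j a') = 0 := by
    rw [ord_aeval_root hjt hv ha'0, rootMultiplicity_eq_zero ha', Nat.cast_zero, zero_mul]
  have haj : aeval j a' ≠ 0 := fun h => hjt ⟨a', ha'0, h⟩
  have hbj : aeval j b' ≠ 0 := fun h => hjt ⟨b', hb', h⟩
  exfalso
  rw [← hw', v.ord_mul (left_ne_zero_of_mul (hw' ▸ haj : w * aeval j b' ≠ 0)) hbj] at ha'v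
  have := (hw v (ord_nonneg_of_sub hv)).le_ord (left_ne_zero_of_mul (hw' ▸ haj : w * aeval j b' ≠ 0))
  omega

variable (hπ : Function.Surjective π) (hA : RankOne π) [CharP k p]

include hπ hA in
/-- The reduced measuring function is a polynomial of degree `p - 1` in `j`. -/
theorem exists_unit_poly :
    ∃ G : k[X], G.natDegree = p - 1 ∧ aeval (jqModC k) G = unitSer k p := by
  have hp1 : ¬ p ∣ 1 := (Fact.out : p.Prime).not_dvd_one
  haveI : NeZero (1 * p) := ⟨by simpa using NeZero.ne p⟩
  haveI : Curves.IsFunctionField k (modularFunctionFieldFullC k 1) :=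
    GoodModel.isFunctionField_fullC (by simp)
  obtain ⟨U, -, -, -, hub⟩ := exists_unitData (M := 1) hp1 hπ hA
  set j := (modularSheet (M := 1) hp1 hπ hA).MC.xb
  have hj : (j : LaurentSeries k) = jqModC k := rfl
  obtain ⟨G, hG⟩ := exists_poly_of_integral hj (modularSheet (M := 1) hp1 hπ hA).MC.transcendental
    U.ub_reg
  have hser : aeval (jqModC k) G = unitSer k p := by
    rw [← hub, hG, coe_aeval, hj]
  refine ⟨G, ?_, hser⟩
  have hG0 : G ≠ 0 := fun h => unitSer_ne_zero (R := k) p (by rw [← hser, h, map_zero])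
  have h1 : (unitSer k p).order = 1 - (p : ℤ) := order_unitSer k p
  have h2 : (aeval (jqModC k) G).order = -(G.natDegree : ℤ) := order_aeval_jqModC hG0
  rw [hser, h1] at h2
  omega

/-- A glued point of multiplicity not divisible by `m` when `m` does not divide `6 (p - 1)`. -/
theorem exists_node_not_dvd {M : ℕ} [NeZero M] [NeZero (M * p)] (hpM : ¬ p ∣ M) (hp2 : p ≠ 2)
    {m : ℕ} (hm : ¬ m ∣ (p - 1) * 6)
    {A : ValuationSubring QA} (hA : A.LiesOverPrime p) {π : A →+* k}
    (hπ : Function.Surjective π) (hR : RankOne π)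
    [Curves.IsFunctionField k (modularFunctionFieldFullC k M)]
    (U : UnitData (modularSheet hpM hπ hR))
    (hub : (U.ub : LaurentSeries k) = unitSer k p) :
    ∃ t ∈ U.nodes, ¬ (m : ℤ) ∣ t.ord U.ub := by
  obtain ⟨G, hG, hser⟩ := exists_unit_poly hπ hR
  have hG0 : G ≠ 0 := fun h => unitSer_ne_zero (R := k) p (by rw [← hser, h, map_zero])
  have hp : p.Prime := Fact.out
  haveI : NeZero (2 * 2 * M) := ⟨mul_ne_zero (by norm_num) (NeZero.ne M)⟩
  have hpN : ¬ p ∣ 2 * 2 * M := by
    rw [hp.dvd_mul]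
    rintro (h | h)
    · have h2 : p ∣ 2 := by
        rcases hp.dvd_mul.1 h with h | h <;> exact h
      exact hp2 ((Nat.prime_dvd_prime_iff_eq hp Nat.prime_two).1 h2)
    · exact hpM h
  have hN : ((2 * 2 * M : ℕ) : k) ≠ 0 := fun h => hpN ((CharP.cast_eq_zero_iff k p _).1 h)
  obtain ⟨S, e, ⟨L⟩⟩ := exists_levelSeries hA 2 M (Or.inl rfl) (fun h => hpN (h.trans ⟨2, by ring⟩))
  haveI : Curves.IsFunctionField k (modularFunctionFieldFullC k (2 * 2 * M)) :=
    GoodModel.isFunctionField_fullC hN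
  set φ := π.comp e.symm.toRingHom
  obtain ⟨x, hx, -, ⟨P, hPdeg, hPc, hrel⟩, hunr⟩ :=
    GoodModel.exists_coordinate φ L (Or.inl rfl) hN
  set c := GoodModel.cK φ L
  set Q := GoodModel.qJ c
  have hQ : Q.Monic := GoodModel.monic_qJ c
  have hQdeg : Q.natDegree + 1 = 6 := by
    rw [show Q.natDegree = _ from GoodModel.natDegree_qJ c, GoodModel.sum_wJ (Or.inl rfl)]
  obtain ⟨hgne, hgdeg⟩ := natDegree_pullPoly hG0 hQ hPdeg
  set g := pullPoly G P Q G.natDegree
  have hndvd : ¬ m ∣ g.natDegree := by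
    rwa [hgdeg, hG, hPdeg, hQdeg]
  obtain ⟨ξ, hξ, hξp⟩ := exists_root_not_dvd hgne hndvd
  have hξ0 : g.eval ξ = 0 := (rootMultiplicity_pos hgne).1 hξ
  have hξc : ∀ i, ξ ≠ c i := fun i h => by
    refine eval_pullPoly_of_pole hG0 ?_ (hPc i) (h ▸ hξ0)
    rw [show Q = GoodModel.qJ c from rfl, GoodModel.qJ, eval_prod]
    refine Finset.prod_eq_zero (Finset.mem_univ i) ?_
    have hw : GoodModel.wJ i ≠ 0 := by
      unfold GoodModel.wJ; split <;> norm_num
    simp [zero_pow hw]
  obtain ⟨v, hv⟩ := exists_ord_pos (transcendental_sub hx ξ)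
  have hxv : 0 ≤ v.ord x := ord_nonneg_of_sub hv
  have hne : ∀ i, ¬ 0 < v.ord (x - algebraMap k _ (c i)) := fun i h => by
    exact hξc i (eq_of_ord_sub_pos hx hv h)
  have hram : v.ord (x - algebraMap k _ ξ) = 1 := by
    rw [← ramIdx_eq hx hv]
    exact hunr v hxv hne
  have hQv : v.ord (aeval x Q) = 0 := by
    rw [show Q = GoodModel.qJ c from rfl, GoodModel.qJ,
      (GoodModel.ord_aeval_prod_sub hx v Finset.univ c GoodModel.wJ).2]
    exact Finset.sum_eq_zero fun i _ => by rw [GoodModel.ord_sub_eq_zero hx hxv (hne i), mul_zero]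
  have hQne : aeval x Q ≠ 0 := fun h => hx ⟨Q, hQ.ne_zero, h⟩
  set J := GoodModel.jbarEl k (2 * 2 * M)
  have hJ : v.ord (aeval J G) = g.rootMultiplicity ξ := by
    have h1 := ord_aeval_root hx hv hgne
    rw [aeval_pullPoly hrel, hram, mul_one] at h1
    have hGJ : aeval J G ≠ 0 := fun h => by
      have : aeval x g = 0 := by rw [aeval_pullPoly hrel, h, mul_zero]
      exact hx ⟨g, hgne, this⟩
    rw [v.ord_mul (pow_ne_zero _ hQne) hGJ, Curves.ord_pow, hQv, mul_zero, zero_add] at h1
    exact h1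
  let ι := IntermediateField.inclusion (full_degeneracyC_le k (dvd_mul_left M (2 * 2)))
  have hι : aeval J G = ι U.ub := Subtype.ext (by
    rw [IntermediateField.coe_inclusion, hub, ← hser, coe_aeval]
    rfl)
  have hxb : 0 ≤ v.ord J := by
    have h := GoodModel.ord_aeval_prod_sub hx v Finset.univ c GoodModel.wJ
    have hPv : OrdGE v 0 (aeval x P) := ordGE_aeval hxv P
    rcases eq_or_ne J 0 with h0 | h0
    · rw [h0, v.ord_zero]
    have h3 := hPv.le_ord (by rw [← hrel]; exact mul_ne_zero h0 hQne)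
    rwa [← hrel, v.ord_mul h0 hQne, hQv, add_zero] at h3
  set t := below ι v
  have hpos := ramificationIndexAlong_pos ι v
  have hord : (g.rootMultiplicity ξ : ℤ) = Place.ramificationIndexAlong ι v * t.ord U.ub := by
    rw [← hJ, hι, ord_map_eq]
  refine ⟨t, U.mem_nodes.2 ⟨?_, ?_⟩, fun hd => hξp ?_⟩
  · have h : v.ord (ι (modularSheet hpM hπ hR).MC.xb) = v.ord J := rfl
    rw [ord_map_eq] at h
    exact (mul_nonneg_iff_of_pos_left (by exact_mod_cast hpos)).1 (h ▸ hxb)
  · refine pos_of_mul_pos_right (a := (Place.ramificationIndexAlong ι v : ℤ)) ?_ (by positivity)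
    rw [← hord]
    exact_mod_cast hξ
  · exact_mod_cast hord ▸ hd.mul_left _

end Level

end FLTAgent.MazurPrinciple
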