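import Fermat.Agent.MazurPrinciple.HeckeTrans
import Fermat.Agent.MazurPrinciple.NodeMult

/-!
# The modular unit is an eigenfunction, and cusps go to cusps
-/

set_option autoImplicit false
set_option linter.style.haveILetI false
set_option linter.unusedSectionVars false
set_option synthInstance.maxHeartbeats 400000
set_option maxHeartbeats 1000000

noncomputable section

open AlgebraicCurve ModularCurve

namespace FLTAgent.MazurPrinciple

open FLTAgent.Kronecker FLTAgent.Specialization FLTAgent.ModEq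

local notation "QA" => AlgebraicClosure ℚ

variable {p r : ℕ} [Fact p.Prime] [NeZero p] [Fact r.Prime]

/-- `T_r` of the unit of level `p`. -/
theorem exists_tFun_unit (hrp : ¬ r ∣ p) {f : X0Bar p} (hf : f ≠ 0)
    (hord : ∀ v : Place QA (X0Bar p), 0 ≤ v.ord (X0Fn.jF QA p) → v.ord f = 0) :
    ∃ c : QA, normAlpha p r (heckeBetaBar QA p r f) =
      algebraMap QA (X0Bar p) c * f ^ (r + 1) := by
  classical
  haveI := instIsFunctionFieldX0Bar p
  have hne := Mazur.cuspInf_ne_cuspZero (p := p)
  have hdiv : Curves.divOf QA f = Finsupp.single (Mazur.cuspInf p) ((Mazur.cuspInf p).ord f) +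
      Finsupp.single (Mazur.cuspZero p) ((Mazur.cuspZero p).ord f) := by
    ext v
    rw [Finsupp.add_apply, Finsupp.single_apply, Finsupp.single_apply, Curves.divOf_apply]
    by_cases h1 : v = Mazur.cuspInf p
    · subst h1; rw [if_pos rfl, if_neg hne.symm, add_zero]
    by_cases h2 : v = Mazur.cuspZero p
    · subst h2; rw [if_pos rfl, if_neg hne, zero_add]
    rw [if_neg (Ne.symm h1), if_neg (Ne.symm h2), add_zero]
    refine hord v (not_lt.1 fun h => ?_)
    rcases (Mazur.ord_jF_neg_iff v).1 h with e | e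
    · exact h1 e
    · exact h2 e
  have hT : Mazur.tOp p r (Curves.divOf QA f) = ((r + 1 : ℕ) : ℤ) • Curves.divOf QA f := by
    obtain ⟨hi, h0⟩ := Mazur.tOp_cusps (p := p) (ℓ := r) hrp
    conv_lhs => rw [hdiv]
    conv_rhs => rw [hdiv]
    rw [map_add, smul_add, ← Finsupp.smul_single_one (Mazur.cuspInf p),
      ← Finsupp.smul_single_one (Mazur.cuspZero p), map_zsmul, map_zsmul, hi, h0]
    simp only [Finsupp.smul_single, smul_eq_mul, mul_one]
    rw [mul_comm ((Mazur.cuspInf p).ord f), mul_comm ((Mazur.cuspZero p).ord f)]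
  have hN : Mazur.tFun p r f ≠ 0 := Mazur.tFun_ne_zero hf
  obtain ⟨c, hc⟩ := Curves.eq_algebraMap_of_forall_ord_nonneg (K := QA)
    (f := Mazur.tFun p r f / f ^ (r + 1)) fun v => by
      rw [Curves.ord_div v hN (pow_ne_zero _ hf), Curves.ord_pow, ← Mazur.tOp_divOf hf v, hT,
        Finsupp.smul_apply, smul_eq_mul, Curves.divOf_apply, sub_self]
  refine ⟨c, ?_⟩
  rw [← hc, div_mul_cancel₀ _ (pow_ne_zero _ hf)]
  rfl

section Residual

variable {M : ℕ} [NeZero M] [NeZero (M * p)] {A : ValuationSubring QA}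

local notation "kA" => IsLocalRing.ResidueField A

/-- The residual series of the unit is an eigen series. -/
theorem exists_unit_norm (hr : ¬ r ∣ M * p) {R : LaurentSeries kA →* LaurentSeries kA} {E : ℕ}
    [NeZero E] (hR : HasNorm A (M * p) r R E) (hR0 : ∀ z, z ≠ 0 → R z ≠ 0) :
    ∃ c : kA, c ≠ 0 ∧ R (unitSer kA p) =
      qExpand kA E (algebraMap kA (LaurentSeries kA) c * unitSer kA p ^ (r + 1)) := by
  obtain ⟨f, hf, hf0, hord⟩ := exists_level_unit p
  obtain ⟨c, hc⟩ := exists_tFun_unit (r := r) (fun h => hr (h.trans (dvd_mul_left p M))) hf0 hord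
  have hy : coeffMap A.subtype (unitSer A p) ∈ X0Bar (M * p) := by
    rw [coeffMap_unitSer, ← hf]
    exact X0Bar_mono (dvd_mul_left p M) f.2
  obtain ⟨g, hg, hgk⟩ := hR (unitSer A p) hy
  rw [← coe_normAlpha_eq (dvd_mul_left p M) hr (y := f) (y' := ⟨_, hy⟩)
    (by rw [hf, ← coeffMap_unitSer A.subtype]), hc, MulMemClass.coe_mul,
    IntermediateField.coe_pow, hf, IntermediateField.coe_algebraMap_apply,
    ← coeffMap_unitSer A.subtype, ← map_pow] at hg
  set w := unitSer A p ^ (r + 1)
  have hwk : coeffMap (IsLocalRing.residue A) w = unitSer kA p ^ (r + 1) := by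
    rw [map_pow, coeffMap_unitSer]
  set n₀ := (unitSer kA p ^ (r + 1)).order
  have hw0 : IsLocalRing.residue A (w.coeff n₀) ≠ 0 := by
    rw [← coeffMap_coeff, hwk]
    exact HahnSeries.coeff_order_eq_zero.not.2 (pow_ne_zero _ (unitSer_ne_zero p))
  obtain ⟨w', hw'⟩ := (IsLocalRing.residue_ne_zero_iff_isUnit _).1 hw0
  have hc' : ((g.coeff n₀ * ↑w'⁻¹ : A) : QA) = c := by
    have h := congrArg (fun z : LaurentSeries QA => z.coeff n₀) hg
    simp only [coeffMap_coeff, algebraMap_laurentSeries_eq_single, HahnSeries.coeff_single_zero_mul] at h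
    rw [MulMemClass.coe_mul, show ((g.coeff n₀ : A) : QA) = c * (w.coeff n₀ : QA) from h, ← hw',
      mul_assoc, ← MulMemClass.coe_mul, Units.mul_inv, OneMemClass.coe_one, mul_one]
  set cA : A := g.coeff n₀ * ↑w'⁻¹
  have hgA : g = HahnSeries.single 0 cA * w := by
    refine ModEq.coeffMap_injective A.subtype Subtype.val_injective ?_
    rw [hg, map_mul, coeffMap_single_zero, algebraMap_laurentSeries_eq_single]
    congr 2
    exact hc'.symm
  rw [hgA, map_mul, coeffMap_single_zero, hwk, coeffMap_unitSer,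
    ← algebraMap_laurentSeries_eq_single] at hgk
  refine ⟨IsLocalRing.residue A cA, fun h0 => hR0 _ (unitSer_ne_zero p) ?_, hgk.symm⟩
  rw [← hgk, h0, map_zero, zero_mul, map_zero]

end Residual

section Cusps

variable {M : ℕ} [NeZero M]

/-- `T_r` of a divisor supported at poles of `j` is supported at poles of `j`. -/
theorem hecke_cusp [HasPrincipalDivisors QA (modularFunctionFieldBar (M * r))]
    (hα : HeckeAlphaBarIntegral QA M r) (hβ : HeckeBetaBarIntegral QA M r)
    {D : Divisor QA (X0Bar M)}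
    (hD : ∀ v, D v ≠ 0 → v.ord (Kronecker.jEl M) < 0)
    (v : Place QA (X0Bar M)) (hv : heckeDivBar hα hβ D v ≠ 0) :
    v.ord (Kronecker.jEl M) < 0 := by
  classical
  haveI : NeZero r := ⟨(Fact.out : r.Prime).ne_zero⟩
  haveI : NeZero (M * r) := ⟨mul_ne_zero (NeZero.ne M) (NeZero.ne r)⟩
  obtain ⟨u, hu, hne⟩ : ∃ u, D u ≠ 0 ∧ heckeDivBar hα hβ (Finsupp.single u 1) v ≠ 0 := by
    by_contra h
    push Not at h
    refine hv ?_
    conv_lhs => rw [← Finsupp.sum_single D]
    rw [Finsupp.sum, map_sum, Finsupp.finsetSum_apply]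
    refine Finset.sum_eq_zero fun u hu => ?_
    rw [← Finsupp.smul_single_one, map_zsmul, Finsupp.smul_apply,
      h u (Finsupp.mem_support_iff.1 hu), smul_zero]
  rw [show heckeDivBar hα hβ = Divisor.correspondence (heckeBetaBar QA M r) (heckeAlphaBar QA M r)
      (Kronecker.isIntegralAlong _) (Kronecker.isIntegralAlong _) from rfl,
    Divisor.correspondence_apply, Divisor.pullbackAlong_single, map_sum,
    Finsupp.finsetSum_apply] at hne
  obtain ⟨w, hw, hw'⟩ := Finset.exists_ne_zero_of_sum_ne_zero hne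
  rw [Divisor.pushforwardAlong_single, Finsupp.single_apply, ite_ne_right_iff] at hw'
  have hw2 := Place.mem_fiberAlong.1 hw
  have hu' := hD u hu
  by_contra hv1
  set a := heckeAlphaBar QA M r (Kronecker.jEl M)
  set b := heckeBetaBar QA M r (Kronecker.jEl M)
  have ha : a ∈ w.toValuationSubring := by
    refine Curves.ordGE_zero_iff_mem.mp (Curves.ordGE_of_le ?_)
    rw [Place.ord_restrictAlong _ (Kronecker.isIntegralAlong _) w, hw'.1]
    exact mul_nonneg (Int.natCast_nonneg _) (not_lt.mp hv1)
  have hb : b ∉ w.toValuationSubring := by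
    rw [Curves.not_mem_iff_ord_neg, Place.ord_restrictAlong _ (Kronecker.isIntegralAlong _) w, hw2]
    have : 0 < Place.ramificationIndexAlong (heckeBetaBar QA M r) w := by
      letI := algebraAlong (heckeBetaBar QA M r)
      haveI := isScalarTower_along (heckeBetaBar QA M r)
      haveI := isIntegral_along _ (Kronecker.isIntegralAlong (heckeBetaBar QA M r))
      exact Place.ramificationIndex_pos (F := modularFunctionFieldBar M) w
    nlinarith
  refine hb ?_
  set O := w.toValuationSubring
  have hint : IsIntegral O b := by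
    refine ⟨(ModEq.modularPolynomialData r).Φ.map (evalAt (⟨a, ha⟩ : O)),
      (ModEq.modularPolynomialData r).monic.map _, ?_⟩
    rw [Polynomial.eval₂_map, show (algebraMap O _).comp (evalAt (⟨a, ha⟩ : O)) = evalAt a from
      ModEq.comp_evalAt (algebraMap O (modularFunctionFieldBar (M * r))) ⟨a, ha⟩,
      ← Polynomial.eval_map]
    exact BadRed.modularRel (M := M) (q := r)
  obtain ⟨z, hz⟩ := IsIntegrallyClosed.isIntegral_iff.mp hint
  exact hz ▸ z.2

end Cusps

end FLTAgent.MazurPrinciple
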