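import Fermat.Agent.MazurPrinciple.Val
import Fermat.Agent.EigenLattice.Galois

/-!
# The interface between the local and the global half of the principle at `p`

`CoreStatement` is the local assertion: a class of `J₀(Mp)[p]` killed by both degeneracy push
forwards, fixed by a small subgroup of inertia and eigen for a system of operators not seen on the
torsion of the special fibre of level `M`, is acted on by inertia through the cyclotomic character.
-/

set_option autoImplicit false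
set_option linter.style.haveILetI false

noncomputable section

open AlgebraicCurve ModularCurve

namespace FLTAgent.MazurPrinciple

open FLTAgent.EigenLattice (pushPic)

local notation "QA" => AlgebraicClosure ℚ
local notation "GG" => (AlgebraicClosure ℚ ≃ₐ[ℚ] AlgebraicClosure ℚ)

/-- The subgroup `G` of inertia cuts out a field with the ramification of `K₀(ζ_p, θ)`: finite,
and `σ₀` generates the wild part, of order at most `p`, with the smallest possible jump. -/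
structure WildData {A : ValuationSubring QA} {p : ℕ} [Fact p.Prime] (hA : A.LiesOverPrime p)
    (ζ : QA) (G : Subgroup GG) (σ₀ : GG) : Prop where
  le : G ≤ A.inertiaSubgroupIn ℚ
  normal : ∀ σ ∈ A.inertiaSubgroupIn ℚ, ∀ τ ∈ G, σ⁻¹ * τ * σ ∈ G
  fix_root : ∀ τ ∈ G, τ ζ = ζ
  val_mem : ∃ D : ℕ, 0 < D ∧ ∀ a : QA, a ≠ 0 → (∀ τ ∈ G, τ a = a) →
    ∃ z : ℤ, (D : ℚ) * (ratVal hA).v a = z
  mem : σ₀ ∈ A.inertiaSubgroupIn ℚ
  fix_gen : σ₀ ζ = ζ
  move : ∀ a : QA, a ≠ 0 → (∀ τ ∈ G, τ a = a) →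
    (ratVal hA).GE ((ratVal hA).v a + 1 / ((p : ℚ) * ((p : ℚ) - 1))) (σ₀ a - a)
  move_strict : ∀ a : QA, a ≠ 0 → (∀ τ ∈ G, τ a = a) →
    (ratVal hA).GT ((ratVal hA).v a + 1 / ((p : ℚ) * ((p : ℚ) - 1))) (σ₀ a - a) →
      ∃ (e : ℕ) (z : ℤ), ¬ p ∣ e ∧ (e : ℚ) * (ratVal hA).v a = z
  move_unit : ∀ a : QA, a ≠ 0 → (∀ τ ∈ G, τ a = a) → (ratVal hA).v a = 0 →
    (ratVal hA).GT (1 / ((p : ℚ) * ((p : ℚ) - 1))) (σ₀ a - a)

/-- No `p`-torsion class of the special fibre of level `M` has the system `a` outside `S`. -/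
def NoResidualSystem (A : ValuationSubring QA) (p M : ℕ) [NeZero M] (S : Finset ℕ)
    (a : ℕ → ℤ) : Prop :=
  ∀ y : JZero M, p • reductionModL A M y = 0 →
    (∀ l : ℕ, ∀ [NeZero l], l.Prime → ¬ l ∣ M * p → l ∉ S →
      reductionModL A M (heckeOperatorAlong QA M l y) = a l • reductionModL A M y) →
    reductionModL A M y = 0

/-- The local half. -/
def CoreStatement : Prop :=
  ∀ (p : ℕ) [Fact p.Prime] [NeZero p], 5 ≤ p →
  ∀ (M : ℕ) [NeZero M] [NeZero (M * p)], ¬ p ∣ M →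
  ∀ (A : ValuationSubring QA) (hA : A.LiesOverPrime p) (ζ : QA), IsPrimitiveRoot ζ p →
  ∀ (G : Subgroup GG) (σ₀ : GG), WildData hA ζ G σ₀ →
  ∀ (S : Finset ℕ) (a : ℕ → ℤ),
    (∃ l : ℕ, l.Prime ∧ ¬ l ∣ M * p ∧ l ∉ S ∧ ¬ (p : ℤ) ∣ a l - (l + 1)) →
    NoResidualSystem A p M S a →
  ∀ (x : JZero (M * p)), p • x = 0 → (∀ τ ∈ G, τ • x = x) →
    pushPic M p (heckeAlphaBar QA M p) x = 0 → pushPic M p (heckeBetaBar QA M p) x = 0 →
    (∀ l : ℕ, ∀ [NeZero l], l.Prime → ¬ l ∣ M * p → l ∉ S →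
      heckeOperatorAlong QA (M * p) l x = a l • x) →
  ∀ σ ∈ A.inertiaSubgroupIn ℚ, ∀ k : ℕ, σ ζ = ζ ^ k → σ • x = k • x

end FLTAgent.MazurPrinciple
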