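import Fermat.Agent.GoodModel.Final
import Fermat.Agent.Specialization.Modular
import Fermat.Agent.Specialization.Levels

/-!
# The primes and levels at which the principle at `p` runs

Every prime from five on, and three at even levels: there the model of level `M` is smooth and the
elliptic points of level `M` have order prime to `p`.
-/

set_option autoImplicit false
set_option linter.style.haveILetI false
set_option linter.unusedSectionVars false
set_option synthInstance.maxHeartbeats 400000
set_option maxHeartbeats 1000000

noncomputable section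

open AlgebraicCurve ModularCurve IsLocalRing

namespace FLTAgent.MazurPrinciple

open FLTAgent.Curves FLTAgent.Specialization

local notation "QA" => AlgebraicClosure ℚ

/-- `p` is at least five, or it is three and the level is even. -/
def InRange (p M : ℕ) : Prop :=
  5 ≤ p ∨ (p = 3 ∧ 2 ∣ M)

theorem InRange.three_le {p M : ℕ} (h : InRange p M) : 3 ≤ p := by
  rcases h with h | ⟨h, -⟩ <;> omega

theorem InRange.three_le_cast {p M : ℕ} (h : InRange p M) : (3 : ℚ) ≤ p := by
  exact_mod_cast h.three_le

theorem InRange.ne_two {p M : ℕ} (h : InRange p M) : p ≠ 2 := by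
  have := h.three_le
  omega

/-- The auxiliary level over which smoothness is read off. -/
theorem InRange.exists_cover {p M : ℕ} (hp : p.Prime) (h : InRange p M) (hpM : ¬ p ∣ M) :
    ∃ N', M ∣ N' ∧ ¬ p ∣ N' ∧ auxLevel p ∣ N' ∧
      ∃ d, dedekindPsi N' = dedekindPsi M * d ∧ ¬ p ∣ d := by
  rcases h with h5 | ⟨h3, h2⟩
  · obtain ⟨N₂, N', -, h23, hN', haux, hd, -, h5'⟩ := exists_levels hp hpM
    obtain rfl : N₂ = M := h5' h5
    exact ⟨N', h23, hN', haux, hd⟩
  · obtain ⟨N', b1, b2, b3, b4⟩ := exists_mul_prime_sq Nat.prime_two hp (by omega) hpM h2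
    refine ⟨N', b1, b3, by simpa [auxLevel, show p ≠ 2 by omega] using b2, ?_⟩
    rcases b4 with h' | h'
    · exact ⟨1, by rw [h', mul_one], hp.not_dvd_one⟩
    · exact ⟨2, h', fun hd => by have := Nat.le_of_dvd two_pos hd; omega⟩

/-- The model of level `M` is smooth. -/
theorem InRange.smooth {p M : ℕ} [Fact p.Prime] [NeZero M] (h : InRange p M) (hpM : ¬ p ∣ M)
    {A : ValuationSubring QA} [IsAlgClosed (ResidueField A)] [CharP (ResidueField A) p]
    [Curves.IsFunctionField (ResidueField A) (modularFunctionFieldFullC (ResidueField A) M)]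
    (hA : A.LiesOverPrime p) (hk : (M : ResidueField A) ≠ 0) :
    (modularModel (π := residue A) residue_surjective M hk).Smooth := by
  obtain ⟨N', h23, hN', haux, d, hd, hdl⟩ := h.exists_cover Fact.out hpM
  haveI : NeZero N' := ⟨fun h => hN' (h ▸ dvd_zero p)⟩
  haveI := isFunctionField_full (ResidueField A) N' rfl (natCast_ne_zero_residue hA hN')
  exact smooth_of_dvd residue_surjective hk h23 (natCast_ne_zero_residue hA hN') hd
    (natCast_ne_zero_residue hA hdl) (GoodModel.goodLevel hA N' haux hN')

end FLTAgent.MazurPrinciple
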