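import Fermat.Agent.Mazur.HeckeKernel
import Fermat.Agent.GoodModel.Final
import Fermat.Agent.MazurPrinciple.Range

/-!
# The kernel of reduction is stable under the Hecke operators

At a good prime where the model is smooth the specialisation of places of `X₀(N)` is compatible with the good
correspondences, so the classes (torsion or not) reducing to zero are stable under `T_r`, `r ∤ N`.
-/

set_option autoImplicit false
set_option linter.style.haveILetI false
set_option synthInstance.maxHeartbeats 400000
set_option maxHeartbeats 1000000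

noncomputable section

namespace FLTAgent.MazurPrinciple

open AlgebraicCurve ModularCurve FLTAgent.Kronecker FLTAgent.Specialization FLTAgent.Mazur

local notation "LL" => AlgebraicClosure ℚ

section Functions

variable {N : ℕ} [NeZero N] {A : ValuationSubring LL} [IsAlgClosed (IsLocalRing.ResidueField A)]
  [Curves.IsFunctionField (IsLocalRing.ResidueField A)
    (modularFunctionFieldFullC (IsLocalRing.ResidueField A) N)]
  {r : ℕ} [Fact r.Prime]

local notation "kA" => IsLocalRing.ResidueField A
local notation "Jk" => modularFunctionFieldFullC (IsLocalRing.ResidueField A) N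

/-- If the divisor of a function specialises to zero, so does its image under `T_r`. -/
theorem mapDomain_hecke_principal
    {pr : Place LL (modularFunctionFieldBar N) → Place kA Jk}
    (hpr : IsPlaceReductionAlong A (IsLocalRing.residue A) N pr)
    (hgen : PrincipalGeneratedByIntegral A (IsLocalRing.residue A) N) (hNk : (N : kA) ≠ 0)
    (hrN : ¬ r ∣ N) [HasPrincipalDivisors LL (modularFunctionFieldBar (N * r))]
    (hα : HeckeAlphaBarIntegral LL N r) (hβ : HeckeBetaBarIntegral LL N r)
    {E : Divisor LL (modularFunctionFieldBar N)} (hE : Divisor.IsPrincipal E)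
    (h0 : Finsupp.mapDomain pr E = 0) :
    Finsupp.mapDomain pr (heckeDivBar hα hβ E) = 0 := by
  classical
  haveI : NeZero r := ⟨(Fact.out : r.Prime).ne_zero⟩
  haveI : NeZero (N * r) := ⟨Nat.mul_ne_zero (NeZero.ne N) (NeZero.ne r)⟩
  set π := IsLocalRing.residue A
  obtain ⟨u, v, huv⟩ := exists_pair_of_principal hgen hE
  let ψ : Divisor LL (modularFunctionFieldBar N) →+ Divisor kA Jk :=
    Finsupp.mapDomain.addMonoidHom pr
  have hdiv0 : Curves.divOf kA u.red = Curves.divOf kA v.red := by
    have h1 : ψ E = ψ (Curves.divOf LL u.fn) - ψ (Curves.divOf LL v.fn) :=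
      (congrArg ψ huv).trans (map_sub ψ _ _)
    rw [show ψ E = 0 from h0, show ψ (Curves.divOf LL u.fn) = _ from u.map_div hpr,
      show ψ (Curves.divOf LL v.fn) = _ from v.map_div hpr] at h1
    exact sub_eq_zero.1 h1.symm
  obtain ⟨c, hc⟩ := Curves.eq_algebraMap_of_forall_ord_nonneg (K := kA) (f := u.red / v.red)
    fun Q ↦ by
      rw [← Curves.divOf_apply, Specialization.divOf_div u.red_ne v.red_ne, hdiv0, sub_self]
      exact le_rfl
  obtain ⟨ca, hca⟩ := IsLocalRing.residue_surjective (R := A) c
  have hc0 : c ≠ 0 := fun h0 ↦ by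
    rw [h0, map_zero] at hc; exact div_ne_zero u.red_ne v.red_ne hc
  let v' : IntFun A π N :=
    { y := HahnSeries.single 0 ca * v.y
      mem := by
        rw [map_mul, Specialization.coeffMap_single_zero, ← algebraMap_laurentSeries_eq_single]
        exact mul_mem (IntermediateField.algebraMap_mem _ _) v.mem
      memk := by
        rw [map_mul, Specialization.coeffMap_single_zero, ← algebraMap_laurentSeries_eq_single]
        exact mul_mem (IntermediateField.algebraMap_mem _ _) v.memk
      ne := by
        rw [map_mul, Specialization.coeffMap_single_zero, ← algebraMap_laurentSeries_eq_single,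
          hca]
        exact mul_ne_zero ((_root_.map_ne_zero _).2 hc0) v.ne }
  have hv'fn : v'.fn = algebraMap LL _ (ca : LL) * v.fn := Subtype.ext (by
    show coeffMap A.subtype (HahnSeries.single 0 ca * v.y) = _
    rw [map_mul, Specialization.coeffMap_single_zero, ← algebraMap_laurentSeries_eq_single]
    rfl)
  have hca0 : (ca : LL) ≠ 0 := fun h0 ↦ hc0 (by
    rw [← hca, show ca = 0 from Subtype.ext h0, map_zero])
  have hv'u : coeffMap π u.y = coeffMap π v'.y := by
    have h1 := congrArg Subtype.val ((div_eq_iff v.red_ne).1 hc).symm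
    show coeffMap π u.y = coeffMap π (HahnSeries.single 0 ca * v.y)
    rw [map_mul, Specialization.coeffMap_single_zero, ← algebraMap_laurentSeries_eq_single, hca]
    exact h1.symm
  have huv' : E = Curves.divOf LL u.fn - Curves.divOf LL v'.fn := by
    rw [huv, hv'fn, Specialization.divOf_mul ((_root_.map_ne_zero _).2 hca0) v.fn_ne,
      Specialization.divOf_algebraMap, zero_add]
  obtain ⟨R, hR0, hR⟩ := exists_norm_series (N := N) (r := r) A π hrN
  obtain ⟨gu, hgu, hguk⟩ := hR u.y u.mem
  obtain ⟨gv, hgv, hgvk⟩ := hR v'.y v'.mem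
  have hguv : coeffMap π gu = coeffMap π gv :=
    qExpand_injective (R := kA) (N * r) (by rw [hguk, hgvk, hv'u])
  have hgne : coeffMap π gu ≠ 0 := fun h0 ↦ hR0 _ u.ne (by rw [← hguk, h0, map_zero])
  have hmem : ∀ (w : modularFunctionFieldBar N) (g : LaurentSeries A),
      coeffMap A.subtype g = (w : LaurentSeries LL) →
        coeffMap π g ∈ modularFunctionFieldFullC kA N := by
    intro w g hg
    have hgF : coeffMap A.subtype g ∈ Specialization.X0Bar N := hg ▸ w.2
    exact Specialization.res_mem_full (IsLocalRing.residue_surjective (R := A)) N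
      hNk (Specialization.laurentReduction_res hgF)
  let Gu : IntFun A π N := ⟨gu, hgu ▸ SetLike.coe_mem _, hmem _ _ hgu, hgne⟩
  let Gv : IntFun A π N := ⟨gv, hgv ▸ SetLike.coe_mem _, hmem _ _ hgv, hguv ▸ hgne⟩
  have e : ∀ (w : IntFun A π N) (G : IntFun A π N),
      coeffMap A.subtype G.y = (normAlpha N r (heckeBetaBar LL N r w.fn) : LaurentSeries LL) →
      Finsupp.mapDomain pr (heckeDivBar hα hβ (Curves.divOf LL w.fn)) = Curves.divOf kA G.red := by
    intro w G hG
    rw [← G.map_div hpr]
    congr 1
    refine Finsupp.ext fun P ↦ ?_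
    rw [heckeDivBar_apply_of_ord hα hβ w.fn_ne (fun P ↦ Curves.divOf_apply _ P) P,
      Curves.divOf_apply]
    exact congrArg _ (Subtype.ext hG.symm)
  rw [huv', map_sub, ← Finsupp.mapDomain.addMonoidHom_apply, map_sub,
    Finsupp.mapDomain.addMonoidHom_apply, Finsupp.mapDomain.addMonoidHom_apply, e u Gu hgu,
    e v' Gv hgv, show Gu.red = Gv.red from Subtype.ext hguv, sub_self]

end Functions

section Model

variable {L : Type*} [Field L] [IsAlgClosed L] {A : ValuationSubring L} {k : Type*} [Field k]
  [IsAlgClosed k] {π : A →+* k} {F Fb : Type*} [Field F] [Field Fb] [Algebra L F] [Algebra k Fb]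
  [Curves.IsFunctionField L F] [Curves.IsFunctionField k Fb] {M : Model π F Fb}

/-- A bounded map killing the divisors of quotients of functions with the same reduction takes
the same value on places with the same specialisation. -/
theorem eq_of_place_eq (hM : M.Smooth) (δ : Divisor L F →+ ℤ) (B : ℕ)
    (hB : ∀ P, |δ (Finsupp.single P 1)| ≤ B)
    (hδ : ∀ (g g' : F) (gb : Fb), gb ≠ 0 → M.Res g gb → M.Res g' gb →
      δ (Curves.divOf L g - Curves.divOf L g') = 0)
    {P Q : Place L F} (hPQ : Model.place hM P = Model.place hM Q) :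
    δ (Finsupp.single P 1) = δ (Finsupp.single Q 1) := by
  set Δ : ℤ := δ (Finsupp.single P 1) - δ (Finsupp.single Q 1) with hΔ
  set b : ℤ := M.bound with hb
  have hb1 : rBound k Fb + 1 ≤ b := by
    rw [hb, Model.bound]
    have := le_max_right (rBound L F) (rBound k Fb)
    omega
  have hb0 : 0 ≤ b := by
    have := rBound_nonneg (K := k) (F := Fb)
    omega
  have hlift : ∀ (H : Divisor L F) (gb : Fb), gb ≠ 0 → Divisor.degree H = b →
      gb ∈ riemannRochSpace (Model.divMap hM H) →
      ∃ g : F, M.Res g gb ∧ |δ (Curves.divOf L g + H)| ≤ B * b := by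
    intro H gb hgb0 hH hmem
    rw [← Model.image_rrSpace hM hH.ge] at hmem
    obtain ⟨g, hg, hgres⟩ := (Reduction.mem_image M.surj).1 hmem
    refine ⟨g, hgres, ?_⟩
    have h := abs_apply_le_degree δ B hB (E := Curves.divOf L g + H)
      ((mem_rrSpace_iff_divOf (hgres.ne_zero hgb0)).1 hg)
    rwa [map_add Divisor.degree, Curves.degree_divOf, hH, zero_add] at h
  have key : ∀ c : ℕ, ∀ G : Divisor L F, Divisor.degree G = c + b →
      (c : ℤ) * |Δ| ≤ 2 * (B * b) := by
    intro c G hG
    have hdeg : ∀ X : Place L F, Divisor.degree (G - Finsupp.single X (c : ℤ)) = b := fun X => by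
      rw [map_sub, degree_single', hG]; ring
    have hsame : Model.divMap hM (G - Finsupp.single Q (c : ℤ)) =
        Model.divMap hM (G - Finsupp.single P (c : ℤ)) := by
      rw [map_sub, map_sub, Model.divMap_single, Model.divMap_single, hPQ]
    obtain ⟨gb, hgbm, hgbe⟩ := exists_exact (G := Model.divMap hM (G - Finsupp.single P (c : ℤ)))
      (by rw [Model.degree_divMap, hdeg P]; exact hb1) (Model.place hM P)
    have hgb0 : gb ≠ 0 := hgbe.ne_zero
    obtain ⟨g, hg, hgE⟩ := hlift _ gb hgb0 (hdeg P) hgbm
    obtain ⟨g', hg', hgE'⟩ := hlift _ gb hgb0 (hdeg Q) (hsame ▸ hgbm)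
    have h1 := hδ g g' gb hgb0 hg hg'
    rw [map_sub] at h1
    have hcs : ∀ X, δ (Finsupp.single X (c : ℤ)) = c * δ (Finsupp.single X 1) := fun X => by
      rw [← smul_eq_mul, ← map_zsmul δ, Finsupp.smul_single, smul_eq_mul, mul_one]
    rw [map_add, map_sub, hcs] at hgE hgE'
    have h3 : (c : ℤ) * |Δ| = |(c : ℤ) * Δ| := by rw [abs_mul, Nat.abs_cast]
    have h4 := abs_sub (δ (Curves.divOf L g') + (δ G - c * δ (Finsupp.single Q 1)))
      (δ (Curves.divOf L g) + (δ G - c * δ (Finsupp.single P 1)))
    rw [show δ (Curves.divOf L g') + (δ G - c * δ (Finsupp.single Q 1)) -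
      (δ (Curves.divOf L g) + (δ G - c * δ (Finsupp.single P 1))) = c * Δ by
        rw [hΔ]; linear_combination (-1 : ℤ) * h1] at h4
    linarith
  by_contra hne
  have h1 : (1 : ℤ) ≤ |Δ| := Int.one_le_abs (sub_ne_zero.2 hne)
  have hBb : (0 : ℤ) ≤ (B : ℤ) * b := mul_nonneg (Int.natCast_nonneg B) hb0
  set c : ℕ := (2 * ((B : ℤ) * b) + 1).toNat with hc
  have hc' : 2 * ((B : ℤ) * b) + 1 ≤ c := Int.self_le_toNat _
  have h2 := key c (Finsupp.single P ((c : ℤ) + b)) (degree_single' P _)
  have h3 : (c : ℤ) * 1 ≤ (c : ℤ) * |Δ| := mul_le_mul_of_nonneg_left h1 (Int.natCast_nonneg c)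
  linarith

end Model

section Places

variable {N : ℕ} [NeZero N] {A : ValuationSubring LL} [IsAlgClosed (IsLocalRing.ResidueField A)]
  [Curves.IsFunctionField (IsLocalRing.ResidueField A)
    (modularFunctionFieldFullC (IsLocalRing.ResidueField A) N)]
  {r : ℕ} [Fact r.Prime]

local notation "kA" => IsLocalRing.ResidueField A
local notation "Jk" => modularFunctionFieldFullC (IsLocalRing.ResidueField A) N

variable (hNk : (N : IsLocalRing.ResidueField A) ≠ 0)
  (hM : (modularModel (IsLocalRing.residue_surjective (R := A)) N hNk).Smooth)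

/-- The specialisation of places of a smooth model is a reduction of places. -/
theorem isPlaceReductionAlong_place :
    IsPlaceReductionAlong A (IsLocalRing.residue A) N (Model.place hM) := by
  refine ⟨fun P => by rw [Curves.deg_eq_one, Curves.deg_eq_one], fun y hy hyk hne D hD Q => ?_⟩
  have hD' : D = Curves.divOf LL (⟨_, hy⟩ : X0Bar N) :=
    Finsupp.ext fun P => by rw [hD, Curves.divOf_apply]
  have h3 := Model.divMap_divOf hM
    (modularModel_res_series (IsLocalRing.residue_surjective (R := A)) N hNk hy hyk)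
    (fun h0 => hne (congrArg Subtype.val h0))
  rw [hD']
  exact (congrArg (fun E : Divisor kA Jk => E Q) h3).trans (Curves.divOf_apply _ Q)

variable (hgen : PrincipalGeneratedByIntegral A (IsLocalRing.residue A) N) (hrN : ¬ r ∣ N)
  [HasPrincipalDivisors LL (modularFunctionFieldBar (N * r))]
  (hα : HeckeAlphaBarIntegral LL N r) (hβ : HeckeBetaBarIntegral LL N r)

include hgen hrN in
/-- Places with the same specialisation have images under `T_r` with the same specialisation. -/
theorem divMap_hecke_single {P Q : Place LL (modularFunctionFieldBar N)}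
    (hPQ : Model.place hM P = Model.place hM Q) :
    Model.divMap hM (heckeDivBar hα hβ (Finsupp.single P 1)) =
      Model.divMap hM (heckeDivBar hα hβ (Finsupp.single Q 1)) := by
  haveI : NeZero r := ⟨(Fact.out : r.Prime).ne_zero⟩
  haveI : NeZero (N * r) := ⟨Nat.mul_ne_zero (NeZero.ne N) (NeZero.ne r)⟩
  refine Finsupp.ext fun R => ?_
  refine eq_of_place_eq hM
    (((Finsupp.applyAddHom R).comp (Model.divMap hM)).comp (heckeDivBar hα hβ))
    (finrankAlong LL (heckeBetaBar LL N r)) (fun P' => ?_) (fun g g' gb hgb hg hg' => ?_) hPQ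
  · exact abs_mapDomain_correspondence_le (heckeBetaBar LL N r) (heckeAlphaBar LL N r) hβ hα
      (fundamentalIdentityAlong _ _) (Model.place hM) P' R
  · have h0 : Finsupp.mapDomain (Model.place hM)
        (Curves.divOf LL g - Curves.divOf LL g') = 0 := by
      rw [← Model.divMap_apply hM, map_sub, Model.divMap_divOf hM hg hgb,
        Model.divMap_divOf hM hg' hgb, sub_self]
    have hprin : Divisor.IsPrincipal (Curves.divOf LL g - Curves.divOf LL g') := by
      rw [← Specialization.divOf_div (hg.ne_zero hgb) (hg'.ne_zero hgb)]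
      exact Specialization.isPrincipal_iff.2
        ⟨_, div_ne_zero (hg.ne_zero hgb) (hg'.ne_zero hgb), rfl⟩
    have h := mapDomain_hecke_principal (isPlaceReductionAlong_place hNk hM) hgen hNk hrN hα hβ
      hprin h0
    exact congrArg (fun E : Divisor kA Jk => E R) h

include hgen hrN in
/-- `T_r` preserves the divisors specialising to zero. -/
theorem divMap_hecke_eq_zero {D : Divisor LL (modularFunctionFieldBar N)}
    (hD : Model.divMap hM D = 0) : Model.divMap hM (heckeDivBar hα hβ D) = 0 := by
  classical
  set δ : Divisor LL (modularFunctionFieldBar N) →+ Divisor kA Jk :=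
    (Model.divMap hM).comp (heckeDivBar hα hβ) with hδ
  rcases isEmpty_or_nonempty (Place LL (modularFunctionFieldBar N)) with hemp | hne
  · rw [show D = 0 from Finsupp.ext fun P => hemp.elim P, map_zero, map_zero]
  set s : Divisor kA Jk →+ Divisor LL (modularFunctionFieldBar N) :=
    Finsupp.mapDomain.addMonoidHom (Function.invFun (Model.place hM)) with hs
  have h : δ = (δ.comp s).comp (Model.divMap hM) := by
    refine Finsupp.addHom_ext' fun P => AddMonoidHom.ext_int ?_
    simp only [AddMonoidHom.comp_apply, Finsupp.singleAddHom_apply, hs, Model.divMap_single,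
      Finsupp.mapDomain.addMonoidHom_apply, Finsupp.mapDomain_single, hδ]
    exact divMap_hecke_single hNk hM hgen hrN hα hβ
      (Function.invFun_eq (f := Model.place hM) ⟨P, rfl⟩).symm
  have h2 := DFunLike.congr_fun h D
  refine h2.trans ?_
  show (δ.comp s) (Model.divMap hM D) = 0
  rw [hD, map_zero]

end Places

section Main

variable {p : ℕ} [Fact p.Prime] {A : ValuationSubring LL} (hA : A.LiesOverPrime p)

include hA in
/-- The classes reducing to zero are stable under `T_r`, `r ∤ N`. -/
theorem reductionModL_hecke_of_zero (N : ℕ) [NeZero N] (h5 : InRange p N) (hN : ¬ p ∣ N) (r : ℕ)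
    [Fact r.Prime] [NeZero r] (hrN : ¬ r ∣ N) {x : JZero N} (hx : reductionModL A N x = 0) :
    reductionModL A N (heckeOperatorAlong LL N r x) = 0 := by
  classical
  have hgood : ∀ (M : ℕ) [NeZero M], auxLevel p ∣ M → ¬ p ∣ M → GoodLevel A M :=
    fun M _ h1 h2 => GoodModel.goodLevel hA M h1 h2
  have h : ReductionInputsModL A N := reductionInputsModL hA hgood N hN
  haveI : NeZero (N * r) := ⟨Nat.mul_ne_zero (NeZero.ne N) (NeZero.ne r)⟩
  haveI : HasPrincipalDivisors LL (modularFunctionFieldBar (N * r)) :=
    FLTAgent.Curves.hasPrincipalDivisors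
  have hα : HeckeAlphaBarIntegral LL N r := isIntegralAlong _
  have hβ : HeckeBetaBarIntegral LL N r := isIntegralAlong _
  haveI : IsAlgClosed (IsLocalRing.ResidueField A) := FrobTrace.isAlgClosed_residueField A
  have hk : ∀ {n : ℕ}, ¬ p ∣ n → (n : IsLocalRing.ResidueField A) ≠ 0 :=
    natCast_ne_zero_residue hA
  haveI := isFunctionField_full (IsLocalRing.ResidueField A) N rfl (hk hN)
  haveI : CharP (IsLocalRing.ResidueField A) p := FrobTrace.charP_residueField hA
  have hM : (modularModel (IsLocalRing.residue_surjective (R := A)) N (hk hN)).Smooth :=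
    h5.smooth hN hA (hk hN)
  have hpl := isPlaceReductionAlong_place (hk hN) hM
  have hgen := principalGeneratedByIntegral hA N hN
  have hpr := isPlaceReductionModL_placeReductionModL h
  have hagree : ∀ D : Divisor LL (modularFunctionFieldBar N), Divisor.degree D = 0 →
      Finsupp.mapDomain (placeReductionModL h) D = Model.divMap hM D := fun D hD =>
    eq_of_principal_of_bounded
      (Finsupp.mapDomain.addMonoidHom (placeReductionModL h)) (Model.divMap hM) 1
      (fun P Q => by
        rw [Finsupp.mapDomain.addMonoidHom_apply, Finsupp.mapDomain_single]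
        exact_mod_cast abs_single_apply_le _ _)
      (fun P Q => by
        rw [Model.divMap_single]
        exact_mod_cast abs_single_apply_le _ _)
      (fun E hE => mapDomain_eq_of_principal hpr hpl hgen hE) hD
  obtain ⟨D, rfl⟩ := Pic0.mk_surjective x
  rw [reductionModL_mk h] at hx
  have hxP : Divisor.IsPrincipal
      (Finsupp.mapDomain (placeReductionModL h) (D : Divisor LL (modularFunctionFieldBar N))) :=
    (QuotientAddGroup.eq_zero_iff _).1 hx
  rw [hagree _ (Divisor.mem_degZero.1 D.2)] at hxP
  obtain ⟨gb, hgb0, hgb⟩ := Specialization.isPrincipal_iff.1 hxP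
  -- lift the function
  obtain ⟨a, ha, b, hb, hab⟩ := IntermediateField.mem_adjoin_iff_div.1
    (show (gb : LaurentSeries (IsLocalRing.ResidueField A)) ∈
      IntermediateField.adjoin (IsLocalRing.ResidueField A)
        (divisorExpansionsC (IsLocalRing.ResidueField A) N) from gb.2)
  have hgb' : (gb : LaurentSeries (IsLocalRing.ResidueField A)) ≠ 0 :=
    fun h0 ↦ hgb0 (Subtype.ext h0)
  have hb0 : b ≠ 0 := fun h0 ↦ hgb' (by rw [hab, h0, div_zero])
  have ha0 : a ≠ 0 := fun h0 ↦ hgb' (by rw [hab, h0, zero_div])
  obtain ⟨ya, hya, hyak⟩ := exists_series_lift (IsLocalRing.residue_surjective (R := A)) ha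
  obtain ⟨yb, hyb, hybk⟩ := exists_series_lift (IsLocalRing.residue_surjective (R := A)) hb
  let ua : IntFun A (IsLocalRing.residue A) N :=
    ⟨ya, hya, hyak ▸ IntermediateField.algebra_adjoin_le_adjoin _ _ ha, hyak ▸ ha0⟩
  let ub : IntFun A (IsLocalRing.residue A) N :=
    ⟨yb, hyb, hybk ▸ IntermediateField.algebra_adjoin_le_adjoin _ _ hb, hybk ▸ hb0⟩
  have hua : ua.red = gb * ub.red := Subtype.ext (by
    show coeffMap (IsLocalRing.residue A) ya =
      (gb : LaurentSeries (IsLocalRing.ResidueField A)) * coeffMap (IsLocalRing.residue A) yb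
    rw [hyak, hybk, hab, div_mul_cancel₀ a hb0])
  set D' : Divisor LL (modularFunctionFieldBar N) :=
    (D : Divisor LL (modularFunctionFieldBar N)) -
      (Curves.divOf LL ua.fn - Curves.divOf LL ub.fn) with hD'
  have hdeg : D' ∈ Divisor.degZero (K := LL) (F := modularFunctionFieldBar N) := by
    rw [Divisor.mem_degZero, hD', map_sub, map_sub, Curves.degree_divOf, Curves.degree_divOf,
      Divisor.mem_degZero.1 D.2, sub_zero, sub_zero]
  have hred : Model.divMap hM D' = 0 := by
    rw [hD', map_sub, map_sub,
      show Model.divMap hM (Curves.divOf LL ua.fn) = _ from ua.map_div hpl,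
      show Model.divMap hM (Curves.divOf LL ub.fn) = _ from ub.map_div hpl,
      hgb, hua, Specialization.divOf_mul hgb0 ub.red_ne]
    abel
  have hclass : Pic0.mk D = Pic0.mk (⟨D', hdeg⟩ : Divisor.degZero (K := LL)
      (F := modularFunctionFieldBar N)) := by
    refine (QuotientAddGroup.eq_iff_sub_mem).2 (Specialization.isPrincipal_iff.2
      ⟨ua.fn / ub.fn, div_ne_zero ua.fn_ne ub.fn_ne, ?_⟩)
    show (D : Divisor LL (modularFunctionFieldBar N)) - D' = _
    rw [hD', sub_sub_cancel, Specialization.divOf_div ua.fn_ne ub.fn_ne]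
  rw [hclass]
  obtain ⟨hTd, hTeq⟩ := heckeOperatorAlong_mk N r hα hβ ⟨D', hdeg⟩
  rw [hTeq, reductionModL_mk h]
  refine (QuotientAddGroup.eq_zero_iff _).2 ?_
  rw [AddSubgroup.mem_addSubgroupOf, coe_reductionDegZeroAlong]
  show Finsupp.mapDomain (placeReductionModL h) (heckeDivBar hα hβ D') ∈ _
  rw [hagree _ (Divisor.mem_degZero.1 hTd), divMap_hecke_eq_zero (hk hN) hM hgen hrN hα hβ hred]
  exact AddSubgroup.zero_mem _

end Main

end FLTAgent.MazurPrinciple
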