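import Fermat.Agent.MazurPrinciple.GlobalSystem
import Fermat.Agent.MazurPrinciple.ResidualHecke
import Fermat.Agent.MazurPrinciple.Interface
import Fermat.Agent.Divisible.Main
import Fermat.Agent.Divisible.FiniteFixed
import Fermat.Agent.EigenReps.Level

/-!
# The special fibre of level `M` carries no class with a system killed at level `M`
-/

set_option autoImplicit false
set_option linter.style.haveILetI false
set_option linter.unusedSectionVars false
set_option synthInstance.maxHeartbeats 400000
set_option maxHeartbeats 1000000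

noncomputable section

namespace FLTAgent.MazurPrinciple

open AlgebraicCurve ModularCurve IsLocalRing
open FLTAgent.EigenLattice (GoodIdx evalGood evalGood_X opAct opAct_mul opAct_add opAct_intCast
  opAct_heckeGen smul_heckeOperatorAlong)

local notation "QA" => AlgebraicClosure ℚ
local notation "GG" => (AlgebraicClosure ℚ ≃ₐ[ℚ] AlgebraicClosure ℚ)

variable {p : ℕ} [hp : Fact p.Prime] {A : ValuationSubring QA} (hA : A.LiesOverPrime p)
  (M : ℕ) [NeZero M]

/-- Some positive power of an element fixes a given finite extension. -/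
theorem exists_pow_fix (σ : GG) (L : IntermediateField ℚ QA) [FiniteDimensional ℚ L] :
    ∃ k : ℕ, 0 < k ∧ ∀ x ∈ L, (σ ^ k) x = x := by
  obtain ⟨i, j, hne, h⟩ := Finite.exists_ne_map_eq_of_infinite
    fun i : ℕ => ((σ ^ i : GG) : QA →ₐ[ℚ] QA).comp L.val
  wlog hij : i < j generalizing i j with H
  · exact H j i hne.symm h.symm (lt_of_le_of_ne (not_lt.1 hij) hne.symm)
  refine ⟨j - i, Nat.sub_pos_of_lt hij, fun x hx => (σ ^ i).injective ?_⟩
  rw [← AlgEquiv.mul_apply, ← pow_add, Nat.add_sub_cancel' hij.le]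
  exact (DFunLike.congr_fun h ⟨x, hx⟩).symm

include hA in
/-- An equivariant endomorphism killing all torsion reduces to zero. -/
theorem reduction_eq_zero_of_killsTorsion (hpM : ¬ p ∣ M) (e : JZero M →+ JZero M)
    (hG : ∀ (σ : GG) (x : JZero M), e (σ • x) = σ • e x)
    (ht : ∀ (n : ℕ), 0 < n → ∀ x : JZero M, n • x = 0 → e x = 0) (y : JZero M) :
    reductionModL A M (e y) = 0 := by
  obtain ⟨hin, -⟩ := Kronecker.goodReductionAt M p hp.out hpM A hA
  haveI : CharP (ResidueField A) p := FrobTrace.charP_residueField hA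
  obtain ⟨σ, hσ⟩ := Frobenius.exists_isFrobeniusAt A p hp.out hA
  set φ := Kronecker.residueAut A ⟨σ, hσ.mem_decompositionSubgroup⟩ with hφdef
  have hφ : ∀ z, φ z = z ^ p := fun z => by
    rw [hφdef, Kronecker.residueAut_apply]; exact hσ.smul_residue_eq z
  obtain ⟨L, hL, hfix⟩ := EigenReps.exists_fixing_class M y
  haveI := hL
  obtain ⟨k, hk, hkfix⟩ := exists_pow_fix σ L
  have hσy : (σ ^ k) • y = y := hfix _ hkfix
  have hfin := Divisible.finite_fixed M hpM A hA φ hφ k hk
  set Φ := Kronecker.specialAut M φ ^ k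
  let F : AddSubgroup (JZeroC (ResidueField A) M) :=
    { carrier := {x | Φ • x = x}
      zero_mem' := smul_zero _
      add_mem' := fun {a b} ha hb => by
        simp only [Set.mem_ofPred_eq] at ha hb ⊢; rw [smul_add, ha, hb]
      neg_mem' := fun {a} ha => by simp only [Set.mem_ofPred_eq] at ha ⊢; rw [smul_neg, ha] }
  haveI : Finite F := hfin.to_subtype
  obtain ⟨m, hm, hkill⟩ : ∃ m : ℕ, 0 < m ∧
      ∀ u : JZeroC (ResidueField A) M, Φ • u = u → m • u = 0 := by
    refine ⟨Nat.card F, Nat.card_pos, fun u hu => ?_⟩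
    have h : Nat.card F • (⟨u, hu⟩ : F) = 0 := card_nsmul_eq_zero'
    have h' := congrArg F.subtype h
    rwa [map_nsmul, map_zero] at h'
  obtain ⟨z, hz⟩ := Divisible.exists_nsmul_eq M hm.ne' y
  have hd : e ((σ ^ k) • z - z) = 0 :=
    ht m hm _ (by rw [nsmul_sub, smul_comm m (σ ^ k) z, hz, hσy, sub_self])
  have hz' : (σ ^ k) • e z = e z := by
    rw [map_sub, hG, sub_eq_zero] at hd
    exact hd
  have hpow : ∀ (j : ℕ) (x : JZero M),
      reductionModL A M ((σ ^ j) • x) = Kronecker.specialAut M φ ^ j • reductionModL A M x := by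
    intro j
    induction j with
    | zero => intro x; rw [pow_zero, pow_zero, one_smul, one_smul]
    | succ j ih =>
      intro x
      have e1 : (σ ^ (j + 1)) • x = (σ ^ j) • σ • x :=
        (congrArg (fun g : GG => g • x) (pow_succ σ j)).trans (mul_smul _ _ _)
      have e2 : Kronecker.specialAut M φ ^ (j + 1) • reductionModL A M x =
          Kronecker.specialAut M φ ^ j • Kronecker.specialAut M φ • reductionModL A M x :=
        (congrArg (fun g => g • reductionModL A M x) (pow_succ (Kronecker.specialAut M φ) j)).trans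
          (mul_smul _ _ _)
      exact (congrArg (reductionModL A M) e1).trans ((ih (σ • x)).trans
        ((congrArg (fun u => Kronecker.specialAut M φ ^ j • u)
          (Kronecker.reductionModL_smul_of_frobenius hin hσ φ hφ x)).trans e2.symm))
  have hmem : Φ • reductionModL A M (e z) = reductionModL A M (e z) :=
    (hpow k (e z)).symm.trans (congrArg (reductionModL A M) hz')
  have h1 : e y = m • e z := (congrArg e hz).symm.trans (map_nsmul e m z)
  exact ((congrArg (reductionModL A M) h1).trans (map_nsmul _ m (e z))).trans (hkill _ hmem)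

variable (N : ℕ) (S : Finset ℕ) (a : ℕ → ℤ) (κ : AlgebraicClosure ℚ →+* ℂ)

include hA in
/-- A polynomial in the good operators, as an endomorphism of the whole Jacobian. -/
theorem exists_operator (h5 : InRange p M) (hpM : ¬ p ∣ M) (hMN : M ∣ N)
    (P : MvPolynomial (GoodIdx N S) ℤ) :
    ∃ e : JZero M →+ JZero M, (∀ (σ : GG) (x : JZero M), e (σ • x) = σ • e x) ∧
      (∀ (n : ℕ) [NeZero n] (x : Pic0.torsion QA (modularFunctionFieldBar M) n),
        e (x : JZero M) = (opAct κ n (evalGood N S M P) x : JZero M)) ∧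
      ∀ y : JZero M, (∀ l : ℕ, ∀ [NeZero l], l.Prime → ¬ l ∣ N → l ∉ S →
          reductionModL A M (heckeOperatorAlong QA M l y) = a l • reductionModL A M y) →
        reductionModL A M (e y) = systemEval N S a P • reductionModL A M y := by
  induction P using MvPolynomial.induction_on with
  | C c =>
    refine ⟨zsmulAddGroupHom c, fun σ x => ?_, fun n _ x => ?_, fun y _ => ?_⟩
    · show c • (σ • x) = σ • (c • x)
      rw [smul_comm]
    · rw [eq_intCast MvPolynomial.C c, map_intCast, opAct_intCast]
      rfl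
    · show reductionModL A M (c • y) = _
      rw [map_zsmul, systemEval, MvPolynomial.eval_C]
  | add P Q hP hQ =>
    obtain ⟨e, he1, he2, he3⟩ := hP
    obtain ⟨e', he1', he2', he3'⟩ := hQ
    refine ⟨e + e', fun σ x => ?_, fun n _ x => ?_, fun y hy => ?_⟩
    · rw [AddMonoidHom.add_apply, AddMonoidHom.add_apply, he1, he1', smul_add]
    · rw [AddMonoidHom.add_apply, he2, he2', map_add, opAct_add]
      rfl
    · rw [AddMonoidHom.add_apply, map_add, he3 y hy, he3' y hy, map_add, add_zsmul]
  | mul_X P q hP =>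
    obtain ⟨e, he1, he2, he3⟩ := hP
    haveI : Fact (q.1 : ℕ).Prime := ⟨q.1.2⟩
    haveI : NeZero (q.1 : ℕ) := ⟨q.1.2.ne_zero⟩
    refine ⟨(heckeOperatorAlong QA M (q.1 : ℕ)).comp e, fun σ x => ?_, fun n _ x => ?_,
      fun y hy => ?_⟩
    · rw [AddMonoidHom.comp_apply, AddMonoidHom.comp_apply, he1, smul_heckeOperatorAlong]
    · rw [AddMonoidHom.comp_apply, he2, map_mul, evalGood_X, opAct_mul, opAct_heckeGen]
      exact (ModularCurve.heckeOperatorBar_apply M q.1 _).symm
    · rw [AddMonoidHom.comp_apply, map_mul (systemEval N S a)]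
      have hdiff : reductionModL A M (e y - systemEval N S a P • y) = 0 := by
        rw [map_sub, map_zsmul, he3 y hy, sub_self]
      have h := reductionModL_hecke_of_zero hA M h5 hpM (q.1 : ℕ)
        (fun h => q.2.1 (h.trans hMN)) hdiff
      rw [map_sub, map_zsmul, map_sub, map_zsmul, sub_eq_zero, hy (q.1 : ℕ) q.1.2 q.2.1 q.2.2,
        smul_smul] at h
      rw [h, systemEval, MvPolynomial.eval_X]

include hA in
/-- If the system is killed at level `M`, it is not seen on the special fibre of level `M`. -/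
theorem noResidualSystem (h5 : InRange p M) (hpM : ¬ p ∣ M)
    (P : MvPolynomial (GoodIdx (M * p) S) ℤ) (hP0 : evalGood (M * p) S M P = 0)
    (hPa : (systemEval (M * p) S a P : ZMod p) ≠ 0) : NoResidualSystem A p M S a := by
  intro y hpy hy
  obtain ⟨e, he1, he2, he3⟩ := exists_operator hA M (M * p) S a FLTAgent.Kronecker.complexEmb h5
    hpM (dvd_mul_right _ _) P
  have h0 := reduction_eq_zero_of_killsTorsion hA M hpM e he1 (fun n hn x hx => by
    haveI : NeZero n := ⟨hn.ne'⟩
    have h := he2 n ⟨x, Pic0.mem_torsion.2 (by rw [natCast_zsmul]; exact hx)⟩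
    rw [hP0, ← Int.cast_zero, opAct_intCast, zero_zsmul] at h
    exact h) y
  rw [he3 y hy] at h0
  set c := systemEval (M * p) S a P
  have hco : IsCoprime c (p : ℤ) := ((Int.prime_iff_natAbs_prime.2 (by simpa using hp.out)
    ).coprime_iff_not_dvd.2 fun hd => hPa ((ZMod.intCast_zmod_eq_zero_iff_dvd _ _).2 hd)).symm
  obtain ⟨u, v, huv⟩ := hco
  rw [← one_zsmul (reductionModL A M y), ← huv, add_zsmul, mul_zsmul, mul_zsmul, h0,
    natCast_zsmul, hpy, zsmul_zero, zsmul_zero, add_zero]

end FLTAgent.MazurPrinciple
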