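import Fermat.Agent.MazurPrinciple.Residual

/-!
# Fixed normalisation of the two roots of the reductions
-/

set_option autoImplicit false
set_option linter.style.haveILetI false
set_option linter.unusedSectionVars false
set_option synthInstance.maxHeartbeats 400000
set_option maxHeartbeats 1000000

noncomputable section

open AlgebraicCurve ModularCurve IsLocalRing

namespace FLTAgent.MazurPrinciple

open FLTAgent.Curves FLTAgent.Specialization FLTAgent.BadRed
open FLTAgent.EigenLattice (pushPic)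
open FLTAgent.Kronecker (eq_of_principal_of_bounded abs_single_apply_le)

local notation "QA" => AlgebraicClosure ℚ
local notation "GG" => (AlgebraicClosure ℚ ≃ₐ[ℚ] AlgebraicClosure ℚ)

section At

variable {p : ℕ} [Fact p.Prime] [NeZero p] {M : ℕ} [NeZero M] [NeZero (M * p)] (hpM : ¬ p ∣ M)
  {A : ValuationSubring QA} [IsAlgClosed (ResidueField A)] [CharP (ResidueField A) p]
  [Curves.IsFunctionField (ResidueField A) (modularFunctionFieldFullC (ResidueField A) M)]
  (hA : A.LiesOverPrime p) (hp5 : InRange p M)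
  {ζ : QA} {G : Subgroup GG} {σ₀ : GG} (hW : WildData hA ζ G σ₀)

local notation "kk" => ResidueField A
local notation "galN" => arithmeticGalois (modularFunctionFieldFull (M * p))

/-- The measuring functions: the original one, whose divisor is known to be eigen for the Hecke
operators, and one of exponent prime to `p` and proportional divisor, with a glued point of order
prime to `p`. -/
structure Measure where
  U₀ : UnitData (sheetAt hpM hA)
  U : UnitData (sheetAt hpM hA)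
  c : ℤ
  d : ℤ
  s : Place kk (modularFunctionFieldFullC kk M)
  hub : (U₀.ub : LaurentSeries kk) = unitSer kk p
  hfix : ∀ σ ∈ inertiaSet A (M * p), σ • U.u = U.u
  hw : ¬ p ∣ U.w
  hc : c ≠ 0
  hcd : ∀ P : Place kk (modularFunctionFieldFullC kk M),
    0 ≤ P.ord (modularModel (π := residue A) residue_surjective M (natCast_ne_zero hpM kk)).xb →
    c * P.ord U.ub = d * P.ord U₀.ub
  hs : s ∈ U.nodes
  hso : ¬ (p : ℤ) ∣ s.ord U.ub

omit hp5 in
/-- From five on the original measuring function serves. -/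
theorem exists_measure (h5 : 5 ≤ p) : Nonempty (Measure hpM hA) := by
  have hp : p.Prime := Fact.out
  obtain ⟨U, hu, -, hUw, hub⟩ := exists_unitData hpM (π := residue A) residue_surjective
    (rankOne_residue hA)
  have hndvd : ¬ p ∣ (p - 1) * 6 := by
    rw [hp.dvd_mul]
    rintro (h | h)
    · have := Nat.le_of_dvd (by omega) h; omega
    · have := Nat.le_of_dvd (by norm_num) h
      obtain rfl | rfl : p = 5 ∨ p = 6 := by omega
      · norm_num at h
      · norm_num at hp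
  obtain ⟨s, hs, hso⟩ := exists_node_not_dvd hpM (by omega) hndvd hA residue_surjective
    (rankOne_residue hA) U hub
  exact ⟨{ U₀ := U, U := U, c := 1, d := 1, s := s, hub := hub
           hfix := fun σ hσ => smul_unitSer hu hσ
           hw := by
             rw [hUw]
             intro h1
             rw [show 12 = 2 * 2 * 3 by norm_num, hp.dvd_mul, hp.dvd_mul] at h1
             rcases h1 with (h1 | h1) | h1 <;> · have := Nat.le_of_dvd (by norm_num) h1; omega
           hc := one_ne_zero, hcd := fun P _ => rfl, hs := hs, hso := hso }⟩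

set_option maxHeartbeats 4000000 in
include hpM hp5 hW in
/-- **Both reductions are `p`-th powers, normalised by fixed scalars.** -/
theorem exists_power_residues (E : Measure hpM hA) (S : Finset ℕ) (a : ℕ → ℤ)
    (hl : ∃ l : ℕ, l.Prime ∧ ¬ l ∣ M * p ∧ l ∉ S ∧ ¬ (p : ℤ) ∣ a l - (l + 1))
    (hNo : NoResidualSystem A p M S a) {x : JZero (M * p)} (hx : p • x = 0)
    (hxG : ∀ τ ∈ G, τ • x = x) (hxα : pushPic M p (heckeAlphaBar QA M p) x = 0)
    (hxβ : pushPic M p (heckeBetaBar QA M p) x = 0)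
    (heig : ∀ l : ℕ, ∀ [NeZero l], l.Prime → ¬ l ∣ M * p → l ∉ S →
      heckeOperatorAlong QA (M * p) l x = a l • x) :
    ∃ (f : X0Bar (M * p)) (D : Divisor.degZero (K := QA) (F := X0Bar (M * p))) (d d₁ : QA)
      (γ₁ γ₂ : modularFunctionFieldFullC kk M), f ≠ 0 ∧
      (∀ v, v.ord f = (p : ℤ) * (D : Divisor QA (X0Bar (M * p))) v) ∧ Pic0.mk D = x ∧
      (∀ σ ∈ G, galN σ • f = f) ∧ d ≠ 0 ∧ d₁ ≠ 0 ∧ (∀ σ ∈ G, σ d = d) ∧ (∀ σ ∈ G, σ d₁ = d₁) ∧
      γ₁ ≠ 0 ∧ γ₂ ≠ 0 ∧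
      ((sheetAt hpM hA).pair (d ^ p)).Res (d₁ • f) (γ₁ ^ p, γ₂ ^ p) := by
  classical
  have hp : p.Prime := Fact.out
  haveI := instIsFunctionFieldX0Bar M
  haveI := instIsFunctionFieldX0Bar (M * p)
  obtain ⟨U₀, U, cc, dd, s, hub, hUfix, hUw, hcc, hcd, hs, hso⟩ := E
  obtain ⟨f, D, hf, hD, hDx, hfix⟩ := exists_fixed_rep (n := p) hp.ne_zero (G := (G : Set GG))
    hx hxG
  subst hDx
  obtain ⟨d₁, d₂, g₁, g₂, hd₁, hd₂, hg₁, hg₂, hd₁G, hd₂G, hr₁, hr₂, hlam, hcross⟩ :=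
    exists_moved hpM hA hp5 hW U hUfix hUw hf D hD hfix hxα hxβ
  obtain ⟨c₀, h₀, hh₀, hnorm, -, -⟩ := exists_norm_power hpM hA hp5 hW (heckeAlphaBar QA M p)
    (fun σ z => (galois_smul_alpha σ z).symm) hf D hD hfix hxα
  have hψ : (sheetAt hpM hA).V (⟨coeffMap (frobenius kk p) (g₂ : LaurentSeries kk),
      Kronecker.coeffMap_mem_fullC _ g₂.2⟩ : modularFunctionFieldFullC kk M) = g₂ ^ p :=
    specialV_coeffMap M p g₂
  obtain ⟨Γ, hΓ⟩ := exists_mul_eq_pow (S := sheetAt hpM hA) (f := f) hh₀ hnorm hg₁ hg₂ hr₁ hr₂ hψ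
  obtain ⟨γ₁, hγ₁, e₁⟩ := exists_root_first hpM hA hp5 U U₀ hub hcc hcd hs hso hf hD hd₁ hd₂ hg₁ hg₂ hr₁ hr₂ hψ hΓ
    hcross S a hl hNo heig
  obtain ⟨γ₂, e₂⟩ := exists_root_of_relation (S := sheetAt hpM hA)
    (fun φ => exists_root_specialV M p φ) hγ₁ e₁ hΓ hψ
  have hγ₂ : γ₂ ≠ 0 := fun h0 => hg₂ (by rw [e₂, h0, zero_pow hp.ne_zero])
  obtain ⟨lam, hlam0, hlamG, hlamv⟩ := hlam s hs
  obtain ⟨ux, uy, hxy⟩ := (Nat.prime_iff_prime_int.1 hp).coprime_iff_not_dvd.2 hso
  set V := ratVal hA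
  set e := d₂ / d₁
  set lam' := lam / (p : QA) ^ (U.w * s.ord γ₁)
  have he : e ≠ 0 := div_ne_zero hd₂ hd₁
  have hl' : lam' ≠ 0 := div_ne_zero hlam0 (zpow_ne_zero _ V.p_ne)
  set d := lam' ^ uy * e ^ ux
  have hd : d ≠ 0 := mul_ne_zero (zpow_ne_zero _ hl') (zpow_ne_zero _ he)
  have hdG : ∀ σ ∈ G, σ d = d := fun σ hσ => by
    simp only [d, lam', e, map_mul, map_div₀, map_zpow₀, map_natCast, hlamG σ hσ, hd₁G σ hσ,
      hd₂G σ hσ]
  have hsg : (s.ord g₁ : ℚ) = (p : ℚ) * s.ord γ₁ := by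
    rw [e₁, Curves.ord_pow]; push_cast; ring
  have hvd : V.v (d ^ p / e) = 0 := by
    have hl'v : (p : ℚ) * V.v lam' = (s.ord U.ub : ℚ) * (V.v d₂ - V.v d₁) := by
      simp only [lam']
      rw [V.v_div hlam0 (zpow_ne_zero _ V.p_ne), RatVal.v_zpow V V.p_ne, V.v_p]
      push_cast
      linear_combination hlamv + (U.w : ℚ) * hsg
    have hxy' : (ux : ℚ) * p + uy * s.ord U.ub = 1 := by exact_mod_cast hxy
    rw [V.v_div (pow_ne_zero _ hd) he, V.v_pow hd]
    simp only [d]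
    rw [V.v_mul _ _ (zpow_ne_zero _ hl') (zpow_ne_zero _ he), RatVal.v_zpow V hl',
      RatVal.v_zpow V he]
    simp only [e]
    rw [V.v_div hd₂ hd₁]
    linear_combination (uy : ℚ) * hl'v + (V.v d₂ - V.v d₁) * hxy'
  have hne : d ^ p / e ≠ 0 := div_ne_zero (pow_ne_zero _ hd) he
  have hm : d ^ p / e ∈ A := (V.mem_iff _ hne).2 hvd.ge
  have hres0 : residue A ⟨_, hm⟩ ≠ 0 := fun h0 => by
    have := (V.res_iff ⟨_, hm⟩ hne).1 h0
    rw [hvd] at this
    exact lt_irrefl _ this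
  obtain ⟨ρ, hρ⟩ := IsAlgClosed.exists_pow_nat_eq (residue A ⟨_, hm⟩) hp.pos
  refine ⟨f, D, d, d₁, γ₁, algebraMap kk _ ρ * γ₂, hf, hD, rfl, hfix, hd, hd₁, hdG, hd₁G, hγ₁,
    mul_ne_zero ((_root_.map_ne_zero _).2 fun h0 => hres0 ?_) hγ₂, e₁ ▸ hr₁, ?_⟩
  · rw [← hρ, h0, zero_pow hp.ne_zero]
  · have hE : (algebraMap kk (modularFunctionFieldFullC kk M) ρ * γ₂) ^ p =
        residue A ⟨_, hm⟩ • g₂ := by
      rw [mul_pow, ← map_pow, hρ, ← Algebra.smul_def, ← e₂]
    show (sheetAt hpM hA).R₂.Res (d ^ p • d₁ • f)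
      ((algebraMap kk (modularFunctionFieldFullC kk M) ρ * γ₂) ^ p)
    have h2 := hr₂.smul ⟨_, hm⟩
    rw [smul_smul] at h2
    rw [hE, smul_smul]
    convert h2 using 2
    show d ^ p * d₁ = d ^ p / e * d₂
    simp only [e]
    field_simp

end At

end FLTAgent.MazurPrinciple
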