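import Fermat.Agent.MazurPrinciple.Interface
import Fermat.Agent.Carayol.Const
import Fermat.Agent.LocalEC.AtP
import Mathlib.LinearAlgebra.Lagrange

/-!
# The ramification of `K₀(ζ_p, θ)`, `θ ^ p` in `K₀`

If some unit of the field is moved as far as `ζ - 1` by the wild generator then `θ` can be taken to
be a unit with `θ - 1` of valuation `1 / p`, and the field has the smallest possible jump.
-/

set_option autoImplicit false
set_option linter.style.haveILetI false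

noncomputable section

namespace FLTAgent.MazurPrinciple

open IsLocalRing Polynomial

local notation "QA" => AlgebraicClosure ℚ
local notation "GG" => (AlgebraicClosure ℚ ≃ₐ[ℚ] AlgebraicClosure ℚ)

namespace RatVal

variable {L k : Type*} [Field L] [Field k] {A : ValuationSubring L} {π : A →+* k} {p : ℕ}
  (V : RatVal π p)

theorem GT.sum {r : ℚ} {ι : Type*} {s : Finset ι} {x : ι → L} (h : ∀ i ∈ s, V.GT r (x i)) :
    V.GT r (∑ i ∈ s, x i) :=
  Finset.sum_induction _ (V.GT r) (fun _ _ ha hb => ha.add V hb) (Or.inl rfl) h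

theorem v_zpow' {x : L} (hx : x ≠ 0) (n : ℤ) : V.v (x ^ n) = n * V.v x := by
  obtain ⟨m, rfl | rfl⟩ := n.eq_nat_or_neg
  · rw [zpow_natCast, V.v_pow hx, Int.cast_natCast]
  · rw [zpow_neg, zpow_natCast, V.v_inv (pow_ne_zero _ hx), V.v_pow hx]
    push_cast; ring

/-- In a sum of terms of distinct valuations one term dominates. -/
theorem exists_dominant {ι : Type*} [DecidableEq ι] (s : Finset ι) (x : ι → L)
    (hne : ∑ i ∈ s, x i ≠ 0)
    (hdist : ∀ i ∈ s, ∀ j ∈ s, x i ≠ 0 → x j ≠ 0 → V.v (x i) = V.v (x j) → i = j) :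
    ∃ i₀ ∈ s, x i₀ ≠ 0 ∧ V.v (x i₀) = V.v (∑ i ∈ s, x i) ∧
      ∀ i ∈ s, i ≠ i₀ → V.GT (V.v (x i₀)) (x i) := by
  classical
  set t := s.filter fun i => x i ≠ 0 with ht
  have htne : t.Nonempty := by
    by_contra h
    refine hne (Finset.sum_eq_zero fun i hi => ?_)
    by_contra hxi
    exact h ⟨i, Finset.mem_filter.2 ⟨hi, hxi⟩⟩
  obtain ⟨i₀, hi₀, hmin⟩ := Finset.exists_min_image t (fun i => V.v (x i)) htne
  rw [ht, Finset.mem_filter] at hi₀
  have hgt : ∀ i ∈ s, i ≠ i₀ → V.GT (V.v (x i₀)) (x i) := by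
    intro i hi hne'
    rcases eq_or_ne (x i) 0 with h | h
    · exact Or.inl h
    · exact Or.inr (lt_of_le_of_ne (hmin i (Finset.mem_filter.2 ⟨hi, h⟩))
        fun e => hne' (hdist i hi i₀ hi₀.1 h hi₀.2 e.symm))
  refine ⟨i₀, hi₀.1, hi₀.2, ?_, hgt⟩
  rw [← Finset.add_sum_erase s x hi₀.1]
  exact ((V.v_add_eq hi₀.2 (GT.sum V fun i hi =>
    hgt i (Finset.mem_of_mem_erase hi) (Finset.ne_of_mem_erase hi))).2).symm

end RatVal

/-- The decomposition group preserves the normalised valuation. -/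
theorem v_apply {A : ValuationSubring QA} {p : ℕ} [Fact p.Prime] (hA : A.LiesOverPrime p)
    {σ : GG} (hσ : σ ∈ A.decompositionSubgroup ℚ) {x : QA} (hx : x ≠ 0) :
    (ratVal hA).v (σ x) = (ratVal hA).v x := by
  obtain ⟨n, z, hn, e, h⟩ := (exists_val_spec hA x).choose_spec hx
  change vQ hA x = _ at e
  show vQ hA (σ x) = vQ hA x
  rw [e, vQ_eq hA ((_root_.map_ne_zero _).2 hx) hn (by rw [Carayol.valuation_apply hσ, h])]

/-- The valuation of `ζ - 1`. -/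
theorem v_sub_one {A : ValuationSubring QA} {p : ℕ} [hp : Fact p.Prime] (hA : A.LiesOverPrime p)
    {ζ : QA} (hζ : IsPrimitiveRoot ζ p) : (ratVal hA).v (ζ - 1) = 1 / ((p : ℚ) - 1) := by
  have h := vQ_eq hA (sub_ne_zero.2 (hζ.ne_one hp.out.one_lt))
    (Nat.sub_ne_zero_of_lt hp.out.one_lt) (z := 1)
    (by rw [zpow_one, LocalEC.val_sub_one_pow hp.out hζ])
  rw [Nat.cast_sub hp.out.one_le] at h
  exact h.trans (by push_cast; rfl)

/-- An element fixed by inertia has integral valuation. -/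
theorem exists_v_eq_intCast {A : ValuationSubring QA} {p : ℕ} [hp : Fact p.Prime]
    (hA : A.LiesOverPrime p) {x : QA} (hx : x ≠ 0) (h : ∀ τ ∈ A.inertiaSubgroupIn ℚ, τ x = x) :
    ∃ z : ℤ, (ratVal hA).v x = z := by
  obtain ⟨z, hz⟩ := Mazur.exists_zpow_valuation A hp.out hA hx h
  exact ⟨z, (vQ_eq hA hx one_ne_zero (z := z) (by rw [pow_one, hz])).trans (by simp)⟩

section Orbit

variable {A : ValuationSubring QA} {p : ℕ} [hp : Fact p.Prime] (hA : A.LiesOverPrime p)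

include hA in
/-- An element fixed by the part of inertia fixing `ζ` has valuation in `1 / (p - 1)`. -/
theorem exists_v_mul_pred {ζ : QA} (hζ : IsPrimitiveRoot ζ p) {a : QA} (ha : a ≠ 0)
    (hfix : ∀ τ ∈ A.inertiaSubgroupIn ℚ, τ ζ = ζ → τ a = a) :
    ∃ z : ℤ, ((p : ℚ) - 1) * (ratVal hA).v a = z := by
  classical
  have hmem : ∀ {x : QA}, (∀ τ ∈ A.inertiaSubgroupIn ℚ, τ ζ = ζ → τ x = x) →
      ∀ σ ∈ A.inertiaSubgroupIn ℚ, ∀ τ ∈ A.inertiaSubgroupIn ℚ, σ ζ = τ ζ → σ x = τ x := by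
    intro x hx σ hσ τ hτ h
    have h1 := hx (τ⁻¹ * σ) (mul_mem (inv_mem hτ) hσ) (by
      rw [AlgEquiv.mul_apply, h, ← AlgEquiv.mul_apply, inv_mul_cancel, AlgEquiv.one_apply])
    have h2 := congrArg τ h1
    rwa [← AlgEquiv.mul_apply, mul_inv_cancel_left] at h2
  set T : Finset QA := (primitiveRoots p QA).filter
    fun w => ∃ σ ∈ A.inertiaSubgroupIn ℚ, σ ζ = w
  have hT : ∀ w ∈ T, ∃ σ ∈ A.inertiaSubgroupIn ℚ, σ ζ = w := fun w hw =>
    (Finset.mem_filter.1 hw).2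
  choose! s hsI hsw using hT
  have hmemT : ∀ σ ∈ A.inertiaSubgroupIn ℚ, σ ζ ∈ T := fun σ hσ =>
    Finset.mem_filter.2
      ⟨(mem_primitiveRoots hp.out.pos).2 (hζ.map_of_injective σ.injective), σ, hσ, rfl⟩
  have hval : ∀ {x : QA}, x ≠ 0 → (∀ τ ∈ A.inertiaSubgroupIn ℚ, τ ζ = ζ → τ x = x) →
      ∃ z : ℤ, (T.card : ℚ) * (ratVal hA).v x = z := by
    intro x hx0 hx
    have hne : ∀ w ∈ T, s w x ≠ 0 := fun w _ => (_root_.map_ne_zero _).2 hx0
    obtain ⟨z, hz⟩ := exists_v_eq_intCast hA (Finset.prod_ne_zero_iff.2 hne) fun τ hτ => by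
      rw [map_prod]
      refine Finset.prod_bij' (fun w _ => τ w) (fun w _ => τ.symm w) ?_ ?_ ?_ ?_ ?_
      · intro w hw
        rw [← hsw w hw]
        exact hmemT (τ * s w) (mul_mem hτ (hsI w hw))
      · intro w hw
        rw [← hsw w hw]
        exact hmemT (τ⁻¹ * s w) (mul_mem (inv_mem hτ) (hsI w hw))
      · intro w _; simp
      · intro w _; simp
      · intro w hw
        have hw' : τ w ∈ T := by rw [← hsw w hw]; exact hmemT (τ * s w) (mul_mem hτ (hsI w hw))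
        exact hmem hx (τ * s w) (mul_mem hτ (hsI w hw)) (s (τ w)) (hsI _ hw')
          (by rw [hsw _ hw', AlgEquiv.mul_apply, hsw w hw])
    refine ⟨z, ?_⟩
    rw [← hz, (ratVal hA).v_prod _ _ hne, Finset.sum_congr rfl fun w hw =>
      v_apply hA (Places.inertia_le_decomposition A (hsI w hw)) hx0, Finset.sum_const, nsmul_eq_mul]
  have hp1 : (0 : ℚ) < (p : ℚ) - 1 := by
    have : (2 : ℚ) ≤ p := by exact_mod_cast hp.out.two_le
    linarith
  obtain ⟨j, hj⟩ := hval (sub_ne_zero.2 (hζ.ne_one hp.out.one_lt))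
    (fun τ _ h => by rw [map_sub, map_one, h])
  rw [v_sub_one hA hζ] at hj
  have hcard : (T.card : ℚ) = (p : ℚ) - 1 := by
    have hle : T.card ≤ p - 1 := by
      refine (Finset.card_le_card (Finset.filter_subset _ _)).trans (le_of_eq ?_)
      rw [hζ.card_primitiveRoots, Nat.totient_prime hp.out]
    have hpos : (0 : ℚ) < T.card :=
      Nat.cast_pos.2 (Finset.card_pos.2 ⟨ζ, hmemT 1 (one_mem _)⟩)
    have hle' : (T.card : ℚ) ≤ (p : ℚ) - 1 := by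
      rw [← Nat.cast_one, ← Nat.cast_sub hp.out.one_le]; exact_mod_cast hle
    have e : (T.card : ℚ) = j * ((p : ℚ) - 1) := by
      rw [← hj]; field_simp
    have hj1 : (j : ℚ) = 1 := by
      have h0 : 0 < j := by
        by_contra h
        have : (j : ℚ) ≤ 0 := by exact_mod_cast not_lt.1 h
        nlinarith
      have h2 : j < 2 := by
        by_contra h
        have : (2 : ℚ) ≤ (j : ℚ) := by exact_mod_cast not_lt.1 h
        nlinarith
      exact_mod_cast (show j = 1 by omega)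
    rw [e, hj1, one_mul]
  rw [← hcard]
  exact hval ha hfix

variable {G : Subgroup GG} {σ₀ : GG}
  (hn : ∀ σ ∈ A.inertiaSubgroupIn ℚ, ∀ τ ∈ G, σ⁻¹ * τ * σ ∈ G)
  (hσ : σ₀ ∈ A.inertiaSubgroupIn ℚ) (hσp : σ₀ ^ p ∈ G)

include hn hσ in
theorem fixed_pow {a : QA} (ha : ∀ τ ∈ G, τ a = a) (j : ℕ) {τ : GG} (hτ : τ ∈ G) :
    τ ((σ₀ ^ j) a) = (σ₀ ^ j) a := by
  have h1 := congrArg (σ₀ ^ j) (ha _ (hn _ (pow_mem hσ j) τ hτ))
  rwa [← AlgEquiv.mul_apply, mul_assoc, mul_inv_cancel_left, AlgEquiv.mul_apply] at h1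

include hσp in
omit hp in
theorem pow_mod {a : QA} (ha : ∀ τ ∈ G, τ a = a) (j : ℕ) :
    (σ₀ ^ j) a = (σ₀ ^ (j % p)) a := by
  conv_lhs => rw [← Nat.mod_add_div j p, pow_add, pow_mul, AlgEquiv.mul_apply]
  exact congrArg _ (ha _ (pow_mem hσp _))

include hn hσ hσp in
/-- Coordinates in the powers of an element with `p` distinct conjugates. -/
theorem exists_decomp {Y : QA} (hY : ∀ τ ∈ G, τ Y = Y)
    (hinj : Set.InjOn (fun j : ℕ => (σ₀ ^ j) Y) (Finset.range p)) {a : QA}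
    (ha : ∀ τ ∈ G, τ a = a) :
    ∃ b : ℕ → QA, (∀ i, (∀ τ ∈ G, τ (b i) = b i) ∧ σ₀ (b i) = b i) ∧
      a = ∑ i ∈ Finset.range p, b i * Y ^ i := by
  classical
  set f : ℕ → QA := fun j => (σ₀ ^ j) Y with hf
  set r : ℕ → QA := fun j => (σ₀ ^ j) a with hr
  set P := Lagrange.interpolate (Finset.range p) f r with hP
  have hdeg : P.degree < (p : WithBot ℕ) := by
    have h := Lagrange.degree_interpolate_lt r hinj
    rwa [Finset.card_range] at h
  have key : ∀ φ : GG, (∀ j < p, ∃ k < p, φ (f k) = f j ∧ φ (r k) = r j) →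
      P.map (φ : QA →+* QA) = P := by
    intro φ h
    refine Lagrange.eq_interpolate_of_eval_eq r hinj ?_ fun j hj => ?_
    · rw [degree_map, Finset.card_range]; exact hdeg
    · obtain ⟨k, hk, e1, e2⟩ := h j (Finset.mem_range.1 hj)
      rw [← e1, ← e2, Polynomial.eval_map]
      show Polynomial.eval₂ (φ : QA →+* QA) ((φ : QA →+* QA) (f k)) P = (φ : QA →+* QA) (r k)
      rw [Polynomial.eval₂_hom, Lagrange.eval_interpolate_at_node r hinj (Finset.mem_range.2 hk)]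
  have hstep : ∀ {x : QA}, (∀ τ ∈ G, τ x = x) → ∀ j < p,
      σ₀ ((σ₀ ^ ((j + (p - 1)) % p)) x) = (σ₀ ^ j) x := by
    intro x hx j hj
    rw [← AlgEquiv.mul_apply, ← pow_succ', pow_mod hσp hx, Nat.mod_add_mod,
      show j + (p - 1) + 1 = j + p by have := hp.out.pos; omega, Nat.add_mod_right,
      Nat.mod_eq_of_lt hj]
  have hG : ∀ τ ∈ G, P.map (τ : QA →+* QA) = P := fun τ hτ => key τ fun j hj =>
    ⟨j, hj, fixed_pow hn hσ hY j hτ, fixed_pow hn hσ ha j hτ⟩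
  have hσ' : P.map (σ₀ : QA →+* QA) = P := key σ₀ fun j hj =>
    ⟨(j + (p - 1)) % p, Nat.mod_lt _ hp.out.pos, hstep hY j hj, hstep ha j hj⟩
  refine ⟨P.coeff, fun i => ⟨fun τ hτ => ?_, ?_⟩, ?_⟩
  · have h := congrArg (fun q : QA[X] => q.coeff i) (hG τ hτ)
    rwa [Polynomial.coeff_map] at h
  · have h := congrArg (fun q : QA[X] => q.coeff i) hσ'
    rwa [Polynomial.coeff_map] at h
  · have hev := Lagrange.eval_interpolate_at_node r hinj (Finset.mem_range.2 hp.out.pos)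
    rw [← hP, hf, hr] at hev
    simp only [pow_zero, AlgEquiv.one_apply] at hev
    conv_lhs => rw [← hev]
    refine Polynomial.eval_eq_sum_range' ?_ Y
    rcases eq_or_ne P 0 with h | h
    · rw [h, natDegree_zero]; exact hp.out.pos
    · exact (natDegree_lt_iff_degree_lt h).2 hdeg

theorem injOn_pow_apply (hσp : σ₀ ^ p ∈ G) {Y : QA} (hY : ∀ τ ∈ G, τ Y = Y) (hne : σ₀ Y ≠ Y) :
    Set.InjOn (fun j : ℕ => (σ₀ ^ j) Y) (Finset.range p) := by
  have key : ∀ i j : ℕ, i < j → j < p → (σ₀ ^ i) Y ≠ (σ₀ ^ j) Y := by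
    intro i j hij hj h
    obtain ⟨d, rfl⟩ := Nat.exists_eq_add_of_le hij.le
    rw [pow_add, AlgEquiv.mul_apply] at h
    have hd : (σ₀ ^ d) Y = Y := ((σ₀ ^ i).injective h).symm
    have hd' : ∀ k : ℕ, (σ₀ ^ (d * k)) Y = Y := by
      intro k
      induction k with
      | zero => rw [mul_zero, pow_zero, AlgEquiv.one_apply]
      | succ k ih => rw [Nat.mul_succ, pow_add, AlgEquiv.mul_apply, hd, ih]
    have hco : Nat.Coprime d p :=
      ((hp.out.coprime_iff_not_dvd).2 fun hd' =>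
        absurd (Nat.le_of_dvd (by omega) hd') (by omega)).symm
    obtain ⟨m, -, hm⟩ := Nat.exists_mul_mod_eq_one_of_coprime hco hp.out.one_lt
    refine hne ?_
    have h1 := hd' m
    rw [pow_mod hσp hY, hm, pow_one] at h1
    exact h1
  intro i hi j hj h
  rw [Finset.coe_range, Set.mem_Iio] at hi hj
  rcases lt_trichotomy i j with hlt | heq | hlt
  · exact absurd h (key i j hlt hj)
  · exact heq
  · exact absurd h.symm (key j i hlt hi)

end Orbit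

variable {A : ValuationSubring QA} {p : ℕ} [hp : Fact p.Prime] (hA : A.LiesOverPrime p)
  {ζ : QA} {G : Subgroup GG}

/-- No wild part: the trivial element will do. -/
theorem wildData_tame (hζ : IsPrimitiveRoot ζ p) (hle : G ≤ A.inertiaSubgroupIn ℚ)
    (hn : ∀ σ ∈ A.inertiaSubgroupIn ℚ, ∀ τ ∈ G, σ⁻¹ * τ * σ ∈ G) (hfr : ∀ τ ∈ G, τ ζ = ζ)
    (hall : ∀ τ ∈ A.inertiaSubgroupIn ℚ, τ ζ = ζ → τ ∈ G) : WildData hA ζ G 1 where
  le := hle
  normal := hn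
  fix_root := hfr
  val_mem := ⟨p - 1, Nat.sub_pos_of_lt hp.out.one_lt, fun a ha h => by
    rw [Nat.cast_sub hp.out.one_le, Nat.cast_one]
    exact exists_v_mul_pred hA hζ ha fun τ hτ e => h τ (hall τ hτ e)⟩
  mem := one_mem _
  fix_gen := rfl
  move a _ _ := Or.inl (by rw [AlgEquiv.one_apply, sub_self])
  move_strict a ha h _ := by
    obtain ⟨z, hz⟩ := exists_v_mul_pred hA hζ ha fun τ hτ e => h τ (hall τ hτ e)
    refine ⟨p - 1, z, fun hd => ?_, by rwa [Nat.cast_sub hp.out.one_le, Nat.cast_one]⟩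
    have := Nat.le_of_dvd (Nat.sub_pos_of_lt hp.out.one_lt) hd
    have := hp.out.one_lt
    omega
  move_unit a _ _ _ := Or.inl (by rw [AlgEquiv.one_apply, sub_self])

/-- A Kummer element and a unit moved as far as `ζ - 1`. -/
theorem wildData_wild (h3 : 3 ≤ p) (hζ : IsPrimitiveRoot ζ p) (hle : G ≤ A.inertiaSubgroupIn ℚ)
    (hn : ∀ σ ∈ A.inertiaSubgroupIn ℚ, ∀ τ ∈ G, σ⁻¹ * τ * σ ∈ G) (hfr : ∀ τ ∈ G, τ ζ = ζ)
    {σ₀ : GG} (hσ : σ₀ ∈ A.inertiaSubgroupIn ℚ) (hσζ : σ₀ ζ = ζ) (hσp : σ₀ ^ p ∈ G)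
    (hgen : ∀ τ ∈ A.inertiaSubgroupIn ℚ, τ ζ = ζ → ∃ j : ℕ, (σ₀ ^ j)⁻¹ * τ ∈ G)
    {θ η : QA} (hθ0 : θ ≠ 0) (hθG : ∀ τ ∈ G, τ θ = θ)
    (hθp : ∀ τ ∈ A.inertiaSubgroupIn ℚ, τ (θ ^ p) = θ ^ p) (hη : IsPrimitiveRoot η p)
    (hσθ : σ₀ θ = η * θ) {w : QA} (hw0 : w ≠ 0) (hwv : (ratVal hA).v w = 0)
    (hwG : ∀ τ ∈ G, τ w = w) (hwσ : ¬ (ratVal hA).GT (1 / ((p : ℚ) - 1)) (σ₀ w - w)) :
    WildData hA ζ G σ₀ := by
  set V := ratVal hA
  have hd := Places.inertia_le_decomposition A hσ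
  have hp2 : (2 : ℚ) ≤ p := by exact_mod_cast hp.out.two_le
  have hp1 : (0 : ℚ) < (p : ℚ) - 1 := by linarith
  have hpos : (0 : ℚ) < p := by linarith
  set e : ℚ := (p : ℚ) * ((p : ℚ) - 1) with he
  have he0 : 0 < e := mul_pos hpos hp1
  -- elements fixed by `G` and `σ₀`
  have hbase : ∀ b : QA, b ≠ 0 → (∀ τ ∈ G, τ b = b) → σ₀ b = b →
      ∃ z : ℤ, ((p : ℚ) - 1) * V.v b = z := by
    intro b hb0 hbG hbσ
    refine exists_v_mul_pred hA hζ hb0 fun τ hτ hτζ => ?_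
    obtain ⟨j, hj⟩ := hgen τ hτ hτζ
    have h1 := congrArg (σ₀ ^ j) (hbG _ hj)
    rw [← AlgEquiv.mul_apply, mul_inv_cancel_left] at h1
    rw [h1]
    clear h1 hj
    induction j with
    | zero => rw [pow_zero, AlgEquiv.one_apply]
    | succ j ih => rw [pow_succ, AlgEquiv.mul_apply, hbσ, ih]
  -- the shape of an element in the powers of `Y`, when `(p-1) v Y ∉ ℤ`
  have hcoord : ∀ (Y : QA) (c : ℤ), Y ≠ 0 → (∀ τ ∈ G, τ Y = Y) → σ₀ Y ≠ Y →
      e * V.v Y = c → ¬ (p : ℤ) ∣ c → ∀ a : QA, a ≠ 0 → (∀ τ ∈ G, τ a = a) →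
      ∃ (b : ℕ → QA) (i₀ : ℕ), i₀ < p ∧ b i₀ ≠ 0 ∧
        (∀ i, (∀ τ ∈ G, τ (b i) = b i) ∧ σ₀ (b i) = b i) ∧
        a = ∑ i ∈ Finset.range p, b i * Y ^ i ∧ V.v (b i₀ * Y ^ i₀) = V.v a ∧
        ∀ i < p, i ≠ i₀ → V.GT (V.v a) (b i * Y ^ i) := by
    intro Y c hY0 hYG hYσ hYv hpc a ha0 haG
    obtain ⟨b, hb, hab⟩ := exists_decomp hn hσ hσp hYG (injOn_pow_apply hσp hYG hYσ) haG
    obtain ⟨i₀, hi₀, h1, h2, h3⟩ := V.exists_dominant (Finset.range p) (fun i => b i * Y ^ i)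
      (hab ▸ ha0) fun i hi j hj hi0 hj0 hij => by
        have hbi := left_ne_zero_of_mul hi0
        have hbj := left_ne_zero_of_mul hj0
        obtain ⟨zi, hzi⟩ := hbase _ hbi (hb i).1 (hb i).2
        obtain ⟨zj, hzj⟩ := hbase _ hbj (hb j).1 (hb j).2
        rw [V.v_mul _ _ hbi (pow_ne_zero _ hY0), V.v_mul _ _ hbj (pow_ne_zero _ hY0),
          V.v_pow hY0, V.v_pow hY0] at hij
        have h4 : ((p * (zi - zj) : ℤ) : ℚ) = ((c * ((j : ℤ) - i) : ℤ) : ℚ) := by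
          push_cast
          rw [← hYv, ← hzi, ← hzj, he]
          linear_combination ((p : ℚ) * ((p : ℚ) - 1)) * hij
        have h5 : (p : ℤ) * (zi - zj) = c * ((j : ℤ) - i) := Int.cast_injective h4
        have h6 : (p : ℤ) ∣ (j : ℤ) - i :=
          ((Nat.prime_iff_prime_int.1 hp.out).dvd_mul.1 ⟨_, h5.symm⟩).resolve_left hpc
        have := Int.eq_zero_of_abs_lt_dvd h6 (by
          have hi' := Finset.mem_range.1 hi
          have hj' := Finset.mem_range.1 hj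
          rw [abs_lt]; constructor <;> omega)
        omega
    rw [← hab] at h2
    exact ⟨b, i₀, Finset.mem_range.1 hi₀, left_ne_zero_of_mul h1, hb, hab, h2,
      fun i hi hne => h2 ▸ h3 i (Finset.mem_range.2 hi) hne⟩
  have hη1 : ∀ j : ℕ, ¬ p ∣ j → V.v (η ^ j - 1) = 1 / ((p : ℚ) - 1) := fun j hj =>
    v_sub_one hA (hη.pow_of_coprime j ((hp.out.coprime_iff_not_dvd.2 hj).symm))
  -- the valuation of `θ` is in `ℤ`
  obtain ⟨z, hz⟩ : ∃ z : ℤ, V.v θ = z := by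
    obtain ⟨n, hn'⟩ := exists_v_eq_intCast hA (pow_ne_zero p hθ0) hθp
    rw [V.v_pow hθ0] at hn'
    by_cases hpn : (p : ℤ) ∣ n
    · obtain ⟨m, rfl⟩ := hpn
      refine ⟨m, mul_left_cancel₀ hpos.ne' ?_⟩
      push_cast at hn'
      exact hn'
    exfalso
    refine hwσ ?_
    have hθσ : σ₀ θ ≠ θ := by
      rw [hσθ]
      intro h
      exact hη.ne_one hp.out.one_lt (mul_right_cancel₀ hθ0 (h.trans (one_mul θ).symm))
    have hpc : ¬ (p : ℤ) ∣ n * ((p : ℤ) - 1) := fun h => by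
      rcases (Nat.prime_iff_prime_int.1 hp.out).dvd_mul.1 h with h | h
      · exact hpn h
      · have h1 : (p : ℤ) ∣ 1 := by simpa using dvd_sub (dvd_refl (p : ℤ)) h
        exact hp.out.not_dvd_one (Int.natCast_dvd_natCast.1 h1)
    obtain ⟨b, i₀, hi₀, hb0, hb, hab, hv, hgt⟩ := hcoord θ (n * ((p : ℤ) - 1)) hθ0 hθG hθσ
      (by push_cast; rw [he, ← hn']; ring) hpc w hw0 hwG
    rw [hab, map_sum, ← Finset.sum_sub_distrib]
    refine RatVal.GT.sum V fun i hi => ?_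
    rw [map_mul, (hb i).2, map_pow, hσθ, mul_pow, ← mul_assoc, mul_comm (b i) (η ^ i), mul_assoc,
      ← sub_one_mul]
    rcases Nat.eq_zero_or_pos i with rfl | hipos
    · exact Or.inl (by rw [pow_zero, sub_self, zero_mul])
    rcases eq_or_ne (b i) 0 with h0 | h0
    · exact Or.inl (by rw [h0, zero_mul, mul_zero])
    have hterm : b i * θ ^ i ≠ 0 := mul_ne_zero h0 (pow_ne_zero _ hθ0)
    have hip : ¬ p ∣ i := fun h =>
      absurd (Nat.le_of_dvd hipos h) (not_le.2 (Finset.mem_range.1 hi))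
    have hnn : V.v w ≤ V.v (b i * θ ^ i) := by
      rcases eq_or_ne i i₀ with rfl | hne
      · exact hv.ge
      · exact ((hgt i (Finset.mem_range.1 hi) hne).lt V hterm).le
    have hne0 : V.v (b i * θ ^ i) ≠ 0 := fun h => by
      obtain ⟨zi, hzi⟩ := hbase _ h0 (hb i).1 (hb i).2
      rw [V.v_mul _ _ h0 (pow_ne_zero _ hθ0), V.v_pow hθ0] at h
      have h4 : ((p * zi : ℤ) : ℚ) = ((-((i : ℤ) * (n * ((p : ℤ) - 1))) : ℤ) : ℚ) := by
        push_cast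
        rw [← hzi, ← hn']
        linear_combination ((p : ℚ) * ((p : ℚ) - 1)) * h
      have h6 : (p : ℤ) ∣ (i : ℤ) * (n * ((p : ℤ) - 1)) :=
        Int.dvd_neg.1 ⟨_, (Int.cast_injective h4).symm⟩
      rcases (Nat.prime_iff_prime_int.1 hp.out).dvd_mul.1 h6 with h | h
      · exact hip (Int.natCast_dvd_natCast.1 h)
      · exact hpc h
    have hpos' : 0 < V.v (b i * θ ^ i) := lt_of_le_of_ne (hwv ▸ hnn) (Ne.symm hne0)
    have hη0 : η ^ i - 1 ≠ 0 := sub_ne_zero.2 fun h =>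
      hip (hη.dvd_of_pow_eq_one i h)
    exact Or.inr (by rw [V.v_mul _ _ hη0 hterm, hη1 i hip]; linarith)
  -- a conjugate of `θ` congruent to one
  obtain ⟨θ₂, hθ₂0, hθ₂G, hθ₂p, hθ₂σ, hθ₂1⟩ : ∃ t : QA, t ≠ 0 ∧ (∀ τ ∈ G, τ t = t) ∧
      (∀ τ ∈ A.inertiaSubgroupIn ℚ, τ (t ^ p) = t ^ p) ∧ σ₀ t = η * t ∧ V.GT 0 (t - 1) := by
    have hp0 : (p : QA) ≠ 0 := Nat.cast_ne_zero.2 hp.out.ne_zero
    set θ₁ : QA := θ / (p : QA) ^ z with hθ₁
    have h10 : θ₁ ≠ 0 := div_ne_zero hθ0 (zpow_ne_zero _ hp0)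
    have h1v : V.v θ₁ = 0 := by
      rw [hθ₁, V.v_div hθ0 (zpow_ne_zero _ hp0), V.v_zpow' hp0, V.v_p, hz]; ring
    have h1A : θ₁ ∈ A := (V.mem_iff _ h10).2 h1v.ge
    obtain ⟨β, hβK, hβ⟩ := Carayol.exists_residue_eq hA (residue A ⟨θ₁, h1A⟩)
    have hβres : residue A β ≠ 0 := by
      rw [hβ]
      exact fun h => (h1v ▸ ((V.res_iff ⟨θ₁, h1A⟩ h10).1 h)).false
    obtain ⟨hβ0, hβv⟩ := V.v_eq_zero_of_res hβres
    have hβfix : ∀ τ ∈ A.inertiaSubgroupIn ℚ, τ (β : QA) = β := Carayol.mem_K0.1 hβK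
    have hpfix : ∀ τ : GG, τ ((p : QA) ^ z) = (p : QA) ^ z := fun τ => by
      rw [map_zpow₀, map_natCast]
    refine ⟨θ₁ / β, div_ne_zero h10 hβ0, fun τ hτ => ?_, fun τ hτ => ?_, ?_, ?_⟩
    · rw [map_div₀, hβfix τ (hle hτ), hθ₁, map_div₀, hθG τ hτ, hpfix]
    · rw [hθ₁, div_div, div_pow, map_div₀, hθp τ hτ, map_pow, map_mul, hpfix, hβfix τ hτ]
    · rw [hθ₁, map_div₀, map_div₀, hσθ, hpfix, hβfix σ₀ hσ]; ring
    · rw [show θ₁ / β - 1 = (θ₁ - β) / β by rw [sub_div, div_self hβ0]]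
      have h : V.GT 0 (θ₁ - β) :=
        (V.res_iff_GT (a := ⟨θ₁, h1A⟩ - β)).1 (by rw [map_sub, hβ, sub_self])
      rcases h with h | h
      · exact Or.inl (by rw [h, zero_div])
      · rcases eq_or_ne (θ₁ - β) 0 with h0 | h0
        · exact Or.inl (by rw [h0, zero_div])
        · exact Or.inr (by rw [V.v_div h0 hβ0, hβv, sub_zero]; exact h)
  -- `v (θ₂ - 1) = 1/p`
  set δ : QA := θ₂ - 1 with hδ
  have hσpow : ∀ j : ℕ, (σ₀ ^ j) θ₂ = η ^ j * θ₂ := by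
    intro j
    induction j with
    | zero => rw [pow_zero, pow_zero, one_mul, AlgEquiv.one_apply]
    | succ j ih =>
      have hση : σ₀ η = η := by
        obtain ⟨k, -, rfl⟩ := hζ.eq_pow_of_pow_eq_one hη.pow_eq_one
        rw [map_pow, hσζ]
      rw [pow_succ', AlgEquiv.mul_apply, ih, map_mul, map_pow, hση, hθ₂σ, pow_succ]
      ring
  have hδ0 : δ ≠ 0 := fun h => by
    rw [hδ, sub_eq_zero] at h
    rw [h, map_one, mul_one] at hθ₂σ
    exact hη.ne_one hp.out.one_lt hθ₂σ.symm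
  have hθ₂v : V.v θ₂ = 0 := by
    have h := (V.v_add_eq (x := 1) one_ne_zero (y := δ) (by rw [V.v_one]; exact hθ₂1)).2
    rwa [hδ, add_sub_cancel, V.v_one] at h
  have hconj : ∀ j : ℕ, η ^ j * θ₂ - 1 = (σ₀ ^ j) δ := fun j => by
    rw [hδ, map_sub, map_one, hσpow]
  have hconj0 : ∀ j : ℕ, (σ₀ ^ j) δ ≠ 0 := fun j => (_root_.map_ne_zero _).2 hδ0
  have hconjv : ∀ j : ℕ, V.v ((σ₀ ^ j) δ) = V.v δ := fun j => v_apply hA (pow_mem hd j) hδ0
  have hη0 : η ≠ 0 := hη.ne_zero hp.out.ne_zero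
  have hηv : ∀ k : ℕ, V.v (η ^ k) = 0 := fun k => by
    have h := V.v_pow (x := η) hη0 p
    rw [hη.pow_eq_one, V.v_one] at h
    rw [V.v_pow hη0, (mul_eq_zero.1 h.symm).resolve_left hpos.ne', mul_zero]
  obtain ⟨n, hn2⟩ : ∃ n : ℤ, (p : ℚ) * V.v δ = n := by
    have hterm : ∀ μ ∈ nthRootsFinset p (1 : QA), θ₂ - μ ≠ 0 ∧ V.v (θ₂ - μ) = V.v δ := by
      intro μ hμ
      haveI : NeZero p := ⟨hp.out.ne_zero⟩
      obtain ⟨k, hk, rfl⟩ := hη.eq_pow_of_pow_eq_one ((mem_nthRootsFinset hp.out.pos _).1 hμ)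
      have h1 : θ₂ - η ^ k = η ^ k * (η ^ (p - k) * θ₂ - 1) := by
        rw [mul_sub, ← mul_assoc, ← pow_add, Nat.add_sub_cancel' hk.le, hη.pow_eq_one]; ring
      rw [h1, hconj]
      refine ⟨mul_ne_zero (pow_ne_zero _ hη0) (hconj0 _), ?_⟩
      rw [V.v_mul _ _ (pow_ne_zero _ hη0) (hconj0 _), hηv, hconjv, zero_add]
    have hprod : θ₂ ^ p - 1 = ∏ μ ∈ nthRootsFinset p (1 : QA), (θ₂ - μ) := by
      have h := hη.pow_sub_pow_eq_prod_sub_mul θ₂ 1 hp.out.pos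
      rw [one_pow] at h
      exact h.trans (Finset.prod_congr rfl fun μ _ => by rw [mul_one])
    have hne : θ₂ ^ p - 1 ≠ 0 := hprod ▸ Finset.prod_ne_zero_iff.2 fun μ hμ => (hterm μ hμ).1
    obtain ⟨n, hn'⟩ := exists_v_eq_intCast hA hne fun τ hτ => by
      rw [map_sub, map_one, hθ₂p τ hτ]
    refine ⟨n, ?_⟩
    rw [← hn', hprod, V.v_prod _ _ (fun μ hμ => (hterm μ hμ).1),
      Finset.sum_congr rfl fun μ hμ => (hterm μ hμ).2, Finset.sum_const,
      hη.card_nthRootsFinset, nsmul_eq_mul]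
  have hδpos : 0 < V.v δ := hθ₂1.lt V hδ0
  have hη1' : η - 1 ≠ 0 := sub_ne_zero.2 (hη.ne_one hp.out.one_lt)
  have hv1 : V.v (η - 1) = 1 / ((p : ℚ) - 1) := by simpa using hη1 1 hp.out.not_dvd_one
  have hdiff : σ₀ δ - δ = (η - 1) * θ₂ := by rw [hδ, map_sub, map_one, hθ₂σ]; ring
  have hdiffv : V.v ((η - 1) * θ₂) = 1 / ((p : ℚ) - 1) := by
    rw [V.v_mul _ _ hη1' hθ₂0, hθ₂v, hv1, add_zero]
  have hσδv : V.v (σ₀ δ) = V.v δ := v_apply hA hd hδ0
  have hδv : V.v δ = 1 / p := by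
    have hle : V.v δ ≤ 1 / ((p : ℚ) - 1) := by
      rw [← hdiffv]
      refine RatVal.GE.le V ?_ (mul_ne_zero hη1' hθ₂0)
      rw [← hdiff]
      exact RatVal.GE.sub V (Or.inr hσδv.ge) (Or.inr le_rfl)
    have hn1 : (n : ℚ) = 1 := by
      have h1 : (0 : ℚ) < n := hn2 ▸ mul_pos hpos hδpos
      have hp3 : (3 : ℚ) ≤ p := by exact_mod_cast h3
      have h2 : (n : ℚ) < 2 := by
        rw [← hn2]
        calc (p : ℚ) * V.v δ ≤ (p : ℚ) * (1 / ((p : ℚ) - 1)) := mul_le_mul_of_nonneg_left hle hpos.le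
          _ < 2 := by rw [mul_one_div, div_lt_iff₀ hp1]; linarith
      have h1' : (0 : ℤ) < n := by exact_mod_cast h1
      have h2' : n < 2 := by exact_mod_cast h2
      exact_mod_cast (show n = 1 by omega)
    rw [eq_div_iff hpos.ne', mul_comm, hn2, hn1]
  -- a uniformiser
  set Y : QA := (η - 1) / δ with hY
  have hY0 : Y ≠ 0 := div_ne_zero hη1' hδ0
  have hYv : V.v Y = 1 / e := by
    rw [hY, V.v_div hη1' hδ0, hv1, hδv, he]
    field_simp
    ring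
  have hσδ0 : σ₀ δ ≠ 0 := (_root_.map_ne_zero _).2 hδ0
  have hσY : σ₀ Y - Y = -((η - 1) ^ 2 * θ₂) / (δ * σ₀ δ) := by
    have hση : σ₀ η = η := by
      obtain ⟨k, -, rfl⟩ := hζ.eq_pow_of_pow_eq_one hη.pow_eq_one
      rw [map_pow, hσζ]
    rw [hY, map_div₀, map_sub, map_one, hση, div_sub_div _ _ hσδ0 hδ0, mul_comm δ]
    congr 1
    linear_combination (-(η - 1)) * hdiff
  have hσYv : V.v (σ₀ Y - Y) = 2 / e := by
    rw [hσY, V.v_div (neg_ne_zero.2 (mul_ne_zero (pow_ne_zero _ hη1') hθ₂0))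
      (mul_ne_zero hδ0 hσδ0), V.v_neg, V.v_mul _ _ (pow_ne_zero _ hη1') hθ₂0, V.v_pow hη1',
      V.v_mul _ _ hδ0 hσδ0, hσδv, hθ₂v, hv1, hδv, he]
    field_simp
    push_cast
    ring
  have hYσ : σ₀ Y ≠ Y := fun h => by
    rw [h, sub_self] at hσY
    exact div_ne_zero (neg_ne_zero.2 (mul_ne_zero (pow_ne_zero _ hη1') hθ₂0))
      (mul_ne_zero hδ0 hσδ0) hσY.symm
  have hYG : ∀ τ ∈ G, τ Y = Y := fun τ hτ => by
    haveI : NeZero p := ⟨hp.out.ne_zero⟩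
    obtain ⟨k, -, hk⟩ := hζ.eq_pow_of_pow_eq_one hη.pow_eq_one
    rw [hY, hδ, map_div₀, map_sub, map_sub, map_one, hθ₂G τ hτ, ← hk, map_pow, hfr τ hτ]
  have hpow : ∀ i : ℕ, V.GE (((i : ℚ) + 1) / e) (σ₀ (Y ^ i) - Y ^ i) := by
    intro i
    induction i with
    | zero => exact Or.inl (by rw [pow_zero, map_one, sub_self])
    | succ i ih =>
      have h : σ₀ (Y ^ (i + 1)) - Y ^ (i + 1) =
          (σ₀ (Y ^ i) - Y ^ i) * σ₀ Y + Y ^ i * (σ₀ Y - Y) := by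
        rw [pow_succ, map_mul]; ring
      rw [h]
      refine RatVal.GE.add V ?_ ?_
      · refine RatVal.GE.mono V (RatVal.GE.mul V ih (V.ge_v (σ₀ Y))) (le_of_eq ?_)
        rw [v_apply hA hd hY0, hYv]; push_cast; ring
      · refine RatVal.GE.mono V (RatVal.GE.mul V (V.ge_v (Y ^ i)) (V.ge_v (σ₀ Y - Y))) (le_of_eq ?_)
        rw [V.v_pow hY0, hYv, hσYv]; push_cast; ring
  have hexact : ∀ i : ℕ, 1 ≤ i → i < p → σ₀ (Y ^ i) - Y ^ i ≠ 0 ∧
      V.v (σ₀ (Y ^ i) - Y ^ i) = ((i : ℚ) + 1) / e := by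
    intro i hi hip
    set ε : QA := (σ₀ Y - Y) / Y with hε
    have hε0 : ε ≠ 0 := div_ne_zero (sub_ne_zero.2 hYσ) hY0
    have hεv : V.v ε = 1 / e := by
      rw [hε, V.v_div (sub_ne_zero.2 hYσ) hY0, hσYv, hYv]; ring
    have hgeom : ∀ m : ℕ, V.GE (1 / e) ((1 + ε) ^ m - 1) := fun m => by
      induction m with
      | zero => exact Or.inl (by rw [pow_zero, sub_self])
      | succ m ih =>
        have h : (1 + ε) ^ (m + 1) - 1 = ((1 + ε) ^ m - 1) * (1 + ε) + ε := by rw [pow_succ]; ring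
        rw [h]
        refine RatVal.GE.add V ?_ (Or.inr hεv.ge)
        have h1 : V.GE 0 (1 + ε) := RatVal.GE.add V (Or.inr V.v_one.ge)
          (Or.inr (by rw [hεv]; positivity))
        exact RatVal.GE.mono V (RatVal.GE.mul V ih h1) (by rw [add_zero])
    set S : QA := ∑ k ∈ Finset.range i, (1 + ε) ^ k with hS
    have hSsub : V.GE (1 / e) (S - (i : QA)) := by
      have h : S - (i : QA) = ∑ k ∈ Finset.range i, ((1 + ε) ^ k - 1) := by
        rw [Finset.sum_sub_distrib, Finset.sum_const, Finset.card_range, nsmul_one]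
      rw [h]
      exact RatVal.GE.sum V fun k _ => hgeom k
    have hi0 : (i : QA) ≠ 0 := Nat.cast_ne_zero.2 (by omega)
    have hiv : V.v (i : QA) = 0 := by
      have hu : A.valuation (i : QA) = 1 := LocalEC.val_natCast_eq_one hA hp.out fun h =>
        absurd (Nat.le_of_dvd hi h) (not_le.2 hip)
      exact (vQ_eq hA hi0 one_ne_zero (z := 0) (by rw [pow_one, zpow_zero, hu])).trans (by simp)
    obtain ⟨hS0, hSv⟩ := V.v_add_eq hi0 (y := S - (i : QA))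
      (RatVal.GE.gt V hSsub (by rw [hiv]; positivity))
    rw [add_sub_cancel] at hS0 hSv
    have h : σ₀ (Y ^ i) - Y ^ i = Y ^ i * (ε * S) := by
      have h1 : σ₀ Y = Y * (1 + ε) := by rw [hε]; field_simp; ring
      rw [map_pow, h1, mul_pow, hS, show ε * ∑ k ∈ Finset.range i, (1 + ε) ^ k =
        (1 + ε) ^ i - 1 by rw [← geom_sum_mul (1 + ε) i]; ring]
      ring
    rw [h]
    refine ⟨mul_ne_zero (pow_ne_zero _ hY0) (mul_ne_zero hε0 hS0), ?_⟩
    rw [V.v_mul _ _ (pow_ne_zero _ hY0) (mul_ne_zero hε0 hS0), V.v_mul _ _ hε0 hS0, hSv, hiv,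
      hεv, V.v_pow hY0, hYv]
    ring
  have hY1 : e * V.v Y = ((1 : ℤ) : ℚ) := by rw [hYv, Int.cast_one]; field_simp
  have hndvd : ¬ (p : ℤ) ∣ 1 := fun h => hp.out.not_dvd_one (Int.natCast_dvd_natCast.1 h)
  -- the moves of the terms
  have hterm : ∀ (b : QA) (i : ℕ), b ≠ 0 → σ₀ b = b →
      V.GE (V.v (b * Y ^ i) + 1 / e) (σ₀ (b * Y ^ i) - b * Y ^ i) := by
    intro b i hb hbσ
    rw [map_mul, hbσ, ← mul_sub]
    refine RatVal.GE.mono V (RatVal.GE.mul V (V.ge_v b) (hpow i)) (le_of_eq ?_)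
    rw [V.v_mul _ _ hb (pow_ne_zero _ hY0), V.v_pow hY0, hYv]; ring
  have hsum : ∀ (b : ℕ → QA) (a : QA), a = ∑ i ∈ Finset.range p, b i * Y ^ i →
      σ₀ a - a = ∑ i ∈ Finset.range p, (σ₀ (b i * Y ^ i) - b i * Y ^ i) := fun b a h => by
    rw [Finset.sum_sub_distrib, ← map_sum, ← h]
  refine
    { le := hle, normal := hn, fix_root := hfr, mem := hσ, fix_gen := hσζ
      val_mem := ⟨p * (p - 1), Nat.mul_pos hp.out.pos (Nat.sub_pos_of_lt hp.out.one_lt),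
        fun a ha hG => ?_⟩
      move := fun a ha hG => ?_
      move_strict := fun a ha hG hgt' => ?_
      move_unit := fun a ha hG hv0 => ?_ }
  · obtain ⟨b, i₀, -, hb0, hb, -, hv, -⟩ := hcoord Y 1 hY0 hYG hYσ hY1 hndvd a ha hG
    obtain ⟨z, hz⟩ := hbase _ hb0 (hb i₀).1 (hb i₀).2
    refine ⟨p * z + i₀, ?_⟩
    rw [Nat.cast_mul, Nat.cast_sub hp.out.one_le, Nat.cast_one,
      ← hv, V.v_mul _ _ hb0 (pow_ne_zero _ hY0), V.v_pow hY0, hYv]
    push_cast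
    rw [← hz, he]
    field_simp
  · obtain ⟨b, i₀, -, -, hb, hab, hv, hgt⟩ := hcoord Y 1 hY0 hYG hYσ hY1 hndvd a ha hG
    rw [← he, hsum b a hab]
    refine RatVal.GE.sum V fun i hi => ?_
    rcases eq_or_ne (b i) 0 with h0 | h0
    · exact Or.inl (by rw [h0, zero_mul, map_zero, sub_zero])
    refine RatVal.GE.mono V (hterm _ i h0 (hb i).2) ?_
    rcases eq_or_ne i i₀ with rfl | hne
    · rw [hv]
    · have := (hgt i (Finset.mem_range.1 hi) hne).lt V (mul_ne_zero h0 (pow_ne_zero _ hY0))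
      linarith
  · obtain ⟨b, i₀, hi₀, hb0, hb, hab, hv, hgt⟩ := hcoord Y 1 hY0 hYG hYσ hY1 hndvd a ha hG
    rcases Nat.eq_zero_or_pos i₀ with rfl | hipos
    · rw [← hv, pow_zero, mul_one]
      obtain ⟨z, hz⟩ := hbase _ hb0 (hb 0).1 (hb 0).2
      refine ⟨p - 1, z, fun hd => ?_, by rwa [Nat.cast_sub hp.out.one_le, Nat.cast_one]⟩
      have := Nat.le_of_dvd (Nat.sub_pos_of_lt hp.out.one_lt) hd
      have := hp.out.one_lt
      omega
    exfalso
    rw [← he, hsum b a hab, ← Finset.add_sum_erase _ _ (Finset.mem_range.2 hi₀)] at hgt'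
    obtain ⟨he0', hev⟩ := hexact i₀ hipos hi₀
    have hx : σ₀ (b i₀ * Y ^ i₀) - b i₀ * Y ^ i₀ = b i₀ * (σ₀ (Y ^ i₀) - Y ^ i₀) := by
      rw [map_mul, (hb i₀).2, mul_sub]
    have hxv : V.v (σ₀ (b i₀ * Y ^ i₀) - b i₀ * Y ^ i₀) = V.v a + 1 / e := by
      rw [hx, V.v_mul _ _ hb0 he0', hev, ← hv, V.v_mul _ _ hb0 (pow_ne_zero _ hY0), V.v_pow hY0,
        hYv]
      ring
    obtain ⟨h1, h2⟩ := V.v_add_eq (hx ▸ mul_ne_zero hb0 he0')
      (y := ∑ i ∈ (Finset.range p).erase i₀, (σ₀ (b i * Y ^ i) - b i * Y ^ i))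
      (RatVal.GT.sum V fun i hi => by
        rw [hxv]
        obtain ⟨hne, hi'⟩ := Finset.mem_erase.1 hi
        rcases eq_or_ne (b i) 0 with h0 | h0
        · exact Or.inl (by rw [h0, zero_mul, map_zero, sub_zero])
        refine RatVal.GE.gt V (hterm _ i h0 (hb i).2) ?_
        have := (hgt i (Finset.mem_range.1 hi') hne).lt V (mul_ne_zero h0 (pow_ne_zero _ hY0))
        linarith)
    have h3 := hgt'.lt V h1
    rw [h2, hxv] at h3
    exact lt_irrefl _ h3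
  · obtain ⟨b, i₀, -, -, hb, hab, hv, hgt⟩ := hcoord Y 1 hY0 hYG hYσ hY1 hndvd a ha hG
    rw [← he, hsum b a hab]
    refine RatVal.GT.sum V fun i hi => ?_
    rcases eq_or_ne (b i) 0 with h0 | h0
    · exact Or.inl (by rw [h0, zero_mul, map_zero, sub_zero])
    rcases Nat.eq_zero_or_pos i with rfl | hipos
    · exact Or.inl (by rw [pow_zero, mul_one, (hb 0).2, sub_self])
    refine RatVal.GE.gt V (hterm _ i h0 (hb i).2) (lt_add_of_pos_left _ ?_)
    have hne0 : b i * Y ^ i ≠ 0 := mul_ne_zero h0 (pow_ne_zero _ hY0)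
    have hnn : 0 ≤ V.v (b i * Y ^ i) := by
      rw [← hv0]
      rcases eq_or_ne i i₀ with rfl | hne
      · exact hv.ge
      · exact ((hgt i (Finset.mem_range.1 hi) hne).lt V hne0).le
    refine lt_of_le_of_ne hnn fun h => ?_
    obtain ⟨zi, hzi⟩ := hbase _ h0 (hb i).1 (hb i).2
    rw [V.v_mul _ _ h0 (pow_ne_zero _ hY0), V.v_pow hY0, hYv] at h
    have h4 : ((p * zi : ℤ) : ℚ) = ((-(i : ℤ) : ℤ) : ℚ) := by
      push_cast
      rw [← hzi]
      have h5 : e * (V.v (b i) + i * (1 / e)) = 0 := by rw [← h, mul_zero]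
      rw [mul_add, mul_left_comm, mul_one_div, div_self he0.ne', mul_one, he] at h5
      linear_combination h5
    have h6 : (p : ℤ) ∣ (i : ℤ) := Int.dvd_neg.1 ⟨_, (Int.cast_injective h4).symm⟩
    exact absurd (Nat.le_of_dvd hipos (Int.natCast_dvd_natCast.1 h6))
      (not_le.2 (Finset.mem_range.1 hi))

end FLTAgent.MazurPrinciple
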