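import Fermat.Agent.MazurPrinciple.Climb
import Fermat.Agent.MazurPrinciple.PowerResidues
import Fermat.Agent.MazurPrinciple.WildField

/-!
# The local half of the principle at `p`

A representative congruent to one modulo `(ζ - 1) ^ p` shows that `σ D - k D` is principal.
-/

set_option autoImplicit false
set_option linter.style.haveILetI false
set_option linter.unusedSectionVars false
set_option synthInstance.maxHeartbeats 400000
set_option maxHeartbeats 1000000

noncomputable section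

open AlgebraicCurve ModularCurve IsLocalRing

namespace FLTAgent.MazurPrinciple

open FLTAgent.Curves FLTAgent.Specialization FLTAgent.BadRed
open FLTAgent.EigenLattice (pushPic)
open AlgebraicCurve.SemilinearAut (baseAut)

local notation "QA" => AlgebraicClosure ℚ
local notation "GG" => (AlgebraicClosure ℚ ≃ₐ[ℚ] AlgebraicClosure ℚ)

section At

variable {p : ℕ} [Fact p.Prime] [NeZero p] {M : ℕ} [NeZero M] [NeZero (M * p)] (hpM : ¬ p ∣ M)
  {A : ValuationSubring QA} [IsAlgClosed (ResidueField A)] [CharP (ResidueField A) p]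
  [Curves.IsFunctionField (ResidueField A) (modularFunctionFieldFullC (ResidueField A) M)]
  (hA : A.LiesOverPrime p)

local notation "kk" => ResidueField A
local notation "galN" => arithmeticGalois (modularFunctionFieldFull (M * p))

omit [IsAlgClosed (ResidueField A)] in
include hA in
/-- Inertia multiplies `(ζ - 1) ^ p` by a number congruent to the exponent. -/
theorem exists_move_top {ζ : QA} (hζ : IsPrimitiveRoot ζ p) {σ : GG} {k : ℕ}
    (hk : σ ζ = ζ ^ k) :
    ∃ c : A, σ ((ζ - 1) ^ p) = (c : QA) * (ζ - 1) ^ p ∧ residue A c = (k : kk) := by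
  have hp : p.Prime := Fact.out
  have hζA : ζ ∈ A := FLTAgent.Kronecker.mem_of_pow_eq_one A hp.ne_zero hζ.pow_eq_one
  have hne : ζ - 1 ≠ 0 := sub_ne_zero.2 (hζ.ne_one hp.one_lt)
  have hres : residue A ⟨ζ, hζA⟩ = 1 := by
    have h : residue A (⟨ζ, hζA⟩ - 1) = 0 := ((ratVal hA).res_iff (⟨ζ, hζA⟩ - 1) hne).2 (by
      show 0 < (ratVal hA).v (ζ - 1)
      rw [v_sub_one hA hζ]
      have : (1 : ℚ) < p := by exact_mod_cast hp.one_lt
      exact div_pos one_pos (by linarith))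
    rwa [map_sub, map_one, sub_eq_zero] at h
  refine ⟨(∑ i ∈ Finset.range k, (⟨ζ, hζA⟩ : A) ^ i) ^ p, ?_, ?_⟩
  · rw [map_pow, map_sub, map_one, hk, ← geom_sum_mul, mul_pow]
    push_cast
    rfl
  · rw [map_pow, map_sum]
    simp only [map_pow, hres, one_pow, Finset.sum_const, Finset.card_range, nsmul_eq_mul, mul_one]
    exact map_natCast (frobenius kk p) k

include hA in
/-- Inertia preserves the integers. -/
theorem inertia_notMem {σ : GG} (hσ : σ ∈ A.inertiaSubgroupIn ℚ) {a : QA} (ha : a ∉ A) :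
    σ a ∉ A := by
  have ha0 : a ≠ 0 := fun h => ha (h ▸ A.zero_mem)
  rw [(ratVal hA).mem_iff _ ((map_ne_zero σ).2 ha0), v_apply hA (mem_decomposition hσ) ha0,
    ← (ratVal hA).mem_iff _ ha0]
  exact ha

set_option maxHeartbeats 4000000 in
include hpM in
/-- The conclusion from a representative at the top level. -/
theorem smul_eq_of_top (hp5 : InRange p M) (N : (sheetAt hpM hA).Nodes) {G : Subgroup GG}
    {x : JZero (M * p)} {g : X0Bar (M * p)} (hg : IsClimb hpM hA G N.m₀ x g) {ζ : QA}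
    (hζ : IsPrimitiveRoot ζ p) (hnear : NearOne (sheetAt hpM hA) ((ζ - 1) ^ p) g) {σ : GG}
    (hσ : σ ∈ A.inertiaSubgroupIn ℚ) {k : ℕ} (hk : σ ζ = ζ ^ k) : σ • x = k • x := by
  classical
  haveI := instIsFunctionFieldX0Bar M
  haveI := instIsFunctionFieldX0Bar (M * p)
  have hp : p.Prime := Fact.out
  have hp1 : (1 : ℚ) < p := by exact_mod_cast hp.one_lt
  set V := ratVal hA
  have hS := sheetAt_good hpM hA hp5
  obtain ⟨hg0, -, hgm, D, hD, rfl⟩ := hg
  have hne : ζ - 1 ≠ 0 := sub_ne_zero.2 (hζ.ne_one hp.one_lt)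
  have ht₀ : (ζ - 1) ^ p ≠ 0 := pow_ne_zero _ hne
  have ht₀v : V.v ((ζ - 1) ^ p) = (p : ℚ) / ((p : ℚ) - 1) := by
    rw [V.v_pow hne, v_sub_one hA hζ, mul_one_div]
  have hpos : 0 < V.v ((ζ - 1) ^ p) := by rw [ht₀v]; exact div_pos (by linarith) (by linarith)
  have hgr := pair_res_one_of_nearOne V ht₀ hpos hnear
  obtain ⟨hg₁, hg₂⟩ := hgr
  rw [one_smul] at hg₂
  simp only [Prod.fst_one, Prod.snd_one] at hg₁ hg₂
  have hnot : ∀ Q : Place QA (X0Bar (M * p)), 0 ≤ Q.ord (sheetAt hpM hA).X →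
      (D : Divisor QA (X0Bar (M * p))) Q ≠ 0 → ev Q (sheetAt hpM hA).X ∉ A := fun Q hQ hDQ =>
    ev_notMem_of_nearOne V ht₀ hpos hgm hnear hQ (by
      rw [hD]; exact mul_ne_zero (Int.natCast_ne_zero.2 hp.ne_zero) hDQ)
  obtain ⟨y, hy, hgy⟩ := hnear
  obtain ⟨η₁, hη₁⟩ := (sheetAt hpM hA).R₁.exists_res_of_mem hy.1
  obtain ⟨η₂, hη₂⟩ := (sheetAt hpM hA).R₂.exists_res_of_mem hy.2
  obtain ⟨c, hc, hck⟩ := exists_move_top hA hζ hk
  have hg' : galN σ • g ≠ 0 := by rw [ne_eq, smul_eq_zero_iff_eq]; exact hg0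
  set t₀ := (ζ - 1) ^ p
  have hbase : t₀⁻¹ • (g - 1) = y := by
    rw [hgy, add_sub_cancel_left, smul_smul, inv_mul_cancel₀ ht₀, one_smul]
  have hmoved : t₀⁻¹ • (galN σ • g - 1) = (c : QA) • (galN σ • y) := by
    rw [hgy, smul_add, smul_one, FlatModel.isArith_galois.smul_smul σ, hc, add_sub_cancel_left,
      smul_smul, mul_comm (c : QA), inv_mul_cancel_left₀ ht₀]
  -- the digit of `σ g / g ^ k` vanishes
  have key : ∀ (R : Reduction (residue A) (X0Bar (M * p)) (modularFunctionFieldFullC kk M))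
      (η : modularFunctionFieldFullC kk M), R.Res y η → R.Res (galN σ • y) η → R.Res g 1 →
      R.Res (t₀⁻¹ • (galN σ • g / g ^ k - 1)) 0 := by
    intro R η hη hση hR1
    have hpowk : ∀ n : ℕ, R.Res (t₀⁻¹ • (g ^ n - 1)) ((n : kk) • η) := by
      intro n
      induction n with
      | zero => simpa using R.res_zero
      | succ n ih =>
        have h := (ih.mul hR1).add (hbase.symm ▸ hη : R.Res (t₀⁻¹ • (g - 1)) η)
        rw [mul_one, smul_mul_assoc, ← smul_add] at h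
        convert h using 1
        · congr 1; ring
        · push_cast; rw [add_smul, one_smul]
    have h1 := hση.smul c
    rw [← hmoved, hck] at h1
    have h2 := (h1.sub (hpowk k)).mul ((hR1.pow k).inv (by rw [one_pow]; exact one_ne_zero))
    rw [sub_self, zero_mul, ← smul_sub, sub_sub_sub_cancel_right, smul_mul_assoc] at h2
    convert h2 using 2
    field_simp [pow_ne_zero k hg0]
  have hdig : ((sheetAt hpM hA).pair 1).Res (t₀⁻¹ • (galN σ • g / g ^ k - 1)) 0 :=
    ⟨key _ η₁ hη₁ (res₁_inertia hpM hA hσ hη₁) hg₁,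
      by rw [one_smul]; exact key _ η₂ hη₂ (res₂_inertia hpM hA hσ hη₂) hg₂⟩
  obtain ⟨t, ht, htv, hnear'⟩ := exists_nearOne_gt V ht₀ hdig
  rw [ht₀v] at htv
  -- its divisor
  set D₀ : Divisor QA (X0Bar (M * p)) :=
    galN σ • (D : Divisor QA (X0Bar (M * p))) - (k : ℤ) • (D : Divisor QA (X0Bar (M * p)))
  have hD₀v : ∀ Q, D₀ Q = (D : Divisor QA (X0Bar (M * p))) ((galN σ)⁻¹ • Q) -
      (k : ℤ) * (D : Divisor QA (X0Bar (M * p))) Q := fun Q => by
    simp only [D₀, Finsupp.sub_apply, SemilinearAut.divisor_smul_apply, Finsupp.smul_apply,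
      smul_eq_mul]
  have hD₀ : ∀ Q, Q.ord (galN σ • g / g ^ k) = (p : ℤ) * D₀ Q := fun Q => by
    rw [Curves.ord_div Q hg' (pow_ne_zero _ hg0), Curves.ord_pow, ord_smul', hD, hD, hD₀v]
    ring
  have hsupp : ∀ Q : Place QA (X0Bar (M * p)), 0 ≤ Q.ord (sheetAt hpM hA).X → D₀ Q ≠ 0 →
      ev Q (sheetAt hpM hA).X ∉ A := by
    intro Q hQ hDQ
    by_cases h1 : (D : Divisor QA (X0Bar (M * p))) Q = 0
    swap
    · exact hnot Q hQ h1
    rw [hD₀v, h1, mul_zero, sub_zero] at hDQ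
    obtain ⟨Q', rfl⟩ : ∃ Q', galN σ • Q' = Q := ⟨(galN σ)⁻¹ • Q, smul_inv_smul _ _⟩
    rw [inv_smul_smul] at hDQ
    have hX : galN σ • (sheetAt hpM hA).X = (sheetAt hpM hA).X :=
      (galois_smul_alpha σ (sheetAt hpM hA).MC.x).trans (congrArg (sheetAt hpM hA).α
        (FlatModel.smul_jq (natCast_ne_zero hpM kk) σ))
    have hQ' : 0 ≤ Q'.ord (sheetAt hpM hA).X := by
      rwa [← hX, SemilinearAut.ord_smul] at hQ
    rw [← hX, ev_smul_aut (galN σ) Q' (ordGE_of_le hQ'), baseAut_arith]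
    exact inertia_notMem hA hσ (hnot Q' hQ' hDQ)
  obtain ⟨h, hh⟩ := exists_pth_root V hS N (div_ne_zero hg' (pow_ne_zero _ hg0)) hD₀ ht htv hnear'
    hsupp
  have hh0 : h ≠ 0 := fun h0 => div_ne_zero hg' (pow_ne_zero k hg0)
    (by rw [← hh, h0, zero_pow hp.ne_zero])
  rw [galois_smul_pic0_def, SemilinearAut.pic0_smul_mk,
    show k • Pic0.mk D = Pic0.mk (k • D) from (QuotientAddGroup.mk_nsmul _ _ _).symm]
  refine QuotientAddGroup.eq_iff_sub_mem.2 (AddSubgroup.mem_addSubgroupOf.2 ⟨h, hh0, fun v => ?_⟩)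
  have h1 := hD₀ v
  rw [← hh, Curves.ord_pow, hD₀v] at h1
  rw [mul_left_cancel₀ (Int.natCast_ne_zero.2 hp.ne_zero) h1, AddSubgroupClass.coe_sub,
    Finsupp.sub_apply, SemilinearAut.coe_degZeroSMulHom, SemilinearAut.divisor_smul_apply,
    AddSubgroupClass.coe_nsmul, Finsupp.smul_apply, nsmul_eq_mul]

end At

set_option maxHeartbeats 4000000 in
/-- **The local half of the principle at `p`**, given measuring functions. -/
theorem core_of_measure {p : ℕ} [Fact p.Prime] [NeZero p] {M : ℕ} [NeZero M] [NeZero (M * p)]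
    (hp5 : InRange p M) (hpM : ¬ p ∣ M) {A : ValuationSubring QA} (hA : A.LiesOverPrime p)
    (hE : ∀ [IsAlgClosed (ResidueField A)] [CharP (ResidueField A) p]
      [Curves.IsFunctionField (ResidueField A) (modularFunctionFieldFullC (ResidueField A) M)],
      Nonempty (Measure hpM hA))
    {ζ : QA} (hζ : IsPrimitiveRoot ζ p) {G : Subgroup GG} {σ₀ : GG} (hW : WildData hA ζ G σ₀)
    (S : Finset ℕ) (a : ℕ → ℤ)
    (hl : ∃ l : ℕ, l.Prime ∧ ¬ l ∣ M * p ∧ l ∉ S ∧ ¬ (p : ℤ) ∣ a l - (l + 1))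
    (hNo : NoResidualSystem A p M S a) (x : JZero (M * p)) (hx : p • x = 0)
    (hxG : ∀ τ ∈ G, τ • x = x) (hxα : pushPic M p (heckeAlphaBar QA M p) x = 0)
    (hxβ : pushPic M p (heckeBetaBar QA M p) x = 0)
    (heig : ∀ l : ℕ, ∀ [NeZero l], l.Prime → ¬ l ∣ M * p → l ∉ S →
      heckeOperatorAlong QA (M * p) l x = a l • x)
    {σ : GG} (hσ : σ ∈ A.inertiaSubgroupIn ℚ) {k : ℕ} (hk : σ ζ = ζ ^ k) : σ • x = k • x := by
  classical
  haveI : IsAlgClosed (ResidueField A) := FrobTrace.isAlgClosed_residueField A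
  haveI : CharP (ResidueField A) p := FrobTrace.charP_residueField hA
  haveI := isFunctionField_full (ResidueField A) M rfl (natCast_ne_zero_residue hA hpM)
  haveI := instIsFunctionFieldX0Bar M
  haveI := instIsFunctionFieldX0Bar (M * p)
  obtain ⟨N⟩ := (sheetAt_good hpM hA hp5).nonempty_nodes
  obtain ⟨f, D, d, d₁, γ₁, γ₂, hf, hD, hDx, hfix, hd, hd₁, hdG, hd₁G, hγ₁, hγ₂, hres⟩ :=
    exists_power_residues hpM hA hp5 hW hE.some S a hl hNo hx hxG hxα hxβ heig
  have hne : ζ - 1 ≠ 0 := sub_ne_zero.2 (hζ.ne_one (Fact.out : p.Prime).one_lt)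
  obtain ⟨g, hg, hnear⟩ := exists_climb hpM hA hp5 hW N hxα hxβ
    (f := d₁ • f) (smul_ne_zero hd₁ hf) D
    (fun v => by
      rw [Algebra.smul_def, v.ord_mul ((_root_.map_ne_zero _).2 hd₁) hf, Curves.ord_algebraMap,
        zero_add, hD])
    hDx (fun σ hσ => by rw [FlatModel.isArith_galois.smul_smul σ, hd₁G σ hσ, hfix σ hσ]) hd hdG
    hγ₁ hγ₂ hres (t₀ := (ζ - 1) ^ p) (pow_ne_zero _ hne)
    (by rw [(ratVal hA).v_pow hne, v_sub_one hA hζ, mul_one_div])
  exact smul_eq_of_top hpM hA hp5 N hg hζ hnear hσ hk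

/-- **The local half of the principle at `p`** from five on. -/
theorem core : CoreStatement := fun p _ _ hp5 M _ _ hpM _ hA ζ hζ _ _ hW S a hl hNo x hx hxG hxα hxβ
    heig _ hσ _ hk =>
  core_of_measure (.inl hp5) hpM hA (fun {_} {_} {_} => exists_measure hpM hA hp5) hζ hW S a hl hNo
    x hx hxG hxα hxβ heig hσ hk

end FLTAgent.MazurPrinciple
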