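import Fermat.Agent.MazurPrinciple.GlobalSystem
import Fermat.Agent.CuspForms.Lifting

/-!
# A system seen at level `M` lifts to an eigenform of level `M`
-/

set_option autoImplicit false
set_option linter.style.haveILetI false
set_option synthInstance.maxHeartbeats 400000
set_option maxHeartbeats 1000000

noncomputable section

namespace FLTAgent.MazurPrinciple

open FLTAgent.EigenLattice

/-- A system killing the kernel of evaluation at level `M` is that of an eigenform of level `M`. -/
theorem exists_eigenform_lift {N M p : ℕ} [NeZero M] [Fact p.Prime] (S : Finset ℕ) (a : ℕ → ℤ)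
    (hker : ∀ P : MvPolynomial (GoodIdx N S) ℤ, evalGood N S M P = 0 →
      (systemEval N S a P : ZMod p) = 0) :
    ∃ (g : CuspForm (CongruenceSubgroup.Gamma0 M) 2) (𝔪 : Ideal (integralClosure ℤ ℂ)),
      g.IsNormalizedEigenform ∧ 𝔪.IsMaximal ∧ (p : integralClosure ℤ ℂ) ∈ 𝔪 ∧
      ∀ q : GoodIdx N S, ∃ b : integralClosure ℤ ℂ,
        (b : ℂ) = ModularFormClass.qCoeff g q.1 ∧ b - (a q.1 : integralClosure ℤ ℂ) ∈ 𝔪 := by
  classical
  haveI : Module.Finite ℤ (CuspForm.heckeAlgebra M 2 (∅ : Set ℕ)) := PeriodHecke.finite_hecke M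
  set ev := evalGood N S M
  set θ : MvPolynomial (GoodIdx N S) ℤ →+* ZMod p :=
    (Int.castRingHom (ZMod p)).comp (systemEval N S a)
  haveI : IsNoetherian ℤ (CuspForm.heckeAlgebra M 2 (∅ : Set ℕ)) :=
    isNoetherian_of_isNoetherianRing_of_finite _ _
  haveI : Module.Finite ℤ ev.range :=
    Module.Finite.of_injective ev.range.subtype.toAddMonoidHom.toIntLinearMap
      Subtype.val_injective
  haveI : IsAddTorsionFree ev.range := by
    haveI : IsAddTorsionFree (CuspForm (CongruenceSubgroup.Gamma0 M) 2) :=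
      IsAddTorsionFree.of_isTorsionFree ℂ _
    refine ⟨fun n hn x y h => Subtype.ext (Subtype.ext (LinearMap.ext fun f => ?_))⟩
    refine nsmul_right_injective hn ?_
    have h1 := congrArg (fun z : ev.range =>
      (((z : CuspForm.heckeAlgebra M 2 (∅ : Set ℕ)) : Module.End ℂ
        (CuspForm (CongruenceSubgroup.Gamma0 M) 2)) f)) h
    simpa using h1
  let φ : ev.range →+* ZMod p :=
    ev.rangeRestrict.liftOfRightInverse (Function.surjInv ev.rangeRestrict_surjective)
      (Function.rightInverse_surjInv _) ⟨θ, fun P hP => RingHom.mem_ker.2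
        (hker P (congrArg Subtype.val (RingHom.mem_ker.1 hP)))⟩
  have hφ : ∀ P, φ (ev.rangeRestrict P) = θ P := fun P =>
    RingHom.liftOfRightInverse_comp_apply _ _ _ _ P
  obtain ⟨χ, 𝔪, h𝔪, hp𝔪, hχ⟩ := CuspForms.exists_lift_character φ
  obtain ⟨χH, hχH⟩ := exists_extend_hom ev
    ((integralClosure ℤ ℂ).val.toRingHom.comp (χ.comp ev.rangeRestrict)) fun P hP => by
      rw [RingHom.mem_ker, RingHom.comp_apply, RingHom.comp_apply,
        show ev.rangeRestrict P = 0 from Subtype.ext (RingHom.mem_ker.1 hP), map_zero, map_zero]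
  obtain ⟨g, hg, hgc⟩ :=
    CuspForms.exists_eigenform_of_ringHom (CuspForms.hasIntegralStructure M 2) χH
  refine ⟨g, 𝔪, hg, h𝔪, hp𝔪, fun q => ⟨χ (ev.rangeRestrict (MvPolynomial.X q)), ?_, ?_⟩⟩
  · rw [hgc q.1 q.1.2, ← evalGood_X, hχH]
    rfl
  · have h := hχ (ev.rangeRestrict (MvPolynomial.X q - MvPolynomial.C (a q.1))) (by
      rw [hφ, map_sub, RingHom.comp_apply, RingHom.comp_apply, systemEval, MvPolynomial.eval_X,
        MvPolynomial.eval_C, sub_self])
    rwa [map_sub, map_sub, eq_intCast MvPolynomial.C (a q.1), map_intCast, map_intCast] at h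

end FLTAgent.MazurPrinciple
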