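import Fermat.Agent.MazurPrinciple.FreyWild
import Fermat.Agent.MazurPrinciple.GlobalLift
import Fermat.Agent.MazurPrinciple.GlobalResidual
import Fermat.Prelude.Def_FreyPackage_IsConductorLevel
import Fermat.Prelude.Def_FLTPrelim_ModularRep

/-!
# Level lowering at `p`: the global half

If the system of the Frey curve is not seen at level `M = N / p`, a Galois stable part of
`J₀(N)[p]` with this system is killed by both degeneracy push forwards, so by the local half inertia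
at `p` acts on it through the cyclotomic character, which irreducibility forbids.
-/

set_option autoImplicit false
set_option linter.style.haveILetI false
set_option synthInstance.maxHeartbeats 400000
set_option maxHeartbeats 1000000

noncomputable section

namespace FLTAgent.MazurPrinciple

open FLTAgent.EigenLattice FLTAgent.LocalEC
open ModularCurve (heckeAlphaBar heckeBetaBar)

local notation "QA" => AlgebraicClosure ℚ
local notation "GG" => (AlgebraicClosure ℚ ≃ₐ[ℚ] AlgebraicClosure ℚ)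

/-- Inertia over `p` moves the primitive `p`-th roots of unity. -/
theorem exists_inertia_move {p : ℕ} [Fact p.Prime] (h5 : 5 ≤ p) {A : ValuationSubring QA}
    (hA : A.LiesOverPrime p) {ζ : QA} (hζ : IsPrimitiveRoot ζ p) :
    ∃ σ ∈ A.inertiaSubgroupIn ℚ, σ ζ ≠ ζ := by
  by_contra hcon
  push Not at hcon
  obtain ⟨z, hz⟩ := exists_v_eq_intCast hA (x := ζ - 1) (sub_ne_zero.2 (hζ.ne_one (by omega)))
    fun τ hτ => by rw [map_sub, hcon τ hτ, map_one]
  rw [v_sub_one hA hζ] at hz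
  have h5' : (5 : ℚ) ≤ p := by exact_mod_cast h5
  rw [div_eq_iff (by linarith)] at hz
  have h : (1 : ℤ) = z * ((p : ℤ) - 1) := by exact_mod_cast hz
  have h' : ((p : ℤ) - 1) ∣ 1 := ⟨z, h.trans (mul_comm _ _)⟩
  have := Int.le_of_dvd one_pos h'
  omega

/-- The local half excludes a system of the Frey curve killed at level `M`. -/
theorem false_of_core (hcore : CoreStatement) (P : FreyPackage) [Fact P.p.Prime] [NeZero P.p]
    (habc : (P.p : ℤ) ∣ P.a * P.b * P.c)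
    (hirr : WeierstrassCurve.Affine.Point.GaloisRepIsIrreducible (K := QA) ℚ P.freyCurve P.p)
    (M : ℕ) [NeZero M] [NeZero (M * P.p)] (hpM : ¬ P.p ∣ M) (S : Finset ℕ) (a : ℕ → ℤ)
    (hpS : P.p ∈ S) (hE : HasSystem P (M * P.p) S a) (h0 : eigenSpace (M * P.p) P.p S a ≠ ⊥)
    (Q : MvPolynomial (GoodIdx (M * P.p) S) ℤ) (hQ0 : evalGood (M * P.p) S M Q = 0)
    (hQa : (systemEval (M * P.p) S a Q : ZMod P.p) ≠ 0) : False := by
  haveI := finite_freyTorsion P
  set κ := FLTAgent.Kronecker.complexEmb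
  obtain ⟨ζ, hζ⟩ := Reducible.exists_primitiveRoot P.p
  obtain ⟨A, hA⟩ := Frobenius.exists_liesOverPrime P.p P.pp
  obtain ⟨G, σ₀, hwd, hG⟩ := exists_wildData_frey P hA habc hζ
  obtain ⟨R, T, -, hR, hbasis, hI, -, -, -, -⟩ := exists_frey_place P hA habc
  have hirr' : ∀ L : Submodule (ZMod P.p) (freyTorsion P),
      (∀ g, ∀ x ∈ L, freyRho P g x ∈ L) → L = ⊥ ∨ L = ⊤ := fun L hL => hirr.2 L hL
  obtain ⟨W, hW0, hWst, hWfix⟩ := exists_stable_fixed κ hpS hE h0
  obtain ⟨σ, hσ, hσζ⟩ := exists_inertia_move P.hp5 hA hζ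
  set k := ExtCitation.cycloExp P.p σ
  have hσk : σ ζ = ζ ^ k := Reducible.map_eq_pow_cycloExp P.p σ hζ.pow_eq_one
  have hk1 : (k : ZMod P.p) ≠ 1 := fun h => hσζ (by
    rw [hσk, pow_eq_pow_mod k hζ.pow_eq_one,
      (ZMod.natCast_eq_natCast_iff' k 1 P.p).1 (by rw [h, Nat.cast_one]),
      Nat.mod_eq_of_lt P.pp.one_lt, pow_one])
  have hσR : freyRho P σ R = (k : ZMod P.p) • R := by
    rw [freyRho_apply, (hI σ hσ).1, Nat.cast_smul_eq_nsmul]
  have hσT : freyRho P σ T ≠ (k : ZMod P.p) • T := by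
    intro h
    obtain ⟨c, hc⟩ := (hI σ hσ).2
    rw [freyRho_apply, hc, ← Nat.cast_smul_eq_nsmul (ZMod P.p) c R] at h
    have hd : (k : ZMod P.p) - 1 ≠ 0 := sub_ne_zero.2 hk1
    have hT : T = (((k : ZMod P.p) - 1)⁻¹ * (c : ZMod P.p)) • R := by
      rw [mul_smul, eq_inv_smul_iff₀ hd, sub_smul, one_smul, ← h, add_sub_cancel_left]
    have htop : Submodule.span (ZMod P.p) {R} = ⊤ := eq_top_iff.2 fun x _ => by
      obtain ⟨i, j, rfl⟩ := hbasis x
      refine add_mem (nsmul_mem (Submodule.mem_span_singleton_self R) i) (nsmul_mem ?_ j)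
      rw [hT]
      exact Submodule.smul_mem _ _ (Submodule.mem_span_singleton_self R)
    have h1 := finrank_span_singleton (K := ZMod P.p) hR
    rw [htop, finrank_top, finrank_freyTorsion] at h1
    omega
  refine false_of_scalar (finrank_freyTorsion P) (freyRho P) hirr'
    (eigenSpaceRep (M * P.p) κ P.p S a) (eigenSpace_relation κ hpS hE) W hWst hW0
    (σ := σ) (fun w hw => ?_) hR hσR hσT
  have hfix : ∀ τ ∈ G, τ • classOf (M * P.p) κ P.p w.1 = classOf (M * P.p) κ P.p w.1 :=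
    fun τ hτ => by
      rw [smul_classOf, ← coe_eigenSpaceRep,
        hWfix τ (LinearMap.ext fun x => hG τ hτ x) w hw]
  obtain ⟨l, hl, hlN, hlS, hla⟩ := exists_not_eisenstein hE hirr'
  have h := hcore P.p P.hp5 M hpM A hA ζ hζ G σ₀ hwd S a ⟨l, hl, hlN, hlS, hla⟩
    (noResidualSystem hA M S a (.inl P.hp5) hpM Q hQ0 hQa)
    (classOf (M * P.p) κ P.p w.1) (nsmul_classOf _ _ _ _) hfix
    (pushPic_classOf κ P.p S a _ (fun σ x => alpha_compat M P.p σ x) hpS Q hQ0 hQa w.2)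
    (pushPic_classOf κ P.p S a _ (fun σ x => beta_compat M P.p σ x) hpS Q hQ0 hQa w.2)
    (fun l _ hl hlN hlS => hecke_classOf (M * P.p) κ P.p S a w.2 l hl hlN hlS) σ hσ k hσk
  rw [smul_classOf, ← coe_eigenSpaceRep, ← classOf_smul] at h
  exact Subtype.ext (classOf_injective _ _ _ h)

/-- The eigenform gives a character of the Hecke algebra modulo `p` with the system of the
curve. -/
theorem eigenSpace_ne_bot_of_congr {N : ℕ} [NeZero N] {p : ℕ} [Fact p.Prime] [NeZero p]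
    (S : Finset ℕ) (a : ℕ → ℤ) {f : CuspForm (CongruenceSubgroup.Gamma0 N) 2}
    (hf : f.IsNormalizedEigenform) {𝔪 : Ideal (integralClosure ℤ ℂ)} (h𝔪 : 𝔪.IsMaximal)
    (hp𝔪 : (p : integralClosure ℤ ℂ) ∈ 𝔪)
    (hcong : ∀ q : Nat.Primes, ¬ (q : ℕ) ∣ N → (q : ℕ) ∉ S → ∃ b : integralClosure ℤ ℂ,
      (b : ℂ) = ModularFormClass.qCoeff f q ∧ b - (a q : integralClosure ℤ ℂ) ∈ 𝔪) :
    eigenSpace N p S a ≠ ⊥ := by
  haveI := h𝔪
  letI : Field (integralClosure ℤ ℂ ⧸ 𝔪) := Ideal.Quotient.field 𝔪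
  haveI : CharP (integralClosure ℤ ℂ ⧸ 𝔪) p :=
    (CharP.charP_iff_prime_eq_zero (Fact.out : p.Prime)).2 (by
      rw [← map_natCast (Ideal.Quotient.mk 𝔪)]
      exact Ideal.Quotient.eq_zero_iff_mem.2 hp𝔪)
  haveI : Module.Finite ℤ (CuspForm.heckeAlgebra N 2 (∅ : Set ℕ)) := PeriodHecke.finite_hecke N
  let χ : CuspForm.heckeAlgebra N 2 (∅ : Set ℕ) →+* integralClosure ℤ ℂ :=
    (CuspForms.eigenChar hf).codRestrict (integralClosure ℤ ℂ).toSubring fun t =>
      (Algebra.IsIntegral.isIntegral (R := ℤ) t).map (CuspForms.eigenChar hf).toIntAlgHom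
  refine eigenSpace_ne_bot N p S a (K := integralClosure ℤ ℂ ⧸ 𝔪)
    ((Ideal.Quotient.mk 𝔪).comp χ) fun q h1 h2 => ?_
  obtain ⟨b, hb, hmem⟩ := hcong q h1 h2
  rw [RingHom.comp_apply, show χ (CuspForms.heckeGen N q q.2) = b from Subtype.ext
    ((CuspForms.eigenChar_heckeGen hf q q.2).trans hb.symm), Ideal.Quotient.eq.2 hmem,
    map_intCast]

/-- Level lowering at `p` from its local half. -/
theorem level_lowering_of_core (hcore : CoreStatement) (P : FreyPackage) {N : ℕ}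
    (hcond : P.IsConductorLevel N) (hpN : P.p ∣ N)
    (hirr : WeierstrassCurve.Affine.Point.GaloisRepIsIrreducible (K := QA) ℚ P.freyCurve P.p)
    (hmod : P.ModularRepOfLevel N) :
    ∃ M : ℕ, M ∣ N ∧ ¬ P.p ∣ M ∧ P.ModularRepOfLevel M := by
  classical
  haveI : Fact P.p.Prime := ⟨P.pp⟩
  haveI : NeZero P.p := ⟨P.hp0⟩
  obtain ⟨M, rfl⟩ : ∃ M, N = M * P.p := ⟨N / P.p, (Nat.div_mul_cancel hpN).symm⟩
  have hpM : ¬ P.p ∣ M := fun h => hcond.sq_not_dvd P.pp (by
    rw [pow_two]; exact Nat.mul_dvd_mul_right h _)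
  haveI : NeZero (M * P.p) := ⟨hcond.pos.ne'⟩
  haveI : NeZero M := ⟨left_ne_zero_of_mul hcond.pos.ne'⟩
  obtain ⟨f, W, 𝔪, hf, hW, h𝔪, hp𝔪, hcong⟩ := hmod
  set S : Finset ℕ := insert P.p W.Δ.natAbs.primeFactors
  set a : ℕ → ℤ := fun l => W.apOfModel l
  have hpS : P.p ∈ S := Finset.mem_insert_self _ _
  have hgood : ∀ l : ℕ, l.Prime → l ∉ S → W.IsGoodPrimeFor l := fun l hl hlS hd =>
    hlS (Finset.mem_insert_of_mem (Nat.mem_primeFactors.2
      ⟨hl, Int.natCast_dvd.1 hd, Int.natAbs_ne_zero.2 (discr_ne_zero hW)⟩))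
  have hne : ∀ l : ℕ, l ∉ S → l ≠ P.p := fun l hlS h => hlS (h ▸ hpS)
  refine ⟨M, dvd_mul_right M P.p, hpM, ?_⟩
  by_cases hker : ∀ Q : MvPolynomial (GoodIdx (M * P.p) S) ℤ, evalGood (M * P.p) S M Q = 0 →
      (systemEval (M * P.p) S a Q : ZMod P.p) = 0
  · obtain ⟨g, 𝔪', hg, h𝔪', hp𝔪', hg'⟩ := exists_eigenform_lift S a hker
    refine ⟨g, W, 𝔪', hg, hW, h𝔪', hp𝔪', fun l hl hlgood hlM hlp => ?_⟩
    refine hg' ⟨⟨l, hl⟩, fun h => ?_, fun h => ?_⟩
    · rcases hl.dvd_mul.1 h with h | h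
      · exact hlM h
      · exact hlp ((Nat.prime_dvd_prime_iff_eq hl P.pp).1 h)
    · rcases Finset.mem_insert.1 h with h | h
      · exact hlp h
      · exact hlgood (Int.natCast_dvd.2 (Nat.mem_primeFactors.1 h).2.1)
  · push Not at hker
    obtain ⟨Q, hQ0, hQa⟩ := hker
    refine (false_of_core hcore P (hcond.p_dvd_abc hpN) hirr M hpM S a hpS
      (fun l hl _ hlS A hA τ hτ => freyRho_frobenius hW hl (hgood l hl hlS) (hne l hlS) hA hτ)
      (eigenSpace_ne_bot_of_congr S a hf h𝔪 hp𝔪 fun q hqN hqS =>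
        hcong q q.2 (hgood q q.2 hqS) hqN (hne q hqS)) Q hQ0 hQa).elim

end FLTAgent.MazurPrinciple
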