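import Fermat.Agent.MazurPrinciple.Setup
import Fermat.Agent.MazurPrinciple.NodeMult

/-!
# A fixed representative is moved by constants

The two reductions of a fixed function representing a class killed by both pushforwards are
normalised by fixed scalars, and the numbers attached to the glued points show that the orders of
the first reduction are proportional to those of the measuring function modulo `p`.
-/

set_option autoImplicit false
set_option linter.style.haveILetI false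
set_option linter.unusedSectionVars false
set_option synthInstance.maxHeartbeats 400000
set_option maxHeartbeats 1000000

noncomputable section

open AlgebraicCurve ModularCurve IsLocalRing

namespace FLTAgent.MazurPrinciple

open FLTAgent.Curves FLTAgent.Specialization FLTAgent.BadRed
open FLTAgent.EigenLattice (pushPic)
open AlgebraicCurve.SemilinearAut (baseAut)

local notation "QA" => AlgebraicClosure ℚ
local notation "GG" => (AlgebraicClosure ℚ ≃ₐ[ℚ] AlgebraicClosure ℚ)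

section Scales

variable {L k : Type*} [Field L] [Field k] {A : ValuationSubring L} {π : A →+* k}
  {F Fb : Type*} [Field F] [Field Fb] [Algebra L F] [Algebra k Fb] {R : Reduction π F Fb}
  {p : ℕ} (V : RatVal π p)

theorem v_le_of_res {f : F} {a c : L} {g g' : Fb} (h : R.Res (a • f) g) (hg : g ≠ 0)
    (h' : R.Res (c • f) g') (hc : c ≠ 0) : V.v a ≤ V.v c := by
  by_contra hlt
  push Not at hlt
  have ha : a ≠ 0 := by
    rintro rfl
    rw [zero_smul] at h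
    exact hg (h.unique R.res_zero)
  have hq : 0 < V.v (a / c) := by rw [V.v_div ha hc]; linarith
  have hm : a / c ∈ A := (V.mem_iff _ (div_ne_zero ha hc)).2 hq.le
  have hz : π ⟨_, hm⟩ = 0 := (V.res_iff _ (div_ne_zero ha hc)).2 hq
  have h2 := h'.smul ⟨_, hm⟩
  rw [hz, zero_smul, smul_smul, show ((⟨_, hm⟩ : A) : L) * c = a from div_mul_cancel₀ a hc] at h2
  exact hg (h.unique h2)

end Scales

theorem mem_decomposition {A : ValuationSubring QA} {σ : GG} (hσ : σ ∈ A.inertiaSubgroupIn ℚ) :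
    σ ∈ A.decompositionSubgroup ℚ := by
  obtain ⟨τ, -, rfl⟩ := hσ
  exact τ.2

section At

variable {p : ℕ} [Fact p.Prime] [NeZero p] {M : ℕ} [NeZero M] [NeZero (M * p)] (hpM : ¬ p ∣ M)
  {A : ValuationSubring QA} [IsAlgClosed (ResidueField A)] [CharP (ResidueField A) p]
  [Curves.IsFunctionField (ResidueField A) (modularFunctionFieldFullC (ResidueField A) M)]
  (hA : A.LiesOverPrime p) (hp5 : InRange p M)
  {ζ : QA} {G : Subgroup GG} {σ₀ : GG} (hW : WildData hA ζ G σ₀)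

local notation "kk" => ResidueField A
local notation "galM" => arithmeticGalois (modularFunctionFieldFull M)
local notation "galN" => arithmeticGalois (modularFunctionFieldFull (M * p))

theorem res₁_inertia {σ : GG} (hσ : σ ∈ A.inertiaSubgroupIn ℚ) {f : X0Bar (M * p)}
    {g : modularFunctionFieldFullC kk M} (h : (sheetAt hpM hA).R₁.Res f g) :
    (sheetAt hpM hA).R₁.Res (galN σ • f) g := by
  obtain ⟨τ, hτ, rfl⟩ := hσ
  have h' := (symAt hpM hA τ).res₁ f g h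
  rwa [symAt_inertia hpM hA hτ] at h'

theorem res₂_inertia {σ : GG} (hσ : σ ∈ A.inertiaSubgroupIn ℚ) {f : X0Bar (M * p)}
    {g : modularFunctionFieldFullC kk M} (h : (sheetAt hpM hA).R₂.Res f g) :
    (sheetAt hpM hA).R₂.Res (galN σ • f) g := by
  obtain ⟨τ, hτ, rfl⟩ := hσ
  have h' := (symAt hpM hA τ).res₂ f g h
  rwa [symAt_inertia hpM hA hτ] at h'

include hpM in
/-- The two sheets are normalised by fixed scalars. -/
theorem exists_fixed_scales
    (hsm : (modularModel (π := residue A) residue_surjective M (natCast_ne_zero hpM kk)).Smooth)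
    {G : Subgroup GG} (hle : G ≤ A.inertiaSubgroupIn ℚ) {f : X0Bar (M * p)} (hf : f ≠ 0)
    (hfix : ∀ σ ∈ G, galN σ • f = f) :
    ∃ (d₁ d₂ : QA) (g₁ g₂ : modularFunctionFieldFullC kk M), d₁ ≠ 0 ∧ d₂ ≠ 0 ∧ g₁ ≠ 0 ∧ g₂ ≠ 0 ∧
      (∀ σ ∈ G, σ d₁ = d₁) ∧ (∀ σ ∈ G, σ d₂ = d₂) ∧
      (sheetAt hpM hA).R₁.Res (d₁ • f) g₁ ∧ (sheetAt hpM hA).R₂.Res (d₂ • f) g₂ := by
  classical
  set S := sheetAt hpM hA
  set V := ratVal hA
  set U := Submodule.span QA {f}
  haveI : FiniteDimensional QA U := FiniteDimensional.span_of_finite QA (Set.finite_singleton _)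
  have hU : ∀ σ ∈ G, ∀ z ∈ U, galN σ • z ∈ U := by
    intro σ hσ z hz
    obtain ⟨e, rfl⟩ := Submodule.mem_span_singleton.1 hz
    rw [FlatModel.isArith_galois.smul_smul σ, hfix σ hσ]
    exact Submodule.smul_mem _ _ (Submodule.mem_span_singleton_self f)
  have key : ∀ d : QA, d ≠ 0 → (∀ σ ∈ G, σ d = d) →
      ∃ (e : QA) (w : modularFunctionFieldFullC kk M × modularFunctionFieldFullC kk M),
        e ≠ 0 ∧ (∀ σ ∈ G, σ e = e) ∧ w ≠ 0 ∧ (S.pair d).Res (e • f) w := by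
    intro d hd hdG
    obtain ⟨r, v, w, hvU, hvw, hw, hsp, hvfix⟩ := exists_fixed_basis hpM hA hsm (G := (G : Set GG))
      (fun σ hσ => hle hσ) hd hdG U hU
    obtain ⟨i⟩ : Nonempty (Fin r) := by
      by_contra hr
      rw [not_nonempty_iff] at hr
      have h0 := hsp.ge (Submodule.mem_span_singleton_self f)
      rw [Set.range_eq_empty v, Submodule.span_empty, Submodule.mem_bot] at h0
      exact hf h0
    obtain ⟨e, he⟩ := Submodule.mem_span_singleton.1 (hvU i)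
    have hw0 : w i ≠ 0 := hw.ne_zero i
    have he0 : e ≠ 0 := fun h => hw0 (by
      have h1 := hvw i
      rw [← he, h, zero_smul] at h1
      exact (S.pair d).unique h1 (S.pair d).res_zero)
    refine ⟨e, w i, he0, fun σ hσ => ?_, hw0, he.symm ▸ hvw i⟩
    have h1 : galN σ • v i = v i := hvfix σ hσ i
    rw [← he, FlatModel.isArith_galois.smul_smul σ, hfix σ hσ] at h1
    exact smul_left_injective QA hf h1
  obtain ⟨a, ga, hga, hra⟩ := S.scaled₁ f hf
  obtain ⟨b, gb, hgb, hrb⟩ := S.scaled₂ f hf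
  obtain ⟨n, hn⟩ := exists_nat_gt |V.v a - V.v b|
  obtain ⟨hn1, hn2⟩ := abs_lt.1 hn
  have hpn : (p : QA) ^ n ≠ 0 := pow_ne_zero _ V.p_ne
  have hpG : ∀ σ ∈ G, σ ((p : QA) ^ n) = (p : QA) ^ n := fun σ _ => by
    rw [map_pow, map_natCast]
  have hvn : V.v ((p : QA) ^ n) = n := by rw [V.v_pow V.p_ne, V.v_p, mul_one]
  obtain ⟨e, w, he, heG, hw, hr₁, hr₂⟩ := key _ hpn hpG
  obtain ⟨e', w', he', heG', hw', hr₁', hr₂'⟩ := key ((p : QA) ^ n)⁻¹ (inv_ne_zero hpn)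
    fun σ hσ => by rw [map_inv₀, hpG σ hσ]
  rw [smul_smul] at hr₂ hr₂'
  have hw1 : w.1 ≠ 0 := fun h => by
    have hw2 : w.2 ≠ 0 := fun h' => hw (Prod.ext h h')
    have h2 := v_le_of_res V hr₂ hw2 hrb (fun h' => by
      rw [h', zero_smul] at hrb
      exact hgb (hrb.unique S.R₂.res_zero))
    have h1 := v_le_of_res V hra hga hr₁ he
    rw [V.v_mul _ _ hpn he, hvn] at h2
    linarith
  have hw2 : w'.2 ≠ 0 := fun h => by
    have hw1' : w'.1 ≠ 0 := fun h' => hw' (Prod.ext h' h)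
    have h1 := v_le_of_res V hr₁' hw1' hra (fun h' => by
      rw [h', zero_smul] at hra
      exact hga (hra.unique S.R₁.res_zero))
    have h2 := v_le_of_res V hrb hgb hr₂' (mul_ne_zero (inv_ne_zero hpn) he')
    rw [V.v_mul _ _ (inv_ne_zero hpn) he', V.v_inv hpn, hvn] at h2
    linarith
  exact ⟨e, _, w.1, w'.2, he, mul_ne_zero (inv_ne_zero hpn) he', hw1, hw2, heG,
    fun σ hσ => by rw [map_mul, map_inv₀, hpG σ hσ, heG' σ hσ], hr₁, hr₂'⟩

include hW in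
/-- A fixed number is moved to itself times a number congruent to one. -/
theorem ratio_small {d : QA} (hd : d ≠ 0) (hdG : ∀ σ ∈ G, σ d = d) :
    (ratVal hA).GE (1 / ((p : ℚ) * ((p : ℚ) - 1))) (σ₀ d / d - 1) := by
  have h := (hW.move d hd hdG).mul (ratVal hA) (RatVal.ge_v (ratVal hA) d⁻¹)
  rw [(ratVal hA).v_inv hd] at h
  convert h.mono (ratVal hA) (r' := 1 / ((p : ℚ) * ((p : ℚ) - 1))) (by linarith) using 1
  field_simp

include hp5 in
theorem jump_pos : 0 < 1 / ((p : ℚ) * ((p : ℚ) - 1)) := by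
  have := hp5.three_le_cast
  exact div_pos one_pos (by nlinarith)

include hp5 hW in
theorem residue_ratio {d : QA} (hd : d ≠ 0) (hdG : ∀ σ ∈ G, σ d = d) :
    ∃ c : A, (c : QA) = d / σ₀ d ∧ residue A c = 1 := by
  set V := ratVal hA
  have hσd : σ₀ d ≠ 0 := (map_ne_zero σ₀).2 hd
  have h := (ratio_small hA hW hd hdG).gt V (jump_pos hp5)
  have hm : σ₀ d / d - 1 ∈ A := V.mem_iff_GE.2 (h.ge V le_rfl)
  have hz : residue A ⟨_, hm⟩ = 0 := V.res_iff_GT.2 h
  have hu : residue A (1 + ⟨_, hm⟩) = 1 := by rw [map_add, map_one, hz, add_zero]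
  have hinv : IsUnit (1 + ⟨_, hm⟩ : A) := by
    by_contra hn
    rw [← mem_nonunits_iff, ← IsLocalRing.mem_maximalIdeal, ← IsLocalRing.residue_eq_zero_iff,
      hu] at hn
    exact one_ne_zero hn
  obtain ⟨u, hu'⟩ := hinv
  refine ⟨(u⁻¹ : Aˣ), ?_, ?_⟩
  · have hmul := congrArg (fun x : A => (x : QA)) u.mul_inv
    rw [hu'] at hmul
    push_cast at hmul
    rw [add_sub_cancel] at hmul
    rw [← inv_eq_of_mul_eq_one_right hmul, inv_div]
  · have h1 : residue A (u * (u⁻¹ : Aˣ)) = 1 := by rw [u.mul_inv, map_one]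
    rwa [map_mul, hu', hu, one_mul] at h1

include hpM hp5 hW in
theorem res₁_ratio {f : X0Bar (M * p)} {d : QA} {g : modularFunctionFieldFullC kk M} (hg : g ≠ 0)
    (hd : d ≠ 0) (hdG : ∀ σ ∈ G, σ d = d) (h : (sheetAt hpM hA).R₁.Res (d • f) g) :
    (sheetAt hpM hA).R₁.Res (galN σ₀ • f / f) 1 := by
  obtain ⟨c, hc, hc1⟩ := residue_ratio hA hp5 hW hd hdG
  have hσd : σ₀ d ≠ 0 := (map_ne_zero σ₀).2 hd
  have h' := ((res₁_inertia hpM hA hW.mem h).div h hg).smul c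
  rw [div_self hg, hc1, one_smul, hc, FlatModel.isArith_galois.smul_smul σ₀] at h'
  convert h' using 1
  simp only [Algebra.smul_def, map_div₀]
  field_simp [(_root_.map_ne_zero (algebraMap QA (X0Bar (M * p)))).2 hd,
    (_root_.map_ne_zero (algebraMap QA (X0Bar (M * p)))).2 hσd]

include hpM hp5 hW in
theorem res₂_ratio {f : X0Bar (M * p)} {d : QA} {g : modularFunctionFieldFullC kk M} (hg : g ≠ 0)
    (hd : d ≠ 0) (hdG : ∀ σ ∈ G, σ d = d) (h : (sheetAt hpM hA).R₂.Res (d • f) g) :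
    (sheetAt hpM hA).R₂.Res (galN σ₀ • f / f) 1 := by
  obtain ⟨c, hc, hc1⟩ := residue_ratio hA hp5 hW hd hdG
  have hσd : σ₀ d ≠ 0 := (map_ne_zero σ₀).2 hd
  have h' := ((res₂_inertia hpM hA hW.mem h).div h hg).smul c
  rw [div_self hg, hc1, one_smul, hc, FlatModel.isArith_galois.smul_smul σ₀] at h'
  convert h' using 1
  simp only [Algebra.smul_def, map_div₀]
  field_simp [(_root_.map_ne_zero (algebraMap QA (X0Bar (M * p)))).2 hd,
    (_root_.map_ne_zero (algebraMap QA (X0Bar (M * p)))).2 hσd]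

include hp5 hW in
/-- If `σ₀ a / a` is a `p`-th root of unity to more than `1 / (p - 1)` then `v(a)` has denominator
prime to `p`. -/
theorem integral_of_near {a : QA} (ha : a ≠ 0) (haG : ∀ σ ∈ G, σ a = a)
    (h : (ratVal hA).GT (1 / ((p : ℚ) - 1)) ((σ₀ a / a) ^ p - 1)) :
    ∃ (e : ℕ) (z : ℤ), ¬ p ∣ e ∧ (e : ℚ) * (ratVal hA).v a = z := by
  set V := ratVal hA
  set δ := 1 / ((p : ℚ) * ((p : ℚ) - 1))
  set w := σ₀ a / a - 1
  have hp : (3 : ℚ) ≤ p := hp5.three_le_cast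
  have hw : V.GE δ w := ratio_small hA hW ha haG
  refine hW.move_strict a ha haG ?_
  have hgt : V.GT δ w := by
    by_contra hne
    have hw0 : w ≠ 0 := fun h0 => hne (Or.inl h0)
    have hwv : V.v w = δ := le_antisymm (not_lt.1 fun h' => hne (Or.inr h')) (hw.le V hw0)
    have hm : w ∈ A := V.mem_iff_GE.2 (hw.mono V (jump_pos hp5).le)
    obtain ⟨r, hr⟩ := exists_add_pow_prime_eq (Fact.out : p.Prime) (1 : A) ⟨w, hm⟩
    have hr' := congrArg (fun x : A => (x : QA)) hr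
    push_cast at hr'
    rw [add_sub_cancel, one_pow, mul_one] at hr'
    have hvp : V.v (w ^ p) = 1 / ((p : ℚ) - 1) := by
      rw [V.v_pow hw0, hwv]
      simp only [δ]
      field_simp
    have hrest : V.GT (V.v (w ^ p)) ((p : QA) * w * (r : QA)) := by
      have h1 := ((RatVal.ge_v V (p : QA)).mul V hw).mul V (V.mem_iff_GE.1 r.2)
      refine h1.gt V ?_
      rw [hvp, V.v_p, add_zero]
      have : 1 / ((p : ℚ) - 1) < 1 := by rw [div_lt_one (by linarith)]; linarith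
      have := jump_pos (p := p) hp5
      linarith
    obtain ⟨hne0, hv⟩ := V.v_add_eq (pow_ne_zero _ hw0) hrest
    have e : (σ₀ a / a) ^ p - 1 = w ^ p + (p : QA) * w * (r : QA) := by rw [hr']; ring
    rw [e] at h
    have hlt := h.lt V hne0
    rw [hv, hvp] at hlt
    exact lt_irrefl _ hlt
  have h2 := RatVal.GT.mul_ge V hgt (RatVal.ge_v V a)
  rw [add_comm] at h2
  convert h2 using 1
  simp only [w]
  field_simp

theorem normClose_of {φ : X0Bar M →ₐ[QA] X0Bar (M * p)} (hpM : ¬ p ∣ M) (hp5 : InRange p M)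
    (hW : WildData hA ζ G σ₀) (hg : ∀ (σ : GG) (z : X0Bar M), φ (galM σ • z) = galN σ • φ z)
    {f : X0Bar (M * p)} (hf : f ≠ 0) (D : Divisor.degZero (K := QA) (F := X0Bar (M * p)))
    (hD : ∀ v, v.ord f = (p : ℤ) * (D : Divisor QA (X0Bar (M * p))) v)
    (hfix : ∀ σ ∈ G, galN σ • f = f) (hpush : pushPic M p φ (Pic0.mk D) = 0) :
    ∃ (c : QA) (H : X0Bar M) (s : QA),
      @Algebra.norm (X0Bar M) (X0Bar (M * p)) _ _ (algebraAlong φ) (galN σ₀ • f / f) = c • H ^ p ∧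
      s ≠ 0 ∧ 1 / ((p : ℚ) * ((p : ℚ) - 1)) < -(ratVal hA).v s ∧
      s • (H - 1) ∈ (sheetAt hpM hA).MC.O := by
  obtain ⟨c₀, h, h0, -, hhfix, hall⟩ := exists_norm_power hpM hA hp5 hW φ hg hf D hD hfix hpush
  obtain ⟨c', hc'⟩ := hall σ₀
  obtain ⟨c, H, s, hH, hs, hsv, hmem⟩ := exists_ratio_close hpM hA hp5 hW h0 hhfix
  exact ⟨c' * c ^ p, H, s, by rw [hc', hH, _root_.smul_pow, smul_smul], hs, hsv, hmem⟩

set_option maxHeartbeats 4000000 in
include hpM hp5 hW in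
/-- The normalised reductions of a fixed representative and the proportionality of their
orders at the glued points. -/
theorem exists_moved (U : UnitData (sheetAt hpM hA))
    (hUfix : ∀ σ ∈ inertiaSet A (M * p), σ • U.u = U.u) (hUw : ¬ p ∣ U.w) {f : X0Bar (M * p)} (hf : f ≠ 0)
    (D : Divisor.degZero (K := QA) (F := X0Bar (M * p)))
    (hD : ∀ v, v.ord f = (p : ℤ) * (D : Divisor QA (X0Bar (M * p))) v)
    (hfix : ∀ σ ∈ G, galN σ • f = f) (hα : pushPic M p (heckeAlphaBar QA M p) (Pic0.mk D) = 0)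
    (hβ : pushPic M p (heckeBetaBar QA M p) (Pic0.mk D) = 0) :
    ∃ (d₁ d₂ : QA) (g₁ g₂ : modularFunctionFieldFullC kk M), d₁ ≠ 0 ∧ d₂ ≠ 0 ∧ g₁ ≠ 0 ∧ g₂ ≠ 0 ∧
      (∀ σ ∈ G, σ d₁ = d₁) ∧ (∀ σ ∈ G, σ d₂ = d₂) ∧
      (sheetAt hpM hA).R₁.Res (d₁ • f) g₁ ∧ (sheetAt hpM hA).R₂.Res (d₂ • f) g₂ ∧
      (∀ t ∈ U.nodes, ∃ lam : QA, lam ≠ 0 ∧ (∀ σ ∈ G, σ lam = lam) ∧
        (p : ℚ) * (ratVal hA).v lam = U.w * (t.ord g₁ : ℚ) +
          (t.ord U.ub : ℚ) * ((ratVal hA).v d₂ - (ratVal hA).v d₁)) ∧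
      ∀ s ∈ U.nodes, ∀ t ∈ U.nodes, (p : ℤ) ∣ t.ord g₁ * s.ord U.ub - s.ord g₁ * t.ord U.ub := by
  classical
  haveI := instIsFunctionFieldX0Bar M
  haveI := instIsFunctionFieldX0Bar (M * p)
  set V := ratVal hA
  have hp : (3 : ℚ) ≤ p := hp5.three_le_cast
  have hdeg : finrankAlong QA (sheetAt hpM hA).β = p + 1 := finrankAlong_beta hpM
  have hS := sheetAt_good hpM hA hp5
  have hS' : ∀ h, ((sheetAt hpM hA).swap h).Good := fun h => sheetAt_swap_good hpM hA hp5 h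
  obtain ⟨d₁, d₂, g₁, g₂, hd₁, hd₂, hg₁, hg₂, hd₁G, hd₂G, hr₁, hr₂⟩ :=
    exists_fixed_scales hpM hA (smooth_level hpM hA hp5) hW.le hf hfix
  set q := galN σ₀ • f / f with hqdef
  have hq : ((sheetAt hpM hA).pair 1).Res q (algebraMap kk _ 1, algebraMap kk _ 1) := by
    rw [map_one]
    exact ⟨res₁_ratio hpM hA hp5 hW hg₁ hd₁ hd₁G hr₁,
      by rw [one_smul]; exact res₂_ratio hpM hA hp5 hW hg₂ hd₂ hd₂G hr₂⟩
  have hN₁ : NormClose (sheetAt hpM hA) V q := normClose_of hA hpM hp5 hW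
    (fun σ z => (galois_smul_alpha σ z).symm) hf D hD hfix hα
  have hN₂ : NormClose ((sheetAt hpM hA).swap hdeg) V q := normClose_of hA hpM hp5 hW
    (fun σ z => (galois_smul_beta σ z).symm) hf D hD hfix hβ
  obtain ⟨κ₁, κ₂, s₀, hκ₁, hκ₂, hs₀, hs₀v, hh₁, hh₂⟩ :=
    exists_kappa V hdeg (by have := hp5.three_le; omega) (one_ne_zero) (one_ne_zero) hq hN₁ hN₂
  obtain ⟨hκ₁0, hκ₁v⟩ := V.v_eq_zero_of_res (a := κ₁) (by rw [hκ₁]; exact one_ne_zero)
  obtain ⟨hκ₂0, hκ₂v⟩ := V.v_eq_zero_of_res (a := κ₂) (by rw [hκ₂]; exact one_ne_zero)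
  set r := 1 / ((p : ℚ) - 1)
  have hr : 0 ≤ r := div_nonneg zero_le_one (by linarith)
  have hDinv : ∀ σ ∈ G, ∀ Q, (D : Divisor QA (X0Bar (M * p))) (galN σ • Q) =
      (D : Divisor QA (X0Bar (M * p))) Q := fun σ hσ Q => by
    have h := hD (galN σ • Q)
    rw [← hfix σ hσ, SemilinearAut.ord_smul, hD Q] at h
    exact (mul_left_cancel₀ (Int.natCast_ne_zero.2 (Fact.out : p.Prime).ne_zero) h).symm
  have hlam : ∀ t ∈ U.nodes, ∃ lam : QA, lam ≠ 0 ∧ (∀ σ ∈ G, σ lam = lam) ∧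
      (p : ℚ) * V.v lam = U.w * (t.ord g₁ : ℚ) + (t.ord U.ub : ℚ) * (V.v d₂ - V.v d₁) ∧
      V.Near r ((σ₀ lam / lam) ^ p) (((κ₁ : QA) / κ₂) ^ (t.ord U.ub)) := by
    intro t ht
    obtain ⟨lam, hl0, hlfix, hlv, hln⟩ := exists_slope (U := U) (H := inertiaSet A (M * p)) V hS
      hdeg hS' one_pos (liftsInvariant hpM hA hp5) (exists_liftc hA _)
      (fun σ hσ => hUfix σ hσ) (σ₀ := galN σ₀) ⟨σ₀, hW.mem, rfl⟩ hf
      (D : Divisor QA (X0Bar (M * p))) hD hg₁ hg₂ hr₁ hr₂ hr hκ₁0 hκ₁v hκ₂0 hκ₂v hs₀ hs₀v hs₀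
      hs₀v hh₁ hh₂ ht
    refine ⟨lam, hl0, fun σ hσ => ?_, hlv, ?_⟩
    · have h := hlfix (galN σ) ⟨σ, hW.le hσ, rfl⟩ (hDinv σ hσ)
      rwa [baseAut_arith] at h
    · rwa [baseAut_arith] at hln
  refine ⟨d₁, d₂, g₁, g₂, hd₁, hd₂, hg₁, hg₂, hd₁G, hd₂G, hr₁, hr₂, fun t ht => ?_, ?_⟩
  · obtain ⟨lam, h1, h2, h3, -⟩ := hlam t ht
    exact ⟨lam, h1, h2, h3⟩
  intro s hs t ht
  obtain ⟨ls, hls, hlsG, hlsv, hlsn⟩ := hlam s hs
  obtain ⟨lt, hlt, hltG, hltv, hltn⟩ := hlam t ht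
  set os := s.ord U.ub
  set ot := t.ord U.ub
  set Λ := lt ^ os / ls ^ ot with hΛ
  have hΛ0 : Λ ≠ 0 := div_ne_zero (zpow_ne_zero _ hlt) (zpow_ne_zero _ hls)
  have hΛG : ∀ σ ∈ G, σ Λ = Λ := fun σ hσ => by
    rw [hΛ, map_div₀, map_zpow₀, map_zpow₀, hltG σ hσ, hlsG σ hσ]
  have hnear := ((hltn.zpow V hr os).div V hr (hlsn.zpow V hr ot))
  have he : ((σ₀ Λ / Λ) ^ p) =
      ((σ₀ lt / lt) ^ p) ^ os / ((σ₀ ls / ls) ^ p) ^ ot := by
    simp only [hΛ, map_div₀, map_zpow₀, ← zpow_natCast, ← zpow_mul, div_zpow, mul_comm os,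
      mul_comm ot]
    field_simp
  rw [← he, ← zpow_mul, ← zpow_mul, mul_comm os ot, div_self (zpow_ne_zero _
    (div_ne_zero hκ₁0 hκ₂0))] at hnear
  have hgt := hnear.2.2
  rw [div_one] at hgt
  obtain ⟨e, z, hpe, hz⟩ := integral_of_near hA hp5 hW hΛ0 hΛG hgt
  have hv : (p : ℚ) * V.v Λ = U.w * ((t.ord g₁ * os - s.ord g₁ * ot : ℤ) : ℚ) := by
    rw [hΛ, V.v_div (zpow_ne_zero _ hlt) (zpow_ne_zero _ hls), RatVal.v_zpow V hlt,
      RatVal.v_zpow V hls]
    push_cast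
    linear_combination (os : ℚ) * hltv - (ot : ℚ) * hlsv
  have hint : (e : ℤ) * U.w * (t.ord g₁ * os - s.ord g₁ * ot) = p * z := by
    have h : ((e : ℤ) * U.w * (t.ord g₁ * os - s.ord g₁ * ot) : ℚ) = ((p : ℤ) * z : ℤ) := by
      push_cast at hv ⊢
      linear_combination (p : ℚ) * hz - (e : ℚ) * hv
    exact_mod_cast h
  have hpp : Prime (p : ℤ) := Nat.prime_iff_prime_int.1 Fact.out
  refine (hpp.dvd_or_dvd ⟨z, hint⟩).resolve_left fun h => ?_
  rcases hpp.dvd_or_dvd h with h | h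
  · exact hpe (by exact_mod_cast h)
  · exact hUw (by exact_mod_cast h)

end At

end FLTAgent.MazurPrinciple
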