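import Fermat.Agent.MazurPrinciple.ZeroData

/-!
# Sums and products over the zeros of the test functions
-/

set_option autoImplicit false
set_option linter.style.haveILetI false
set_option linter.unusedSectionVars false

noncomputable section

namespace FLTAgent.MazurPrinciple

open AlgebraicCurve FLTAgent.Curves FLTAgent.Specialization FLTAgent.BadRed IntermediateField

variable {L k : Type*} [Field L] [Field k] {A : ValuationSubring L} {π : A →+* k}
  {FC Fb F : Type*} [Field FC] [Field Fb] [Field F] [Algebra L FC]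
  [Algebra k Fb] [Algebra L F] [IsAlgClosed L] [IsFunctionField L FC] [IsFunctionField L F]
  [IsAlgClosed k] [IsFunctionField k Fb] {p : ℕ} [Fact p.Prime] {S : Sheet π FC Fb F p}

open scoped Classical

section Partner

variable (U : UnitData S) (V : RatVal π p) (hS : S.Good) (hdeg : finrankAlong L S.β = p + 1)
  (hS' : ∀ h, (S.swap h).Good)
include U V hS hdeg hS'

/-- A point of the first model is determined by its partner on the second sheet. -/
theorem exists_partner_set (B' : Finset (Place k Fb)) :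
    ∃ B : Finset (Place k Fb), ∀ Q : Place L F, InChart S Q → U.theta V Q = U.w →
      red (hS' hdeg) Q ∈ B' → red hS Q ∈ B := by
  set rel : Place k Fb → Place k Fb → Prop := fun P P' => 0 ≤ P.ord S.MC.xb ∧
    ∀ w : Fb, IntegralWrt k S.MC.xb w → ev P w = ev P' (S.V w) with hrel
  have huniq : ∀ P P₁ P', rel P P' → rel P₁ P' → P = P₁ := by
    intro P P₁ P' h h₁
    by_contra hne
    obtain ⟨ψ, w, hψ, hw, hw0, -, hwZ, hws⟩ := exists_clear hS 0 le_rfl (Finsupp.single P (1 : ℤ))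
      (Finsupp.single_nonneg.2 zero_le_one) {P₁} (by simpa using h₁.1)
    have e1 := hwZ P h.1
    have e2 := hws P₁ (Finset.mem_singleton_self _)
    rw [map_zero, Finsupp.single_eq_same] at e1
    rw [map_zero, Finsupp.single_eq_of_ne (Ne.symm hne)] at e2
    simp only [Finsupp.coe_zero, Pi.zero_apply, add_zero] at e1 e2
    have hint := S.MC.integralWrt_res hψ hw
    have hz : ev P w = 0 := (ev_eq_zero_iff P (hint P h.1)).2 (ordGE_of_le (by omega))
    exact ev_ne_zero_of_ord hw0 e2 (by rw [h₁.2 w hint, ← h.2 w hint, hz])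
  refine ⟨B'.biUnion fun P' => if h : ∃ P, rel P P' then {h.choose} else ∅,
    fun Q hQ hθ hred => Finset.mem_biUnion.2 ⟨_, hred, ?_⟩⟩
  have hQ' := hQ.swap hS hdeg
  have hθ' : (U.swap hS' hdeg).theta V Q = 0 := by
    rw [show (U.swap hS' hdeg).theta V Q = U.w - U.theta V Q from U.v_ev' V hQ, hθ, sub_self]
  have hr : rel (red hS Q) (red (hS' hdeg) Q) := ⟨red_finite hS hQ, fun w hw => by
    obtain ⟨ψ, hψ, hψw⟩ := exists_regular_lift hS hw
    obtain ⟨-, h1, h2⟩ := value_res (U.swap hS' hdeg) V (hS' hdeg)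
      (integralWrt_trans (hS' hdeg).β_int (integralWrt_α hψ)) (S.α₂ _ _ hψw) hQ' hθ'
    rw [← (red_spec hS hQ hψ hψw).2]
    exact h2⟩
  have he : ∃ P, rel P (red (hS' hdeg) Q) := ⟨_, hr⟩
  rw [dif_pos he, Finset.mem_singleton]
  exact huniq _ _ _ hr he.choose_spec

end Partner

variable {U : UnitData S} {H : Set (SemilinearAut L F)}
  {Z₀ : Divisor k Fb} {bad : Finset (Place k Fb)} {m : ℕ} (P₀ : Probe S U H Z₀ bad m)

/-- The zeros of the reduced test function. -/
def Probe.zeros : Finset (Place k Fb) :=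
  (divOf k P₀.w).support.filter fun P => 0 ≤ P.ord S.MC.xb

theorem Probe.mem_zeros {P : Place k Fb} :
    P ∈ P₀.zeros ↔ 0 ≤ P.ord S.MC.xb ∧ 0 < P.ord P₀.w := by
  rw [Probe.zeros, Finset.mem_filter, Finsupp.mem_support_iff, divOf_apply, and_comm]
  refine and_congr_right fun h => ⟨fun h0 => ?_, fun h0 => h0.ne'⟩
  have := (S.MC.integralWrt_res P₀.int P₀.res P h).le_ord P₀.w_ne
  omega

theorem Probe.sum_zeros : ∑ P ∈ P₀.zeros, P.ord P₀.w = (m : ℤ) * S.MC.deg := by
  have h := degree_divOf (K := k) P₀.w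
  rw [degree_eq_sum (s := P₀.zeros ∪ polesOf (K := k) S.MC.xb) fun P hP => ?_,
    Finset.sum_union ?_] at h
  · simp only [divOf_apply] at h
    rw [Finset.sum_congr (s₁ := polesOf (K := k) S.MC.xb) rfl
      fun P hP => P₀.pole P (mem_polesOf.1 hP), ← Finset.mul_sum, sum_ord_poles] at h
    have h1 := S.MC.degree_poles_red 1
    rw [one_smul, one_mul] at h1
    rw [h1] at h
    linarith
  · exact Finset.disjoint_left.2 fun P h1 h2 => by
      have := (P₀.mem_zeros.1 h1).1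
      have := mem_polesOf.1 h2
      omega
  · rw [Finset.mem_union]
    by_cases h0 : 0 ≤ P.ord S.MC.xb
    · exact Or.inl (Finset.mem_filter.2 ⟨hP, h0⟩)
    · exact Or.inr (mem_polesOf.2 (by omega))

variable {e : ℕ} (he : P₀.Big e) {c : A} (hc : π c ≠ 0) (V : RatVal π p) (hS : S.Good)
include he hc V

theorem Probe.sum_finZeros :
    ∑ Q ∈ finZeros S (P₀.num e (c : L)), Q.ord (P₀.num e (c : L)) =
      (e : ℤ) * m * ((p + 1 : ℕ) * S.MC.deg) := by
  have h := degree_divOf (K := L) (P₀.num e (c : L))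
  rw [degree_eq_sum (s := finZeros S (P₀.num e (c : L)) ∪ polesOf (K := L) S.X) fun Q hQ => ?_,
    Finset.sum_union ?_] at h
  · simp only [divOf_apply] at h
    rw [Finset.sum_congr (s₁ := polesOf (K := L) S.X) rfl
      fun R hR => P₀.ord_num_pole he hc V (mem_polesOf.1 hR), Finset.sum_add_distrib, sum_ord_u V,
      ← Finset.mul_sum, sum_ord_poles, degree_poleDiv_X] at h
    linarith
  · exact Finset.disjoint_left.2 fun Q h1 h2 => by
      have := (mem_finZeros.1 h1).2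
      have := mem_polesOf.1 h2
      omega
  · rw [Finset.mem_union]
    by_cases h0 : 0 ≤ Q.ord S.X
    · exact Or.inl (Finset.mem_filter.2 ⟨hQ, h0⟩)
    · exact Or.inr (mem_polesOf.2 (by omega))

include hS

theorem Probe.ord_pos {Q : Place L F} (hQ : Q ∈ finZeros S (P₀.num e (c : L))) :
    InChart S Q ∧ 0 < Q.ord (P₀.num e (c : L)) ∧ ev Q (P₀.num e (c : L)) = 0 ∧
      0 < (red hS Q).ord (P₀.nrm e (π c)) := by
  have hfin := P₀.red_finZero he hc V hS hQ
  have hchart := inChart_of_red hS hfin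
  have h0 := P₀.ord_num_nonneg he hc V hS hchart.1
  have hpos : 0 < Q.ord (P₀.num e (c : L)) := lt_of_le_of_ne h0 (mem_finZeros.1 hQ).1.symm
  refine ⟨hchart, hpos, (ev_eq_zero_iff Q (ordGE_of_le h0)).2 (ordGE_of_le (by omega)), ?_⟩
  rw [← P₀.sum_red he hc V hS]
  refine lt_of_lt_of_le hpos (Finset.single_le_sum (f := fun R : Place L F => R.ord (P₀.num e (c : L)))
    (fun R hR => ?_) (Finset.mem_filter.2 ⟨Finsupp.mem_support_iff.2 (by
      rw [divOf_apply]; exact hpos.ne'), rfl⟩))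
  rw [Finset.mem_filter] at hR
  exact P₀.ord_num_nonneg he hc V hS (inChart_of_red hS (hR.2 ▸ hfin)).1

theorem Probe.filter_red {P : Place k Fb} (hP : 0 ≤ P.ord S.MC.xb) :
    ∑ Q ∈ (finZeros S (P₀.num e (c : L))).filter (fun Q => red hS Q = P),
      Q.ord (P₀.num e (c : L)) = P.ord (P₀.nrm e (π c)) := by
  rw [← P₀.sum_red he hc V hS]
  refine Finset.sum_congr ?_ fun _ _ => rfl
  ext Q
  simp only [Finset.mem_filter, finZeros]
  exact ⟨fun h => ⟨h.1.1, h.2⟩,
    fun h => ⟨⟨h.1, (inChart_of_red hS (h.2 ▸ hP)).1⟩, h.2⟩⟩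

/-- The hypotheses which keep zeros away from exceptional points. -/
structure Probe.Avoids (P₀ : Probe S U H Z₀ bad m) (e : ℕ) (ch : k)
    (B₂ : Finset (Place k Fb)) : Prop where
  supp : ∀ P, P ∉ U.nodes → Z₀ P = 0
  nonneg : 0 ≤ Z₀
  second : ∀ P ∈ B₂, 0 ≤ P.ord S.MC.xb → ev P U.ub ≠ 0 →
    ev P P₀.w ^ (e * p) + ch ^ p * ev P U.ub ≠ 0

variable (hdeg : finrankAlong L S.β = p + 1) (hS' : ∀ h, (S.swap h).Good)
include hdeg hS'

omit he hc in
/-- The three kinds of zeros. -/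
theorem Probe.exists_class (B₂' : Finset (Place k Fb)) {ρ : ℚ} (hρ : 0 < ρ) :
    ∃ (B₂ : Finset (Place k Fb)) (e₀ : ℕ), ∀ e, e₀ ≤ e → P₀.Big e → ∀ c : A, π c ≠ 0 →
      P₀.Avoids e (π c) B₂ → ∀ Q ∈ finZeros S (P₀.num e (c : L)),
      (red hS Q ∈ P₀.zeros ∧ red hS Q ∈ U.nodes ∧ U.theta V Q < ρ ∧
          U.theta V Q * ((red hS Q).ord U.ub + e * Z₀ (red hS Q) : ℤ) =
            U.w * (red hS Q).ord U.ub) ∨
      (red hS Q ∈ P₀.zeros ∧ red hS Q ∉ U.nodes ∧ U.theta V Q = 0 ∧ red hS Q ∉ bad) ∨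
      (red hS Q ∉ P₀.zeros ∧ U.theta V Q = U.w ∧ red (hS' hdeg) Q ∉ B₂') := by
  obtain ⟨B₂, hB₂⟩ := exists_partner_set U V hS hdeg hS' B₂'
  obtain ⟨e₀, -, hnode⟩ := exists_numFun_zero_node U V hS P₀.int P₀.res P₀.w_ne
    (fun v _ => ordGE_one v) S.MC.res_one hdeg hS' (fun t _ => by rw [ev_one]; exact one_ne_zero) hρ
  refine ⟨B₂, e₀, fun e hee he c hc hav Q hQ => ?_⟩
  obtain ⟨hchart, -, hz, hnrm⟩ := P₀.ord_pos he hc V hS hQ
  have hfin := red_finite hS hchart
  have hwge := S.MC.integralWrt_res P₀.int P₀.res _ hfin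
  have hzeros : red hS Q ∈ P₀.zeros ↔ ev (red hS Q) P₀.w = 0 := by
    rw [P₀.mem_zeros, and_iff_right hfin, ev_eq_zero_iff _ hwge]
    exact ⟨fun h => ordGE_of_le (by omega), fun h => by have := h.le_ord P₀.w_ne; omega⟩
  by_cases hn : red hS Q ∈ U.nodes
  · obtain ⟨h1, h2, h3⟩ := hnode e hee c hc Q hchart hn hz
    refine Or.inl ⟨hzeros.2 h1, hn, h2, ?_⟩
    rw [← P₀.node _ hn]
    exact h3
  · have hn' : ev (red hS Q) U.ub ≠ 0 := fun h => hn ((U.mem_nodes_iff hfin).2 h)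
    rcases numFun_zero_general U V hS P₀.int P₀.res (fun v _ => ordGE_one v) S.MC.res_one he.pos hc
      hchart hz hn' (fun _ => by rw [ev_one]; exact one_ne_zero) with ⟨hθ, h1⟩ | ⟨hθ, h1⟩
    · refine Or.inr (Or.inl ⟨hzeros.2 h1, hn, hθ, fun hb => ?_⟩)
      have := (P₀.mem_zeros.1 (hzeros.2 h1)).2
      rw [P₀.avoid _ hb hfin, hav.supp _ hn] at this
      omega
    · refine Or.inr (Or.inr ⟨fun h => h1 (hzeros.1 h), hθ, fun hb => ?_⟩)
      refine hav.second _ (hB₂ Q hchart hθ hb) hfin hn' ?_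
      have hne := P₀.nrm_ne he hc
      rw [P₀.nrm_eq] at hne hnrm
      obtain ⟨ha, hb'⟩ := mul_ne_zero_iff.1 hne
      have hw0 : (red hS Q).ord P₀.w = 0 := by
        refine le_antisymm (not_lt.1 fun h => h1 (hzeros.1 (P₀.mem_zeros.2 ⟨hfin, h⟩))) ?_
        exact hwge.le_ord P₀.w_ne
      rw [(red hS Q).ord_mul ha hb', ord_pow, hw0, mul_zero, zero_add] at hnrm
      have hwp : OrdGE (red hS Q) 0 (P₀.w ^ (e * p)) := by simpa using hwge.pow (e * p)
      have hcu : OrdGE (red hS Q) 0 (algebraMap k Fb (π c ^ p) * U.ub) := by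
        have := (ordGE_algebraMap (red hS Q) (π c ^ p)).mul (U.ub_reg _ hfin)
        rwa [zero_add] at this
      have h0 := (ev_eq_zero_iff _ (hwp.add hcu)).2 (ordGE_of_le (by omega))
      rwa [ev_add _ hwp hcu, ev_pow _ hwge, ev_mul _ (ordGE_algebraMap _ _) (U.ub_reg _ hfin),
        ev_const] at h0

omit hdeg hS'

/-- The number of zeros on the first sheet. -/
theorem Probe.sum_first {B₂ : Finset (Place k Fb)} (hav : P₀.Avoids e (π c) B₂) :
    ∑ Q ∈ (finZeros S (P₀.num e (c : L))).filter (fun Q => red hS Q ∈ P₀.zeros),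
      Q.ord (P₀.num e (c : L)) = (e : ℤ) * m * S.MC.deg +
        ∑ t ∈ U.nodes.filter (fun t => 0 < Z₀ t), t.ord U.ub := by
  rw [← Finset.sum_fiberwise_of_maps_to (s := (finZeros S (P₀.num e (c : L))).filter
    (fun Q => red hS Q ∈ P₀.zeros)) (t := P₀.zeros) (g := red hS)
    (fun Q hQ => (Finset.mem_filter.1 hQ).2)]
  have h1 : ∀ P ∈ P₀.zeros, ∑ Q ∈ ((finZeros S (P₀.num e (c : L))).filter
      (fun Q => red hS Q ∈ P₀.zeros)).filter (fun Q => red hS Q = P),
        Q.ord (P₀.num e (c : L)) =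
      (e : ℤ) * P.ord P₀.w + if P ∈ U.nodes then P.ord U.ub else 0 := by
    intro P hP
    obtain ⟨hfin, hw⟩ := P₀.mem_zeros.1 hP
    rw [Finset.filter_filter, Finset.filter_congr
      (fun Q _ => (and_iff_right_of_imp fun h : red hS Q = P => h ▸ hP)),
      P₀.filter_red he hc V hS hfin]
    split_ifs with hn
    · rw [P₀.ord_nrm_node he hc hn (hav.nonneg P), ← P₀.node P hn, if_neg hw.ne']
    · rw [P₀.ord_nrm_zero he hc hfin hn hw, add_zero]
  rw [Finset.sum_congr rfl h1, Finset.sum_add_distrib, ← Finset.mul_sum, P₀.sum_zeros,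
    ← Finset.sum_filter, mul_assoc]
  refine congrArg _ (Finset.sum_congr ?_ fun _ _ => rfl)
  ext t
  simp only [Finset.mem_filter, P₀.mem_zeros]
  exact ⟨fun ⟨⟨h1, h2⟩, h3⟩ => ⟨h3, P₀.node t h3 ▸ h2⟩,
    fun ⟨h3, h2⟩ => ⟨⟨(U.mem_nodes.1 h3).1, (P₀.node t h3).symm ▸ h2⟩, h3⟩⟩

/-- The total position of the zeros over a glued point. -/
theorem Probe.sum_theta {B₂ : Finset (Place k Fb)} (hav : P₀.Avoids e (π c) B₂) {t : Place k Fb}
    (ht : t ∈ U.nodes) (hk : 0 < Z₀ t)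
    (hθ : ∀ Q ∈ finZeros S (P₀.num e (c : L)), red hS Q = t →
      U.theta V Q * (t.ord U.ub + e * Z₀ t : ℤ) = U.w * t.ord U.ub) :
    ∑ Q ∈ (finZeros S (P₀.num e (c : L))).filter (fun Q => red hS Q = t),
      (Q.ord (P₀.num e (c : L)) : ℚ) * U.theta V Q = U.w * t.ord U.ub := by
  obtain ⟨hfin, ho⟩ := U.mem_nodes.1 ht
  have h := P₀.filter_red he hc V hS (P := t) hfin
  rw [P₀.ord_nrm_node he hc ht (hav.nonneg t), if_neg hk.ne'] at h
  set n : ℤ := t.ord U.ub + e * Z₀ t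
  have hn : (n : ℚ) ≠ 0 := by
    have : 0 < n := by positivity
    exact_mod_cast this.ne'
  have hθ' : ∀ Q ∈ (finZeros S (P₀.num e (c : L))).filter (fun Q => red hS Q = t),
      (Q.ord (P₀.num e (c : L)) : ℚ) * U.theta V Q =
        (Q.ord (P₀.num e (c : L)) : ℚ) * (U.w * t.ord U.ub / n) := fun Q hQ => by
    rw [Finset.mem_filter] at hQ
    rw [eq_div_iff hn |>.2 (hθ Q hQ.1 hQ.2)]
  rw [Finset.sum_congr rfl hθ', ← Finset.sum_mul, ← Int.cast_sum, h,
    show (e : ℤ) * Z₀ t + t.ord U.ub = n from add_comm _ _]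
  field_simp

end FLTAgent.MazurPrinciple
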