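import Fermat.Agent.MazurPrinciple.ClimbBasic

/-!
# Climbing to the level `p / (p - 1)`

A fixed representative congruent to one is multiplied by fixed constants and by `p`-th powers of
fixed functions until it is congruent to one modulo `(ζ - 1) ^ p`.
-/

set_option autoImplicit false
set_option linter.style.haveILetI false
set_option linter.unusedSectionVars false
set_option synthInstance.maxHeartbeats 400000
set_option maxHeartbeats 1000000

noncomputable section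

open AlgebraicCurve ModularCurve IsLocalRing

namespace FLTAgent.MazurPrinciple

open FLTAgent.Curves FLTAgent.Specialization FLTAgent.BadRed
open FLTAgent.EigenLattice (pushPic)

local notation "QA" => AlgebraicClosure ℚ
local notation "GG" => (AlgebraicClosure ℚ ≃ₐ[ℚ] AlgebraicClosure ℚ)

theorem mk_add_divOf {L F : Type*} [Field L] [Field F] [Algebra L F] [IsAlgClosed L]
    [Curves.IsFunctionField L F] {y : F} (hy : y ≠ 0) (D : Divisor.degZero (K := L) (F := F)) :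
    ∃ D' : Divisor.degZero (K := L) (F := F),
      (∀ v, (D' : Divisor L F) v = (D : Divisor L F) v + v.ord y) ∧ Pic0.mk D' = Pic0.mk D := by
  have hdeg : Curves.divOf L y ∈ Divisor.degZero (K := L) (F := F) :=
    Divisor.mem_degZero.2 (Curves.degree_divOf y)
  refine ⟨D + ⟨_, hdeg⟩, fun v => by rw [AddSubgroup.coe_add, Finsupp.add_apply, Curves.divOf_apply],
    QuotientAddGroup.eq_iff_sub_mem.2 (AddSubgroup.mem_addSubgroupOf.2 ⟨y, hy, fun v => ?_⟩)⟩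
  simp [Curves.divOf_apply]

section At

variable {p : ℕ} [Fact p.Prime] [NeZero p] {M : ℕ} [NeZero M] [NeZero (M * p)] (hpM : ¬ p ∣ M)
  {A : ValuationSubring QA} [IsAlgClosed (ResidueField A)] [CharP (ResidueField A) p]
  [Curves.IsFunctionField (ResidueField A) (modularFunctionFieldFullC (ResidueField A) M)]
  (hA : A.LiesOverPrime p) (hp5 : InRange p M)
  {ζ : QA} {G : Subgroup GG} {σ₀ : GG} (hW : WildData hA ζ G σ₀)

local notation "kk" => ResidueField A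
local notation "galN" => arithmeticGalois (modularFunctionFieldFull (M * p))

/-- A fixed function with divisor `p D`, `D` in the class `x`, and poles bounded by `p m`. -/
def IsClimb (G : Subgroup GG) (m : ℕ) (x : JZero (M * p)) (g : X0Bar (M * p)) : Prop :=
  g ≠ 0 ∧ (∀ σ ∈ G, galN σ • g = g) ∧
    g ∈ riemannRochSpace (((p * m : ℕ) : ℤ) • poleDiv QA (sheetAt hpM hA).X) ∧
    ∃ D : Divisor.degZero (K := QA) (F := X0Bar (M * p)),
      (∀ v, v.ord g = (p : ℤ) * (D : Divisor QA (X0Bar (M * p))) v) ∧ Pic0.mk D = x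

include hpM in
theorem stable_rrSpace {D : Divisor QA (X0Bar (M * p))} {σ : GG}
    (hσ : ∀ Q, D (galN σ • Q) = D Q) (m : ℕ) {u : X0Bar (M * p)}
    (hu : u ∈ riemannRochSpace (D + (m : ℤ) • poleDiv QA (sheetAt hpM hA).X)) :
    galN σ • u ∈ riemannRochSpace (D + (m : ℤ) • poleDiv QA (sheetAt hpM hA).X) := by
  have hX : galN σ • (sheetAt hpM hA).X = (sheetAt hpM hA).X :=
    (galois_smul_alpha σ (sheetAt hpM hA).MC.x).trans (congrArg (sheetAt hpM hA).α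
      (FlatModel.smul_jq (natCast_ne_zero hpM kk) σ))
  refine mem_rrSpace.2 fun Q => ?_
  obtain ⟨Q', rfl⟩ : ∃ Q', galN σ • Q' = Q := ⟨(galN σ)⁻¹ • Q, smul_inv_smul _ _⟩
  have h := ordGE_smul (galN σ) Q' (mem_rrSpace.1 hu Q')
  have hP : poleDiv QA (sheetAt hpM hA).X (galN σ • Q') = poleDiv QA (sheetAt hpM hA).X Q' := by
    rw [poleDiv_apply, poleDiv_apply]
    conv_lhs => rw [← hX, SemilinearAut.ord_smul]
  rw [Finsupp.add_apply, Finsupp.smul_apply] at h ⊢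
  rwa [hσ, hP]

theorem div_invariant {g : X0Bar (M * p)} {σ : GG} (hσ : galN σ • g = g)
    {D : Divisor QA (X0Bar (M * p))} (hD : ∀ v, v.ord g = (p : ℤ) * D v)
    (Q : Place QA (X0Bar (M * p))) : D (galN σ • Q) = D Q := by
  have h := hD (galN σ • Q)
  rw [← hσ, SemilinearAut.ord_smul, hD Q] at h
  exact (mul_left_cancel₀ (Int.natCast_ne_zero.2 (Fact.out : p.Prime).ne_zero) h).symm

include hpM hp5 hW in
/-- The first digits of a representative on both sheets. -/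
theorem digit_info {g : X0Bar (M * p)} (hg : g ≠ 0)
    (D : Divisor.degZero (K := QA) (F := X0Bar (M * p)))
    (hD : ∀ v, v.ord g = (p : ℤ) * (D : Divisor QA (X0Bar (M * p))) v)
    (hfix : ∀ σ ∈ G, galN σ • g = g)
    (hα : pushPic M p (heckeAlphaBar QA M p) (Pic0.mk D) = 0)
    (hβ : pushPic M p (heckeBetaBar QA M p) (Pic0.mk D) = 0)
    {ε : QA} (hε : ε ≠ 0) (hε0 : 0 < (ratVal hA).v ε)
    (hεlt : (ratVal hA).v ε < (p : ℚ) / ((p : ℚ) - 1))
    {η : modularFunctionFieldFullC kk M × modularFunctionFieldFullC kk M}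
    (hη : ((sheetAt hpM hA).pair 1).Res (ε⁻¹ • (g - 1)) η) :
    (∃ γ₁ γ₂, η = (γ₁ ^ p, γ₂ ^ p)) ∧
      ((¬ ∃ a b : kk, η = (algebraMap kk _ a, algebraMap kk _ b)) →
        ∃ τ : QA, τ ≠ 0 ∧ (∀ σ ∈ G, σ τ = τ) ∧ (ratVal hA).v ε = p * (ratVal hA).v τ) := by
  classical
  haveI := instIsFunctionFieldX0Bar M
  haveI := instIsFunctionFieldX0Bar (M * p)
  have hdeg : finrankAlong QA (sheetAt hpM hA).β = p + 1 := finrankAlong_beta hpM
  have hεA : ε ∈ A := ((ratVal hA).mem_iff _ hε).2 hε0.le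
  set e : A := ⟨ε, hεA⟩
  have he : residue A e = 0 := ((ratVal hA).res_iff _ hε).2 hε0
  obtain ⟨h1, h2⟩ := hη
  rw [one_smul] at h2
  have h1' : (sheetAt hpM hA).R₁.Res ((e : QA)⁻¹ • (g - algebraMap QA _ ((1 : A) : QA))) η.1 := by
    simpa using h1
  have h2' : (sheetAt hpM hA).R₂.Res ((e : QA)⁻¹ • (g - algebraMap QA _ ((1 : A) : QA))) η.2 := by
    simpa using h2
  have hne : residue A (1 : A) ≠ 0 := by rw [map_one]; exact one_ne_zero
  have d1 := exists_norm_digit (sheetAt hpM hA) he hε hne hne h1' h2'.mem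
  have d2 := exists_norm_digit ((sheetAt hpM hA).swap hdeg) he hε hne hne
    (g₁ := η.2) (show (sheetAt hpM hA).R₂.Res _ _ from h2')
    (show _ ∈ (sheetAt hpM hA).R₁.O from h1'.mem)
  obtain ⟨c₁, H₁, hH₁, hn₁, hfix₁, -⟩ := exists_norm_power hpM hA hp5 hW (heckeAlphaBar QA M p)
    (fun σ z => (galois_smul_alpha σ z).symm) hg D hD hfix hα
  obtain ⟨c₂, H₂, hH₂, hn₂, hfix₂, -⟩ := exists_norm_power hpM hA hp5 hW (heckeBetaBar QA M p)
    (fun σ z => (galois_smul_beta σ z).symm) hg D hD hfix hβ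
  simp only [OneMemClass.coe_one, one_pow, mul_one, inv_one, one_smul, map_one] at d1 d2
  have r₁ : (sheetAt hpM hA).MC.Res (ε⁻¹ • (c₁ • H₁ ^ p - 1)) η.1 := by
    rw [← hn₁]; exact d1
  have r₂ : (sheetAt hpM hA).MC.Res (ε⁻¹ • (c₂ • H₂ ^ p - 1)) η.2 := by
    rw [← hn₂]; exact d2
  obtain ⟨⟨γ₁, hγ₁⟩, hlev₁⟩ := digit_power hpM hA hp5 hW hH₁ hfix₁ hε hε0 hεlt r₁
  obtain ⟨⟨γ₂, hγ₂⟩, hlev₂⟩ := digit_power hpM hA hp5 hW hH₂ hfix₂ hε hε0 hεlt r₂
  refine ⟨⟨γ₁, γ₂, Prod.ext hγ₁ hγ₂⟩, fun hnc => ?_⟩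
  by_cases hc : ∀ a : kk, η.1 ≠ algebraMap kk _ a
  · exact hlev₁ hc
  push Not at hc
  obtain ⟨a, ha⟩ := hc
  exact hlev₂ fun b hb => hnc ⟨a, b, Prod.ext ha hb⟩

variable (N : (sheetAt hpM hA).Nodes)

set_option maxHeartbeats 4000000 in
include hp5 hW in
/-- **One step.** -/
theorem climb_step {x : JZero (M * p)} (hxα : pushPic M p (heckeAlphaBar QA M p) x = 0)
    (hxβ : pushPic M p (heckeBetaBar QA M p) x = 0) {g : X0Bar (M * p)}
    (hg : IsClimb hpM hA G N.m₀ x g) {ε : QA} (hε : ε ≠ 0) (hεG : ∀ σ ∈ G, σ ε = ε)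
    (hε0 : 0 < (ratVal hA).v ε) (hεlt : (ratVal hA).v ε < (p : ℚ) / ((p : ℚ) - 1))
    {η : modularFunctionFieldFullC kk M × modularFunctionFieldFullC kk M}
    (hη : ((sheetAt hpM hA).pair 1).Res (ε⁻¹ • (g - 1)) η) :
    ∃ g', IsClimb hpM hA G N.m₀ x g' ∧ ∃ t : QA, t ≠ 0 ∧ (ratVal hA).v ε < (ratVal hA).v t ∧
      NearOne (sheetAt hpM hA) t g' := by
  classical
  haveI := instIsFunctionFieldX0Bar M
  haveI := instIsFunctionFieldX0Bar (M * p)
  have hp : p.Prime := Fact.out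
  have hS := sheetAt_good hpM hA hp5
  obtain ⟨hg0, hgfix, hgm, D, hD, rfl⟩ := hg
  obtain ⟨⟨γ₁, γ₂, hγ⟩, hlev⟩ :=
    digit_info hpM hA hp5 hW hg0 D hD hgfix hxα hxβ hε hε0 hεlt hη
  have hone : (1 : X0Bar (M * p)) ∈
      riemannRochSpace (((p * N.m₀ : ℕ) : ℤ) • poleDiv QA (sheetAt hpM hA).X) :=
    one_mem_rrSpace fun v => by
      simpa using mul_nonneg (Int.natCast_nonneg (p * N.m₀))
        (poleDiv_nonneg (K := QA) (sheetAt hpM hA).X v)
  have hrimg : η ∈ (sheetAt hpM hA).rimg (p * N.m₀) :=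
    LRed.mem_image_of_res (Submodule.smul_mem _ _ (Submodule.sub_mem _ hgm hone)) hη
  by_cases hconst : ∃ a b : kk, η = (algebraMap kk _ a, algebraMap kk _ b)
  · -- divide by a constant
    obtain ⟨a, b, rfl⟩ := hconst
    obtain rfl := const_rimg (ratVal hA) N hS hrimg
    obtain ⟨c, hc, hcG⟩ := exists_fixed_residue hA hW a
    have hεA : ε ∈ A := ((ratVal hA).mem_iff _ hε).2 hε0.le
    have he : residue A ⟨ε, hεA⟩ = 0 := ((ratVal hA).res_iff _ hε).2 hε0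
    set κ : A := 1 + ⟨ε, hεA⟩ * c
    have hκ : residue A κ ≠ 0 := by
      simp only [κ, map_add, map_one, map_mul, he, zero_mul, add_zero]
      exact one_ne_zero
    obtain ⟨hκ0, hκv⟩ := (ratVal hA).v_eq_zero_of_res hκ
    have hκA : (κ : QA)⁻¹ ∈ A :=
      ((ratVal hA).mem_iff _ (inv_ne_zero hκ0)).2 (by rw [(ratVal hA).v_inv hκ0, hκv, neg_zero])
    have hκG : ∀ σ ∈ G, σ (κ : QA) = κ := fun σ hσ => by
      show σ (1 + ε * (c : QA)) = 1 + ε * (c : QA)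
      rw [map_add, map_one, map_mul, hεG σ hσ, hcG σ hσ]
    refine ⟨(κ : QA)⁻¹ • g, ⟨smul_ne_zero (inv_ne_zero hκ0) hg0, fun σ hσ => ?_,
      Submodule.smul_mem _ _ hgm, D, fun v => ?_, rfl⟩, ?_⟩
    · rw [FlatModel.isArith_galois.smul_smul σ, map_inv₀, hκG σ hσ, hgfix σ hσ]
    · rw [Algebra.smul_def, v.ord_mul ((_root_.map_ne_zero _).2 (inv_ne_zero hκ0)) hg0,
        Curves.ord_algebraMap, zero_add, hD]
    refine exists_nearOne_gt (ratVal hA) hε ?_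
    have h := ((sheetAt hpM hA).pair 1).res_smul ⟨_, hκA⟩
      (LRed.res_sub hη (((sheetAt hpM hA).pair 1).res_smul c (sheetAt hpM hA).pair_one))
    rw [hc, show (algebraMap kk (modularFunctionFieldFullC kk M) a,
        algebraMap kk (modularFunctionFieldFullC kk M) a) -
        a • (1 : modularFunctionFieldFullC kk M × modularFunctionFieldFullC kk M) = 0 by
      simp [Prod.ext_iff, Algebra.algebraMap_eq_smul_one], smul_zero] at h
    convert h using 1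
    have hmap := (_root_.map_ne_zero (algebraMap QA (X0Bar (M * p)))).2 hκ0
    have hmε := (_root_.map_ne_zero (algebraMap QA (X0Bar (M * p)))).2 hε
    simp only [Algebra.smul_def, map_inv₀]
    field_simp
    show _ = _
    simp only [κ, AddMemClass.coe_add, OneMemClass.coe_one, MulMemClass.coe_mul, map_add, map_one,
      map_mul]
    ring
  -- multiply by a power
  obtain ⟨τ, hτ, hτG, hτv⟩ := hlev hconst
  have hτ0 : 0 < (ratVal hA).v τ := by
    have : (0 : ℚ) < p := by exact_mod_cast hp.pos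
    nlinarith
  have hp1 : (1 : ℚ) < p := by exact_mod_cast hp.one_lt
  have hτlt : (ratVal hA).v τ < 1 / ((p : ℚ) - 1) := by
    rw [hτv, div_eq_mul_one_div] at hεlt
    exact lt_of_mul_lt_mul_left hεlt (by linarith)
  have hτp : τ ^ p ≠ 0 := pow_ne_zero _ hτ
  have hratio : ε / τ ^ p ∈ A := ((ratVal hA).mem_iff _ (div_ne_zero hε hτp)).2 (by
    rw [(ratVal hA).v_div hε hτp, (ratVal hA).v_pow hτ, hτv, sub_self])
  obtain ⟨ρ, hρ⟩ := IsAlgClosed.exists_pow_nat_eq (residue A ⟨_, hratio⟩) hp.pos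
  set w : modularFunctionFieldFullC kk M × modularFunctionFieldFullC kk M :=
    (algebraMap kk _ ρ * γ₁, algebraMap kk _ ρ * γ₂)
  have hη' : ((sheetAt hpM hA).pair 1).Res ((τ ^ p)⁻¹ • (g - 1)) (w.1 ^ p, w.2 ^ p) := by
    have h := ((sheetAt hpM hA).pair 1).res_smul ⟨_, hratio⟩ hη
    rw [smul_smul] at h
    convert h using 1
    · congr 1
      show (τ ^ p)⁻¹ = ε / τ ^ p * ε⁻¹
      field_simp
    · rw [hγ]
      simp [w, Prod.ext_iff, mul_pow, ← map_pow, hρ, Algebra.smul_def]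
  have hw : w ∈ (sheetAt hpM hA).rimg N.m₀ := rimg_of_pow N le_rfl
    (LRed.mem_image_of_res (Submodule.smul_mem _ _ (Submodule.sub_mem _ hgm hone)) hη')
  -- the lift
  set W := riemannRochSpace ((D : Divisor QA (X0Bar (M * p))) +
    (N.m₀ : ℤ) • poleDiv QA (sheetAt hpM hA).X)
  haveI : FiniteDimensional QA W := finiteDimensional_rrSpace _
  have hεA : ε ∈ A := ((ratVal hA).mem_iff _ hε).2 hε0.le
  have hg1 : ((sheetAt hpM hA).pair 1).Res g 1 := by
    have h := ((sheetAt hpM hA).pair 1).res_smul ⟨ε, hεA⟩ hη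
    rw [show residue A ⟨ε, hεA⟩ = 0 from ((ratVal hA).res_iff _ hε).2 hε0, zero_smul, smul_smul,
      show ((⟨ε, hεA⟩ : A) : QA) * ε⁻¹ = 1 from mul_inv_cancel₀ hε, one_smul] at h
    have h' := ((sheetAt hpM hA).pair 1).res_add h (sheetAt hpM hA).pair_one
    rwa [sub_add_cancel, zero_add] at h'
  obtain ⟨u₀, hu₀, hu₀r⟩ := (twist_mem hS N hg0 hD one_ne_zero (γ := 1) one_ne_zero one_ne_zero
    (by simpa [Prod.mk_one_one] using hg1) (le_refl N.m₀)).2 w hw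
  rw [inv_one] at hu₀r
  obtain ⟨ξ, hξW, hξr, hξG⟩ := exists_fixed_lift hpM hA hp5 hW one_ne_zero (fun σ _ => map_one σ)
    W (fun σ hσ z hz => stable_rrSpace hpM hA (div_invariant (hgfix σ hσ) hD) _ hz)
    (LRed.mem_image_of_res hu₀ (by simpa [Prod.mk_one_one] using hu₀r) : w ∈ _)
  obtain ⟨hx1, hx2⟩ := hξr
  rw [one_smul] at hx2
  obtain ⟨hd1, hd2⟩ := hη'
  rw [one_smul] at hd2
  set u' := (1 : X0Bar (M * p)) + τ • (-ξ)
  have hτA : τ ∈ A := ((ratVal hA).mem_iff _ hτ).2 hτ0.le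
  have hτz : residue A ⟨τ, hτA⟩ = 0 := ((ratVal hA).res_iff _ hτ).2 hτ0
  have hu1 : (sheetAt hpM hA).R₁.Res u' 1 := by
    have h := (sheetAt hpM hA).R₁.res_one.add (hx1.neg.smul ⟨τ, hτA⟩)
    rwa [hτz, zero_smul, add_zero] at h
  have hu2 : (sheetAt hpM hA).R₂.Res u' 1 := by
    have h := (sheetAt hpM hA).R₂.res_one.add (hx2.neg.smul ⟨τ, hτA⟩)
    rwa [hτz, zero_smul, add_zero] at h
  have hu0 : u' ≠ 0 := hu1.ne_zero one_ne_zero
  have huW : u' ∈ W := Submodule.add_mem _ (one_mem_rrSpace fun v => by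
      have hv := (mem_rrSpace.1 hgm v).le_ord hg0
      rw [hD, Finsupp.smul_apply, smul_eq_mul] at hv
      push_cast at hv
      simp only [Finsupp.coe_zero, Pi.zero_apply, Finsupp.add_apply, Finsupp.smul_apply, smul_eq_mul]
      by_contra hlt
      have : (0 : ℤ) < p := by exact_mod_cast hp.pos
      nlinarith) (Submodule.smul_mem _ _ (Submodule.neg_mem _ hξW))
  obtain ⟨D', hD', hcl⟩ := mk_add_divOf hu0 D
  refine ⟨u' ^ p * g, ⟨mul_ne_zero (pow_ne_zero _ hu0) hg0, fun σ hσ => ?_,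
    pow_mul_mem hg0 hD huW, D', fun v => ?_, hcl⟩, ?_⟩
  · rw [smul_mul', smul_pow', hgfix σ hσ]
    simp only [u', smul_add, smul_one]
    rw [FlatModel.isArith_galois.smul_smul σ, hτG σ hσ, smul_neg, hξG σ hσ]
  · rw [v.ord_mul (pow_ne_zero _ hu0) hg0, Curves.ord_pow, hD, hD']; ring
  obtain ⟨y₁, hy₁, hye₁⟩ := exists_lead (R := (sheetAt hpM hA).R₁) (ratVal hA) hτ hτ0 hτlt hx1.neg
  obtain ⟨y₂, hy₂, hye₂⟩ := exists_lead (R := (sheetAt hpM hA).R₂) (ratVal hA) hτ hτ0 hτlt hx2.neg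
  obtain rfl : y₁ = y₂ := smul_right_injective _ hτp (hye₁.symm.trans hye₂)
  have hsplit : (τ ^ p)⁻¹ • (u' ^ p * g - 1) = u' ^ p * ((τ ^ p)⁻¹ • (g - 1)) + y₁ := by
    have e : u' ^ p * g - 1 = u' ^ p * (g - 1) + τ ^ p • y₁ := by rw [← hye₁]; ring
    rw [e, smul_add, mul_smul_comm, smul_smul (τ ^ p)⁻¹ (τ ^ p), inv_mul_cancel₀ hτp, one_smul]
  have hodd : Odd p := hp.odd_of_ne_two hp5.ne_two
  have hzero : ((sheetAt hpM hA).pair 1).Res ((τ ^ p)⁻¹ • (u' ^ p * g - 1)) 0 := by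
    refine ⟨?_, ?_⟩
    · rw [hsplit]
      have h := ((hu1.pow p).mul hd1).add hy₁
      simpa [hodd.neg_pow] using h
    · rw [hsplit, one_smul]
      have h := ((hu2.pow p).mul hd2).add hy₂
      simpa [hodd.neg_pow] using h
  obtain ⟨t, ht, htv, hnear⟩ := exists_nearOne_gt (S := sheetAt hpM hA) (ratVal hA) hτp hzero
  refine ⟨t, ht, ?_, hnear⟩
  rwa [(ratVal hA).v_pow hτ, ← hτv] at htv

include hp5 hW in
/-- **The top level is reached.** -/
theorem climb_top {x : JZero (M * p)} (hxα : pushPic M p (heckeAlphaBar QA M p) x = 0)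
    (hxβ : pushPic M p (heckeBetaBar QA M p) x = 0) {t₀ : QA} (ht₀ : t₀ ≠ 0)
    (ht₀v : (ratVal hA).v t₀ = (p : ℚ) / ((p : ℚ) - 1)) :
    ∀ (D : ℕ), 0 < D → (∀ a : QA, a ≠ 0 → (∀ σ ∈ G, σ a = a) →
      ∃ z : ℤ, (D : ℚ) * (ratVal hA).v a = z) →
    ∀ (n : ℕ) (g : X0Bar (M * p)) (t : QA), IsClimb hpM hA G N.m₀ x g → t ≠ 0 →
      0 < (ratVal hA).v t → NearOne (sheetAt hpM hA) t g →
      2 * (D : ℚ) - n < (D : ℚ) * (ratVal hA).v t →
      ∃ g', IsClimb hpM hA G N.m₀ x g' ∧ NearOne (sheetAt hpM hA) t₀ g' := by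
  classical
  haveI := instIsFunctionFieldX0Bar (M * p)
  have hp : (3 : ℚ) ≤ p := hp5.three_le_cast
  intro D hD hDv
  have hDpos : (0 : ℚ) < D := by exact_mod_cast hD
  have hp2 : (p : ℚ) / ((p : ℚ) - 1) ≤ 2 := by rw [div_le_iff₀ (by linarith)]; linarith
  have weaken : ∀ {g : X0Bar (M * p)} {t : QA}, t ≠ 0 → NearOne (sheetAt hpM hA) t g →
      (p : ℚ) / ((p : ℚ) - 1) ≤ (ratVal hA).v t → NearOne (sheetAt hpM hA) t₀ g := by
    rintro g t ht ⟨y, hy, rfl⟩ hle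
    refine ⟨(t / t₀) • y, smul_mem_intRing (ratVal hA) (div_ne_zero ht ht₀)
      (by rw [(ratVal hA).v_div ht ht₀, ht₀v]; linarith) hy, ?_⟩
    rw [smul_smul, mul_div_cancel₀ _ ht₀]
  intro n
  induction n with
  | zero =>
    intro g t hg ht _ hnear hlt
    refine ⟨g, hg, weaken ht hnear ?_⟩
    rw [Nat.cast_zero, sub_zero, mul_comm] at hlt
    have := lt_of_mul_lt_mul_left hlt hDpos.le
    linarith
  | succ n ih =>
    intro g t hg ht htv hnear hlt
    by_cases hg1 : g = 1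
    · exact ⟨g, hg, hg1 ▸ nearOne_one _ t₀⟩
    obtain ⟨ε, η, hε, hεG, hη0, hη⟩ := exists_fixed_level hpM hA hp5 hW (sub_ne_zero.2 hg1)
      (fun σ hσ => by rw [smul_sub, smul_one, hg.2.1 σ hσ])
    have hle : (ratVal hA).v t ≤ (ratVal hA).v ε := by
      by_contra hlt'
      push Not at hlt'
      obtain ⟨y, hy, rfl⟩ := hnear
      rw [add_sub_cancel_left, smul_smul] at hη
      exact hη0 (((sheetAt hpM hA).pair 1).unique hη (pair_res_small (ratVal hA) (Or.inr (by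
        rw [(ratVal hA).v_mul _ _ (inv_ne_zero hε) ht, (ratVal hA).v_inv hε]; linarith)) hy))
    rcases le_or_gt ((p : ℚ) / ((p : ℚ) - 1)) ((ratVal hA).v ε) with hbig | hsmall
    · refine ⟨g, hg, weaken hε ⟨ε⁻¹ • (g - 1), (sheetAt hpM hA).integral_iff_mem.1 ⟨η, hη⟩,
        by rw [smul_smul, mul_inv_cancel₀ hε, one_smul, add_sub_cancel]⟩ hbig⟩
    obtain ⟨z, hz⟩ := hDv ε hε hεG
    obtain ⟨g', hg', t', ht', htv', hnear'⟩ :=
      climb_step hpM hA hp5 hW N hxα hxβ hg hε hεG (lt_of_lt_of_le htv hle) hsmall hη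
    refine ih g' t' hg' ht' (lt_trans (lt_of_lt_of_le htv hle) htv') hnear' ?_
    have h1 : 2 * (D : ℚ) - ((n + 1 : ℕ) : ℚ) < z := by
      rw [← hz]
      exact lt_of_lt_of_le hlt (mul_le_mul_of_nonneg_left hle hDpos.le)
    have h2 : (2 * (D : ℤ) - (n + 1) : ℤ) < z := by
      have : ((2 * (D : ℤ) - (n + 1) : ℤ) : ℚ) < ((z : ℤ) : ℚ) := by push_cast at h1 ⊢; linarith
      exact_mod_cast this
    have h3 : ((2 * (D : ℤ) - n : ℤ) : ℚ) ≤ ((z : ℤ) : ℚ) := by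
      exact_mod_cast (by omega : 2 * (D : ℤ) - n ≤ z)
    push_cast at h3
    calc 2 * (D : ℚ) - n ≤ z := h3
      _ = (D : ℚ) * (ratVal hA).v ε := hz.symm
      _ < _ := mul_lt_mul_of_pos_left htv' hDpos

set_option maxHeartbeats 4000000 in
include hpM hp5 hW in
/-- A representative congruent to one modulo `t₀`. -/
theorem exists_climb {x : JZero (M * p)} (hxα : pushPic M p (heckeAlphaBar QA M p) x = 0)
    (hxβ : pushPic M p (heckeBetaBar QA M p) x = 0) {f : X0Bar (M * p)} (hf : f ≠ 0)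
    (D : Divisor.degZero (K := QA) (F := X0Bar (M * p)))
    (hD : ∀ v, v.ord f = (p : ℤ) * (D : Divisor QA (X0Bar (M * p))) v) (hDx : Pic0.mk D = x)
    (hfix : ∀ σ ∈ G, galN σ • f = f) {d : QA} (hd : d ≠ 0) (hdG : ∀ σ ∈ G, σ d = d)
    {γ₁ γ₂ : modularFunctionFieldFullC kk M} (hγ₁ : γ₁ ≠ 0) (hγ₂ : γ₂ ≠ 0)
    (hres : ((sheetAt hpM hA).pair (d ^ p)).Res f (γ₁ ^ p, γ₂ ^ p)) {t₀ : QA} (ht₀ : t₀ ≠ 0)
    (ht₀v : (ratVal hA).v t₀ = (p : ℚ) / ((p : ℚ) - 1)) :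
    ∃ g, IsClimb hpM hA G N.m₀ x g ∧ NearOne (sheetAt hpM hA) t₀ g := by
  classical
  haveI := instIsFunctionFieldX0Bar M
  haveI := instIsFunctionFieldX0Bar (M * p)
  have hS := sheetAt_good hpM hA hp5
  set W := riemannRochSpace ((D : Divisor QA (X0Bar (M * p))) +
    (N.m₀ : ℤ) • poleDiv QA (sheetAt hpM hA).X)
  haveI : FiniteDimensional QA W := finiteDimensional_rrSpace _
  obtain ⟨u₀, hu₀, hu₀r⟩ := (twist_mem hS N hf hD hd (γ := (γ₁, γ₂)) hγ₁ hγ₂ hres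
    (le_refl N.m₀)).2 1 (one_mem_rimg _)
  rw [one_mul] at hu₀r
  obtain ⟨u, huW, hur, huG⟩ := exists_fixed_lift hpM hA hp5 hW (inv_ne_zero hd)
    (fun σ hσ => by rw [map_inv₀, hdG σ hσ]) W
    (fun σ hσ z hz => stable_rrSpace hpM hA (div_invariant (hfix σ hσ) hD) _ hz)
    (LRed.mem_image_of_res hu₀ hu₀r : (γ₁⁻¹, γ₂⁻¹) ∈ _)
  have hu0 : u ≠ 0 := hur.1.ne_zero (inv_ne_zero hγ₁)
  obtain ⟨D', hD', hcl⟩ := mk_add_divOf hu0 D
  set g := u ^ p * f
  have hg : IsClimb hpM hA G N.m₀ x g := ⟨mul_ne_zero (pow_ne_zero _ hu0) hf,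
    fun σ hσ => by rw [smul_mul', smul_pow', huG σ hσ, hfix σ hσ], pow_mul_mem hf hD huW, D',
    fun v => by rw [v.ord_mul (pow_ne_zero _ hu0) hf, Curves.ord_pow, hD, hD']; ring,
    hcl.trans hDx⟩
  have hg1 : ((sheetAt hpM hA).pair 1).Res g 1 := by
    have h := (sheetAt hpM hA).pair_mul ((sheetAt hpM hA).pair_pow hur p) hres
    rw [inv_pow, inv_mul_cancel₀ (pow_ne_zero _ hd)] at h
    convert h using 1
    simp [Prod.ext_iff, mul_pow, hγ₁, hγ₂]
  obtain ⟨t, ht, htv, hnear⟩ := exists_nearOne_gt (S := sheetAt hpM hA) (ratVal hA) one_ne_zero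
    (g := g) (by
      rw [inv_one, one_smul]
      simpa using LRed.res_sub hg1 (sheetAt hpM hA).pair_one)
  rw [(ratVal hA).v_one] at htv
  obtain ⟨D₀, hD₀, hDv⟩ := hW.val_mem
  refine climb_top hpM hA hp5 hW N hxα hxβ ht₀ ht₀v D₀ hD₀ hDv (2 * D₀) g t hg ht htv hnear ?_
  push_cast
  rw [sub_self]
  exact mul_pos (by exact_mod_cast hD₀) htv

end At

end FLTAgent.MazurPrinciple
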