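import Fermat.Agent.Specialization.Valuation

/-!
# Rational-valued valuations of the places of `ℚ̄`
-/

set_option autoImplicit false
set_option linter.style.haveILetI false

noncomputable section

namespace FLTAgent.MazurPrinciple

open Polynomial

variable {L k : Type*} [Field L] [Field k] {A : ValuationSubring L}

/-- A valuation with values in `ℚ`, normalised at `p`, with valuation ring `A`. -/
structure RatVal (π : A →+* k) (p : ℕ) where
  v : L → ℚ
  v_mul : ∀ x y : L, x ≠ 0 → y ≠ 0 → v (x * y) = v x + v y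
  mem_iff : ∀ x : L, x ≠ 0 → (x ∈ A ↔ 0 ≤ v x)
  res_iff : ∀ a : A, (a : L) ≠ 0 → (π a = 0 ↔ 0 < v a)
  p_ne : (p : L) ≠ 0
  v_p : v (p : L) = 1

namespace RatVal

variable {π : A →+* k} {p : ℕ} (V : RatVal π p)

theorem v_one : V.v 1 = 0 := by
  have := V.v_mul 1 1 one_ne_zero one_ne_zero
  rw [mul_one] at this
  linarith

theorem v_pow {x : L} (hx : x ≠ 0) (n : ℕ) : V.v (x ^ n) = n * V.v x := by
  induction n with
  | zero => simp [V.v_one]
  | succ n ih => rw [pow_succ, V.v_mul _ _ (pow_ne_zero _ hx) hx, ih]; push_cast; ring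

theorem v_inv {x : L} (hx : x ≠ 0) : V.v x⁻¹ = -V.v x := by
  have := V.v_mul x x⁻¹ hx (inv_ne_zero hx)
  rw [mul_inv_cancel₀ hx, V.v_one] at this
  linarith

theorem v_zpow {x : L} (hx : x ≠ 0) (n : ℤ) : V.v (x ^ n) = n * V.v x := by
  obtain ⟨m, rfl | rfl⟩ := n.eq_nat_or_neg
  · rw [zpow_natCast, V.v_pow hx, Int.cast_natCast]
  · rw [zpow_neg, zpow_natCast, V.v_inv (pow_ne_zero _ hx), V.v_pow hx]
    push_cast; ring

theorem v_div {x y : L} (hx : x ≠ 0) (hy : y ≠ 0) : V.v (x / y) = V.v x - V.v y := by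
  rw [div_eq_mul_inv, V.v_mul _ _ hx (inv_ne_zero hy), V.v_inv hy, sub_eq_add_neg]

theorem v_neg (x : L) : V.v (-x) = V.v x := by
  rcases eq_or_ne x 0 with rfl | hx
  · rw [neg_zero]
  have h1 := V.v_pow (neg_ne_zero.2 (one_ne_zero (α := L))) 2
  rw [neg_one_sq, V.v_one] at h1
  rw [← neg_one_mul, V.v_mul _ _ (neg_ne_zero.2 one_ne_zero) hx]
  push_cast at h1
  linarith

theorem v_prod {ι : Type*} (s : Finset ι) (x : ι → L) (hx : ∀ i ∈ s, x i ≠ 0) :
    V.v (∏ i ∈ s, x i) = ∑ i ∈ s, V.v (x i) := by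
  classical
  induction s using Finset.induction with
  | empty => simp [V.v_one]
  | insert a s ha ih =>
    rw [Finset.prod_insert ha, Finset.sum_insert ha,
      V.v_mul _ _ (hx a (Finset.mem_insert_self _ _))
        (Finset.prod_ne_zero_iff.2 fun i hi => hx i (Finset.mem_insert_of_mem hi)),
      ih fun i hi => hx i (Finset.mem_insert_of_mem hi)]

/-- The valuation is at least `r`. -/
def GE (r : ℚ) (x : L) : Prop := x = 0 ∨ r ≤ V.v x

/-- The valuation is larger than `r`. -/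
def GT (r : ℚ) (x : L) : Prop := x = 0 ∨ r < V.v x

theorem mem_iff_GE {x : L} : x ∈ A ↔ V.GE 0 x := by
  rcases eq_or_ne x 0 with rfl | hx
  · simp [GE]
  · rw [V.mem_iff x hx, GE, or_iff_right hx]

theorem res_iff_GT {a : A} : π a = 0 ↔ V.GT 0 (a : L) := by
  rcases eq_or_ne (a : L) 0 with ha | ha
  · have : a = 0 := Subtype.ext ha
    simp [GT, this]
  · rw [V.res_iff a ha, GT, or_iff_right ha]

theorem GE.le {r : ℚ} {x : L} (h : V.GE r x) (hx : x ≠ 0) : r ≤ V.v x := h.resolve_left hx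

theorem GT.lt {r : ℚ} {x : L} (h : V.GT r x) (hx : x ≠ 0) : r < V.v x := h.resolve_left hx

theorem GE.mono {r r' : ℚ} {x : L} (h : V.GE r x) (hr : r' ≤ r) : V.GE r' x :=
  h.imp_right hr.trans

theorem GT.ge {r r' : ℚ} {x : L} (h : V.GT r x) (hr : r' ≤ r) : V.GE r' x :=
  h.imp_right fun h' => hr.trans h'.le

theorem GE.gt {r r' : ℚ} {x : L} (h : V.GE r x) (hr : r' < r) : V.GT r' x :=
  h.imp_right hr.trans_le

theorem GT.mono {r r' : ℚ} {x : L} (h : V.GT r x) (hr : r' ≤ r) : V.GT r' x :=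
  h.imp_right hr.trans_lt

theorem ge_v (x : L) : V.GE (V.v x) x := Or.inr le_rfl

theorem add_ne_bound {x y : L} (hx : x ≠ 0) (h : V.v x ≤ V.v y) (hy : y ≠ 0) :
    V.GE (V.v x) (x + y) := by
  rcases eq_or_ne (x + y) 0 with h0 | h0
  · exact Or.inl h0
  have hq : (1 : L) + y / x ∈ A := add_mem (one_mem A)
    ((V.mem_iff _ (div_ne_zero hy hx)).2 (by rw [V.v_div hy hx]; linarith))
  have e : x + y = x * (1 + y / x) := by rw [mul_add, mul_one, mul_div_cancel₀ _ hx]
  have hne : (1 : L) + y / x ≠ 0 := fun h' => h0 (by rw [e, h', mul_zero])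
  refine Or.inr ?_
  rw [e, V.v_mul _ _ hx hne]
  linarith [(V.mem_iff _ hne).1 hq]

theorem GE.add {r : ℚ} {x y : L} (hx : V.GE r x) (hy : V.GE r y) : V.GE r (x + y) := by
  rcases eq_or_ne x 0 with rfl | hx0
  · rwa [zero_add]
  rcases eq_or_ne y 0 with rfl | hy0
  · rwa [add_zero]
  rcases le_total (V.v x) (V.v y) with h | h
  · exact (V.add_ne_bound hx0 h hy0).mono V (hx.le V hx0)
  · rw [add_comm]
    exact (V.add_ne_bound hy0 h hx0).mono V (hy.le V hy0)

theorem GT.add {r : ℚ} {x y : L} (hx : V.GT r x) (hy : V.GT r y) : V.GT r (x + y) := by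
  rcases eq_or_ne x 0 with rfl | hx0
  · rwa [zero_add]
  rcases eq_or_ne y 0 with rfl | hy0
  · rwa [add_zero]
  rcases le_total (V.v x) (V.v y) with h | h
  · exact (V.add_ne_bound hx0 h hy0).gt V (hx.lt V hx0)
  · rw [add_comm]
    exact (V.add_ne_bound hy0 h hx0).gt V (hy.lt V hy0)

theorem GE.neg {r : ℚ} {x : L} (hx : V.GE r x) : V.GE r (-x) :=
  hx.imp (fun h => by rw [h, neg_zero]) fun h => by rwa [V.v_neg]

theorem GT.neg {r : ℚ} {x : L} (hx : V.GT r x) : V.GT r (-x) :=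
  hx.imp (fun h => by rw [h, neg_zero]) fun h => by rwa [V.v_neg]

theorem GE.sub {r : ℚ} {x y : L} (hx : V.GE r x) (hy : V.GE r y) : V.GE r (x - y) := by
  rw [sub_eq_add_neg]; exact hx.add V (hy.neg V)

theorem GT.sub {r : ℚ} {x y : L} (hx : V.GT r x) (hy : V.GT r y) : V.GT r (x - y) := by
  rw [sub_eq_add_neg]; exact hx.add V (hy.neg V)

theorem GE.mul {r s : ℚ} {x y : L} (hx : V.GE r x) (hy : V.GE s y) : V.GE (r + s) (x * y) := by
  rcases eq_or_ne x 0 with rfl | hx0
  · exact Or.inl (zero_mul _)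
  rcases eq_or_ne y 0 with rfl | hy0
  · exact Or.inl (mul_zero _)
  exact Or.inr (by rw [V.v_mul _ _ hx0 hy0]; linarith [hx.le V hx0, hy.le V hy0])

theorem GT.mul_ge {r s : ℚ} {x y : L} (hx : V.GT r x) (hy : V.GE s y) :
    V.GT (r + s) (x * y) := by
  rcases eq_or_ne x 0 with rfl | hx0
  · exact Or.inl (zero_mul _)
  rcases eq_or_ne y 0 with rfl | hy0
  · exact Or.inl (mul_zero _)
  exact Or.inr (by rw [V.v_mul _ _ hx0 hy0]; linarith [hx.lt V hx0, hy.le V hy0])

theorem GE.pow {r : ℚ} {x : L} (hx : V.GE r x) (n : ℕ) : V.GE (n * r) (x ^ n) := by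
  induction n with
  | zero => exact Or.inr (by simp [V.v_one])
  | succ n ih =>
    rw [pow_succ]
    exact (ih.mul V hx).mono V (by push_cast; linarith)

theorem GE.sum {r : ℚ} {ι : Type*} {s : Finset ι} {x : ι → L} (h : ∀ i ∈ s, V.GE r (x i)) :
    V.GE r (∑ i ∈ s, x i) :=
  Finset.sum_induction _ (V.GE r) (fun _ _ ha hb => ha.add V hb) (Or.inl rfl) h

/-- The strict triangle inequality. -/
theorem v_add_eq {x y : L} (hx : x ≠ 0) (hy : V.GT (V.v x) y) :
    x + y ≠ 0 ∧ V.v (x + y) = V.v x := by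
  rcases eq_or_ne y 0 with rfl | hy0
  · rw [add_zero]; exact ⟨hx, rfl⟩
  replace hy := hy.lt V hy0
  have hne : x + y ≠ 0 := fun h => by
    rw [eq_neg_of_add_eq_zero_left h, V.v_neg] at hy
    exact lt_irrefl _ hy
  refine ⟨hne, le_antisymm ?_ ((V.add_ne_bound hx hy.le hy0).le V hne)⟩
  by_contra hlt
  push Not at hlt
  have h1 : V.GT (V.v x) (x + y - y) :=
    GT.sub V (Or.inr hlt) (Or.inr hy)
  rw [add_sub_cancel_right] at h1
  exact lt_irrefl _ (h1.lt V hx)

theorem v_eq_zero_of_res {a : A} (h : π a ≠ 0) : (a : L) ≠ 0 ∧ V.v a = 0 := by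
  have ha : (a : L) ≠ 0 := fun h0 => h (by rw [show a = 0 from Subtype.ext h0, map_zero])
  refine ⟨ha, le_antisymm (not_lt.1 fun hlt => h ((V.res_iff a ha).2 hlt))
    ((V.mem_iff _ ha).1 a.2)⟩

theorem GT.exists_ge {r : ℚ} {x : L} (h : V.GT r x) : ∃ r', r < r' ∧ V.GE r' x := by
  rcases h with rfl | h
  · exact ⟨r + 1, by linarith, Or.inl rfl⟩
  · exact ⟨V.v x, h, Or.inr le_rfl⟩

theorem GT.mul {r s : ℚ} {x y : L} (hx : V.GT r x) (hy : V.GT s y) : V.GT (r + s) (x * y) := by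
  obtain ⟨r', hr, hx'⟩ := hx.exists_ge V
  exact (mul_comm x y).symm ▸ (GT.mul_ge V hy hx').mono V (r' := r + s) (by linarith)

end RatVal

section QBar

local notation "QA" => AlgebraicClosure ℚ

open IsLocalRing

variable {A : ValuationSubring QA} {p : ℕ} [Fact p.Prime]

theorem exists_val_spec (hA : A.LiesOverPrime p) (x : QA) : ∃ r : ℚ, x ≠ 0 →
    ∃ (n : ℕ) (z : ℤ), n ≠ 0 ∧ r = z / n ∧ A.valuation x ^ n = A.valuation (p : QA) ^ z := by
  rcases eq_or_ne x 0 with hx | hx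
  · exact ⟨0, fun h => absurd hx h⟩
  obtain ⟨z, hz⟩ := Specialization.exists_val_pow hA hx le_rfl
  exact ⟨(z : ℚ) / ((minpoly ℚ x).natDegree.factorial : ℕ),
    fun _ => ⟨_, z, Nat.factorial_ne_zero _, rfl, hz⟩⟩

/-- The normalised additive valuation of a place over `p`. -/
def vQ (hA : A.LiesOverPrime p) (x : QA) : ℚ := (exists_val_spec hA x).choose

theorem vQ_eq (hA : A.LiesOverPrime p) {x : QA} (hx : x ≠ 0) {n : ℕ} {z : ℤ} (hn : n ≠ 0)
    (h : A.valuation x ^ n = A.valuation (p : QA) ^ z) : vQ hA x = z / n := by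
  obtain ⟨m, w, hm, e, h'⟩ := (exists_val_spec hA x).choose_spec hx
  rw [vQ, e, div_eq_div_iff (by exact_mod_cast hm) (by exact_mod_cast hn)]
  have hanti := zpow_right_strictAnti₀ (Specialization.val_ell_pos hA)
    (Specialization.val_ell_lt_one hA)
  have h1 : A.valuation (p : QA) ^ (w * n) = A.valuation (p : QA) ^ (z * m) := by
    rw [zpow_mul, zpow_mul, ← h, ← h', zpow_natCast, zpow_natCast, ← pow_mul, ← pow_mul, mul_comm]
  exact_mod_cast hanti.injective h1

/-- The normalised valuation of a place of `ℚ̄` over `p`. -/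
def ratVal (hA : A.LiesOverPrime p) : RatVal (residue A) p where
  v := vQ hA
  v_mul x y hx hy := by
    obtain ⟨n, z, hn, e, h⟩ := (exists_val_spec hA x).choose_spec hx
    obtain ⟨m, w, hm, e', h'⟩ := (exists_val_spec hA y).choose_spec hy
    change vQ hA x = _ at e
    change vQ hA y = _ at e'
    have hp := (Specialization.val_ell_pos hA).ne'
    rw [e, e', vQ_eq hA (mul_ne_zero hx hy) (mul_ne_zero hn hm) (z := z * m + w * n) (by
      rw [map_mul, mul_pow, zpow_add₀ hp, zpow_mul, zpow_mul, ← h, ← h', zpow_natCast,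
        zpow_natCast, ← pow_mul, ← pow_mul, mul_comm m n])]
    have : (n : ℚ) ≠ 0 := by exact_mod_cast hn
    have : (m : ℚ) ≠ 0 := by exact_mod_cast hm
    push_cast
    field_simp
  mem_iff x hx := by
    obtain ⟨n, z, hn, e, h⟩ := (exists_val_spec hA x).choose_spec hx
    change vQ hA x = _ at e
    rw [e, le_div_iff₀ (by exact_mod_cast Nat.pos_of_ne_zero hn), zero_mul, Int.cast_nonneg_iff,
      ← A.valuation_le_one_iff, ← pow_le_one_iff_of_nonneg zero_le hn, h]
    exact zpow_le_one_iff_right_of_lt_one₀ (Specialization.val_ell_pos hA)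
      (Specialization.val_ell_lt_one hA)
  res_iff a ha := by
    obtain ⟨n, z, hn, e, h⟩ := (exists_val_spec hA (a : QA)).choose_spec ha
    change vQ hA a = _ at e
    rw [e, lt_div_iff₀ (by exact_mod_cast Nat.pos_of_ne_zero hn), zero_mul, Int.cast_pos,
      LocalEC.residue_eq_zero_iff_val_lt_one, ← pow_lt_one_iff_of_nonneg zero_le hn, h]
    exact zpow_lt_one_iff_right_of_lt_one₀ (Specialization.val_ell_pos hA)
      (Specialization.val_ell_lt_one hA)
  p_ne := Nat.cast_ne_zero.2 (NeZero.ne p)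
  v_p := by
    have := vQ_eq hA (Nat.cast_ne_zero.2 (NeZero.ne p) : (p : QA) ≠ 0) one_ne_zero (z := 1)
      (by simp)
    simpa using this

end QBar

end FLTAgent.MazurPrinciple
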