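import Fermat.Agent.BadRed.Linear
import Fermat.Agent.MazurPrinciple.Val

/-!
# Digits of `p`-th powers, and nearest elements of a subspace
-/

set_option autoImplicit false
set_option linter.style.haveILetI false
set_option linter.unusedSectionVars false

noncomputable section

namespace FLTAgent.MazurPrinciple

open FLTAgent.Specialization FLTAgent.BadRed

variable {L k : Type*} [Field L] [Field k] {A : ValuationSubring L} {π : A →+* k}
  {E Eb : Type*} [Field E] [Field Eb] [Algebra L E] [Algebra k Eb] {R : Reduction π E Eb} {p : ℕ}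
  (V : RatVal π p)

/-- A reduction as a linear reduction. -/
def toLRed (R : Reduction π E Eb) : LRed π E Eb where
  Res := R.Res
  unique h h' := h.unique h'
  res_zero := R.res_zero
  res_add h h' := h.add h'
  res_smul := fun a {_ _} h => h.smul a

section Coef

/-- The coefficient of an element with non-zero reduction. -/
theorem coef_mem (hπ : Function.Surjective π) {c : L} {y : E} {η g : Eb} (hy : R.Res y η)
    (hη : η ≠ 0) (h : R.Res (c • y) g) : ∃ hc : c ∈ A, g = π ⟨c, hc⟩ • η := by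
  rcases A.mem_or_inv_mem c with hc | hc
  · exact ⟨hc, h.unique (hy.smul ⟨c, hc⟩)⟩
  by_cases hc' : c ∈ A
  · exact ⟨hc', h.unique (hy.smul ⟨c, hc'⟩)⟩
  exfalso
  have h0 : c ≠ 0 := fun h0 => hc' (h0 ▸ A.zero_mem)
  have h' := h.smul ⟨c⁻¹, hc⟩
  rw [Reduction.map_eq_zero_of_inv_notMem hπ (by simpa using hc'), zero_smul, smul_smul,
    inv_mul_cancel₀ h0, one_smul] at h'
  exact hη (hy.unique h')

include V in
theorem res_smul_zero {c : L} (hc : V.GT 0 c) {y : E} (hy : y ∈ R.O) : R.Res (c • y) 0 := by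
  obtain ⟨g, hg⟩ := R.exists_res_of_mem hy
  have hcA : c ∈ A := (V.mem_iff_GE).2 (hc.ge V le_rfl)
  have h := hg.smul ⟨c, hcA⟩
  rwa [(V.res_iff_GT).2 hc, zero_smul] at h

end Coef

variable [Fact p.Prime]

/-- The binomial expansion with the first and the last term split off. -/
theorem one_add_pow_split {δ : E} (hδ : δ ∈ R.O) :
    ∃ r ∈ R.O, (1 + δ) ^ p = 1 + δ ^ p + (p : E) * δ * r := by
  obtain ⟨r, hr⟩ := exists_add_pow_prime_eq (Fact.out : p.Prime) (1 : R.O) ⟨δ, hδ⟩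
  refine ⟨r, r.2, ?_⟩
  have h := congrArg (Subtype.val : R.O → E) hr
  push_cast at h
  rw [h]
  ring

variable [CharP k p]

theorem pow_inj_Eb (k' : Type*) [Field k'] [Algebra k' Eb] [CharP k' p] {x y : Eb}
    (h : x ^ p = y ^ p) : x = y := by
  haveI : CharP Eb p := (Algebra.charP_iff k' Eb p).1 inferInstance
  exact frobenius_inj Eb p h

theorem pow_sub_one_eq {t : L} {δ' : E} (hδ : t • δ' ∈ R.O) :
    ∃ r ∈ R.O, (1 + t • δ') ^ p - 1 = t ^ p • δ' ^ p + ((p : L) * t) • (δ' * r) := by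
  obtain ⟨r, hr, h⟩ := one_add_pow_split (R := R) (p := p) hδ
  refine ⟨r, hr, ?_⟩
  rw [h, _root_.smul_pow]
  simp only [Algebra.smul_def, map_mul, map_natCast]
  ring

include V in
/-- Below the critical level the leading term of `(1 + t δ') ^ p - 1` is `t ^ p δ' ^ p`. -/
theorem exists_lead {t : L} (ht : t ≠ 0) (ht0 : 0 < V.v t) (hlt : V.v t < 1 / ((p : ℚ) - 1))
    {δ' : E} {η : Eb} (hη : R.Res δ' η) :
    ∃ y, R.Res y (η ^ p) ∧ (1 + t • δ') ^ p - 1 = t ^ p • y := by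
  have hp : (1 : ℚ) < p := by exact_mod_cast (Fact.out : p.Prime).one_lt
  have htA : t ∈ A := (V.mem_iff _ ht).2 ht0.le
  obtain ⟨r, hr, h⟩ := pow_sub_one_eq (R := R) (p := p) (t := t) (δ' := δ') (hη.smul ⟨t, htA⟩).mem
  refine ⟨δ' ^ p + ((p : L) * t / t ^ p) • (δ' * r), ?_, ?_⟩
  · have hc : V.GT 0 ((p : L) * t / t ^ p) := Or.inr (by
      rw [V.v_div (mul_ne_zero V.p_ne ht) (pow_ne_zero _ ht), V.v_mul _ _ V.p_ne ht, V.v_p,
        V.v_pow ht]
      rw [lt_div_iff₀ (by linarith)] at hlt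
      linarith)
    simpa using (hη.pow p).add (res_smul_zero V hc (mul_mem hη.mem hr))
  · rw [h, smul_add, smul_smul, mul_div_cancel₀ _ (pow_ne_zero _ ht)]

include V in
/-- From the critical level on nothing is seen below `p / (p - 1)`. -/
theorem res_zero_high {t ε : L} (hε : ε ≠ 0) (hεlt : V.v ε < (p : ℚ) / ((p : ℚ) - 1))
    (ht : t = 0 ∨ 1 / ((p : ℚ) - 1) ≤ V.v t) {δ' : E} (hδ : δ' ∈ R.O) :
    R.Res (ε⁻¹ • ((1 + t • δ') ^ p - 1)) 0 := by
  have hp : (1 : ℚ) < p := by exact_mod_cast (Fact.out : p.Prime).one_lt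
  rcases eq_or_ne t 0 with rfl | ht0
  · simpa using R.res_zero
  have hs := ht.resolve_left ht0
  have htA : t ∈ A := (V.mem_iff _ ht0).2 (le_trans (by positivity [sub_pos.2 hp]) hs)
  obtain ⟨g, hg⟩ := R.exists_res_of_mem hδ
  obtain ⟨r, hr, h⟩ := pow_sub_one_eq (R := R) (p := p) (t := t) (δ' := δ') (hg.smul ⟨t, htA⟩).mem
  have e : (p : ℚ) / ((p : ℚ) - 1) = 1 + 1 / ((p : ℚ) - 1) := by
    field_simp [(sub_pos.2 hp).ne']
    ring
  have h1 : V.GT 0 (ε⁻¹ * t ^ p) := Or.inr (by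
    rw [V.v_mul _ _ (inv_ne_zero hε) (pow_ne_zero _ ht0), V.v_inv hε, V.v_pow ht0]
    have : (p : ℚ) / ((p : ℚ) - 1) ≤ p * V.v t := by
      rw [div_eq_mul_one_div]
      exact mul_le_mul_of_nonneg_left hs (by positivity)
    linarith)
  have h2 : V.GT 0 (ε⁻¹ * ((p : L) * t)) := Or.inr (by
    rw [V.v_mul _ _ (inv_ne_zero hε) (mul_ne_zero V.p_ne ht0), V.v_inv hε,
      V.v_mul _ _ V.p_ne ht0, V.v_p]
    linarith)
  rw [h, smul_add, smul_smul, smul_smul]
  simpa using (res_smul_zero V h1 (pow_mem hδ p)).add (res_smul_zero V h2 (mul_mem hδ hr))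

variable (hπ : Function.Surjective π)
include hπ

include V in
/-- **The first digit of a constant times a `p`-th power is a `p`-th power** below
`p / (p - 1)`. -/
theorem exists_pow_digit [IsAlgClosed L] [IsAlgClosed k] (hR : R.Scaled) {c : L} {h : E}
    {ε : L} (hε : ε ≠ 0) (hε0 : 0 < V.v ε)
    (hεlt : V.v ε < (p : ℚ) / ((p : ℚ) - 1)) {g : Eb}
    (hg : R.Res (ε⁻¹ • (c • h ^ p - 1)) g) : ∃ γ, g = γ ^ p := by
  have hp : p.Prime := Fact.out
  obtain ⟨γ, hγ⟩ := IsAlgClosed.exists_pow_nat_eq c hp.pos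
  set H := γ • h with hH
  have hHp : H ^ p = c • h ^ p := by rw [hH, _root_.smul_pow, hγ]
  rw [← hHp] at hg
  have h1 : R.Res (H ^ p) 1 := by
    have := (res_smul_zero V (c := ε) (Or.inr hε0) hg.mem).add R.res_one
    rwa [smul_smul, mul_inv_cancel₀ hε, one_smul, sub_add_cancel, zero_add] at this
  have hH0 : H ≠ 0 := fun h0 => by
    rw [h0, zero_pow hp.ne_zero] at h1
    exact zero_ne_one (R.res_zero.unique h1)
  -- `H` reduces to one
  have hH1 : R.Res H 1 := by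
    obtain ⟨s, η, hη, hs⟩ := hR H hH0
    have hsp := hs.pow p
    rw [_root_.smul_pow] at hsp
    obtain ⟨hsA, hηe⟩ := coef_mem hπ h1 one_ne_zero hsp
    have hs0 : s ≠ 0 := fun h0 => hη (by
      rw [h0, zero_smul] at hs
      exact hs.unique R.res_zero)
    have hv : V.v s = 0 := by
      have h2 : 0 < (p : ℚ) := by exact_mod_cast hp.pos
      have h3 : π ⟨_, hsA⟩ ≠ 0 := fun h0 => hη (by
        rw [h0, zero_smul] at hηe
        exact (pow_eq_zero_iff hp.ne_zero).1 hηe)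
      have h4 := (V.v_eq_zero_of_res h3).2
      rw [V.v_pow hs0] at h4
      exact (mul_eq_zero.1 h4).resolve_left h2.ne'
    have hsi : s⁻¹ ∈ A := (V.mem_iff _ (inv_ne_zero hs0)).2 (by rw [V.v_inv hs0, hv, neg_zero])
    obtain ⟨ρ, hρ⟩ : ∃ ρ, R.Res H ρ := ⟨_, by
      have := hs.smul ⟨s⁻¹, hsi⟩
      rwa [smul_smul, inv_mul_cancel₀ hs0, one_smul] at this⟩
    rwa [pow_inj_Eb (p := p) k (((hρ.pow p).unique h1).trans (one_pow p).symm)] at hρ
  rcases eq_or_ne (H - 1) 0 with h0 | h0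
  · refine ⟨0, ?_⟩
    rw [sub_eq_zero.1 h0, one_pow, sub_self, smul_zero] at hg
    rw [hg.unique R.res_zero, zero_pow hp.ne_zero]
  obtain ⟨s, η, hη, hs⟩ := hR _ h0
  have hs0 : s ≠ 0 := fun e => hη (by
    rw [e, zero_smul] at hs
    exact hs.unique R.res_zero)
  have hδ0 : R.Res (H - 1) 0 := by simpa using hH1.sub R.res_one
  have hsA : s ∉ A := fun hm => hη (hs.unique (by simpa using hδ0.smul ⟨s, hm⟩))
  have hHs : H = 1 + s⁻¹ • (s • (H - 1)) := by
    rw [smul_smul, inv_mul_cancel₀ hs0, one_smul, add_sub_cancel]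
  have hvs : 0 < V.v s⁻¹ := by
    rw [V.v_inv hs0, neg_pos]
    by_contra hle
    exact hsA ((V.mem_iff _ hs0).2 (not_lt.1 hle))
  rw [hHs] at hg
  rcases le_or_gt (1 / ((p : ℚ) - 1)) (V.v s⁻¹) with hlev | hlev
  · refine ⟨0, ?_⟩
    rw [zero_pow hp.ne_zero]
    exact hg.unique (res_zero_high V hε hεlt (Or.inr hlev) hs.mem)
  obtain ⟨y, hy, hye⟩ := exists_lead V (inv_ne_zero hs0) hvs hlev hs
  rw [hye, smul_smul] at hg
  obtain ⟨hA, rfl⟩ := coef_mem hπ hy (pow_ne_zero _ hη) hg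
  obtain ⟨ρ, hρ⟩ := IsAlgClosed.exists_pow_nat_eq (π ⟨_, hA⟩) hp.pos
  exact ⟨ρ • η, by rw [_root_.smul_pow, hρ]⟩

include V in
/-- A `p`-th power close to one only contributes constants at low levels. -/
theorem exists_const_digit {c : L} {H : E} {s : L} (hs : s ≠ 0)
    (hs1 : 1 / ((p : ℚ) * ((p : ℚ) - 1)) < -V.v s) (hH : s • (H - 1) ∈ R.O) {ε : L} (hε : ε ≠ 0)
    (hεle : V.v ε ≤ 1 / ((p : ℚ) - 1)) {g : Eb} (hg : R.Res (ε⁻¹ • (c • H ^ p - 1)) g) :
    ∃ a : k, g = algebraMap k Eb a := by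
  have hp : (1 : ℚ) < p := by exact_mod_cast (Fact.out : p.Prime).one_lt
  have hpos : 0 < V.v s⁻¹ := by
    rw [V.v_inv hs]
    exact lt_trans (by positivity [sub_pos.2 hp]) hs1
  obtain ⟨δ', hδ'⟩ := R.exists_res_of_mem hH
  have hHs : H = 1 + s⁻¹ • (s • (H - 1)) := by
    rw [smul_smul, inv_mul_cancel₀ hs, one_smul, add_sub_cancel]
  have hsA : s⁻¹ ∈ A := (V.mem_iff _ (inv_ne_zero hs)).2 hpos.le
  have hH1 : R.Res H 1 := by
    rw [hHs]
    have h := hδ'.smul ⟨s⁻¹, hsA⟩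
    rw [(V.res_iff _ (inv_ne_zero hs)).2 hpos, zero_smul] at h
    simpa using R.res_one.add h
  obtain ⟨r, hr, h⟩ := pow_sub_one_eq (R := R) (p := p) (t := s⁻¹) (δ' := s • (H - 1))
    (hδ'.smul ⟨s⁻¹, hsA⟩).mem
  rw [← hHs] at h
  have hsp : 1 / ((p : ℚ) - 1) < p * (-V.v s) := by
    calc 1 / ((p : ℚ) - 1) = p * (1 / ((p : ℚ) * ((p : ℚ) - 1))) := by
          field_simp
      _ < _ := mul_lt_mul_of_pos_left hs1 (by linarith)
  have h2 : R.Res (ε⁻¹ • (H ^ p - 1)) 0 := by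
    rw [h, smul_add, smul_smul, smul_smul]
    have g1 : V.GT 0 (ε⁻¹ * s⁻¹ ^ p) := Or.inr (by
      rw [V.v_mul _ _ (inv_ne_zero hε) (pow_ne_zero _ (inv_ne_zero hs)), V.v_inv hε,
        V.v_pow (inv_ne_zero hs), V.v_inv hs]
      linarith)
    have g2 : V.GT 0 (ε⁻¹ * ((p : L) * s⁻¹)) := Or.inr (by
      rw [V.v_mul _ _ (inv_ne_zero hε) (mul_ne_zero V.p_ne (inv_ne_zero hs)), V.v_inv hε,
        V.v_mul _ _ V.p_ne (inv_ne_zero hs), V.v_p, V.v_inv hs]
      have : 1 / ((p : ℚ) - 1) ≤ 1 := by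
        rw [div_le_one (sub_pos.2 hp)]
        have : (2 : ℚ) ≤ p := by exact_mod_cast (Fact.out : p.Prime).two_le
        linarith
      have := lt_trans (by positivity [sub_pos.2 hp] : (0 : ℚ) < 1 / ((p : ℚ) * ((p : ℚ) - 1))) hs1
      linarith)
    simpa using (res_smul_zero V g1 (pow_mem hδ'.mem p)).add
      (res_smul_zero V g2 (mul_mem hδ'.mem hr))
  have h3 : R.Res (((c - 1) / ε) • H ^ p) g := by
    have := hg.sub h2
    rw [sub_zero, ← smul_sub] at this
    convert this using 1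
    simp only [Algebra.smul_def, map_div₀, map_sub, map_one, map_inv₀]
    ring
  obtain ⟨hA, rfl⟩ := coef_mem hπ (by simpa using hH1.pow p) one_ne_zero h3
  exact ⟨π ⟨_, hA⟩, by rw [Algebra.smul_def, mul_one]⟩

include V in
/-- A non-constant digit of `c (1 + τ ξ) ^ p` determines the level of `τ`. -/
theorem exists_level [IsAlgClosed k] {c τ : L} (hτ : τ ≠ 0) (hτ0 : 0 < V.v τ) {ξ : E} {η : Eb}
    (hξ : R.Res ξ η) (hη : ∀ a : k, η ≠ algebraMap k Eb a) {ε : L} (hε : ε ≠ 0)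
    (hεlt : V.v ε < (p : ℚ) / ((p : ℚ) - 1)) {g : Eb}
    (hg : R.Res (ε⁻¹ • (c • (1 + τ • ξ) ^ p - 1)) g) :
    (∃ a : k, g = algebraMap k Eb a) ∨ V.v ε = p * V.v τ := by
  have hp : p.Prime := Fact.out
  have hτA : τ ∈ A := (V.mem_iff _ hτ).2 hτ0.le
  have hH1 : R.Res ((1 + τ • ξ) ^ p) 1 := by
    have h := (hξ.smul ⟨τ, hτA⟩)
    rw [(V.res_iff _ hτ).2 hτ0, zero_smul] at h
    simpa using (R.res_one.add h).pow p
  have hsplit : ε⁻¹ • (c • (1 + τ • ξ) ^ p - 1) = ((c - 1) / ε) • (1 + τ • ξ) ^ p +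
      ε⁻¹ • ((1 + τ • ξ) ^ p - 1) := by
    simp only [Algebra.smul_def, map_div₀, map_sub, map_one, map_inv₀]
    ring
  rw [hsplit] at hg
  rcases le_or_gt (1 / ((p : ℚ) - 1)) (V.v τ) with hlev | hlev
  · left
    have h3 := hg.sub (res_zero_high (R := R) V hε hεlt (Or.inr hlev) hξ.mem)
    rw [add_sub_cancel_right, sub_zero] at h3
    obtain ⟨hA, rfl⟩ := coef_mem hπ hH1 one_ne_zero h3
    exact ⟨π ⟨_, hA⟩, by rw [Algebra.smul_def, mul_one]⟩
  obtain ⟨y, hy, hye⟩ := exists_lead V hτ hτ0 hlev hξ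
  rw [hye, smul_smul] at hg
  have hind : LinearIndependent k ![(1 : Eb), η ^ p] := by
    refine LinearIndependent.pair_iff.2 fun a b hab => ?_
    rcases eq_or_ne b 0 with rfl | hb
    · rw [zero_smul, add_zero, Algebra.smul_def, mul_one, map_eq_zero] at hab
      exact ⟨hab, rfl⟩
    exfalso
    obtain ⟨ρ, hρ⟩ := IsAlgClosed.exists_pow_nat_eq (-a / b) hp.pos
    refine hη ρ (pow_inj_Eb (p := p) k ?_)
    rw [← map_pow, hρ, map_div₀, map_neg, eq_div_iff ((_root_.map_ne_zero _).2 hb)]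
    rw [Algebra.smul_def, Algebra.smul_def, mul_one] at hab
    linear_combination hab
  have hvw : ∀ i, (toLRed R).Res (![(1 + τ • ξ) ^ p, y] i) (![(1 : Eb), η ^ p] i) := by
    intro i
    fin_cases i
    · exact hH1
    · exact hy
  obtain ⟨d, hd, hge⟩ := LRed.coord_res hπ hvw hind (a := ![(c - 1) / ε, ε⁻¹ * τ ^ p])
    (show R.Res _ g by simpa [Fin.sum_univ_two] using hg)
  rw [Fin.sum_univ_two] at hge
  by_cases h0 : π (d 1) = 0
  · left
    refine ⟨π (d 0), ?_⟩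
    simp only [Matrix.cons_val_zero, Matrix.cons_val_one, h0, zero_smul, add_zero] at hge
    rw [hge, Algebra.smul_def, mul_one]
  · right
    have h := (V.v_eq_zero_of_res h0).2
    rw [show (d 1 : L) = ε⁻¹ * τ ^ p by simpa using hd 1,
      V.v_mul _ _ (inv_ne_zero hε) (pow_ne_zero _ hτ), V.v_inv hε, V.v_pow hτ] at h
    linarith

section Farthest

omit hπ
variable {M W : Type*} [AddCommGroup M] [Module L M] [AddCommGroup W] [Module k W]
  {T : LRed π M W}

/-- Outside a subspace there is a nearest element: the difference, scaled, leaves its reduction. -/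
theorem exists_farthest (hO : T.Orth) (hπ : Function.Surjective π) (U : Submodule L M)
    [FiniteDimensional L U] {z : M} (hz : z ∉ U) :
    ∃ a ∈ U, ∃ (s : L) (η : W), s ≠ 0 ∧ T.Res (s • (z - a)) η ∧ η ∉ T.image U ∧
      η ∈ T.image (U ⊔ L ∙ z) := by
  have hlt : U < U ⊔ L ∙ z := left_lt_sup.2 fun h => hz (h (Submodule.mem_span_singleton_self z))
  haveI := LRed.finiteDimensional_image hO hπ (U ⊔ L ∙ z)
  have hlt' : T.image U < T.image (U ⊔ L ∙ z) := by
    refine lt_of_le_of_ne (LRed.image_mono le_sup_left) fun he => ?_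
    have h := congrArg (fun X : Submodule k W => Module.finrank k X) he
    simp only [LRed.finrank_image hO hπ] at h
    exact absurd h (Submodule.finrank_lt_finrank_of_lt hlt).ne
  obtain ⟨η, hη, hη'⟩ := SetLike.exists_of_lt hlt'
  obtain ⟨e, he, hres⟩ := (LRed.mem_image hπ).1 hη
  obtain ⟨u, hu, w, hw, rfl⟩ := Submodule.mem_sup.1 he
  obtain ⟨s, rfl⟩ := Submodule.mem_span_singleton.1 hw
  have hs : s ≠ 0 := fun h0 => hη' (LRed.mem_image_of_res hu (by
    rwa [h0, zero_smul, add_zero] at hres))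
  refine ⟨-(s⁻¹ • u), U.neg_mem (U.smul_mem _ hu), s, η, hs, ?_, hη', hη⟩
  rw [sub_neg_eq_add, smul_add, smul_smul, mul_inv_cancel₀ hs, one_smul, add_comm]
  exact hres

/-- A nearest element is at least as close as any other. -/
theorem not_small_of_farthest {U : Submodule L M} {z a : M} (ha : a ∈ U) {s : L} {η : W}
    (h : T.Res (s • (z - a)) η) (hη : η ∉ T.image U) {b : M} (hb : b ∈ U)
    (hzb : T.Res (s • (z - b)) 0) : False := by
  apply hη
  have h1 := LRed.res_sub h hzb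
  rw [← smul_sub, sub_sub_sub_cancel_left, sub_zero] at h1
  exact LRed.mem_image_of_res (U.smul_mem s (U.sub_mem hb ha)) h1

end Farthest

end FLTAgent.MazurPrinciple
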