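import Fermat.Agent.BadRed.Criterion
import Fermat.Agent.MazurPrinciple.Val

/-!
# Values at points, and bounds for them from the two reductions

`chart_value_mem`: a function without poles in a chart which is integral on both sheets takes
integral values at integral points.  `exists_value_bound`: near the first sheet, measured by a
function which vanishes on the second sheet, values are bounded by the first reduction alone.
-/

set_option autoImplicit false
set_option linter.style.haveILetI false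
set_option linter.unusedSectionVars false

noncomputable section

namespace FLTAgent.MazurPrinciple

open AlgebraicCurve FLTAgent.Curves FLTAgent.Specialization FLTAgent.BadRed Polynomial
  IntermediateField

section Ev

variable {K F : Type*} [Field K] [Field F] [Algebra K F] [IsAlgClosed K] [IsFunctionField K F]
  (Q : Place K F) {f g : F} {c : K}

/-- The value at a point of a function without pole there, and zero otherwise. -/
def ev (f : F) : K :=
  open Classical in if h : OrdGE Q 0 f then (exists_residue Q h).choose else 0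

theorem ev_spec (h : OrdGE Q 0 f) : OrdGE Q 1 (f - algebraMap K F (ev Q f)) := by
  rw [ev, dif_pos h]; exact (exists_residue Q h).choose_spec

theorem ev_eq (h : OrdGE Q 1 (f - algebraMap K F c)) : ev Q f = c := by
  have hf : OrdGE Q 0 f := by
    simpa using (h.mono zero_le_one).add (ordGE_algebraMap Q c)
  by_contra hne
  have h1 := (ev_spec Q hf).sub h
  rw [sub_sub_sub_cancel_left, ← map_sub] at h1
  have h2 := h1.le_ord ((_root_.map_ne_zero _).2 (sub_ne_zero.2 (Ne.symm hne)))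
  rw [ord_algebraMap] at h2
  omega

theorem ev_const (c : K) : ev Q (algebraMap K F c) = c := ev_eq Q (by simp [ordGE_zero])

theorem ev_zero : ev Q (0 : F) = 0 := by simpa using ev_const Q (0 : K)

theorem ev_one : ev Q (1 : F) = 1 := by simpa using ev_const Q (1 : K)

theorem ev_eq_zero_iff (h : OrdGE Q 0 f) : ev Q f = 0 ↔ OrdGE Q 1 f :=
  ⟨fun h0 => by simpa [h0] using ev_spec Q h, fun h1 => ev_eq Q (by simpa using h1)⟩

theorem ev_add (hf : OrdGE Q 0 f) (hg : OrdGE Q 0 g) : ev Q (f + g) = ev Q f + ev Q g :=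
  ev_eq Q (by simpa [map_add, add_sub_add_comm] using (ev_spec Q hf).add (ev_spec Q hg))

theorem ev_sub (hf : OrdGE Q 0 f) (hg : OrdGE Q 0 g) : ev Q (f - g) = ev Q f - ev Q g :=
  ev_eq Q (by simpa [map_sub, sub_sub_sub_comm] using (ev_spec Q hf).sub (ev_spec Q hg))

theorem ev_mul (hf : OrdGE Q 0 f) (hg : OrdGE Q 0 g) : ev Q (f * g) = ev Q f * ev Q g := by
  refine ev_eq Q ?_
  have h1 : OrdGE Q 1 ((f - algebraMap K F (ev Q f)) * g) := by
    simpa using (ev_spec Q hf).mul hg
  have h2 : OrdGE Q 1 (algebraMap K F (ev Q f) * (g - algebraMap K F (ev Q g))) := by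
    simpa using (ordGE_algebraMap Q (ev Q f)).mul (ev_spec Q hg)
  convert h1.add h2 using 1
  rw [map_mul]; ring

theorem ev_pow (hf : OrdGE Q 0 f) (n : ℕ) : ev Q (f ^ n) = ev Q f ^ n := by
  induction n with
  | zero => simpa using ev_one Q
  | succ n ih => rw [pow_succ, ev_mul Q (by simpa using hf.pow n) hf, ih, pow_succ]

theorem ev_smul (a : K) (hf : OrdGE Q 0 f) : ev Q (a • f) = a * ev Q f := by
  rw [Algebra.smul_def, ev_mul Q (ordGE_algebraMap Q a) hf, ev_const]

theorem ev_sum {ι : Type*} (s : Finset ι) {φ : ι → F} (h : ∀ i ∈ s, OrdGE Q 0 (φ i)) :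
    ev Q (∑ i ∈ s, φ i) = ∑ i ∈ s, ev Q (φ i) := by
  classical
  induction s using Finset.induction with
  | empty => simpa using ev_zero Q
  | insert a s ha ih =>
    rw [Finset.sum_insert ha, Finset.sum_insert ha,
      ev_add Q (h a (Finset.mem_insert_self _ _))
        (OrdGE.sum fun i hi => h i (Finset.mem_insert_of_mem hi)),
      ih fun i hi => h i (Finset.mem_insert_of_mem hi)]

theorem ev_aeval {x : F} (hx : OrdGE Q 0 x) (P : K[X]) : ev Q (aeval x P) = P.eval (ev Q x) := by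
  rw [aeval_eq_sum_range, ev_sum Q _ fun i _ => (by simpa using hx.pow i : OrdGE Q 0 (x ^ i)).smul _,
    eval_eq_sum_range]
  exact Finset.sum_congr rfl fun i _ => by rw [ev_smul Q _ (by simpa using hx.pow i), ev_pow Q hx]

end Ev

variable {L k : Type*} [Field L] [Field k] {A : ValuationSubring L} {π : A →+* k}
  {FC Fb F : Type*} [Field FC] [Field Fb] [Field F] [Algebra L FC]
  [Algebra k Fb] [Algebra L F] [IsAlgClosed L] [IsFunctionField L FC] [IsFunctionField L F]
  [IsAlgClosed k] [IsFunctionField k Fb] {q : ℕ} (S : Sheet π FC Fb F q)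

/-- The integral points of the chart where the coordinate has no pole. -/
def InChart (Q : Place L F) : Prop := 0 ≤ Q.ord S.X ∧ ev Q S.X ∈ A

variable {S}

theorem InChart.ordGE {Q : Place L F} (hQ : InChart S Q) {Z : F} (hZ : IntegralWrt L S.X Z) :
    OrdGE Q 0 Z := hZ Q hQ.1

/-- Functions integral on both sheets and without poles in the chart satisfy monic equations
with coefficients in `A[X]`. -/
theorem exists_monic_relation {Z : F} (hZ : IntegralWrt L S.X Z) (h1 : Z ∈ S.R₁.O)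
    (h2 : Z ∈ S.R₂.O) :
    ∃ (n : ℕ) (P : ℕ → A[X]),
      Z ^ n + ∑ i ∈ Finset.range n, aeval S.X ((P i).map A.subtype) * Z ^ i = 0 := by
  classical
  obtain ⟨e, he⟩ := S.exists_idempotent
  have he' : (S.pair 1).Res (1 - e) (0, 1) := by
    have := LRed.res_sub S.pair_one he
    convert this using 1
    exact Prod.ext (by simp) (by simp)
  obtain ⟨v, w, hG⟩ := S.exists_goodBasis_of he he'
  obtain ⟨g, hg⟩ : (S.pair 1).Integral Z := S.integral_iff_mem.2 ⟨h1, h2⟩
  have hxL := S.transcendental_X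
  haveI := finiteDimensional_adjoin (K := L) (F := F) hxL
  obtain ⟨B⟩ := nonempty_reducedBasis (K := L) hxL
  let b : Module.Basis S.Idx L⟮S.X⟯ F :=
    Module.Basis.mk (hG.linearIndependent S) (hG.span_eq_top S).ge
  let T : F →ₗ[L⟮S.X⟯] F := Algebra.lmul L⟮S.X⟯ F Z
  let φα : L⟮S.MC.x⟯ →+* L⟮S.X⟯ := RingHom.codRestrict
    (S.α.toRingHom.comp (algebraMap L⟮S.MC.x⟯ FC)) L⟮S.X⟯ fun a => (S.mem_adjoin_X).2 ⟨a, rfl⟩
  have hent : ∀ i j, ∃ a : L⟮S.MC.x⟯, (a : FC) ∈ S.MC.O ∧
      LinearMap.toMatrix b b T i j = φα a := by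
    intro i j
    choose a ha using fun l => (S.mem_adjoin_X).1 (b.repr (T (b j)) l).2
    refine ⟨a i, hG.coord_mem S ?_ i, Subtype.ext ?_⟩
    · have hsum : ∑ l, S.α (a l) * v l = Z * v j := by
        have := b.sum_repr (T (b j))
        simpa [ha, b, T, IntermediateField.smul_def] using this
      rw [hsum]
      have := S.pair_mul hg (hG.1 j)
      rw [one_mul] at this
      exact ⟨_, this⟩
    · rw [LinearMap.toMatrix_apply]; exact (ha i).symm
  choose M₀ hM₀ hM using hent
  set O₀ : Subring L⟮S.MC.x⟯ := S.MC.O.comap (algebraMap L⟮S.MC.x⟯ FC)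
  let M₁ : Matrix S.Idx S.Idx O₀ := Matrix.of fun i j => ⟨M₀ i j, hM₀ i j⟩
  set χ := T.charpoly with hχdef
  have hχ : χ = M₁.charpoly.map (φα.comp O₀.subtype) := by
    rw [hχdef, ← LinearMap.charpoly_toMatrix T b, ← Matrix.charpoly_map]
    exact congrArg Matrix.charpoly (Matrix.ext hM)
  let φ : L[X] →ₐ[L] L⟮S.X⟯ := aeval (AdjoinSimple.gen L S.X)
  have hφ : ∀ p, (φ p : F) = aeval S.X p := fun p => by
    simpa [φ] using (aeval_algHom_apply L⟮S.X⟯.val (AdjoinSimple.gen L S.X) p).symm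
  have hp : ∀ i j, ∃ p : L[X],
      (LinearMap.toMatrix (B.wBasis hxL) (B.wBasis hxL) T) i j = φ p := by
    intro i j
    obtain ⟨p, hp⟩ := B.exists_polynomial_coord hxL (f := Z * B.w j) fun v hv => by
      simpa using (hZ v hv).mul (B.integral j v hv)
    refine ⟨p i, Subtype.ext ?_⟩
    rw [LinearMap.toMatrix_apply, ReducedBasis.coe_wBasis, hφ, ← hp i]
    rfl
  choose p hp using hp
  have hpoly : ∀ i, (χ.coeff i : F) = aeval S.X ((Matrix.of p).charpoly.coeff i) := by
    intro i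
    rw [hχdef, ← LinearMap.charpoly_toMatrix T (B.wBasis hxL),
      show LinearMap.toMatrix (B.wBasis hxL) (B.wBasis hxL) T = (Matrix.of p).map φ.toRingHom from
        Matrix.ext hp, Matrix.charpoly_map, coeff_map]
    exact hφ _
  have hA : ∀ i, ∃ P : A[X], (χ.coeff i : F) = aeval S.X (P.map A.subtype) := fun i => by
    set p' := (Matrix.of p).charpoly.coeff i
    set a := M₁.charpoly.coeff i
    have h3 : (χ.coeff i : F) = S.α ((a : L⟮S.MC.x⟯) : FC) := by rw [hχ, coeff_map]; rfl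
    have h4 : ((a : L⟮S.MC.x⟯) : FC) = aeval S.MC.x p' :=
      S.α.toRingHom.injective (show S.α _ = S.α _ by
        rw [← h3, hpoly, ← aeval_algHom_apply]; rfl)
    have hm : aeval S.MC.x p' ∈ S.MC.O := h4 ▸ a.2
    rw [Reduction.aeval_eq_sum_fin] at hm
    have hc : ∀ j : Fin (p'.natDegree + 1), p'.coeff j ∈ A := fun j =>
      Reduction.coord_mem (Reduction.compat_base S.MC.surj S.MC.toReduction)
        (fun l : Fin (p'.natDegree + 1) => S.MC.x_res.pow l) (Reduction.base_total S.MC.surj)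
        (Reduction.linearIndependent_pow_res S.MC.transcendental _) hm j
    refine ⟨∑ j : Fin (p'.natDegree + 1), Polynomial.C ⟨_, hc j⟩ * Polynomial.X ^ (j : ℕ), ?_⟩
    rw [hpoly i, Polynomial.map_sum, map_sum, Reduction.aeval_eq_sum_fin]
    exact Finset.sum_congr rfl fun j _ => by simp [p', Algebra.smul_def]
  choose P hP using hA
  refine ⟨χ.natDegree, P, ?_⟩
  have hCH : aeval Z χ = 0 := by
    have h3 : Algebra.lmul L⟮S.X⟯ F (aeval Z χ) = 0 := by
      rw [← aeval_algHom_apply, hχdef]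
      exact LinearMap.aeval_self_charpoly T
    simpa using LinearMap.congr_fun h3 1
  have hlc : (χ.coeff χ.natDegree : F) = 1 := by
    rw [show χ.coeff χ.natDegree = 1 from (LinearMap.charpoly_monic T).coeff_natDegree]; rfl
  rw [aeval_eq_sum_range, Finset.sum_range_succ] at hCH
  simp only [IntermediateField.smul_def, smul_eq_mul, hlc, one_mul, hP] at hCH
  rw [add_comm]
  exact hCH

theorem mem_of_monic_relation {x : L} {n : ℕ} {c : ℕ → A}
    (h : x ^ n + ∑ i ∈ Finset.range n, (c i : L) * x ^ i = 0) : x ∈ A := by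
  by_contra hx
  have hx0 : x ≠ 0 := fun h0 => hx (h0 ▸ zero_mem A)
  have hy := (A.mem_or_inv_mem x).resolve_left hx
  rcases n with _ | n
  · simp at h
  refine hx ?_
  have hx' : x = -∑ i ∈ Finset.range (n + 1), (c i : L) * x⁻¹ ^ (n - i) := by
    refine eq_neg_of_add_eq_zero_left (mul_left_cancel₀ (pow_ne_zero n hx0) ?_)
    rw [mul_zero, mul_add, ← pow_succ, Finset.mul_sum]
    refine (congrArg _ (Finset.sum_congr rfl fun i hi => ?_)).trans h
    obtain ⟨j, rfl⟩ := Nat.exists_eq_add_of_le (Nat.lt_succ_iff.1 (Finset.mem_range.1 hi))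
    rw [Nat.add_sub_cancel_left, pow_add, inv_pow]
    field_simp
  rw [hx']
  exact neg_mem (sum_mem fun i _ => mul_mem (c i).2 (pow_mem hy _))

/-- Values at integral points of functions integral on both sheets are integral. -/
theorem chart_value_mem {Z : F} (hZ : IntegralWrt L S.X Z) (h1 : Z ∈ S.R₁.O) (h2 : Z ∈ S.R₂.O)
    {Q : Place L F} (hQ : InChart S Q) : ev Q Z ∈ A := by
  obtain ⟨n, P, hP⟩ := exists_monic_relation hZ h1 h2
  have hz := hQ.ordGE hZ
  have hX : OrdGE Q 0 S.X := ordGE_of_le hQ.1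
  have hterm : ∀ i, OrdGE Q 0 (aeval S.X ((P i).map A.subtype) * Z ^ i) := fun i => by
    simpa using (ordGE_aeval hQ.1 _).mul (hz.pow i)
  have h := congrArg (ev Q) hP
  rw [ev_zero, ev_add Q (by simpa using hz.pow n) (OrdGE.sum fun i _ => hterm i), ev_pow Q hz,
    ev_sum Q _ fun i _ => hterm i] at h
  refine mem_of_monic_relation (n := n) (c := fun i => (P i).eval ⟨ev Q S.X, hQ.2⟩) ?_
  rw [← h]
  congr 1
  refine Finset.sum_congr rfl fun i _ => ?_
  rw [ev_mul Q (ordGE_aeval hQ.1 _) (by simpa using hz.pow i), ev_pow Q hz, ev_aeval Q hX,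
    Polynomial.eval_map]
  congr 1
  exact Polynomial.hom_eval₂ (P i) (RingHom.id A) A.subtype ⟨ev Q S.X, hQ.2⟩

theorem smul_mem_O {R : Reduction π F Fb} {a : L} (ha : a ∈ A) {f : F} (hf : f ∈ R.O) :
    a • f ∈ R.O := by
  rw [Algebra.smul_def]; exact mul_mem (R.algebraMap_mem ⟨a, ha⟩) hf

/-- Bound of the values by the first reduction, with an error measured by a function vanishing
on the second sheet. -/
theorem exists_value_bound {ε Z : F} (hεX : IntegralWrt L S.X ε) (hε1 : ε ∈ S.R₁.O)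
    (hε2 : S.R₂.Res ε 0) (hZX : IntegralWrt L S.X Z) {c : L} (hc : c • Z ∈ S.R₁.O) :
    ∃ l : ℕ, ∀ Q : Place L F, InChart S Q → c * ev Q Z * ev Q ε ^ l ∈ A := by
  suffices hex : ∃ l : ℕ, (c • Z) * ε ^ l ∈ S.R₂.O by
    obtain ⟨l, hl⟩ := hex
    refine ⟨l, fun Q hQ => ?_⟩
    have hint : IntegralWrt L S.X ((c • Z) * ε ^ l) := by
      rw [Algebra.smul_def]
      exact integralWrt_mul (integralWrt_mul (integralWrt_algebraMap _ c) hZX) (integralWrt_pow hεX l)
    have h := chart_value_mem hint (mul_mem hc (pow_mem hε1 l)) hl hQ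
    rwa [ev_mul Q ((hQ.ordGE hZX).smul c) (by simpa using (hQ.ordGE hεX).pow l),
      ev_pow Q (hQ.ordGE hεX), ev_smul Q c (hQ.ordGE hZX)] at h
  rcases eq_or_ne (c • Z) 0 with hZ0 | hZ0
  · exact ⟨0, by rw [hZ0, zero_mul]; exact zero_mem _⟩
  rcases eq_or_ne ε 0 with rfl | hε0
  · exact ⟨1, by rw [pow_one, mul_zero]; exact zero_mem _⟩
  obtain ⟨s, gs, hgs, hs⟩ := S.scaled₂ _ hε0
  have hsA : s ∉ A := fun h => hgs (hs.unique (by
    have := hε2.smul ⟨s, h⟩
    rwa [smul_zero] at this))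
  have hs0 : s ≠ 0 := fun h => hsA (h ▸ zero_mem A)
  have hsi : s⁻¹ ∈ A := (A.mem_or_inv_mem s).resolve_left hsA
  obtain ⟨d, gd, hgd, hd⟩ := S.scaled₂ _ hZ0
  have hd0 : d ≠ 0 := by
    rintro rfl
    rw [zero_smul] at hd
    exact hgd (hd.unique S.R₂.res_zero)
  obtain ⟨N, hN, -⟩ := S.arch ⟨s⁻¹, hsi⟩ d⁻¹
    (Reduction.map_eq_zero_of_inv_notMem S.MC.surj (by simpa using hsA))
  refine ⟨N, ?_⟩
  have e : (c • Z) * ε ^ N = (d⁻¹ * s⁻¹ ^ N) • ((d • c • Z) * (s • ε) ^ N) := by
    rw [_root_.smul_pow, smul_mul_smul_comm, smul_smul, inv_pow]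
    rw [show d⁻¹ * (s ^ N)⁻¹ * (d * s ^ N) = 1 by field_simp, one_smul]
  rw [e]
  exact smul_mem_O (by simpa using hN) (mul_mem hd.mem (pow_mem hs.mem N))

/-- Values of functions reducing to zero on both sheets reduce to zero. -/
theorem chart_value_res {Z : F} (hZ : IntegralWrt L S.X Z) (h1 : S.R₁.Res Z 0)
    (h2 : S.R₂.Res Z 0) {Q : Place L F} (hQ : InChart S Q) :
    ∃ h : ev Q Z ∈ A, π ⟨_, h⟩ = 0 := by
  obtain ⟨t₀, ht₀, ht₀'⟩ := S.exists_nonunit
  obtain ⟨t, ht, ht', y, hy, rfl⟩ := LRed.exists_small S.orth_one S.MC.surj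
    (show (S.pair 1).Res Z 0 from ⟨h1, by simpa using h2⟩) ht₀ ht₀'
  have hyX : IntegralWrt L S.X y := fun v hv => by
    simpa [smul_smul, inv_mul_cancel₀ ht'] using (hZ v hv).smul (t : L)⁻¹
  obtain ⟨hy1, hy2⟩ := S.integral_iff_mem.1 hy
  have hv := chart_value_mem hyX hy1 hy2 hQ
  refine ⟨by rw [ev_smul Q _ (hQ.ordGE hyX)]; exact mul_mem t.2 hv, ?_⟩
  have : (⟨ev Q ((t : L) • y), by rw [ev_smul Q _ (hQ.ordGE hyX)]; exact mul_mem t.2 hv⟩ : A) =
      t * ⟨_, hv⟩ := Subtype.ext (ev_smul Q _ (hQ.ordGE hyX))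
  rw [this, map_mul, ht, zero_mul]

end FLTAgent.MazurPrinciple
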