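import Fermat.Agent.MazurPrinciple.Twist
import Fermat.Agent.MazurPrinciple.Digit
import Fermat.Agent.MazurPrinciple.Eval

/-!
# Functions close enough to one on both sheets are `p`-th powers

The divisor is supported at the poles of the coordinate and outside the chart, so a polynomial in
the coordinate starts Newton's iteration; a nearest element of a fixed space then gives arbitrarily
good approximate roots in that space, hence an exact one.
-/

set_option autoImplicit false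
set_option linter.style.haveILetI false
set_option linter.unusedSectionVars false
set_option maxHeartbeats 1000000

noncomputable section

namespace FLTAgent.MazurPrinciple

open AlgebraicCurve FLTAgent.Curves FLTAgent.Specialization FLTAgent.BadRed IntermediateField

theorem exists_add_pow_prime_two {R : Type*} [CommRing R] {p : ℕ} (hp : p.Prime) (a b : R) :
    ∃ z, (a + b) ^ p = a ^ p + p * a ^ (p - 1) * b + b ^ p + p * b ^ 2 * z := by
  classical
  have h2 := hp.two_le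
  set f : ℕ → R := fun i => a ^ i * b ^ (p - i) * (p.choose i : R)
  have hd : ∀ i ∈ Finset.range (p - 1), ∃ z, f i - (if i = 0 then b ^ p else 0) = p * b ^ 2 * z := by
    intro i hi
    rw [Finset.mem_range] at hi
    rcases eq_or_ne i 0 with rfl | hi0
    · exact ⟨0, by simp [f]⟩
    obtain ⟨c, hc⟩ := hp.dvd_choose_self hi0 (by omega)
    refine ⟨a ^ i * b ^ (p - i - 2) * c, ?_⟩
    simp only [f, if_neg hi0, sub_zero, hc, Nat.cast_mul]
    rw [show p - i = (p - i - 2) + 2 by omega, pow_add]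
    simp only [show p - i - 2 + 2 - 2 = p - i - 2 by omega]
    ring
  choose! z hz using hd
  refine ⟨∑ i ∈ Finset.range (p - 1), z i, ?_⟩
  rw [Finset.mul_sum, ← Finset.sum_congr rfl hz, Finset.sum_sub_distrib, Finset.sum_ite_eq',
    if_pos (Finset.mem_range.2 (by omega)), add_pow]
  have e : p + 1 = p - 1 + 1 + 1 := by omega
  rw [show Finset.range (p + 1) = Finset.range (p - 1 + 1 + 1) by rw [← e], Finset.sum_range_succ,
    Finset.sum_range_succ, show p - 1 + 1 = p by omega, show p - (p - 1) = 1 by omega,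
    Nat.choose_symm_of_eq_add (show p = p - 1 + 1 by omega)]
  simp [f]
  ring

variable {L k : Type*} [Field L] [Field k] {A : ValuationSubring L} {π : A →+* k}
  {FC Fb F : Type*} [Field FC] [Field Fb] [Field F] [Algebra L FC]
  [Algebra k Fb] [Algebra L F] [IsAlgClosed L] [IsFunctionField L FC] [IsFunctionField L F]
  [IsAlgClosed k] [IsFunctionField k Fb] {p : ℕ} [Fact p.Prime] [CharP k p]
  {S : Sheet π FC Fb F p} (V : RatVal π p)

include V in
theorem smul_mem_intRing {c : L} (hc : c ≠ 0) (hv : 0 ≤ V.v c) {y : F} (hy : y ∈ S.intRing) :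
    c • y ∈ S.intRing := by
  rw [Algebra.smul_def]
  exact mul_mem (S.algebraMap_mem_intRing ⟨c, (V.mem_iff _ hc).2 hv⟩) hy

/-- Congruent to one modulo `t` on both sheets. -/
def NearOne (S : Sheet π FC Fb F p) (t : L) (g : F) : Prop :=
  ∃ y ∈ S.intRing, g = 1 + t • y

theorem NearOne.mul {t : L} (ht : t ∈ A) {g g' : F} (h : NearOne S t g) (h' : NearOne S t g') :
    NearOne S t (g * g') := by
  obtain ⟨y, hy, rfl⟩ := h
  obtain ⟨y', hy', rfl⟩ := h'
  refine ⟨y + y' + algebraMap L F t * (y * y'),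
    add_mem (add_mem hy hy') (mul_mem (S.algebraMap_mem_intRing ⟨t, ht⟩) (mul_mem hy hy')), ?_⟩
  simp only [Algebra.smul_def]
  ring

theorem nearOne_one (S : Sheet π FC Fb F p) (t : L) : NearOne S t 1 :=
  ⟨0, zero_mem _, by rw [smul_zero, add_zero]⟩

theorem NearOne.pow {t : L} (ht : t ∈ A) {g : F} (h : NearOne S t g) (n : ℕ) :
    NearOne S t (g ^ n) := by
  induction n with
  | zero => simpa using nearOne_one S t
  | succ n ih => rw [pow_succ]; exact ih.mul ht h

theorem NearOne.prod {t : L} (ht : t ∈ A) {ι : Type*} (s : Finset ι) {g : ι → F}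
    (h : ∀ i ∈ s, NearOne S t (g i)) : NearOne S t (∏ i ∈ s, g i) :=
  Finset.prod_induction _ _ (fun _ _ => NearOne.mul ht) (nearOne_one S t) h

theorem X_mem_intRing : S.X ∈ S.intRing :=
  ⟨S.pair_X.1.mem, (show S.R₂.Res S.X _ by simpa using S.pair_X.2).mem⟩

theorem pair_res_of_intRing {y : F} (hy : y ∈ S.intRing) :
    ∃ g, (S.pair 1).Res y g := S.integral_iff_mem.2 hy

include V in
theorem pair_res_small {t : L} (ht : V.GT 0 t) {y : F} (hy : y ∈ S.intRing) :
    (S.pair 1).Res (t • y) 0 :=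
  ⟨res_smul_zero V ht hy.1, by rw [one_smul]; exact res_smul_zero V ht hy.2⟩

include V in
/-- Newton's iteration, started from a polynomial in the coordinate. -/
theorem exists_approx {f : F} (hf0 : f ≠ 0) {D : Divisor L F} (hD : ∀ Q, Q.ord f = (p : ℤ) * D Q)
    {t : L} (ht0 : t ≠ 0) (htv : (p : ℚ) / ((p : ℚ) - 1) < V.v t) (hf : NearOne S t f)
    (hsupp : ∀ Q : Place L F, 0 ≤ Q.ord S.X → D Q ≠ 0 → ev Q S.X ∉ A) :
    ∃ γ : ℚ, 0 < γ ∧ ∀ j : ℕ, ∃ (M : ℕ) (u : F) (t' : L), t' ≠ 0 ∧ V.v t + j * γ ≤ V.v t' ∧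
      u ∈ riemannRochSpace (D + (M : ℤ) • poleDiv L S.X) ∧ (S.pair 1).Res u 1 ∧
      NearOne S t' (u ^ p * f) := by
  classical
  have hp : p.Prime := Fact.out
  have hp1 : (2 : ℚ) ≤ p := by exact_mod_cast hp.two_le
  have hp' : (0 : ℚ) < (p : ℚ) - 1 := by linarith
  have hone : 1 < V.v t := lt_trans (by rw [lt_div_iff₀ hp']; linarith) htv
  have hgt : (p : ℚ) < ((p : ℚ) - 1) * V.v t := by rw [div_lt_iff₀ hp'] at htv; linarith
  have htA : t ∈ A := (V.mem_iff _ ht0).2 (by linarith)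
  set T : Finset (Place L F) := D.support.filter fun Q => 0 ≤ Q.ord S.X
  set e₀ : ℕ := ∑ Q ∈ D.support, (D Q).natAbs
  -- the starting point
  have hc : ∀ Q ∈ T, ev Q S.X ≠ 0 ∧ V.v (ev Q S.X) < 0 := by
    intro Q hQ
    rw [Finset.mem_filter, Finsupp.mem_support_iff] at hQ
    have h := hsupp Q hQ.2 hQ.1
    have h0 : ev Q S.X ≠ 0 := fun h0 => h (by rw [h0]; exact A.zero_mem)
    exact ⟨h0, lt_of_not_ge fun hle => h ((V.mem_iff _ h0).2 hle)⟩
  obtain ⟨Nn, hNn, hN⟩ : ∃ Nn : ℕ, Nn ≠ 0 ∧ ∀ Q ∈ T, V.v t ≤ -(Nn : ℚ) * V.v (ev Q S.X) := by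
    have h : ∀ Q ∈ T, ∃ n : ℕ, V.v t ≤ -(n : ℚ) * V.v (ev Q S.X) := by
      intro Q hQ
      obtain ⟨n, hn⟩ := Archimedean.arch (V.v t) (show 0 < -V.v (ev Q S.X) by linarith [(hc Q hQ).2])
      exact ⟨n, by rw [nsmul_eq_mul] at hn; linarith⟩
    choose! n hn using h
    refine ⟨1 + ∑ Q ∈ T, n Q, by omega, fun Q hQ => (hn Q hQ).trans ?_⟩
    have hle : (n Q : ℚ) ≤ ((1 + ∑ Q ∈ T, n Q : ℕ) : ℚ) := by
      exact_mod_cast le_add_left (Finset.single_le_sum (fun _ _ => Nat.zero_le _) hQ)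
    have := (hc Q hQ).2
    nlinarith
  set fac : Place L F → F := fun Q => 1 - ((ev Q S.X)⁻¹) ^ Nn • S.X ^ Nn
  have hfac : ∀ Q ∈ T, NearOne S t (fac Q) := by
    intro Q hQ
    obtain ⟨h0, hlt⟩ := hc Q hQ
    refine ⟨(-(t⁻¹ * ((ev Q S.X)⁻¹) ^ Nn)) • S.X ^ Nn, smul_mem_intRing V
      (neg_ne_zero.2 (mul_ne_zero (inv_ne_zero ht0) (pow_ne_zero _ (inv_ne_zero h0)))) ?_
      (pow_mem X_mem_intRing _), ?_⟩
    · rw [V.v_neg, V.v_mul _ _ (inv_ne_zero ht0) (pow_ne_zero _ (inv_ne_zero h0)), V.v_inv ht0,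
        V.v_pow (inv_ne_zero h0), V.v_inv h0]
      linarith [hN Q hQ]
    · rw [smul_smul, mul_neg, ← mul_assoc, mul_inv_cancel₀ ht0, one_mul, neg_smul]
      simp [fac, sub_eq_add_neg]
  set u₀ : F := ∏ Q ∈ T, fac Q ^ e₀
  have hu₀ : NearOne S t u₀ := NearOne.prod htA T fun Q hQ => (hfac Q hQ).pow htA e₀
  have hres1 : ∀ {t' : L} {g : F}, 0 < V.v t' → t' ≠ 0 → NearOne S t' g → (S.pair 1).Res g 1 := by
    rintro t' g hv h0 ⟨y, hy, rfl⟩
    simpa using (S.pair 1).res_add S.pair_one (pair_res_small V (Or.inr hv) hy)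
  have hXne : S.X ≠ 0 := ne_zero_of_transcendental S.transcendental_X
  have hu₀0 : u₀ ≠ 0 := (hres1 (by linarith) ht0 hu₀).1.ne_zero one_ne_zero
  set M₀ : ℕ := T.card * e₀ * Nn + e₀
  have hu₀m : u₀ ∈ riemannRochSpace (D + (M₀ : ℤ) • poleDiv L S.X) := by
    refine mem_rrSpace.2 fun v => ordGE_of_le ?_
    rw [Finsupp.add_apply, Finsupp.smul_apply, smul_eq_mul, poleDiv_apply]
    have hDv : (D v).natAbs ≤ e₀ := by
      rcases eq_or_ne (D v) 0 with h | h
      · simp [h]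
      · exact Finset.single_le_sum (f := fun Q => (D Q).natAbs) (fun _ _ => Nat.zero_le _)
          (Finsupp.mem_support_iff.2 h)
    have hfne : ∀ Q ∈ T, fac Q ≠ 0 := fun Q hQ =>
      (hres1 (by linarith) ht0 (hfac Q hQ)).1.ne_zero one_ne_zero
    have hord : v.ord u₀ = ∑ Q ∈ T, (e₀ : ℤ) * v.ord (fac Q) := by
      have key : ∀ T' ⊆ T, v.ord (∏ Q ∈ T', fac Q ^ e₀) = ∑ Q ∈ T', (e₀ : ℤ) * v.ord (fac Q) := by
        intro T' hT'
        induction T' using Finset.induction with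
        | empty => simp
        | insert Q T' hQ ih =>
          rw [Finset.prod_insert hQ, Finset.sum_insert hQ,
            v.ord_mul (pow_ne_zero _ (hfne Q (hT' (Finset.mem_insert_self _ _))))
              (Finset.prod_ne_zero_iff.2 fun R hR => pow_ne_zero _
                (hfne R (hT' (Finset.mem_insert_of_mem hR)))), ord_pow,
            ih ((Finset.subset_insert _ _).trans hT')]
      exact key T subset_rfl
    rcases lt_or_ge (v.ord S.X) 0 with hv | hv
    · have hb : ∀ Q ∈ T, (Nn : ℤ) * v.ord S.X ≤ v.ord (fac Q) := fun Q hQ => by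
        refine OrdGE.le_ord (OrdGE.sub ?_ ?_) (hfne Q hQ)
        · exact ordGE_of_le (by rw [v.ord_one]; nlinarith [Int.natCast_nonneg Nn])
        · rw [Algebra.smul_def]
          simpa using (ordGE_algebraMap v (((ev Q S.X)⁻¹) ^ Nn)).mul
            (ordGE_of_le (v := v) (f := S.X ^ Nn) (c := (Nn : ℤ) * v.ord S.X) (by rw [ord_pow]))
      rw [max_eq_left (by omega), hord]
      have h2 := Finset.sum_le_sum fun Q hQ =>
        mul_le_mul_of_nonneg_left (hb Q hQ) (Int.natCast_nonneg e₀)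
      rw [Finset.sum_const, nsmul_eq_mul] at h2
      push_cast [M₀]
      have hD' : -(e₀ : ℤ) ≤ D v := by omega
      nlinarith [mul_nonneg (Int.natCast_nonneg e₀) (show (0 : ℤ) ≤ -v.ord S.X - 1 by omega)]
    · rw [max_eq_right (by omega), mul_zero, add_zero, hord]
      have hv0 : OrdGE v 0 S.X := ordGE_of_le hv
      have hnn : ∀ Q ∈ T, 0 ≤ v.ord (fac Q) := fun Q hQ => by
        refine OrdGE.le_ord (OrdGE.sub (ordGE_of_le (by rw [v.ord_one])) ?_) (hfne Q hQ)
        rw [Algebra.smul_def]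
        simpa using (ordGE_algebraMap v (((ev Q S.X)⁻¹) ^ Nn)).mul
          (ordGE_of_le (v := v) (f := S.X ^ Nn) (c := 0) (by rw [ord_pow]; positivity))
      rcases eq_or_ne (D v) 0 with h | h
      · rw [h, neg_zero]
        exact Finset.sum_nonneg fun Q hQ => mul_nonneg (Int.natCast_nonneg _) (hnn Q hQ)
      have hvT : v ∈ T := Finset.mem_filter.2 ⟨Finsupp.mem_support_iff.2 h, hv⟩
      have h1 : 1 ≤ v.ord (fac v) := by
        refine ((ev_eq_zero_iff v (ordGE_of_le (hnn v hvT))).1 ?_).le_ord (hfne v hvT)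
        rw [show fac v = 1 - ((ev v S.X)⁻¹) ^ Nn • S.X ^ Nn from rfl,
          ev_sub v (ordGE_of_le (by rw [v.ord_one])) (by
            rw [Algebra.smul_def]
            simpa using (ordGE_algebraMap v (((ev v S.X)⁻¹) ^ Nn)).mul
              (ordGE_of_le (v := v) (f := S.X ^ Nn) (c := 0) (by rw [ord_pow]; positivity))),
          ev_one, ev_smul v _ (ordGE_of_le (by rw [ord_pow]; positivity)), ev_pow v hv0, ← mul_pow,
          inv_mul_cancel₀ (hc v hvT).1, one_pow, sub_self]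
      have := Finset.single_le_sum (f := fun Q => (e₀ : ℤ) * v.ord (fac Q))
        (fun Q hQ => mul_nonneg (Int.natCast_nonneg _) (hnn Q hQ)) hvT
      have h3 : (e₀ : ℤ) * 1 ≤ e₀ * v.ord (fac v) :=
        mul_le_mul_of_nonneg_left h1 (Int.natCast_nonneg _)
      omega
  -- the step
  have hne' : t ^ (p - 1) / (p : L) ^ p ≠ 0 :=
    div_ne_zero (pow_ne_zero _ ht0) (pow_ne_zero _ V.p_ne)
  have hv1 : V.v (t / (p : L)) = V.v t - 1 := by rw [V.v_div ht0 V.p_ne, V.v_p]
  have hv2 : V.v (t ^ (p - 1) / (p : L) ^ p) = ((p : ℚ) - 1) * V.v t - p := by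
    rw [V.v_div (pow_ne_zero _ ht0) (pow_ne_zero _ V.p_ne), V.v_pow ht0, V.v_pow V.p_ne, V.v_p,
      Nat.cast_sub hp.one_lt.le]
    push_cast; ring
  obtain ⟨s, hs0, hs, hsa, hsb⟩ : ∃ s : L, s ≠ 0 ∧ 0 < V.v s ∧ V.v s ≤ V.v t - 1 ∧
      V.v s ≤ ((p : ℚ) - 1) * V.v t - p := by
    rcases le_total (V.v t - 1) (((p : ℚ) - 1) * V.v t - p) with h | h
    · exact ⟨_, div_ne_zero ht0 V.p_ne, by rw [hv1]; linarith, hv1.le, hv1.le.trans h⟩
    · exact ⟨_, hne', by rw [hv2]; linarith, hv2.le.trans h, hv2.le⟩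
  refine ⟨V.v s, hs, fun j => ?_⟩
  induction j with
  | zero =>
    exact ⟨M₀, u₀, t, ht0, by simp, hu₀m, hres1 (by linarith) ht0 hu₀, (hu₀.pow htA p).mul htA hf⟩
  | succ j ih =>
    obtain ⟨M, u, t', ht'0, hle, hum, hur, y, hy, hey⟩ := ih
    have htt : V.v t ≤ V.v t' := le_trans (by
      have : (0 : ℚ) ≤ j * V.v s := mul_nonneg (Nat.cast_nonneg j) hs.le
      linarith) hle
    set a : L := -(t' / (p : L))
    have ha0 : a ≠ 0 := neg_ne_zero.2 (div_ne_zero ht'0 V.p_ne)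
    have hav : V.v a = V.v t' - 1 := by rw [V.v_neg, V.v_div ht'0 V.p_ne, V.v_p]
    obtain ⟨z, hz⟩ := exists_add_pow_prime_two hp (1 : S.intRing)
      ⟨a • y, smul_mem_intRing V ha0 (by linarith) hy⟩
    have hz' := congrArg (Subtype.val : S.intRing → F) hz
    push_cast at hz'
    rw [one_pow, one_pow, mul_one] at hz'
    refine ⟨(p + 1) * M, u * (1 + a • y), t' * s, mul_ne_zero ht'0 hs0, ?_, ?_, ?_, ?_⟩
    · rw [V.v_mul _ _ ht'0 hs0]
      push_cast
      linarith
    · have he : u ^ p * f - 1 ∈ riemannRochSpace (((p * M : ℕ) : ℤ) • poleDiv L S.X) :=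
        Submodule.sub_mem _ (pow_mul_mem hf0 hD hum) (one_mem_rrSpace fun v => by
          simpa using mul_nonneg (Int.natCast_nonneg (p * M)) (poleDiv_nonneg (K := L) S.X v))
      have hay : a • y = -((p : L)⁻¹) • (u ^ p * f - 1) := by
        rw [hey, add_sub_cancel_left, smul_smul]
        congr 1
        simp [a]
        ring
      rw [hay, mul_add, mul_one, mul_smul_comm]
      have hmono : riemannRochSpace (D + (M : ℤ) • poleDiv L S.X) ≤
          riemannRochSpace (D + (((p + 1) * M : ℕ) : ℤ) • poleDiv L S.X) := rrSpace_le fun v => by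
        simp only [Finsupp.add_apply, Finsupp.smul_apply, smul_eq_mul]
        push_cast
        nlinarith [poleDiv_nonneg (K := L) S.X v, Int.natCast_nonneg M, Int.natCast_nonneg p,
          mul_nonneg (Int.natCast_nonneg p)
            (mul_nonneg (Int.natCast_nonneg M) (poleDiv_nonneg (K := L) S.X v))]
      refine Submodule.add_mem _ (hmono hum) (Submodule.smul_mem _ _ ?_)
      have h := mem_rrSpace_mul hum he
      rwa [add_assoc, ← add_smul, ← Nat.cast_add, show M + p * M = (p + 1) * M by ring] at h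
    · have h := S.pair_mul hur ((S.pair 1).res_add S.pair_one
        (pair_res_small V (Or.inr (show 0 < V.v a by linarith)) hy))
      simpa using h
    · have g1 : 0 ≤ V.v (-(t' / s)) := by
        rw [V.v_neg, V.v_div ht'0 hs0]; linarith
      have g2 : 0 ≤ V.v (a ^ p / (t' * s)) := by
        rw [V.v_div (pow_ne_zero _ ha0) (mul_ne_zero ht'0 hs0), V.v_pow ha0, hav,
          V.v_mul _ _ ht'0 hs0]
        nlinarith
      have g3 : 0 ≤ V.v ((p : L) * a ^ 2 / (t' * s)) := by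
        rw [V.v_div (mul_ne_zero V.p_ne (pow_ne_zero _ ha0)) (mul_ne_zero ht'0 hs0),
          V.v_mul _ _ V.p_ne (pow_ne_zero _ ha0), V.v_p, V.v_pow ha0, hav, V.v_mul _ _ ht'0 hs0]
        push_cast; linarith
      have h1e : (1 + t' • y) ∈ S.intRing := add_mem (one_mem _)
        (smul_mem_intRing V ht'0 (by linarith) hy)
      refine ⟨(-(t' / s)) • y ^ 2 + (1 + t' • y) * ((a ^ p / (t' * s)) • y ^ p +
          ((p : L) * a ^ 2 / (t' * s)) • (y ^ 2 * (z : F))),
        add_mem (smul_mem_intRing V (neg_ne_zero.2 (div_ne_zero ht'0 hs0)) g1 (pow_mem hy 2))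
          (mul_mem h1e (add_mem (smul_mem_intRing V (div_ne_zero (pow_ne_zero _ ha0)
              (mul_ne_zero ht'0 hs0)) g2 (pow_mem hy p))
            (smul_mem_intRing V (div_ne_zero (mul_ne_zero V.p_ne (pow_ne_zero _ ha0))
              (mul_ne_zero ht'0 hs0)) g3 (mul_mem (pow_mem hy 2) z.2)))), ?_⟩
      have hy' : u ^ p * f = 1 + t' • y := hey
      have k1 : (t' * s) * -(t' / s) = -(t' ^ 2) := by field_simp
      have k2 : (t' * s) * (a ^ p / (t' * s)) = a ^ p := mul_div_cancel₀ _ (mul_ne_zero ht'0 hs0)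
      have k3 : (t' * s) * ((p : L) * a ^ 2 / (t' * s)) = (p : L) * a ^ 2 :=
        mul_div_cancel₀ _ (mul_ne_zero ht'0 hs0)
      have k4 : (p : L) * a = -t' := by simp only [a]; field_simp [V.p_ne]
      rw [mul_pow, mul_right_comm, hy', hz', smul_add, smul_smul, k1, ← mul_smul_comm, smul_add,
        smul_smul, k2, smul_smul, k3]
      have k4' : (p : F) * algebraMap L F a = -algebraMap L F t' := by
        rw [← map_natCast (algebraMap L F), ← map_mul, k4, map_neg]
      simp only [Algebra.smul_def, map_mul, map_pow, map_natCast, map_neg]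
      linear_combination (y + algebraMap L F t' * y ^ 2) * k4'

variable (hS : S.Good) (N : S.Nodes)
include hS N

include V in
/-- **The approximate roots can be found in a fixed space.** -/
theorem exists_near_root {f : F} (hf0 : f ≠ 0) {D : Divisor L F}
    (hD : ∀ Q, Q.ord f = (p : ℤ) * D Q) (hf : (S.pair 1).Res f 1) {M : ℕ} {u : F} {t : L}
    (ht0 : t ≠ 0) (htv : (p : ℚ) / ((p : ℚ) - 1) < V.v t)
    (hu : u ∈ riemannRochSpace (D + (M : ℤ) • poleDiv L S.X)) (hur : (S.pair 1).Res u 1)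
    (hur' : NearOne S t (u ^ p * f)) :
    ∃ a ∈ riemannRochSpace (D + (N.m₀ : ℤ) • poleDiv L S.X), a ∈ S.intRing ∧
      ∃ y ∈ S.intRing, a ^ p * f - S.X ^ (p * N.m₀) = t • y := by
  classical
  have hp : p.Prime := Fact.out
  have hp1 : (2 : ℚ) ≤ p := by exact_mod_cast hp.two_le
  have hp' : (0 : ℚ) < (p : ℚ) - 1 := by linarith
  set m := N.m₀
  set W := riemannRochSpace (D + (m : ℤ) • poleDiv L S.X)
  haveI := finiteDimensional_rrSpace (K := L) (D + (m : ℤ) • poleDiv L S.X)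
  have hfI : f ∈ S.intRing := S.integral_iff_mem.1 ⟨_, hf⟩
  have hgood : ∀ {M' : ℕ}, m ≤ M' → ∀ w,
      w ∈ (S.pair 1).image (riemannRochSpace (D + (M' : ℤ) • poleDiv L S.X)) → w ∈ S.rimg M' := by
    intro M' hM' w hw
    simpa using (twist_mem hS N hf0 hD one_ne_zero (γ := 1) one_ne_zero one_ne_zero
      (by simpa [Prod.mk_one_one] using hf) hM').1 w (by simpa using hw)
  -- the target and the residue of its approximation
  set Z := S.X ^ m * u
  set xp : Fb × Fb := (S.MC.xb, S.MC.xb ^ p)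
  have hXn : ∀ n, (S.pair 1).Res (S.X ^ n) (xp ^ n) := fun n =>
    S.pair_pow S.pair_X n |> fun h => by rwa [one_pow] at h
  have hXm := hXn m
  have hZr : (S.pair 1).Res Z (xp ^ m) := by simpa using S.pair_mul hXm hur
  have hZI : Z ∈ S.intRing := S.integral_iff_mem.1 ⟨_, hZr⟩
  have hZm : Z ∈ riemannRochSpace (D + ((M + m : ℕ) : ℤ) • poleDiv L S.X) := by
    have h := mem_rrSpace_mul hu (Sheet.pow_X_mem (S := S) m)
    rw [add_assoc, ← add_smul, ← Nat.cast_add] at h
    show S.X ^ m * u ∈ _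
    rwa [mul_comm]
  obtain ⟨y₀, hy₀, hey₀⟩ := hur'
  have hZe : Z ^ p * f - S.X ^ (p * m) = t • (S.X ^ (p * m) * y₀) := by
    rw [mul_pow, ← pow_mul, mul_comm m p, mul_assoc, hey₀, mul_add, mul_one, add_sub_cancel_left,
      mul_smul_comm]
  by_cases hZW : Z ∈ W
  · exact ⟨Z, hZW, hZI, _, mul_mem (pow_mem X_mem_intRing _) hy₀, hZe⟩
  obtain ⟨a, ha, s, η, hs0, hsr, hη, hη'⟩ := exists_farthest (S.orth one_ne_zero) S.MC.surj W hZW
  have hηM : η ∈ S.rimg (M + m) := by
    refine hgood (Nat.le_add_left m M) η (LRed.image_mono (sup_le ?_ ?_) hη')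
    · exact rrSpace_le fun v => by
        simp only [Finsupp.add_apply, Finsupp.smul_apply, smul_eq_mul]
        push_cast
        nlinarith [mul_nonneg (Int.natCast_nonneg M) (poleDiv_nonneg (K := L) S.X v)]
    · exact (Submodule.span_singleton_le_iff_mem _ _).2 hZm
  -- the image of `W` is everything
  have hWim : ∀ w ∈ S.rimg m, w ∈ (S.pair 1).image W := fun w hw => by
    obtain ⟨b, hb, hbr⟩ := (twist_mem hS N hf0 hD one_ne_zero (γ := 1) one_ne_zero one_ne_zero
      (by simpa [Prod.mk_one_one] using hf) le_rfl).2 w hw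
    exact LRed.mem_image_of_res hb (by simpa [Prod.mk_one_one] using hbr)
  have hηm : η ∉ S.rimg m := fun h => hη (hWim η h)
  obtain ⟨b, hb, hbr⟩ := (LRed.mem_image S.MC.surj).1 (hWim _
    (LRed.mem_image_of_res (Sheet.pow_X_mem (S := S) m) hXm))
  have hsA : s ∉ A := fun hm => not_small_of_farthest (T := S.pair 1) ha hsr hη hb (by
    have h := (S.pair 1).res_smul ⟨s, hm⟩ (LRed.res_sub hZr hbr)
    rwa [sub_self, smul_zero] at h)
  set s' := s⁻¹
  have hs'0 : s' ≠ 0 := inv_ne_zero hs0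
  have hw : 0 < V.v s' := by
    rw [V.v_inv hs0, neg_pos]
    exact lt_of_not_ge fun h => hsA ((V.mem_iff _ hs0).2 h)
  set y := s • (Z - a)
  have hyI : y ∈ S.intRing := S.integral_iff_mem.1 ⟨_, hsr⟩
  have haZ : a = Z + (-s') • y := by
    rw [neg_smul, smul_smul, inv_mul_cancel₀ hs0, one_smul]; abel
  have haI : a ∈ S.intRing := haZ ▸ add_mem hZI
    (smul_mem_intRing V (neg_ne_zero.2 hs'0) (by rw [V.v_neg]; exact hw.le) hyI)
  obtain ⟨z, hz⟩ := exists_add_pow_prime_two hp (⟨Z, hZI⟩ : S.intRing)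
    ⟨(-s') • y, smul_mem_intRing V (neg_ne_zero.2 hs'0) (by rw [V.v_neg]; exact hw.le) hyI⟩
  have hz' := congrArg (Subtype.val : S.intRing → F) hz
  push_cast at hz'
  rw [← haZ] at hz'
  -- the expansion
  set c₁ : L := -((p : L) * s')
  set c₂ : L := (-s') ^ p
  set c₃ : L := (p : L) * s' ^ 2
  have hexp : a ^ p * f - S.X ^ (p * m) = t • (S.X ^ (p * m) * y₀) +
      (c₁ • (Z ^ (p - 1) * y * f) + c₂ • (y ^ p * f) + c₃ • (y ^ 2 * (z : F) * f)) := by
    rw [← hZe, hz']
    simp only [c₁, c₂, c₃, Algebra.smul_def, map_mul, map_pow, map_neg, map_natCast]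
    ring
  have hc₁ : c₁ ≠ 0 := neg_ne_zero.2 (mul_ne_zero V.p_ne hs'0)
  have hc₂ : c₂ ≠ 0 := pow_ne_zero _ (neg_ne_zero.2 hs'0)
  have hc₃ : c₃ ≠ 0 := mul_ne_zero V.p_ne (pow_ne_zero _ hs'0)
  have hv₁ : V.v c₁ = 1 + V.v s' := by rw [V.v_neg, V.v_mul _ _ V.p_ne hs'0, V.v_p]
  have hv₂ : V.v c₂ = p * V.v s' := by rw [V.v_pow (neg_ne_zero.2 hs'0), V.v_neg]
  have hv₃ : V.v c₃ = 1 + 2 * V.v s' := by
    rw [V.v_mul _ _ V.p_ne (pow_ne_zero _ hs'0), V.v_p, V.v_pow hs'0]; norm_num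
  have hT0 : t • (S.X ^ (p * m) * y₀) = (t • S.X ^ (p * m)) * y₀ := (smul_mul_assoc _ _ _).symm
  by_cases hfar : V.v t - 1 ≤ V.v s'
  · -- close enough
    refine ⟨a, ha, haI, S.X ^ (p * m) * y₀ + ((t⁻¹ * c₁) • (Z ^ (p - 1) * y * f) +
      (t⁻¹ * c₂) • (y ^ p * f) + (t⁻¹ * c₃) • (y ^ 2 * (z : F) * f)), ?_, ?_⟩
    · have hv : ∀ {c : L}, c ≠ 0 → V.v t ≤ V.v c → ∀ {x : F}, x ∈ S.intRing →
          (t⁻¹ * c) • x ∈ S.intRing := fun {c} hc hle {x} hx =>
        smul_mem_intRing V (mul_ne_zero (inv_ne_zero ht0) hc)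
          (by rw [V.v_mul _ _ (inv_ne_zero ht0) hc, V.v_inv ht0]; linarith) hx
      have hcrit : (p : ℚ) < ((p : ℚ) - 1) * V.v t := by
        rw [div_lt_iff₀ hp'] at htv; linarith
      refine add_mem (mul_mem (pow_mem X_mem_intRing _) hy₀) (add_mem (add_mem
        (hv hc₁ (by linarith) (mul_mem (mul_mem (pow_mem hZI _) hyI) hfI))
        (hv hc₂ ?_ (mul_mem (pow_mem hyI _) hfI)))
        (hv hc₃ (by linarith) (mul_mem (mul_mem (pow_mem hyI _) z.2) hfI)))
      rw [hv₂]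
      nlinarith
    · rw [hexp]
      simp only [smul_add, smul_smul, ← mul_assoc, mul_inv_cancel₀ ht0, one_mul]
  -- otherwise the digit contradicts the choice of `a`
  exfalso
  rw [not_le] at hfar
  have hmem : a ^ p * f - S.X ^ (p * m) ∈ riemannRochSpace (((p * m : ℕ) : ℤ) • poleDiv L S.X) :=
    Submodule.sub_mem _ (pow_mul_mem hf0 hD ha) (Sheet.pow_X_mem _)
  obtain ⟨g₀, hg₀⟩ := pair_res_of_intRing hy₀
  obtain ⟨gz, hgz⟩ := pair_res_of_intRing z.2
  have r0 : (S.pair 1).Res (S.X ^ (p * m) * y₀) (xp ^ (p * m) * g₀) := by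
    have h := S.pair_mul (hXn (p * m)) hg₀
    rwa [one_mul] at h
  have r1 : (S.pair 1).Res (Z ^ (p - 1) * y * f) (xp ^ ((p - 1) * m) * η) := by
    have h := S.pair_mul (S.pair_mul (S.pair_pow hZr (p - 1)) hsr) hf
    rw [← pow_mul, mul_comm m (p - 1)] at h
    simpa using h
  have r2 : (S.pair 1).Res (y ^ p * f) (η ^ p) := by
    simpa using S.pair_mul (S.pair_pow hsr p) hf
  have r3 : (S.pair 1).Res (y ^ 2 * (z : F) * f) (η ^ 2 * gz) := by
    simpa using S.pair_mul (S.pair_mul (S.pair_pow hsr 2) hgz) hf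
  have hsm : ∀ {c e : L}, c ≠ 0 → e ≠ 0 → V.v e < V.v c → ∀ {x : F} {g : Fb × Fb},
      (S.pair 1).Res x g → (S.pair 1).Res ((e⁻¹ * c) • x) 0 := by
    intro c e hc he hlt x g hx
    refine pair_res_small V (Or.inr ?_) (S.integral_iff_mem.1 ⟨_, hx⟩)
    rw [V.v_mul _ _ (inv_ne_zero he) hc, V.v_inv he]
    linarith
  rcases lt_or_ge (V.v s') (1 / ((p : ℚ) - 1)) with hlt | hge
  · have hps : (p : ℚ) * V.v s' < 1 + V.v s' := by
      rw [lt_div_iff₀ hp'] at hlt; linarith
    have h1 : (S.pair 1).Res (c₂⁻¹ • (a ^ p * f - S.X ^ (p * m))) (η ^ p) := by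
      rw [hexp]
      simp only [smul_add, smul_smul]
      have := (S.pair 1).res_add (hsm (c := t) (e := c₂) ht0 hc₂ (by linarith) r0)
        ((S.pair 1).res_add ((S.pair 1).res_add (hsm (c := c₁) (e := c₂) hc₁ hc₂ (by linarith) r1)
          (by simpa [inv_mul_cancel₀ hc₂] using r2 : (S.pair 1).Res ((c₂⁻¹ * c₂) • (y ^ p * f)) (η ^ p)))
          (hsm (c := c₃) (e := c₂) hc₃ hc₂ (by linarith) r3))
      simpa using this
    exact hηm (rimg_of_pow N le_rfl (LRed.mem_image_of_res (Submodule.smul_mem _ _ hmem) h1))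
  · have hps : 1 + V.v s' ≤ (p : ℚ) * V.v s' := by
      rw [div_le_iff₀ hp'] at hge; linarith
    have hcA : c₁⁻¹ * c₂ ∈ A := (V.mem_iff _ (mul_ne_zero (inv_ne_zero hc₁) hc₂)).2 (by
      rw [V.v_mul _ _ (inv_ne_zero hc₁) hc₂, V.v_inv hc₁]; linarith)
    set c : k := π ⟨_, hcA⟩
    have h1 : (S.pair 1).Res (c₁⁻¹ • (a ^ p * f - S.X ^ (p * m)))
        (xp ^ ((p - 1) * m) * η + c • η ^ p) := by
      rw [hexp]
      simp only [smul_add, smul_smul]
      have := (S.pair 1).res_add (hsm (c := t) (e := c₁) ht0 hc₁ (by linarith) r0)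
        ((S.pair 1).res_add ((S.pair 1).res_add
          (by simpa [inv_mul_cancel₀ hc₁] using r1 :
            (S.pair 1).Res ((c₁⁻¹ * c₁) • (Z ^ (p - 1) * y * f)) (xp ^ ((p - 1) * m) * η))
          ((S.pair 1).res_smul ⟨_, hcA⟩ r2))
          (hsm (c := c₃) (e := c₁) hc₃ hc₁ (by linarith) r3))
      simpa [c] using this
    have ht := S.rimg_le_targ _ (LRed.mem_image_of_res (Submodule.smul_mem _ _ hmem) h1)
    rcases eq_or_ne c 0 with hc0 | hc0
    · rw [hc0, zero_smul, add_zero,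
        show p * m = m + (p - 1) * m by
          rw [Nat.sub_mul, one_mul, Nat.add_sub_cancel' (Nat.le_mul_of_pos_left m hp.pos)]] at ht
      simp only [xp, Prod.pow_mk] at ht
      exact hηm (rimg_of_bound N le_rfl hηM ht)
    · refine hηm (rimg_of_AS N le_rfl hηM (-c⁻¹) ?_)
      have := Submodule.smul_mem _ c⁻¹ ht
      convert this using 1
      rw [smul_add, smul_smul, inv_mul_cancel₀ hc0, one_smul, neg_smul, sub_neg_eq_add, mul_comm η,
        add_comm]

include V in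
/-- **Near one on both sheets implies a `p`-th power.** -/
theorem exists_pth_root {f : F} (hf0 : f ≠ 0) {D : Divisor L F}
    (hD : ∀ Q, Q.ord f = (p : ℤ) * D Q) {t : L} (ht0 : t ≠ 0)
    (htv : (p : ℚ) / ((p : ℚ) - 1) < V.v t) (hf : NearOne S t f)
    (hsupp : ∀ Q : Place L F, 0 ≤ Q.ord S.X → D Q ≠ 0 → ev Q S.X ∉ A) :
    ∃ h : F, h ^ p = f := by
  classical
  have hp : p.Prime := Fact.out
  set m := N.m₀
  set W := riemannRochSpace (D + (m : ℤ) • poleDiv L S.X)
  haveI := finiteDimensional_rrSpace (K := L) (D + (m : ℤ) • poleDiv L S.X)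
  haveI := finiteDimensional_rrSpace (K := L) (((p * m : ℕ) : ℤ) • poleDiv L S.X)
  have htpos : 0 < V.v t := lt_trans (div_pos (by exact_mod_cast hp.pos)
    (by have : (2 : ℚ) ≤ p := by exact_mod_cast hp.two_le
        linarith)) htv
  have hfr : (S.pair 1).Res f 1 := by
    obtain ⟨y, hy, rfl⟩ := hf
    simpa using (S.pair 1).res_add S.pair_one (pair_res_small V (Or.inr htpos) hy)
  obtain ⟨γ, hγ, happ⟩ := exists_approx V hf0 hD ht0 htv hf hsupp
  obtain ⟨v, w, hv, hvw, hw, hsp, -⟩ := LRed.exists_basis (S.orth one_ne_zero) S.MC.surj W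
  let P : MvPolynomial (Fin (Module.finrank L W)) F :=
    (∑ i, MvPolynomial.C (v i) * MvPolynomial.X i) ^ p * MvPolynomial.C f -
      MvPolynomial.C (S.X ^ (p * m))
  have hev : ∀ a : Fin (Module.finrank L W) → L, MvPolynomial.eval (fun i => algebraMap L F (a i)) P
      = (∑ i, a i • v i) ^ p * f - S.X ^ (p * m) := by
    intro a
    simp [P, Algebra.smul_def, mul_comm]
  obtain ⟨a, ha⟩ := exists_eval_eq_zero (R := S.pair 1) S.orth_one S.MC.surj P
    (riemannRochSpace (((p * m : ℕ) : ℤ) • poleDiv L S.X))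
    (fun a => by
      rw [hev]
      exact Submodule.sub_mem _ (pow_mul_mem hf0 hD (Submodule.sum_mem _ fun i _ =>
        Submodule.smul_mem _ _ (hv i))) (Sheet.pow_X_mem _))
    (fun c hc => by
      obtain ⟨j, hj⟩ := Archimedean.arch (|V.v c| + 1) hγ
      rw [nsmul_eq_mul] at hj
      obtain ⟨M, u, t', ht'0, hle, hum, hur, hue⟩ := happ j
      obtain ⟨a, haW, haI, y, hy, hey⟩ := exists_near_root V hS N hf0 hD hfr ht'0
        (lt_of_lt_of_le htv (le_trans (by
          have := mul_nonneg (Nat.cast_nonneg (α := ℚ) j) hγ.le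
          linarith) hle)) hum hur hue
      obtain ⟨b, rfl⟩ := (Submodule.mem_span_range_iff_exists_fun L).1 (hsp.symm ▸ haW :
        a ∈ Submodule.span L (Set.range v))
      refine ⟨fun i => ⟨b i, LRed.coord_mem S.MC.surj hvw hw (pair_res_of_intRing haI) i⟩, t', y,
        ?_, pair_res_of_intRing hy, (hev b).trans hey, ?_⟩
      · have : y = t'⁻¹ • ((∑ i, b i • v i) ^ p * f - S.X ^ (p * m)) := by
          rw [hey, smul_smul, inv_mul_cancel₀ ht'0, one_smul]
        rw [this]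
        exact Submodule.smul_mem _ _ (Submodule.sub_mem _ (pow_mul_mem hf0 hD haW) (Sheet.pow_X_mem _))
      · have hgt : V.GT 0 (c * t') := Or.inr (by
          rw [V.v_mul _ _ hc ht'0]
          have := neg_abs_le (V.v c)
          linarith)
        refine ⟨(V.mem_iff_GE).2 (hgt.ge V le_rfl), ?_⟩
        exact (V.res_iff_GT).2 hgt)
  rw [hev, sub_eq_zero] at ha
  refine ⟨S.X ^ m / ∑ i, a i • v i, ?_⟩
  have hne : (∑ i, a i • v i) ≠ 0 := fun h0 => by
    rw [h0, zero_pow hp.ne_zero, zero_mul] at ha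
    exact pow_ne_zero _ (ne_zero_of_transcendental S.transcendental_X) ha.symm
  rw [div_pow, ← pow_mul, mul_comm m p, ← ha, mul_div_cancel_left₀ _ (pow_ne_zero _ hne)]

end FLTAgent.MazurPrinciple
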