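import Fermat.Agent.MazurPrinciple.Twist
import Fermat.Agent.MazurPrinciple.Digit
import Fermat.Agent.MazurPrinciple.Root

/-!
# The two sheets are connected

An element reducing to one on the first sheet and to zero on the second would lift to better and
better idempotents in a fixed space of functions, hence to an exact one, and a field has none.
-/

set_option autoImplicit false
set_option linter.style.haveILetI false
set_option linter.unusedSectionVars false
set_option maxHeartbeats 1000000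

noncomputable section

namespace FLTAgent.MazurPrinciple

open AlgebraicCurve FLTAgent.Curves FLTAgent.Specialization FLTAgent.BadRed IntermediateField

variable {L k : Type*} [Field L] [Field k] {A : ValuationSubring L} {π : A →+* k}
  {FC Fb F : Type*} [Field FC] [Field Fb] [Field F] [Algebra L FC]
  [Algebra k Fb] [Algebra L F] [IsAlgClosed L] [IsFunctionField L FC] [IsFunctionField L F]
  [IsAlgClosed k] [IsFunctionField k Fb] {p : ℕ} [Fact p.Prime] [CharP k p]
  {S : Sheet π FC Fb F p} (V : RatVal π p)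

theorem exists_pole_X : ∃ v : Place L F, v.ord S.X < 0 := by
  by_contra h
  push Not at h
  have h0 : poleDiv L S.X = 0 := Finsupp.ext fun v => by
    rw [poleDiv_apply, Finsupp.zero_apply]
    exact max_eq_right (by linarith [h v])
  have h1 := degree_poleDiv (K := L) (F := F) S.transcendental_X
  rw [h0, map_zero] at h1
  haveI := finiteDimensional_adjoin (K := L) (F := F) S.transcendental_X
  have := (Module.finrank_pos (R := L⟮S.X⟯) (M := F))
  omega

theorem pow_X_notMem {a b : ℕ} (h : a < b) :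
    S.X ^ b ∉ riemannRochSpace ((a : ℤ) • poleDiv L S.X) := fun hmem => by
  obtain ⟨v, hv⟩ := exists_pole_X (S := S)
  have h1 := (mem_rrSpace_poles.1 hmem).2 v hv
  have h2 := h1.le_ord (pow_ne_zero _ (ne_zero_of_transcendental S.transcendental_X))
  rw [ord_pow] at h2
  have : (a : ℤ) < b := by exact_mod_cast h
  nlinarith

include V in
/-- Approximate idempotents. -/
theorem exists_idem_approx {m₁ : ℕ} {z₀ : F}
    (hz : z₀ ∈ riemannRochSpace ((m₁ : ℤ) • poleDiv L S.X)) (hr : (S.pair 1).Res z₀ (1, 0)) :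
    ∃ γ : ℚ, 0 < γ ∧ ∀ j : ℕ, ∃ (M : ℕ) (t : L) (w y : F), t ≠ 0 ∧
      ((j : ℚ) + 1) * γ ≤ V.v t ∧ w ∈ riemannRochSpace ((M : ℤ) • poleDiv L S.X) ∧
      (S.pair 1).Res w (1, 0) ∧ y ∈ S.intRing ∧ w ^ 2 - w = t • y := by
  obtain ⟨t₀, ht₀, ht₀'⟩ := S.exists_nonunit
  have he : (S.pair 1).Res (z₀ ^ 2 - z₀) 0 := by
    have h := LRed.res_sub (S.pair_pow hr 2 |> fun h => by rwa [one_pow] at h) hr
    simpa using h
  obtain ⟨t, ht, ht', y, hy, hey⟩ := LRed.exists_small S.orth_one S.MC.surj he ht₀ ht₀'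
  have hv : 0 < V.v (t : L) := ((V.res_iff_GT).1 ht).lt V ht'
  refine ⟨V.v (t : L), hv, fun j => ?_⟩
  induction j with
  | zero =>
    exact ⟨m₁, t, z₀, y, ht', by simp, hz, hr, S.integral_iff_mem.1 hy, hey⟩
  | succ j ih =>
    obtain ⟨M, s, w, y, hs, hle, hwM, hwr, hy, hey⟩ := ih
    have hsv : 0 < V.v s := lt_of_lt_of_le (mul_pos (by positivity) hv) hle
    have hwI : w ∈ S.intRing := S.integral_iff_mem.1 ⟨_, hwr⟩
    refine ⟨3 * M, s ^ 2, 3 * w ^ 2 - 2 * w ^ 3, y ^ 2 * (4 * (w ^ 2 - w) - 3),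
      pow_ne_zero _ hs, ?_, ?_, ?_, ?_, ?_⟩
    · rw [V.v_pow hs]
      push_cast
      nlinarith [mul_nonneg (Nat.cast_nonneg (α := ℚ) j) hv.le]
    · have h2 : w ^ 2 ∈ riemannRochSpace (((3 * M : ℕ) : ℤ) • poleDiv L S.X) := by
        refine mem_rrSpace_poles.2 ⟨integralWrt_pow (mem_rrSpace_poles.1 hwM).1 2, fun v hv => ?_⟩
        refine (((mem_rrSpace_poles.1 hwM).2 v hv).pow 2).mono ?_
        push_cast
        nlinarith [Int.natCast_nonneg M]
      have h3 : w ^ 3 ∈ riemannRochSpace (((3 * M : ℕ) : ℤ) • poleDiv L S.X) := by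
        refine mem_rrSpace_poles.2 ⟨integralWrt_pow (mem_rrSpace_poles.1 hwM).1 3, fun v hv => ?_⟩
        refine (((mem_rrSpace_poles.1 hwM).2 v hv).pow 3).mono ?_
        push_cast
        nlinarith [Int.natCast_nonneg M]
      have := Submodule.sub_mem _ (Submodule.smul_mem _ (3 : L) h2) (Submodule.smul_mem _ (2 : L) h3)
      simpa [Algebra.smul_def, map_ofNat] using this
    · have h := LRed.res_sub
        (show (S.pair 1).Res w (1, 0) from hwr)
        (show (S.pair 1).Res ((2 * w - 1) * (w ^ 2 - w)) 0 by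
          rw [hey, mul_smul_comm]
          exact pair_res_small V (Or.inr hsv) (mul_mem (sub_mem (mul_mem
            (natCast_mem S.intRing 2) hwI) (one_mem _)) hy))
      rw [sub_zero] at h
      convert h using 1
      ring
    · exact mul_mem (pow_mem hy 2) (sub_mem (mul_mem (natCast_mem S.intRing 4)
        (sub_mem (pow_mem hwI 2) hwI)) (natCast_mem S.intRing 3))
    · have e : (3 * w ^ 2 - 2 * w ^ 3) ^ 2 - (3 * w ^ 2 - 2 * w ^ 3) =
          (w ^ 2 - w) ^ 2 * (4 * (w ^ 2 - w) - 3) := by ring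
      rw [e]
      nth_rw 1 [hey]
      rw [_root_.smul_pow, smul_mul_assoc]

variable (N : S.Nodes)
include N

theorem xp_rimg {m₁ : ℕ} (h : ((1 : Fb), (0 : Fb)) ∈ S.rimg m₁) {m : ℕ} (hm : N.m₀ ≤ m) :
    ((S.MC.xb ^ m, 0) : Fb × Fb) ∈ S.rimg m := by
  have hz : ((S.MC.xb ^ m, 0) : Fb × Fb) ∈ S.rimg (m + m₁) := by
    obtain ⟨e, he, hr⟩ := (LRed.mem_image S.MC.surj).1 h
    have hmem := mem_rrSpace_mul (Sheet.pow_X_mem (S := S) m) he
    rw [← add_smul, ← Nat.cast_add] at hmem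
    refine LRed.mem_image_of_res hmem ?_
    have h2 := S.pair_mul (S.pair_pow S.pair_X m) hr
    simpa using h2
  refine N.char m hm _ ⟨mem_rrSpace_poles.2 ⟨integralWrt_pow (integralWrt_self _) _, fun v _ =>
    ordGE_of_le (by rw [ord_pow])⟩, Submodule.zero_mem _⟩ fun i => N.compat _ _ hz i

variable (hS : S.Good)
include hS

include V in
/-- Idempotent equation, approximately solved in a fixed space. -/
theorem exists_idem_near {m : ℕ} (hm : N.m₀ ≤ m) (hxp : ((S.MC.xb ^ m, 0) : Fb × Fb) ∈ S.rimg m)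
    {M : ℕ} {z : F} (hz : z ∈ riemannRochSpace ((M : ℤ) • poleDiv L S.X))
    (hzr : (S.pair 1).Res z (1, 0)) {t : L} (ht : t ≠ 0) {y₀ : F}
    (hy₀ : y₀ ∈ S.intRing) (hey₀ : z ^ 2 - z = t • y₀) :
    ∃ a ∈ riemannRochSpace ((m : ℤ) • poleDiv L S.X), (S.pair 1).Res a (S.MC.xb ^ m, 0) ∧
      ∃ y ∈ S.intRing, a ^ 2 - a * S.X ^ m = t • y := by
  classical
  set U := riemannRochSpace ((m : ℤ) • poleDiv L S.X)
  haveI := finiteDimensional_rrSpace (K := L) ((m : ℤ) • poleDiv L S.X)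
  set Z := S.X ^ m * z
  set xp : Fb × Fb := (S.MC.xb, S.MC.xb ^ p)
  have hXn : ∀ n, (S.pair 1).Res (S.X ^ n) (xp ^ n) := fun n =>
    S.pair_pow S.pair_X n |> fun h => by rwa [one_pow] at h
  have hXI : S.X ^ m ∈ S.intRing := pow_mem X_mem_intRing m
  have hZr : (S.pair 1).Res Z (S.MC.xb ^ m, 0) := by
    simpa [xp] using S.pair_mul (hXn m) hzr
  have hZI : Z ∈ S.intRing := S.integral_iff_mem.1 ⟨_, hZr⟩
  have hZm : Z ∈ riemannRochSpace (((m + M : ℕ) : ℤ) • poleDiv L S.X) := by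
    have h := mem_rrSpace_mul (Sheet.pow_X_mem (S := S) m) hz
    rwa [← add_smul, ← Nat.cast_add] at h
  have hZe : Z ^ 2 - Z * S.X ^ m = t • (S.X ^ (2 * m) * y₀) := by
    rw [← mul_smul_comm, ← hey₀]
    simp only [Z]
    ring
  by_cases hZU : Z ∈ U
  · exact ⟨Z, hZU, hZr, _, mul_mem (pow_mem X_mem_intRing _) hy₀, hZe⟩
  obtain ⟨a, ha, s, η, hs0, hsr, hη, hη'⟩ := exists_farthest S.orth_one S.MC.surj U hZU
  have hηM : η ∈ S.rimg (m + M) := by
    refine LRed.image_mono (sup_le ?_ ((Submodule.span_singleton_le_iff_mem _ _).2 hZm)) hη'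
    exact rrSpace_le fun v => by
      simp only [Finsupp.smul_apply, smul_eq_mul]
      push_cast
      nlinarith [mul_nonneg (Int.natCast_nonneg M) (poleDiv_nonneg (K := L) S.X v)]
  obtain ⟨b, hb, hbr⟩ := (LRed.mem_image S.MC.surj).1 hxp
  have hsA : s ∉ A := fun hmem => not_small_of_farthest (T := S.pair 1) ha hsr hη hb (by
    have h := (S.pair 1).res_smul ⟨s, hmem⟩ (LRed.res_sub hZr hbr)
    rwa [sub_self, smul_zero] at h)
  set s' := s⁻¹
  have hs'0 : s' ≠ 0 := inv_ne_zero hs0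
  have hw : 0 < V.v s' := by
    rw [V.v_inv hs0, neg_pos]
    exact lt_of_not_ge fun h => hsA ((V.mem_iff _ hs0).2 h)
  set y := s • (Z - a)
  have hyI : y ∈ S.intRing := S.integral_iff_mem.1 ⟨_, hsr⟩
  have haZ : a = Z - s' • y := by
    rw [smul_smul, inv_mul_cancel₀ hs0, one_smul]; abel
  have hsmy : (S.pair 1).Res (s' • y) 0 := pair_res_small V (Or.inr hw) hyI
  have har : (S.pair 1).Res a (S.MC.xb ^ m, 0) := by
    rw [haZ]
    simpa using LRed.res_sub hZr hsmy
  have hexp : a ^ 2 - a * S.X ^ m = t • (S.X ^ (2 * m) * y₀) +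
      s' • (-(y * (2 * Z - S.X ^ m)) + s' • y ^ 2) := by
    rw [← hZe, haZ]
    simp only [Algebra.smul_def]
    ring
  have h2Z : 2 * Z - S.X ^ m ∈ S.intRing := sub_mem (mul_mem (natCast_mem S.intRing 2) hZI) hXI
  by_cases hfar : V.v t ≤ V.v s'
  · refine ⟨a, ha, har, S.X ^ (2 * m) * y₀ +
      (t⁻¹ * s') • (-(y * (2 * Z - S.X ^ m)) + s' • y ^ 2), ?_, ?_⟩
    · exact add_mem (mul_mem (pow_mem X_mem_intRing _) hy₀) (smul_mem_intRing V
        (mul_ne_zero (inv_ne_zero ht) hs'0)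
        (by rw [V.v_mul _ _ (inv_ne_zero ht) hs'0, V.v_inv ht]; linarith)
        (add_mem (neg_mem (mul_mem hyI h2Z)) (smul_mem_intRing V hs'0 hw.le (pow_mem hyI 2))))
    · rw [hexp, smul_add t, smul_smul t (t⁻¹ * s'), mul_inv_cancel_left₀ ht]
  -- otherwise the digit lies in the fixed space
  exfalso
  rw [not_le] at hfar
  have hmem : a ^ 2 - a * S.X ^ m ∈ riemannRochSpace (((m + m : ℕ) : ℤ) • poleDiv L S.X) := by
    have h1 := mem_rrSpace_mul ha ha
    have h2 := mem_rrSpace_mul ha (Sheet.pow_X_mem (S := S) m)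
    rw [← add_smul, ← Nat.cast_add] at h1 h2
    rw [sq]
    exact Submodule.sub_mem _ h1 h2
  have hone : (1 : Fb × Fb) = (1, 1) := rfl
  have r1 : (S.pair 1).Res (2 * Z - S.X ^ m) (S.MC.xb ^ m, -(S.MC.xb ^ p) ^ m) := by
    have h := LRed.res_sub ((S.pair 1).res_add hZr hZr) (hXn m)
    rw [← two_mul] at h
    simpa [xp] using h
  have r2 : (S.pair 1).Res (s'⁻¹ • (a ^ 2 - a * S.X ^ m))
      (-(η * (S.MC.xb ^ m, -(S.MC.xb ^ p) ^ m))) := by
    rw [hexp, smul_add, smul_smul, smul_smul, inv_mul_cancel₀ hs'0, one_smul]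
    have h1 : (S.pair 1).Res ((s'⁻¹ * t) • (S.X ^ (2 * m) * y₀)) 0 :=
      pair_res_small V (Or.inr (by rw [V.v_mul _ _ (inv_ne_zero hs'0) ht, V.v_inv hs'0]; linarith))
        (mul_mem (pow_mem X_mem_intRing _) hy₀)
    have h2 : (S.pair 1).Res (-(y * (2 * Z - S.X ^ m)))
        (-(η * (S.MC.xb ^ m, -(S.MC.xb ^ p) ^ m))) := by
      have h := S.pair_mul hsr r1
      rw [one_mul] at h
      exact LRed.res_neg h
    have h3 : (S.pair 1).Res (s' • y ^ 2) 0 := pair_res_small V (Or.inr hw) (pow_mem hyI 2)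
    simpa using (S.pair 1).res_add h1 ((S.pair 1).res_add h2 h3)
  have ht' := S.rimg_le_targ _ (LRed.mem_image_of_res (Submodule.smul_mem _ _ hmem) r2)
  refine hη (rimg_of_bound N hm hηM (b := m) ?_)
  have h1 := Submodule.neg_mem _ ht'
  rw [neg_neg] at h1
  refine ⟨?_, ?_⟩
  · simpa [mul_comm] using h1.1
  · have := Submodule.neg_mem _ h1.2
    simpa [mul_comm] using this

include V in
/-- **The reductions of the two sheets are glued somewhere.** -/
theorem one_zero_notMem_rimg (m₁ : ℕ) : ((1 : Fb), (0 : Fb)) ∉ S.rimg m₁ := by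
  classical
  intro h10
  obtain ⟨z₀, hz₀, hz₀r⟩ := (LRed.mem_image S.MC.surj).1 h10
  set m := N.m₀
  have hxp := xp_rimg N h10 (m := m) le_rfl
  obtain ⟨γ, hγ, happ⟩ := exists_idem_approx V hz₀ hz₀r
  set U := riemannRochSpace ((m : ℤ) • poleDiv L S.X)
  haveI := finiteDimensional_rrSpace (K := L) ((m : ℤ) • poleDiv L S.X)
  haveI := finiteDimensional_rrSpace (K := L) (((3 * m + 1 : ℕ) : ℤ) • poleDiv L S.X)
  obtain ⟨v, w, hv, hvw, hw, hsp, him⟩ := LRed.exists_basis S.orth_one S.MC.surj U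
  obtain ⟨cX, hcX⟩ := (Submodule.mem_span_range_iff_exists_fun L).1
    (hsp.symm ▸ Sheet.pow_X_mem (S := S) m : S.X ^ m ∈ Submodule.span L (Set.range v))
  have hXr : (S.pair 1).Res (∑ i, cX i • v i) (S.MC.xb ^ m, (S.MC.xb ^ p) ^ m) := by
    rw [hcX]
    have h := S.pair_pow S.pair_X m
    rwa [one_pow] at h
  obtain ⟨cXA, hcXA, hcXr⟩ := LRed.coord_res S.MC.surj hvw hw hXr
  obtain ⟨cT, hcT⟩ := (Submodule.mem_span_range_iff_exists_fun k).1
    (show ((S.MC.xb ^ m, 0) : Fb × Fb) ∈ Submodule.span k (Set.range w) from him ▸ hxp)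
  have hxne : S.MC.xb ^ m ≠ 0 := pow_ne_zero _ S.xb_ne_zero
  obtain ⟨i, i₀, hdet⟩ : ∃ i i₀, π (cXA i₀) * cT i - π (cXA i) * cT i₀ ≠ 0 := by
    by_contra hall
    push Not at hall
    obtain ⟨i₀, hi₀⟩ : ∃ i₀, π (cXA i₀) ≠ 0 := by
      by_contra h0
      push Not at h0
      simp only [h0, zero_smul, Finset.sum_const_zero] at hcXr
      exact hxne (congrArg Prod.fst hcXr)
    have key : π (cXA i₀) • ((S.MC.xb ^ m, 0) : Fb × Fb) =
        cT i₀ • ((S.MC.xb ^ m, (S.MC.xb ^ p) ^ m) : Fb × Fb) := by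
      rw [← hcT, hcXr, Finset.smul_sum, Finset.smul_sum]
      refine Finset.sum_congr rfl fun i _ => ?_
      rw [smul_smul, smul_smul, sub_eq_zero.1 (hall i i₀)]
      ring_nf
    have h1 := congrArg Prod.fst key
    have h2 := congrArg Prod.snd key
    simp only [Prod.smul_fst, Prod.smul_snd, smul_zero] at h1 h2
    have hc : cT i₀ = 0 := by
      rcases smul_eq_zero.1 h2.symm with h | h
      · exact h
      · exact absurd h (pow_ne_zero _ (pow_ne_zero _ S.xb_ne_zero))
    rw [hc, zero_smul] at h1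
    exact hi₀ ((smul_eq_zero.1 h1).resolve_right hxne)
  -- the equation
  let ι := Fin (Module.finrank L U) ⊕ Unit
  let lin : MvPolynomial ι F := ∑ l, MvPolynomial.C (v l) * MvPolynomial.X (Sum.inl l)
  let D : MvPolynomial ι F := MvPolynomial.C (algebraMap L F (cX i₀)) * MvPolynomial.X (Sum.inl i) -
    MvPolynomial.C (algebraMap L F (cX i)) * MvPolynomial.X (Sum.inl i₀)
  let P : MvPolynomial ι F := (lin ^ 2 - lin * MvPolynomial.C (S.X ^ m)) +
    (D * MvPolynomial.X (Sum.inr ()) - 1) * MvPolynomial.C (S.X ^ (3 * m + 1))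
  have hev : ∀ a : ι → L, MvPolynomial.eval (fun l => algebraMap L F (a l)) P =
      ((∑ l, a (Sum.inl l) • v l) ^ 2 - (∑ l, a (Sum.inl l) • v l) * S.X ^ m) +
        ((cX i₀ * a (Sum.inl i) - cX i * a (Sum.inl i₀)) * a (Sum.inr ()) - 1) •
          S.X ^ (3 * m + 1) := by
    intro a
    simp only [P, lin, D, map_add, map_sub, map_mul, map_pow, map_sum, map_one,
      MvPolynomial.eval_C, MvPolynomial.eval_X, Algebra.smul_def]
    simp only [mul_comm (v _)]
  have hE : ∀ b : Fin (Module.finrank L U) → L,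
      (∑ l, b l • v l) ^ 2 - (∑ l, b l • v l) * S.X ^ m ∈
        riemannRochSpace (((m + m : ℕ) : ℤ) • poleDiv L S.X) := by
    intro b
    have hb : (∑ l, b l • v l) ∈ U :=
      Submodule.sum_mem _ fun l _ => Submodule.smul_mem _ _ (hv l)
    have h1 := mem_rrSpace_mul hb hb
    have h2 := mem_rrSpace_mul hb (Sheet.pow_X_mem (S := S) m)
    rw [← add_smul, ← Nat.cast_add] at h1 h2
    rw [sq]
    exact Submodule.sub_mem _ h1 h2
  have hmono : riemannRochSpace (((m + m : ℕ) : ℤ) • poleDiv L S.X) ≤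
      riemannRochSpace (((3 * m + 1 : ℕ) : ℤ) • poleDiv L S.X) := rrSpace_le fun u => by
    simp only [Finsupp.smul_apply, smul_eq_mul]
    push_cast
    refine mul_le_mul_of_nonneg_right ?_ (poleDiv_nonneg (K := L) S.X u)
    linarith [Int.natCast_nonneg m]
  obtain ⟨a, ha⟩ := exists_eval_eq_zero (R := S.pair 1) S.orth_one S.MC.surj P
    (riemannRochSpace (((3 * m + 1 : ℕ) : ℤ) • poleDiv L S.X))
    (fun a => by
      rw [hev]
      exact Submodule.add_mem _ (hmono (hE _)) (Submodule.smul_mem _ _ (Sheet.pow_X_mem _)))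
    (fun c hc => by
      obtain ⟨j, hj⟩ := Archimedean.arch (|V.v c| + 1) hγ
      rw [nsmul_eq_mul] at hj
      obtain ⟨M, t, z, y₀, ht, hle, hz, hzr, hy₀, hey₀⟩ := happ j
      obtain ⟨a, haU, har, y, hy, hey⟩ :=
        exists_idem_near V N hS (m := m) le_rfl hxp hz hzr ht hy₀ hey₀
      obtain ⟨b, rfl⟩ := (Submodule.mem_span_range_iff_exists_fun L).1 (hsp.symm ▸ haU :
        a ∈ Submodule.span L (Set.range v))
      obtain ⟨bA, hbA, hbr⟩ := LRed.coord_res S.MC.surj hvw hw har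
      have hbT : ∀ l, π (bA l) = cT l := fun l => sub_eq_zero.1 (Fintype.linearIndependent_iff.1 hw
        (fun l => π (bA l) - cT l) (by simp [sub_smul, Finset.sum_sub_distrib, ← hbr, hcT]) l)
      set Dv : A := cXA i₀ * bA i - cXA i * bA i₀
      have hDv : π Dv ≠ 0 := by simpa [Dv, hbT] using hdet
      have hDinv : (Dv : L)⁻¹ ∈ A := by
        by_contra hn
        exact hDv (Reduction.map_eq_zero_of_inv_notMem S.MC.surj hn)
      have hD0 : (Dv : L) ≠ 0 := (V.v_eq_zero_of_res hDv).1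
      let a' : ι → A := Sum.elim bA fun _ => ⟨_, hDinv⟩
      have hval : MvPolynomial.eval (fun l => algebraMap L F (a' l : L)) P = t • y := by
        rw [hev fun l => (a' l : L)]
        simp only [a', Sum.elim_inl, Sum.elim_inr, hbA]
        rw [show cX i₀ * b i - cX i * b i₀ = (Dv : L) by simp [Dv, hcXA, hbA],
          mul_inv_cancel₀ hD0, sub_self, zero_smul, add_zero, hey]
      refine ⟨a', t, y, ?_, pair_res_of_intRing hy, hval, ?_⟩
      · rw [show y = t⁻¹ • ((∑ l, b l • v l) ^ 2 - (∑ l, b l • v l) * S.X ^ m) by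
          rw [hey, smul_smul, inv_mul_cancel₀ ht, one_smul]]
        exact Submodule.smul_mem _ _ (hmono (hE b))
      · have hgt : V.GT 0 (c * t) := Or.inr (by
          rw [V.v_mul _ _ hc ht]
          have := neg_abs_le (V.v c)
          nlinarith)
        exact ⟨(V.mem_iff_GE).2 (hgt.ge V le_rfl), (V.res_iff_GT).2 hgt⟩)
  rw [hev] at ha
  set e := ∑ l, a (Sum.inl l) • v l
  set cD := (cX i₀ * a (Sum.inl i) - cX i * a (Sum.inl i₀)) * a (Sum.inr ()) - 1
  have hcD : cD = 0 := by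
    by_contra hne
    refine pow_X_notMem (S := S) (a := m + m) (b := 3 * m + 1) (by omega) ?_
    have h := Submodule.smul_mem _ cD⁻¹ (Submodule.neg_mem _ (hE fun l => a (Sum.inl l)))
    rwa [neg_eq_of_add_eq_zero_right ha, smul_smul, inv_mul_cancel₀ hne, one_smul] at h
  rw [hcD, zero_smul, add_zero, sq, ← mul_sub, mul_eq_zero, sub_eq_zero] at ha
  have hli := LRed.linearIndependent_of_res S.MC.surj hvw hw
  refine one_ne_zero (α := L) ?_
  rw [sub_eq_zero] at hcD
  rw [← hcD]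
  rcases ha with h | h
  · have h0 := Fintype.linearIndependent_iff.1 hli _ h
    simp [h0]
  · have h0 : ∀ l, a (Sum.inl l) = cX l := fun l => sub_eq_zero.1
      (Fintype.linearIndependent_iff.1 hli (fun l => a (Sum.inl l) - cX l)
        (by simp [sub_smul, Finset.sum_sub_distrib, hcX, ← h, e]) l)
    simp [h0, mul_comm]

include V in
/-- There is a glued point. -/
theorem nodes_pos : 0 < N.n := by
  refine Nat.pos_of_ne_zero fun h0 => one_zero_notMem_rimg V N hS N.m₀ ?_
  refine N.char _ le_rfl _ ⟨one_mem_rrSpace fun v => ?_, Submodule.zero_mem _⟩ fun i =>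
    absurd i.2 (by omega)
  simpa using mul_nonneg (Int.natCast_nonneg N.m₀) (poleDiv_nonneg (K := k) S.MC.xb v)

include V in
/-- Constant reductions agree on the two sheets. -/
theorem const_rimg {m : ℕ} {a b : k} (h : (algebraMap k Fb a, algebraMap k Fb b) ∈ S.rimg m) :
    a = b := by
  by_contra hne
  refine one_zero_notMem_rimg V N hS m ?_
  have h1 := Submodule.smul_mem _ (a - b)⁻¹
    (Submodule.sub_mem _ h (Submodule.smul_mem _ b (one_mem_rimg (S := S) m)))
  convert h1 using 1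
  have hab : a - b ≠ 0 := sub_ne_zero.2 hne
  refine Prod.ext ?_ ?_
  · show (1 : Fb) = (a - b)⁻¹ • (algebraMap k Fb a - b • (1 : Fb))
    rw [← Algebra.algebraMap_eq_smul_one, ← map_sub, Algebra.smul_def, ← map_mul,
      inv_mul_cancel₀ hab, map_one]
  · show (0 : Fb) = (a - b)⁻¹ • (algebraMap k Fb b - b • (1 : Fb))
    rw [← Algebra.algebraMap_eq_smul_one, sub_self, smul_zero]

end FLTAgent.MazurPrinciple
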