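import Fermat.Agent.MazurPrinciple.Zeros
import Fermat.Agent.BadRed.Nodes
import Fermat.Agent.Specialization.Cover

/-!
# The divisors of the reductions are divisible by `p` off the glued points

For `f` with divisor `p D` the reductions of `L(D + m · poles)` satisfy one linear condition at each
glued point where the first reduction has order divisible by `p`.  Counting dimensions shows that
these orders are divisible by `p` at every other point, the cusps included.
-/

set_option autoImplicit false
set_option linter.style.haveILetI false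
set_option linter.unusedSectionVars false
set_option maxHeartbeats 1000000

noncomputable section

namespace FLTAgent.MazurPrinciple

open AlgebraicCurve FLTAgent.Curves FLTAgent.Specialization FLTAgent.BadRed IntermediateField

variable {L k : Type*} [Field L] [Field k] {A : ValuationSubring L} {π : A →+* k}
  {FC Fb F : Type*} [Field FC] [Field Fb] [Field F] [Algebra L FC]
  [Algebra k Fb] [Algebra L F] [IsAlgClosed L] [IsFunctionField L FC] [IsFunctionField L F]
  [IsAlgClosed k] [IsFunctionField k Fb] {p : ℕ} [Fact p.Prime] [CharP k p]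
  {S : Sheet π FC Fb F p}

/-- The `p`-th root in a perfect field. -/
def proot (p : ℕ) [Fact p.Prime] [CharP k p] (a : k) : k := (frobeniusEquiv k p).symm a

theorem proot_pow (a : k) : proot p a ^ p = a := frobenius_apply_frobeniusEquiv_symm k p a

/-- A `p`-semilinear functional with a `p`-th root taken is linear. -/
def rootLinear {E : Type*} [AddCommGroup E] [Module k E] (φ : E → k)
    (hadd : ∀ a b, φ (a + b) = φ a + φ b) (hsmul : ∀ (c : k) a, φ (c • a) = c ^ p * φ a) :
    E →ₗ[k] k where
  toFun a := proot p (φ a)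
  map_add' a b := by rw [hadd]; exact map_add (frobeniusEquiv k p).symm _ _
  map_smul' c a := by
    refine frobenius_inj k p ?_
    simp only [frobenius_def, RingHom.id_apply, smul_eq_mul, mul_pow, proot_pow, hsmul]

theorem rootLinear_apply {E : Type*} [AddCommGroup E] [Module k E] (φ : E → k)
    (hadd : ∀ a b, φ (a + b) = φ a + φ b) (hsmul : ∀ (c : k) a, φ (c • a) = c ^ p * φ a) (a : E) :
    rootLinear (p := p) φ hadd hsmul a = proot p (φ a) := rfl

theorem charP_fb (k : Type*) [Field k] [Algebra k Fb] (p : ℕ) [CharP k p] : CharP Fb p :=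
  (Algebra.charP_iff k Fb p).1 inferInstance

theorem pow_mul_add (k : Type*) [Field k] [Algebra k Fb] [CharP k p] (g : Fb) (a b : Fb) :
    (a + b) ^ p * g = a ^ p * g + b ^ p * g := by
  haveI : CharP Fb p := charP_fb k p
  rw [add_pow_char, add_mul]

theorem pow_mul_smul (g : Fb) (c : k) (a : Fb) : (c • a) ^ p * g = c ^ p • (a ^ p * g) := by
  rw [_root_.smul_pow, smul_mul_assoc]

section NodePoints

variable (N : S.Nodes)

/-- A glued point is a finite point of the curve below. -/
theorem exists_point (i : Fin N.n) : ∃ t : Place k Fb, 0 ≤ t.ord S.MC.xb ∧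
    ∀ a ∈ S.regular, N.s i a = ev t a := by
  classical
  have hxb : S.MC.xb ∈ S.regular := integralWrt_self _
  set x₀ := N.s i S.MC.xb
  set y := S.MC.xb - algebraMap k Fb x₀
  have hy : y ∈ S.regular := sub_mem hxb (S.regular.algebraMap_mem _)
  have hy0 : y ≠ 0 := ne_zero_of_transcendental (transcendental_sub S.MC.transcendental x₀)
  have hsc : ∀ c : k, N.s i (algebraMap k Fb c) = c := fun c => by
    rw [Algebra.algebraMap_eq_smul_one, map_smul, N.s_one, smul_eq_mul, mul_one]
  have hsy : N.s i y = 0 := by rw [map_sub, hsc, sub_self]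
  set T := (divOf k y).support.filter fun t => 0 < t.ord y
  have hT : ∀ t ∈ T, 0 ≤ t.ord S.MC.xb := fun t ht =>
    ord_nonneg_of_sub (Finset.mem_filter.1 ht).2
  by_contra hcon
  push Not at hcon
  have hex : ∀ t ∈ T, ∃ a ∈ S.regular, N.s i a ≠ ev t a := fun t ht => hcon t (hT t ht)
  choose! a ha hane using hex
  set b := ∏ t ∈ T, (a t - algebraMap k Fb (ev t (a t)))
  have hb : b ∈ S.regular := prod_mem fun t ht => sub_mem (ha t ht) (S.regular.algebraMap_mem _)
  have hsprod : ∀ U ⊆ T, N.s i (∏ t ∈ U, (a t - algebraMap k Fb (ev t (a t)))) ≠ 0 := by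
    intro U hU
    induction U using Finset.induction with
    | empty => simp [N.s_one]
    | insert c U hc ih =>
      rw [Finset.insert_subset_iff] at hU
      rw [Finset.prod_insert hc, N.s_mul i _ _ (sub_mem (ha c hU.1) (S.regular.algebraMap_mem _))
        (prod_mem fun t ht => sub_mem (ha t (hU.2 ht)) (S.regular.algebraMap_mem _))]
      refine mul_ne_zero ?_ (ih hU.2)
      rw [map_sub, hsc, sub_ne_zero]
      exact hane c hU.1
  have hzero : ∀ t ∈ T, OrdGE t 1 b := fun t ht => by
    simp only [b]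
    rw [← Finset.mul_prod_erase _ _ ht]
    have h1 := ev_spec t (ha t ht t (hT t ht))
    have h2 : OrdGE t 0 (∏ x ∈ T.erase t, (a x - algebraMap k Fb (ev x (a x)))) :=
      (prod_mem (S := S.regular) fun x hx => sub_mem (ha x (Finset.mem_of_mem_erase hx))
        (S.regular.algebraMap_mem _)) t (hT t ht)
    simpa using h1.mul h2
  set m := ∑ t ∈ T, (t.ord y).toNat
  have hc : b ^ m * y⁻¹ ∈ S.regular := by
    intro v hv
    have hbm : OrdGE v 0 (b ^ m) := by simpa using (hb v hv).pow m
    by_cases hvT : v ∈ T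
    · have h1 := (hzero v hvT).pow m
      have hsle : (v.ord y).toNat ≤ m :=
        Finset.single_le_sum (f := fun t : Place k Fb => (t.ord y).toNat)
          (fun _ _ => Nat.zero_le _) hvT
      have hle : v.ord y ≤ m := le_trans (Int.self_le_toNat _) (by exact_mod_cast hsle)
      exact (h1.mul (ordGE_of_le (c := -v.ord y) (by rw [v.ord_inv]))).mono
        (by rw [mul_one]; omega)
    · have h0 : 0 ≤ v.ord y := (hy v hv).le_ord hy0
      have h1 : v.ord y = 0 := by
        by_contra hne
        exact hvT (Finset.mem_filter.2 ⟨Finsupp.mem_support_iff.2 (by rwa [divOf_apply]),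
          lt_of_le_of_ne h0 (Ne.symm hne)⟩)
      simpa using hbm.mul (ordGE_of_le (v := v) (f := y⁻¹) (c := 0) (by rw [v.ord_inv, h1]; simp))
  have hpow : ∀ j : ℕ, N.s i (b ^ j) = N.s i b ^ j := fun j => by
    induction j with
    | zero => simpa using N.s_one i
    | succ j ih => rw [pow_succ, N.s_mul i _ _ (pow_mem hb j) hb, ih, pow_succ]
  have h := N.s_mul i _ _ hc hy
  rw [mul_assoc, inv_mul_cancel₀ hy0, mul_one, hsy, mul_zero, hpow] at h
  exact hsprod T subset_rfl (pow_eq_zero_iff'.mp h).1

/-- The point of a glued point. -/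
def point (i : Fin N.n) : Place k Fb := (exists_point N i).choose

theorem point_finite (i : Fin N.n) : 0 ≤ (point N i).ord S.MC.xb :=
  (exists_point N i).choose_spec.1

theorem point_spec {i : Fin N.n} {a : Fb} (ha : a ∈ S.regular) : N.s i a = ev (point N i) a :=
  (exists_point N i).choose_spec.2 a ha

theorem point_injective : Function.Injective (point N) := by
  classical
  intro i j h
  by_contra hij
  obtain ⟨a, ha, hs⟩ := N.surj N.m₀ le_rfl (Pi.single i 1)
  have ha' : a ∈ S.regular := (mem_rrSpace_poles.1 ha).1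
  have h1 := hs i
  rw [point_spec N ha', h, ← point_spec N ha', hs j, Pi.single_eq_same,
    Pi.single_eq_of_ne (Ne.symm hij)] at h1
  exact zero_ne_one h1

theorem point_mem_nodes (U : UnitData S) (V : RatVal π p) (i : Fin N.n) :
    point N i ∈ U.nodes := by
  refine (U.mem_nodes_iff (point_finite N i)).2 ?_
  obtain ⟨m, hm⟩ := exists_mem_poles U.u_int
  have h : (S.pair 1).Res U.u (U.ub, 0) := ⟨U.u_res, by rw [one_smul]; exact U.u_res₂ V⟩
  have := N.compat m _ (LRed.mem_image_of_res hm h) i
  simp only [map_zero] at this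
  rw [← point_spec N U.ub_reg, this]

/-- The number of glued points is the codimension of the reductions. -/
theorem finrank_rimg_add (hS : S.Good) {m : ℕ} (hm : N.m₀ ≤ m) :
    Module.finrank k (S.rimg m) + N.n = Module.finrank k (S.targ m) := by
  haveI := Sheet.finiteDimensional_targ hS m
  set φ : (S.targ m) →ₗ[k] Fin N.n → k := LinearMap.pi fun i =>
    ((N.s i).comp (LinearMap.fst k Fb Fb) -
      (N.s i).comp (S.V.toLinearMap.comp (LinearMap.snd k Fb Fb))).comp (S.targ m).subtype
  have hker : LinearMap.ker φ = (S.rimg m).comap (S.targ m).subtype := by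
    ext g
    simp only [LinearMap.mem_ker, Submodule.mem_comap, Submodule.coe_subtype]
    constructor
    · intro h
      refine N.char m hm _ g.2 fun i => sub_eq_zero.1 ?_
      simpa [φ] using congrFun h i
    · intro h
      funext i
      simpa [φ, sub_eq_zero] using N.compat m _ h i
  have hsurj : LinearMap.range φ = ⊤ := by
    refine LinearMap.range_eq_top.2 fun c => ?_
    obtain ⟨a, ha, hs⟩ := N.surj m hm c
    refine ⟨⟨(a, 0), ha, Submodule.zero_mem _⟩, funext fun i => ?_⟩
    simp [φ, hs i]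
  have h := φ.finrank_range_add_finrank_ker
  rw [hsurj, finrank_top, Module.finrank_fin_fun, hker,
    (Submodule.comapSubtypeEquivOfLe (S.rimg_le_targ m)).finrank_eq] at h
  omega

end NodePoints

/-- One `p`-th of a divisor, rounded down. -/
def fdiv (p : ℕ) {K E : Type*} [Field K] [Field E] [Algebra K E] (D : Divisor K E) : Divisor K E :=
  D.mapRange (fun e => e / (p : ℤ)) (Int.zero_ediv _)

theorem fdiv_apply (D : Divisor k Fb) (P : Place k Fb) : fdiv p D P = D P / (p : ℤ) :=
  Finsupp.mapRange_apply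

theorem exists_below {K E E' : Type*} [Field K] [Field E] [Field E'] [Algebra K E] [Algebra K E']
    [IsAlgClosed K] [IsFunctionField K E] [IsFunctionField K E'] (φ : E →ₐ[K] E') (P : Place K E) :
    ∃ Q : Place K E', below φ Q = P := by
  letI := algebraAlong φ
  haveI := isScalarTower_along φ
  haveI : Module.Finite E E' := Kronecker.moduleFinite_of_functionField K
  obtain ⟨Q, hQ⟩ := exists_restrict_eq (F' := E') P
  exact ⟨Q, hQ⟩

/-- Functions below which carry the same bound. -/
theorem bound_below {y z : Fb} {n : ℕ} (hV : S.V y = z ^ p)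
    (hz : z ∈ riemannRochSpace ((n : ℤ) • poleDiv k S.MC.xb)) :
    y ∈ riemannRochSpace ((n : ℤ) • poleDiv k S.MC.xb) := by
  refine mem_rrSpace.2 fun P => ?_
  rcases eq_or_ne y 0 with rfl | hy
  · exact ordGE_zero _ _
  obtain ⟨Q, hQ⟩ := exists_below S.V P
  have hz0 : z ≠ 0 := fun h => hy (S.V_injective (by
    rw [hV, h, zero_pow (Fact.out : p.Prime).ne_zero, map_zero]))
  have he : (0 : ℤ) < Place.ramificationIndexAlong S.V Q := by
    exact_mod_cast ramificationIndexAlong_pos S.V Q
  have h1 := ord_map_eq S.V Q y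
  rw [hV, ord_pow, hQ] at h1
  have h2 := ord_map_eq S.V Q S.MC.xb
  rw [S.V_xb, ord_pow, hQ] at h2
  have h3 := (mem_rrSpace.1 hz Q).le_ord hz0
  have hp : (0 : ℤ) < (p : ℤ) := by exact_mod_cast (Fact.out : p.Prime).pos
  rw [Finsupp.smul_apply, smul_eq_mul, poleDiv_apply] at h3 ⊢
  refine ordGE_of_le ?_
  rcases le_or_gt 0 (P.ord S.MC.xb) with hP | hP
  · have hQx : 0 ≤ Q.ord S.MC.xb := by nlinarith
    rw [max_eq_right (by omega), mul_zero, neg_zero] at h3 ⊢
    nlinarith
  · have hQx : Q.ord S.MC.xb < 0 := by nlinarith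
    rw [max_eq_left (by omega)] at h3 ⊢
    nlinarith

variable (U : UnitData S) (V : RatVal π p) (hS : S.Good)
include U V hS

/-- **Divisibility off the glued points.** -/
theorem ord_dvd_of_notMem {f : F} (hf0 : f ≠ 0) (D : Divisor L F)
    (hD : ∀ Q, Q.ord f = (p : ℤ) * D Q) {d₁ d₂ : L} (hd₁ : d₁ ≠ 0) (hd₂ : d₂ ≠ 0) {g₁ g₂ ψ₀ : Fb}
    (hg₁ : g₁ ≠ 0) (hg₂ : g₂ ≠ 0) (hr₁ : S.R₁.Res (d₁ • f) g₁) (hr₂ : S.R₂.Res (d₂ • f) g₂)
    (hsurj : ∀ y : Fb, ∃ z, S.V z = y ^ p) (hψ₀ : S.V ψ₀ = g₂ ^ p)
    (hrel : ∀ P : Place k Fb, (p : ℤ) ∣ P.ord g₁ + P.ord ψ₀)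
    {P₀ : Place k Fb} (hP₀ : P₀ ∉ U.nodes) : (p : ℤ) ∣ P₀.ord g₁ := by
  classical
  by_contra hbad
  have hp : p.Prime := Fact.out
  have hp0 : (0 : ℤ) < (p : ℤ) := by exact_mod_cast hp.pos
  have hψ0 : ψ₀ ≠ 0 := fun h => hg₂ (by
    rw [h, map_zero] at hψ₀
    exact (pow_eq_zero_iff hp.ne_zero).1 hψ₀.symm)
  obtain ⟨N⟩ := hS.nonempty_nodes
  obtain ⟨d, hd⟩ := IsAlgClosed.exists_pow_nat_eq (d₁ / d₂) hp.pos
  have hd0 : d ≠ 0 := fun h => by
    rw [h, zero_pow hp.ne_zero, eq_comm, div_eq_zero_iff] at hd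
    exact hd.elim hd₁ hd₂
  set E₁ := fdiv p (divOf k g₁)
  set E₀ := fdiv p (divOf k ψ₀)
  set good : Finset (Fin N.n) := Finset.univ.filter fun i => (p : ℤ) ∣ (point N i).ord g₁
  set T : Finset (Place k Fb) := good.image (point N)
  have hTcard : T.card = good.card := Finset.card_image_of_injective _ (point_injective N)
  set Bad : Finset (Place k Fb) := (divOf k g₁).support.filter fun P => ¬ (p : ℤ) ∣ P.ord g₁
  have hBad : ∀ P, P ∈ Bad ↔ ¬ (p : ℤ) ∣ P.ord g₁ := fun P => by
    simp only [Bad, Finset.mem_filter, Finsupp.mem_support_iff, divOf_apply, and_iff_right_iff_imp]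
    exact fun h h0 => h (h0 ▸ dvd_zero _)
  have hcount : N.n + 1 ≤ Bad.card + good.card := by
    have h1 : insert P₀ ((Finset.univ.filter fun i => ¬ (p : ℤ) ∣ (point N i).ord g₁).image
        (point N)) ⊆ Bad := by
      intro P hP
      rw [Finset.mem_insert, Finset.mem_image] at hP
      rw [hBad]
      rcases hP with rfl | ⟨i, hi, rfl⟩
      · exact hbad
      · exact (Finset.mem_filter.1 hi).2
    have h2 := Finset.card_le_card h1
    rw [Finset.card_insert_of_notMem fun h => by
        obtain ⟨i, -, rfl⟩ := Finset.mem_image.1 h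
        exact hP₀ (point_mem_nodes N U V i),
      Finset.card_image_of_injective _ (point_injective N)] at h2
    have h3 := Finset.card_filter_add_card_filter_not (s := (Finset.univ : Finset (Fin N.n)))
      (fun i => (p : ℤ) ∣ (point N i).ord g₁)
    rw [Finset.card_univ, Fintype.card_fin] at h3
    have hg : good.card = (Finset.univ.filter fun i => (p : ℤ) ∣ (point N i).ord g₁).card := rfl
    omega
  -- the degrees of the rounded divisors
  have hdeg : Divisor.degree E₁ + Divisor.degree E₀ = -(Bad.card : ℤ) := by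
    have hsum : (p : ℤ) • (E₁ + E₀ + ∑ P ∈ Bad, Finsupp.single P (1 : ℤ)) =
        divOf k g₁ + divOf k ψ₀ := by
      refine Finsupp.ext fun P => ?_
      rw [Finsupp.smul_apply, Finsupp.add_apply, Finsupp.add_apply, Finsupp.finsetSum_apply,
        Finsupp.add_apply, fdiv_apply, fdiv_apply, divOf_apply, divOf_apply, smul_eq_mul]
      simp only [Finsupp.single_apply, Finset.sum_ite_eq', hBad]
      obtain ⟨c, hc⟩ := hrel P
      have e1 := Int.emod_def (P.ord g₁) (p : ℤ)
      have e2 := Int.emod_def (P.ord ψ₀) (p : ℤ)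
      have a1 := Int.emod_nonneg (P.ord g₁) hp0.ne'
      have a2 := Int.emod_nonneg (P.ord ψ₀) hp0.ne'
      have b1 := Int.emod_lt_of_pos (P.ord g₁) hp0
      have b2 := Int.emod_lt_of_pos (P.ord ψ₀) hp0
      set x := P.ord g₁ % (p : ℤ) with hx
      set y := P.ord ψ₀ % (p : ℤ)
      have hxy : x + y = (p : ℤ) * (c - P.ord g₁ / p - P.ord ψ₀ / p) := by linarith
      have hlt : c - P.ord g₁ / p - P.ord ψ₀ / p < 2 := by nlinarith
      have hge : 0 ≤ c - P.ord g₁ / p - P.ord ψ₀ / p := by nlinarith
      rcases (by omega : c - P.ord g₁ / p - P.ord ψ₀ / p = 0 ∨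
        c - P.ord g₁ / p - P.ord ψ₀ / p = 1) with he | he <;> rw [he] at hxy
      · rw [if_neg (not_not.2 (Int.dvd_of_emod_eq_zero (by omega)))]
        linarith
      · rw [if_pos fun h => ?_]
        · linarith
        · have := Int.emod_eq_zero_of_dvd h
          omega
    have h := congrArg Divisor.degree hsum
    rw [map_zsmul, map_add, map_add, map_add, degree_divOf, degree_divOf, map_sum] at h
    simp only [degree_single', mul_one, Finset.sum_const, nsmul_eq_mul, smul_eq_mul, add_zero,
      mul_eq_zero, hp0.ne', false_or] at h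
    linarith
  -- the parameter
  obtain ⟨c₁, hR⟩ := hS.finrank_rimg
  obtain ⟨c₂, hTg⟩ := hS.finrank_targ
  obtain ⟨j₁, hj₁⟩ := S.MC.exists_le_mul
    (rBound k Fb + Bad.card + good.card + |Divisor.degree E₁| + |Divisor.degree E₀| + 1)
  set m := N.m₀ + c₁ + c₂ + j₁ + (rBound L F).toNat + 1
  have hjm := hj₁ m (by omega)
  have hjpm := hj₁ (p * m) (le_trans (by omega) (Nat.le_mul_of_pos_left m hp.pos))
  have habs₁ := abs_nonneg (Divisor.degree E₁)
  have habs₀ := abs_nonneg (Divisor.degree E₀)
  -- the spaces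
  set W₁ := riemannRochSpace (E₁ + (m : ℤ) • poleDiv k S.MC.xb)
  set W₀ := riemannRochSpace (E₀ + ((p * m : ℕ) : ℤ) • poleDiv k S.MC.xb)
  let W₂ : Submodule k Fb :=
    { carrier := {w | ∃ w₀ ∈ W₀, S.V w₀ = w ^ p}
      zero_mem' := ⟨0, zero_mem _, by rw [map_zero, zero_pow hp.ne_zero]⟩
      add_mem' := by
        rintro a b ⟨a₀, ha, ha'⟩ ⟨b₀, hb, hb'⟩
        haveI : CharP Fb p := charP_fb k p
        exact ⟨a₀ + b₀, add_mem ha hb, by rw [map_add, ha', hb', add_pow_char]⟩
      smul_mem' := by
        rintro c a ⟨a₀, ha, ha'⟩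
        exact ⟨c ^ p • a₀, Submodule.smul_mem _ _ ha, by rw [map_smul, ha', _root_.smul_pow]⟩ }
  have hW₂li : ∀ (s : Finset W₂), LinearIndependent k (fun x : s => (x : W₂)) →
      s.card ≤ Module.finrank k W₀ := by
    intro s hs
    choose w₀ hw₀ hw₀V using fun x : s => (x : W₂).2
    have hli : LinearIndependent k fun x : s => (⟨w₀ x, hw₀ x⟩ : W₀) := by
      rw [Fintype.linearIndependent_iff] at hs ⊢
      intro c hc x
      have hc' : ∑ x : s, c x • w₀ x = 0 := by simpa using congrArg Subtype.val hc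
      have h := congrArg S.V hc'
      haveI : CharP Fb p := charP_fb k p
      rw [map_sum, map_zero] at h
      simp only [map_smul, hw₀V] at h
      have hcr : ∀ x, c x • ((x : W₂) : Fb) ^ p = (proot p (c x) • ((x : W₂) : Fb)) ^ p :=
        fun x => by rw [_root_.smul_pow, proot_pow]
      rw [Finset.sum_congr rfl fun x _ => hcr x, ← sum_pow_char, pow_eq_zero_iff hp.ne_zero] at h
      have := hs (fun x => proot p (c x)) (Subtype.ext (by simpa using h)) x
      rw [← proot_pow (p := p) (c x), this, zero_pow hp.ne_zero]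
    simpa using hli.fintype_card_le_finrank
  haveI : FiniteDimensional k W₂ := Module.finite_def.2 <| by
    by_contra hcon
    obtain ⟨s, -, hs, hli⟩ := exists_linearIndependent k (Set.univ : Set W₂)
    rw [Submodule.span_univ] at hs
    have hinf : s.Infinite := fun hfin => hcon (hs ▸ Submodule.fg_span hfin)
    obtain ⟨u, hu, hucard⟩ := hinf.exists_subset_card_eq (Module.finrank k W₀ + 1)
    have := hW₂li u (hli.comp (fun x : u => (⟨x.1, hu x.2⟩ : s)) fun a b h =>
      Subtype.ext (congrArg (fun z : s => z.1) h))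
    omega
  have hW₂le : Module.finrank k W₂ ≤ Module.finrank k W₀ := by
    set bs := Module.finBasis k W₂
    have := hW₂li (Finset.univ.image bs)
      (bs.linearIndependent.linearIndepOn_id.mono (by simp))
    rwa [Finset.card_image_of_injective _ bs.injective, Finset.card_univ, Fintype.card_fin] at this
  -- the conditions
  set φ₁ : Fin N.n → Fb →ₗ[k] k := fun i => rootLinear (p := p)
    (fun w => N.s i (w ^ p * g₁)) (fun a b => by rw [pow_mul_add k, map_add])
    (fun c a => by rw [pow_mul_smul, map_smul, smul_eq_mul])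
  set φ₂ : Fin N.n → Fb →ₗ[k] k := fun i => rootLinear (p := p)
    (fun w => N.s i (S.V (w ^ p * g₂))) (fun a b => by rw [pow_mul_add k, map_add, map_add])
    (fun c a => by rw [pow_mul_smul, map_smul, map_smul, smul_eq_mul])
  set Λ : (W₁ × W₂) →ₗ[k] good → k := LinearMap.pi fun i =>
    ((φ₁ i).comp W₁.subtype).comp (LinearMap.fst k W₁ W₂) -
      ((φ₂ i).comp W₂.subtype).comp (LinearMap.snd k W₁ W₂)
  -- the first factor fills the conditions
  have hW₁dim : (Module.finrank k W₁ : ℤ) =
      Divisor.degree E₁ + (m : ℤ) * S.MC.deg + 1 - rGenus k Fb := by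
    have := ell_eq (K := k) (F := Fb) (G := E₁ + (m : ℤ) • poleDiv k S.MC.xb)
      (by rw [map_add, S.MC.degree_poles_red]; have := neg_abs_le (Divisor.degree E₁); omega)
    rwa [map_add, S.MC.degree_poles_red] at this
  have hW₀dim : (Module.finrank k W₀ : ℤ) =
      Divisor.degree E₀ + ((p * m : ℕ) : ℤ) * S.MC.deg + 1 - rGenus k Fb := by
    have := ell_eq (K := k) (F := Fb) (G := E₀ + ((p * m : ℕ) : ℤ) • poleDiv k S.MC.xb)
      (by rw [map_add, S.MC.degree_poles_red]; have := neg_abs_le (Divisor.degree E₀); omega)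
    rwa [map_add, S.MC.degree_poles_red] at this
  have hTf : ∀ t ∈ T, 0 ≤ t.ord S.MC.xb ∧ (p : ℤ) ∣ t.ord g₁ := fun t ht => by
    obtain ⟨i, hi, rfl⟩ := Finset.mem_image.1 ht
    exact ⟨point_finite N i, (Finset.mem_filter.1 hi).2⟩
  have hreg₁ : ∀ w ∈ W₁, w ^ p * g₁ ∈ S.regular := fun w hw v hv => by
    rcases eq_or_ne w 0 with rfl | hw0
    · simp [zero_pow hp.ne_zero, ordGE_zero]
    have h := (mem_rrSpace.1 hw v).le_ord hw0
    rw [Finsupp.add_apply, Finsupp.smul_apply, poleDiv_eq_zero hv, smul_zero, add_zero,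
      fdiv_apply, divOf_apply] at h
    refine ordGE_of_le ?_
    rw [v.ord_mul (pow_ne_zero _ hw0) hg₁, ord_pow]
    have e1 := Int.ediv_mul_le (v.ord g₁) hp0.ne'
    nlinarith
  have hΛrange : good.card ≤ Module.finrank k (LinearMap.range Λ) := by
    set Λ₁ : W₁ →ₗ[k] good → k := Λ.comp (LinearMap.inl k W₁ W₂)
    have hker : LinearMap.ker Λ₁ ≤ (riemannRochSpace (E₁ + (m : ℤ) • poleDiv k S.MC.xb -
        ∑ t ∈ T, Finsupp.single t 1)).comap W₁.subtype := by
      intro w hw
      rw [Submodule.mem_comap, Submodule.coe_subtype]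
      refine mem_rrSpace.2 fun v => ?_
      have hsum : (∑ t ∈ T, Finsupp.single t (1 : ℤ)) v = if v ∈ T then 1 else 0 := by
        rw [Finsupp.finsetSum_apply]
        simp [Finsupp.single_apply, Finset.sum_ite_eq']
      rw [Finsupp.sub_apply, hsum]
      split_ifs with hv
      · rcases eq_or_ne (w : Fb) 0 with h0 | h0
        · exact Or.inl h0
        obtain ⟨i, hi, rfl⟩ := Finset.mem_image.1 hv
        have h1 := congrFun (LinearMap.mem_ker.1 hw) ⟨i, hi⟩
        simp only [Λ₁, Λ, LinearMap.comp_apply, LinearMap.pi_apply, LinearMap.sub_apply,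
          LinearMap.inl_apply, LinearMap.fst_apply, LinearMap.snd_apply, Submodule.coe_subtype,
          map_zero, sub_zero, Pi.zero_apply, φ₁, rootLinear_apply] at h1
        have h2 : N.s i ((w : Fb) ^ p * g₁) = 0 := by
          rw [← proot_pow (p := p) (N.s i _), h1, zero_pow hp.ne_zero]
        rw [point_spec N (hreg₁ _ w.2)] at h2
        have h3 := ((ev_eq_zero_iff _ (hreg₁ _ w.2 _ (point_finite N i))).1 h2).le_ord
          (mul_ne_zero (pow_ne_zero _ h0) hg₁)
        rw [(point N i).ord_mul (pow_ne_zero _ h0) hg₁, ord_pow] at h3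
        refine ordGE_of_le ?_
        rw [Finsupp.add_apply, Finsupp.smul_apply, poleDiv_eq_zero (point_finite N i), smul_zero,
          add_zero, fdiv_apply, divOf_apply]
        obtain ⟨c, hc⟩ := (Finset.mem_filter.1 hi).2
        rw [hc, Int.mul_ediv_cancel_left _ hp0.ne']
        rw [hc] at h3
        by_contra hneg
        have : (point N i).ord (w : Fb) + c ≤ 0 := by omega
        nlinarith
      · simpa using mem_rrSpace.1 w.2 v
    have h1 := Λ₁.finrank_range_add_finrank_ker
    have hsub : riemannRochSpace (E₁ + (m : ℤ) • poleDiv k S.MC.xb -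
        ∑ t ∈ T, Finsupp.single t 1) ≤ W₁ :=
      rrSpace_le (sub_le_self _ (Finset.sum_nonneg fun t _ => Finsupp.single_nonneg.2 zero_le_one))
    have h2 := Submodule.finrank_mono hker
    rw [(Submodule.comapSubtypeEquivOfLe hsub).finrank_eq] at h2
    have h3 := ell_eq (K := k) (F := Fb)
      (G := E₁ + (m : ℤ) • poleDiv k S.MC.xb - ∑ t ∈ T, Finsupp.single t 1)
      (by
        rw [map_sub, map_add, S.MC.degree_poles_red, map_sum]
        simp only [degree_single', mul_one, Finset.sum_const, nsmul_eq_mul]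
        have := neg_abs_le (Divisor.degree E₁)
        omega)
    rw [map_sub, map_add, S.MC.degree_poles_red, map_sum] at h3
    simp only [degree_single', mul_one, Finset.sum_const, nsmul_eq_mul, hTcard] at h3
    have h4 : Module.finrank k (LinearMap.range Λ₁) ≤ Module.finrank k (LinearMap.range Λ) :=
      Submodule.finrank_mono (LinearMap.range_comp_le_range _ _)
    simp only [ell] at h3
    omega
  -- the reductions of the twisted space
  set G := D + (m : ℤ) • poleDiv L S.X
  have hDdeg : Divisor.degree D = 0 := by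
    have h : (p : ℤ) • D = divOf L f := Finsupp.ext fun v => by
      rw [Finsupp.smul_apply, smul_eq_mul, divOf_apply, hD]
    have h' := congrArg Divisor.degree h
    rw [map_zsmul, degree_divOf, smul_eq_mul, mul_eq_zero] at h'
    exact h'.resolve_left hp0.ne'
  set I := (S.pair d).image (riemannRochSpace G)
  have hIdim : Module.finrank k I = Module.finrank k (S.rimg m) := by
    rw [LRed.finrank_image (S.orth hd0) S.MC.surj, Sheet.rimg,
      LRed.finrank_image S.orth_one S.MC.surj]
    have h := le_degree_poles (K := L) S.transcendental_X (c := rBound L F) (m := m)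
      (by have := Int.self_le_toNat (rBound L F); omega)
    have e1 := ell_eq (K := L) (F := F) h
    have e2 := ell_eq (K := L) (F := F) (G := G) (by rw [map_add, hDdeg, zero_add]; exact h)
    rw [map_add, hDdeg, zero_add, ← e1] at e2
    simp only [ell] at e2
    exact_mod_cast e2
  have hIle : I ≤ ((LinearMap.ker Λ).map (W₁.subtype.prodMap W₂.subtype)) := by
    refine LRed.image_le fun u g hu hres => ?_
    set F' := u ^ p * (d₁ • f)
    have hF'mem : F' ∈ riemannRochSpace (((p * m : ℕ) : ℤ) • poleDiv L S.X) := by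
      rcases eq_or_ne u 0 with rfl | hu0
      · simp [F', zero_pow hp.ne_zero]
      refine mem_rrSpace.2 fun v => ordGE_of_le ?_
      have h := (mem_rrSpace.1 hu v).le_ord hu0
      have hfd : d₁ • f ≠ 0 := smul_ne_zero hd₁ hf0
      rw [v.ord_mul (pow_ne_zero _ hu0) hfd, ord_pow, Algebra.smul_def,
        v.ord_mul ((_root_.map_ne_zero _).2 hd₁) hf0, ord_algebraMap, hD, Finsupp.smul_apply,
        smul_eq_mul]
      rw [Finsupp.add_apply, Finsupp.smul_apply, smul_eq_mul] at h
      push_cast
      nlinarith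
    have hF'res : (S.pair 1).Res F' (g.1 ^ p * g₁, g.2 ^ p * g₂) := by
      refine ⟨(hres.1.pow p).mul hr₁, ?_⟩
      have h := (hres.2.pow p).mul hr₂
      rw [one_smul]
      convert h using 1
      simp only [F', Algebra.smul_def]
      rw [show algebraMap L F d₁ = algebraMap L F (d₁ / d₂) * algebraMap L F d₂ by
        rw [← map_mul, div_mul_cancel₀ _ hd₂], ← hd, map_pow]
      ring
    obtain ⟨ht1, ht2⟩ := S.res_mem_poles hF'mem hF'res
    have hw₁ : g.1 ∈ W₁ := by
      refine mem_rrSpace.2 fun v => ?_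
      rcases eq_or_ne g.1 0 with h0 | h0
      · exact Or.inl h0
      have h := (mem_rrSpace.1 ht1 v).le_ord (mul_ne_zero (pow_ne_zero _ h0) hg₁)
      rw [v.ord_mul (pow_ne_zero _ h0) hg₁, ord_pow, Finsupp.smul_apply, smul_eq_mul] at h
      rw [Finsupp.add_apply, Finsupp.smul_apply, smul_eq_mul, fdiv_apply, divOf_apply]
      refine ordGE_of_le ?_
      push_cast at h
      have := (Int.le_ediv_iff_mul_le hp0).2
        (show (-(v.ord g.1 + (m : ℤ) * poleDiv k S.MC.xb v)) * (p : ℤ) ≤ v.ord g₁ by linarith)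
      omega
    have hw₂ : g.2 ∈ W₂ := by
      obtain ⟨w₀, hw₀⟩ := hsurj g.2
      refine ⟨w₀, mem_rrSpace.2 fun v => ?_, hw₀⟩
      rcases eq_or_ne w₀ 0 with h0 | h0
      · exact Or.inl h0
      have hy : w₀ ^ p * ψ₀ ∈
          riemannRochSpace (((p * (p * m) : ℕ) : ℤ) • poleDiv k S.MC.xb) :=
        bound_below (z := g.2 ^ p * g₂)
          (by rw [map_mul, map_pow, hw₀, hψ₀, mul_pow]) ht2
      have h := (mem_rrSpace.1 hy v).le_ord (mul_ne_zero (pow_ne_zero _ h0) hψ0)
      rw [v.ord_mul (pow_ne_zero _ h0) hψ0, ord_pow, Finsupp.smul_apply, smul_eq_mul] at h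
      rw [Finsupp.add_apply, Finsupp.smul_apply, smul_eq_mul, fdiv_apply, divOf_apply]
      refine ordGE_of_le ?_
      push_cast at h ⊢
      have := (Int.le_ediv_iff_mul_le hp0).2
        (show (-(v.ord w₀ + ((p : ℤ) * m) * poleDiv k S.MC.xb v)) * (p : ℤ) ≤ v.ord ψ₀ by linarith)
      omega
    refine Submodule.mem_map.2 ⟨(⟨g.1, hw₁⟩, ⟨g.2, hw₂⟩), ?_, rfl⟩
    rw [LinearMap.mem_ker]
    funext i
    have hc := N.compat (p * m) _ (LRed.mem_image_of_res hF'mem hF'res) i.1
    simp [Λ, φ₁, φ₂, rootLinear_apply, hc]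
  have hI2 := (Submodule.finrank_mono hIle).trans (Submodule.finrank_map_le _ _)
  have hrn := Λ.finrank_range_add_finrank_ker
  rw [Module.finrank_prod] at hrn
  have hn := finrank_rimg_add N hS (m := m) (by omega)
  have e1 := hTg m (by omega)
  rw [hIdim] at hI2
  have hdg : (S.MC.deg : ℤ) = ((Module.finrank k⟮S.MC.xb⟯ Fb : ℕ) : ℤ) := by
    rw [← S.MC.finrank_eq]; rfl
  push_cast at e1 hW₀dim
  rw [hdg] at hW₁dim hW₀dim
  nlinarith

end FLTAgent.MazurPrinciple
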