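import Fermat.Agent.BadRed.Criterion
import Fermat.Agent.MazurPrinciple.PowerDiv

/-!
# Reductions of the space twisted by the divisor of a `p`-th root

When `f` has divisor `p D` and residues `γ₁ ^ p`, `γ₂ ^ p`, the reductions of `L(D + m ∞)` are
those of `L(m ∞)` divided by `(γ₁, γ₂)`.
-/

set_option autoImplicit false
set_option linter.style.haveILetI false
set_option linter.unusedSectionVars false

noncomputable section

namespace FLTAgent.MazurPrinciple

open AlgebraicCurve FLTAgent.Curves FLTAgent.Specialization FLTAgent.BadRed IntermediateField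

variable {L k : Type*} [Field L] [Field k] {A : ValuationSubring L} {π : A →+* k}
  {FC Fb F : Type*} [Field FC] [Field Fb] [Field F] [Algebra L FC]
  [Algebra k Fb] [Algebra L F] [IsAlgClosed L] [IsFunctionField L FC] [IsFunctionField L F]
  [IsAlgClosed k] [IsFunctionField k Fb] {p : ℕ} [Fact p.Prime] [CharP k p]
  {S : Sheet π FC Fb F p}

/-- Cancelling a power and a power of the coordinate in a bound on the poles. -/
theorem poles_of_bound {a b m : ℕ} (ha : a ≠ 0) {u : Fb} (hu : u ∈ S.regular)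
    (h : S.MC.xb ^ b * u ^ a ∈ riemannRochSpace (((a * m + b : ℕ) : ℤ) • poleDiv k S.MC.xb)) :
    u ∈ riemannRochSpace ((m : ℤ) • poleDiv k S.MC.xb) := by
  refine mem_rrSpace_poles.2 ⟨hu, fun v hv => ?_⟩
  rcases eq_or_ne u 0 with rfl | h0
  · exact ordGE_zero _ _
  have h' := ((mem_rrSpace_poles.1 h).2 v hv).le_ord
    (mul_ne_zero (pow_ne_zero _ S.xb_ne_zero) (pow_ne_zero _ h0))
  rw [v.ord_mul (pow_ne_zero _ S.xb_ne_zero) (pow_ne_zero _ h0), ord_pow, ord_pow] at h'
  push_cast at h'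
  refine ordGE_of_le ?_
  have : (0 : ℤ) < a := by exact_mod_cast Nat.pos_of_ne_zero ha
  nlinarith

/-- An Artin–Schreier expression bounds the poles of its argument. -/
theorem poles_of_AS {m : ℕ} {u : Fb} (hu : u ∈ S.regular) (c : k)
    (h : u ^ p - c • (u * S.MC.xb ^ ((p - 1) * m)) ∈
      riemannRochSpace (((p * m : ℕ) : ℤ) • poleDiv k S.MC.xb)) :
    u ∈ riemannRochSpace ((m : ℤ) • poleDiv k S.MC.xb) := by
  refine mem_rrSpace_poles.2 ⟨hu, fun v hv => ?_⟩
  rcases eq_or_ne u 0 with rfl | h0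
  · exact ordGE_zero _ _
  refine ordGE_of_le ?_
  by_contra hlt
  rw [not_le] at hlt
  have hp : (2 : ℤ) ≤ p := by exact_mod_cast (Fact.out : p.Prime).two_le
  have hp1 : 1 ≤ p := (Fact.out : p.Prime).one_lt.le
  have hm : (0 : ℤ) ≤ m := Int.natCast_nonneg m
  have hmul : v.ord (u * S.MC.xb ^ ((p - 1) * m)) = v.ord u + ((p : ℤ) - 1) * m * v.ord S.MC.xb := by
    rw [v.ord_mul h0 (pow_ne_zero _ S.xb_ne_zero), ord_pow]
    push_cast [Nat.cast_sub hp1]
    ring
  have hup : OrdGE v ((p : ℤ) * v.ord u + 1) (u ^ p) := by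
    have h1 := (mem_rrSpace_poles.1 h).2 v hv
    have h2 : OrdGE v ((p : ℤ) * v.ord u + 1) (c • (u * S.MC.xb ^ ((p - 1) * m))) := by
      rw [Algebra.smul_def]
      refine ((ordGE_algebraMap v c).mul (ordGE_of_le (f := u * S.MC.xb ^ ((p - 1) * m))
        hmul.ge)).mono ?_
      nlinarith
    have h3 := (h1.mono (show (p : ℤ) * v.ord u + 1 ≤ ((p * m : ℕ) : ℤ) * v.ord S.MC.xb by
      push_cast; nlinarith)).add h2
    simpa using h3
  have := hup.le_ord (pow_ne_zero _ h0)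
  rw [ord_pow] at this
  omega

/-- Pairs whose `p`-th powers are reductions are reductions. -/
theorem rimg_of_pow (N : S.Nodes) {m : ℕ} (hm : N.m₀ ≤ m) {u : Fb × Fb}
    (h : (u.1 ^ p, u.2 ^ p) ∈ S.rimg (p * m)) : u ∈ S.rimg m := by
  obtain ⟨h1, h2⟩ := S.regular_of_rimg h
  obtain ⟨t1, t2⟩ := S.rimg_le_targ _ h
  have r1 : u.1 ∈ S.regular := S.regular_of_pow h1
  have r2 : u.2 ∈ S.regular := S.regular_of_pow h2
  have hp : p ≠ 0 := (Fact.out : p.Prime).ne_zero
  refine N.char m hm u ⟨?_, ?_⟩ fun i => ?_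
  · exact poles_of_bound (b := 0) hp r1 (by simpa using t1)
  · exact poles_of_bound (b := 0) hp r2 (by simpa using t2)
  · have hc := N.compat _ _ h i
    simp only [map_pow] at hc
    rw [N.s_pow i r1, N.s_pow i (S.V_mem_regular r2)] at hc
    exact frobenius_inj k p hc

/-- A reduction of big degree bounded like one of small degree is one of small degree. -/
theorem rimg_of_bound (N : S.Nodes) {m M b : ℕ} (hm : N.m₀ ≤ m) {u : Fb × Fb} (hu : u ∈ S.rimg M)
    (h : (S.MC.xb ^ b * u.1, (S.MC.xb ^ p) ^ b * u.2) ∈ S.targ (m + b)) : u ∈ S.rimg m := by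
  obtain ⟨r1, r2⟩ := S.regular_of_rimg hu
  refine N.char m hm u ⟨?_, ?_⟩ fun i => N.compat M u hu i
  · exact poles_of_bound (a := 1) (b := b) one_ne_zero r1 (by simpa using h.1)
  · refine poles_of_bound (a := 1) (b := p * b) one_ne_zero r2 ?_
    have h2 := h.2
    rw [show p * (m + b) = 1 * (p * m) + p * b by ring, ← pow_mul] at h2
    simpa using h2

/-- The Artin–Schreier variant. -/
theorem rimg_of_AS (N : S.Nodes) {m M : ℕ} (hm : N.m₀ ≤ m) {u : Fb × Fb} (hu : u ∈ S.rimg M) (c : k)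
    (h : u ^ p - c • (u * (S.MC.xb, S.MC.xb ^ p) ^ ((p - 1) * m)) ∈ S.targ (p * m)) :
    u ∈ S.rimg m := by
  obtain ⟨r1, r2⟩ := S.regular_of_rimg hu
  refine N.char m hm u ⟨?_, ?_⟩ fun i => N.compat M u hu i
  · exact poles_of_AS r1 c (by simpa using h.1)
  · refine poles_of_AS r2 c ?_
    have h2 := h.2
    rw [show (p - 1) * (p * m) = p * ((p - 1) * m) by ring, pow_mul]
    simpa using h2

theorem degree_eq_zero_of_pow {f : F} (hf0 : f ≠ 0) {D : Divisor L F}
    (hD : ∀ Q, Q.ord f = (p : ℤ) * D Q) : Divisor.degree D = 0 := by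
  have h : (p : ℤ) • D = divOf L f := Finsupp.ext fun v => by
    rw [Finsupp.smul_apply, smul_eq_mul, divOf_apply, hD]
  have h' := congrArg Divisor.degree h
  rw [map_zsmul, degree_divOf, smul_eq_mul, mul_eq_zero] at h'
  exact h'.resolve_left (by exact_mod_cast (Fact.out : p.Prime).ne_zero)

theorem pow_mul_mem {f : F} (hf0 : f ≠ 0) {D : Divisor L F} (hD : ∀ Q, Q.ord f = (p : ℤ) * D Q)
    {m : ℕ} {u : F} (hu : u ∈ riemannRochSpace (D + (m : ℤ) • poleDiv L S.X)) :
    u ^ p * f ∈ riemannRochSpace (((p * m : ℕ) : ℤ) • poleDiv L S.X) := by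
  rcases eq_or_ne u 0 with rfl | hu0
  · simp [zero_pow (Fact.out : p.Prime).ne_zero]
  refine mem_rrSpace.2 fun v => ordGE_of_le ?_
  have h := (mem_rrSpace.1 hu v).le_ord hu0
  rw [Finsupp.add_apply, Finsupp.smul_apply, smul_eq_mul] at h
  rw [v.ord_mul (pow_ne_zero _ hu0) hf0, ord_pow, hD, Finsupp.smul_apply, smul_eq_mul]
  push_cast
  nlinarith [Int.natCast_nonneg p]

/-- **The reductions of the twisted space.** -/
theorem twist_mem (hS : S.Good) (N : S.Nodes) {f : F} (hf0 : f ≠ 0) {D : Divisor L F}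
    (hD : ∀ Q, Q.ord f = (p : ℤ) * D Q) {d : L} (hd : d ≠ 0) {γ : Fb × Fb} (hγ₁ : γ.1 ≠ 0)
    (hγ₂ : γ.2 ≠ 0) (hr : (S.pair (d ^ p)).Res f (γ.1 ^ p, γ.2 ^ p)) {m : ℕ} (hm : N.m₀ ≤ m) :
    (∀ w ∈ (S.pair d⁻¹).image (riemannRochSpace (D + (m : ℤ) • poleDiv L S.X)),
      w * γ ∈ S.rimg m) ∧
    ∀ w ∈ S.rimg m, ∃ u ∈ riemannRochSpace (D + (m : ℤ) • poleDiv L S.X),
      (S.pair d⁻¹).Res u (w * (γ.1⁻¹, γ.2⁻¹)) := by
  set U := riemannRochSpace (D + (m : ℤ) • poleDiv L S.X)
  have hsub : ∀ w ∈ (S.pair d⁻¹).image U, w * γ ∈ S.rimg m := by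
    intro w hw
    obtain ⟨u, hu, hres⟩ := (LRed.mem_image S.MC.surj).1 hw
    refine rimg_of_pow N hm (LRed.mem_image_of_res (pow_mul_mem hf0 hD hu) ?_)
    have h := S.pair_mul (S.pair_pow hres p) hr
    rw [inv_pow, inv_mul_cancel₀ (pow_ne_zero _ hd)] at h
    convert h using 1
    simp [Prod.ext_iff, mul_pow]
  refine ⟨hsub, fun w hw => ?_⟩
  haveI := LRed.finiteDimensional_image (S.orth (inv_ne_zero hd)) S.MC.surj U
  haveI := hS.finiteDimensional_rimg m
  set μ : Fb × Fb →ₗ[k] Fb × Fb := LinearMap.mulRight k γ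
  have hμ : Function.Injective μ := fun x y h => Prod.ext
    (mul_right_cancel₀ hγ₁ (congrArg Prod.fst h)) (mul_right_cancel₀ hγ₂ (congrArg Prod.snd h))
  have heq : ((S.pair d⁻¹).image U).map μ = S.rimg m := by
    refine Submodule.eq_of_le_of_finrank_eq (Submodule.map_le_iff_le_comap.2 hsub) ?_
    rw [← (Submodule.equivMapOfInjective μ hμ _).finrank_eq, Sheet.rimg,
      LRed.finrank_image (S.orth (inv_ne_zero hd)) S.MC.surj, LRed.finrank_image S.orth_one S.MC.surj]
    have hb : rBound L F ≤ m := by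
      have := N.bound_le
      have := Int.self_le_toNat (rBound L F)
      omega
    have h := le_degree_poles (K := L) S.transcendental_X (c := rBound L F) (m := m) hb
    have hdeg := degree_eq_zero_of_pow hf0 hD
    have e1 := ell_eq (K := L) (F := F) h
    have e2 := ell_eq (K := L) (F := F) (G := D + (m : ℤ) • poleDiv L S.X)
      (by rw [map_add, hdeg, zero_add]; exact h)
    rw [map_add, hdeg, zero_add, ← e1] at e2
    simp only [ell] at e2
    exact_mod_cast e2
  obtain ⟨x, hx, rfl⟩ := heq.symm ▸ hw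
  obtain ⟨u, hu, hres⟩ := (LRed.mem_image S.MC.surj).1 hx
  refine ⟨u, hu, ?_⟩
  convert hres using 1
  simp [μ, Prod.ext_iff, mul_assoc, mul_inv_cancel₀ hγ₁, mul_inv_cancel₀ hγ₂]

theorem one_mem_rimg (m : ℕ) : (1 : Fb × Fb) ∈ S.rimg m :=
  LRed.mem_image_of_res (one_mem_rrSpace fun v => by
    simpa using mul_nonneg (Int.natCast_nonneg m) (poleDiv_nonneg (K := L) S.X v)) S.pair_one

end FLTAgent.MazurPrinciple
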