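import Fermat.Agent.MazurPrinciple.Setup
import Fermat.Agent.MazurPrinciple.Root
import Fermat.Agent.MazurPrinciple.Twist
import Fermat.Agent.MazurPrinciple.Connected
import Fermat.Agent.MazurPrinciple.Moved

/-!
# Fixed lifts, fixed levels and fixed `p`-th roots of digits
-/

set_option autoImplicit false
set_option linter.style.haveILetI false
set_option linter.unusedSectionVars false
set_option synthInstance.maxHeartbeats 400000
set_option maxHeartbeats 1000000

noncomputable section

open AlgebraicCurve ModularCurve IsLocalRing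

namespace FLTAgent.MazurPrinciple

open FLTAgent.Curves FLTAgent.Specialization FLTAgent.BadRed
open AlgebraicCurve.SemilinearAut (baseAut)

section Abstract

variable {L k : Type*} [Field L] [Field k] {A : ValuationSubring L} {π : A →+* k}
  {FC Fb F : Type*} [Field FC] [Field Fb] [Field F] [Algebra L FC]
  [Algebra k Fb] [Algebra L F] [IsAlgClosed L] [IsFunctionField L FC] [IsFunctionField L F]
  [IsAlgClosed k] [IsFunctionField k Fb] {p : ℕ} [Fact p.Prime] [CharP k p]
  {S : Sheet π FC Fb F p} (V : RatVal π p)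

include V in
/-- A vanishing digit means a strictly higher level. -/
theorem exists_nearOne_gt {t : L} (ht : t ≠ 0) {g : F}
    (h : (S.pair 1).Res (t⁻¹ • (g - 1)) 0) :
    ∃ t' : L, t' ≠ 0 ∧ V.v t < V.v t' ∧ NearOne S t' g := by
  rcases eq_or_ne g 1 with rfl | hg
  · exact ⟨t * (p : L), mul_ne_zero ht V.p_ne, by rw [V.v_mul _ _ ht V.p_ne, V.v_p]; linarith,
      nearOne_one S _⟩
  obtain ⟨c, w, hw, hcw⟩ := LRed.exists_scale S.orth_one S.MC.surj (sub_ne_zero.2 hg)
  have hc : c ≠ 0 := fun h0 => hw (by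
    rw [h0, zero_smul] at hcw
    exact (S.pair 1).unique hcw (S.pair 1).res_zero)
  refine ⟨c⁻¹, inv_ne_zero hc, ?_, c • (g - 1), S.integral_iff_mem.1 ⟨w, hcw⟩, ?_⟩
  · by_contra hle
    push Not at hle
    have hm : c * t ∈ A := (V.mem_iff _ (mul_ne_zero hc ht)).2 (by
      rw [V.v_mul _ _ hc ht]; rw [V.v_inv hc] at hle; linarith)
    have h2 := (S.pair 1).res_smul ⟨_, hm⟩ h
    rw [smul_zero, smul_smul, show ((⟨_, hm⟩ : A) : L) * t⁻¹ = c from mul_inv_cancel_right₀ ht c]
      at h2
    exact hw ((S.pair 1).unique hcw h2)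
  · rw [smul_smul, inv_mul_cancel₀ hc, one_smul, add_sub_cancel]

include V in
theorem pair_res_one_of_nearOne {t : L} (ht : t ≠ 0) (htv : 0 < V.v t) {g : F}
    (h : NearOne S t g) : (S.pair 1).Res g 1 := by
  obtain ⟨y, hy, rfl⟩ := h
  simpa using (S.pair 1).res_add S.pair_one (pair_res_small V (Or.inr htv) hy)

include V in
/-- A function near one has no zero in the chart. -/
theorem ev_notMem_of_nearOne {t : L} (ht : t ≠ 0) (htv : 0 < V.v t) {g : F} {M : ℕ}
    (hg : g ∈ riemannRochSpace (((M : ℕ) : ℤ) • poleDiv L S.X)) (h : NearOne S t g)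
    {Q : Place L F} (hQ : 0 ≤ Q.ord S.X) (hne : Q.ord g ≠ 0) : ev Q S.X ∉ A := by
  intro hmem
  obtain ⟨y, hy, rfl⟩ := h
  set Z := t⁻¹ • ((1 + t • y) - 1)
  have hZy : Z = y := by
    simp only [Z, add_sub_cancel_left, smul_smul, inv_mul_cancel₀ ht, one_smul]
  have hM : y ∈ riemannRochSpace (((M : ℕ) : ℤ) • poleDiv L S.X) := hZy ▸
    Submodule.smul_mem _ _ (Submodule.sub_mem _ hg (one_mem_rrSpace fun v => by
      simpa using mul_nonneg (Int.natCast_nonneg M) (poleDiv_nonneg (K := L) S.X v)))
  have hint : IntegralWrt L S.X y := (mem_rrSpace_poles.1 hM).1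
  have hyA : ev Q y ∈ A := chart_value_mem hint hy.1 hy.2 ⟨hQ, hmem⟩
  have h0 : OrdGE Q 0 (1 + t • y) := (mem_rrSpace_poles.1 hg).1 Q hQ
  have hev : ev Q (1 + t • y) = 1 + t * ev Q y := by
    rw [ev_add Q (ordGE_of_le (by rw [Q.ord_one])) ?_, ev_one, ev_smul Q t (hint Q hQ)]
    rw [Algebra.smul_def]
    simpa using (ordGE_algebraMap Q t).mul (hint Q hQ)
  have hzero : ev Q (1 + t • y) = 0 := by
    refine (ev_eq_zero_iff Q h0).2 ?_
    rcases eq_or_ne (1 + t • y) 0 with h1 | h1
    · rw [h1]; exact ordGE_zero _ _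
    · refine ordGE_of_le ?_
      have := h0.le_ord h1
      omega
  have hgt : V.GT 0 (t * ev Q y) := by
    have := RatVal.GT.mul_ge V (Or.inr (show (0 : ℚ) < V.v t from htv) : V.GT 0 t)
      (V.mem_iff_GE.1 hyA)
    rwa [add_zero] at this
  rw [hev] at hzero
  have h2 := hgt
  rw [show t * ev Q y = -1 by linear_combination hzero] at h2
  have h3 := h2.lt V (neg_ne_zero.2 one_ne_zero)
  rw [V.v_neg, V.v_one] at h3
  exact lt_irrefl _ h3

end Abstract

local notation "QA" => AlgebraicClosure ℚ
local notation "GG" => (AlgebraicClosure ℚ ≃ₐ[ℚ] AlgebraicClosure ℚ)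

section At

variable {p : ℕ} [Fact p.Prime] [NeZero p] {M : ℕ} [NeZero M] [NeZero (M * p)] (hpM : ¬ p ∣ M)
  {A : ValuationSubring QA} [IsAlgClosed (ResidueField A)] [CharP (ResidueField A) p]
  [Curves.IsFunctionField (ResidueField A) (modularFunctionFieldFullC (ResidueField A) M)]
  (hA : A.LiesOverPrime p) (hp5 : InRange p M)
  {ζ : QA} {G : Subgroup GG} {σ₀ : GG} (hW : WildData hA ζ G σ₀)

local notation "kk" => ResidueField A
local notation "galM" => arithmeticGalois (modularFunctionFieldFull M)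
local notation "galN" => arithmeticGalois (modularFunctionFieldFull (M * p))

omit [CharP (ResidueField A) p] in
include hA hW in
theorem exists_fixed_residue (a : kk) : ∃ c : A, residue A c = a ∧ ∀ σ ∈ G, σ (c : QA) = c := by
  obtain ⟨z, hz, hza⟩ := Carayol.exists_residue_eq hA a
  exact ⟨z, hza, fun σ hσ => Carayol.mem_K0.1 hz σ (hW.le hσ)⟩

include hpM hp5 hW in
/-- Reductions of a stable space lift to fixed elements. -/
theorem exists_fixed_lift {d : QA} (hd : d ≠ 0) (hdG : ∀ σ ∈ G, σ d = d)
    (U : Submodule QA (X0Bar (M * p))) [FiniteDimensional QA U]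
    (hU : ∀ σ ∈ G, ∀ z ∈ U, galN σ • z ∈ U)
    {w : modularFunctionFieldFullC kk M × modularFunctionFieldFullC kk M}
    (hw : w ∈ ((sheetAt hpM hA).pair d).image U) :
    ∃ u ∈ U, ((sheetAt hpM hA).pair d).Res u w ∧ ∀ σ ∈ G, galN σ • u = u := by
  classical
  obtain ⟨r, v, e, hvU, hve, he, hsp, hvfix⟩ := exists_fixed_basis hpM hA (smooth_level hpM hA hp5) (G := (G : Set GG))
    (fun σ hσ => hW.le hσ) hd hdG U hU
  obtain ⟨u', hu', hres⟩ := (LRed.mem_image (residue_surjective (R := A))).1 hw
  obtain ⟨a, ha⟩ := (Submodule.mem_span_range_iff_exists_fun QA).1 (hsp.symm ▸ hu' :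
    u' ∈ Submodule.span QA (Set.range v))
  obtain ⟨b, -, hbw⟩ := LRed.coord_res (residue_surjective (R := A)) hve he (ha.symm ▸ hres)
  choose c hc hcG using fun i => exists_fixed_residue hA hW (residue A (b i))
  refine ⟨∑ i, (c i : QA) • v i, Submodule.sum_mem _ fun i _ => Submodule.smul_mem _ _ (hvU i),
    ?_, fun σ hσ => ?_⟩
  · rw [hbw]
    have h := LRed.res_comb (R := (sheetAt hpM hA).pair d) (s := Finset.univ)
      (fun i _ => hve i) c
    simp only [hc] at h
    exact h
  · rw [Finset.smul_sum]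
    exact Finset.sum_congr rfl fun i _ => by
      rw [FlatModel.isArith_galois.smul_smul σ, hvfix σ hσ i, hcG i σ hσ]

include hpM hp5 hW in
/-- The level of a fixed function is the valuation of a fixed number. -/
theorem exists_fixed_level {z : X0Bar (M * p)} (hz : z ≠ 0) (hfix : ∀ σ ∈ G, galN σ • z = z) :
    ∃ (ε : QA) (η : modularFunctionFieldFullC kk M × modularFunctionFieldFullC kk M),
      ε ≠ 0 ∧ (∀ σ ∈ G, σ ε = ε) ∧ η ≠ 0 ∧ ((sheetAt hpM hA).pair 1).Res (ε⁻¹ • z) η := by
  classical
  set U := Submodule.span QA {z}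
  haveI : FiniteDimensional QA U := FiniteDimensional.span_of_finite QA (Set.finite_singleton _)
  obtain ⟨r, v, w, hvU, hvw, hw, hsp, hvfix⟩ := exists_fixed_basis hpM hA (smooth_level hpM hA hp5) (G := (G : Set GG))
    (fun σ hσ => hW.le hσ) one_ne_zero (fun σ _ => map_one σ) U (fun σ hσ y hy => by
      obtain ⟨e, rfl⟩ := Submodule.mem_span_singleton.1 hy
      rw [FlatModel.isArith_galois.smul_smul σ, hfix σ hσ]
      exact Submodule.smul_mem _ _ (Submodule.mem_span_singleton_self z))
  obtain ⟨i⟩ : Nonempty (Fin r) := by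
    by_contra hr
    rw [not_nonempty_iff] at hr
    have h0 := hsp.ge (Submodule.mem_span_singleton_self z)
    rw [Set.range_eq_empty v, Submodule.span_empty, Submodule.mem_bot] at h0
    exact hz h0
  obtain ⟨e, he⟩ := Submodule.mem_span_singleton.1 (hvU i)
  have he0 : e ≠ 0 := fun h => hw.ne_zero i (by
    have h1 := hvw i
    rw [← he, h, zero_smul] at h1
    exact ((sheetAt hpM hA).pair 1).unique h1 ((sheetAt hpM hA).pair 1).res_zero)
  refine ⟨e⁻¹, w i, inv_ne_zero he0, fun σ hσ => ?_, hw.ne_zero i,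
    by rw [inv_inv, he]; exact hvw i⟩
  have h1 : galN σ • v i = v i := hvfix σ hσ i
  rw [← he, FlatModel.isArith_galois.smul_smul σ, hfix σ hσ] at h1
  rw [map_inv₀, smul_left_injective QA hz h1]

set_option maxHeartbeats 2000000 in
include hpM hp5 hW in
/-- A digit of a constant times the `p`-th power of a fixed function is a `p`-th power, and when it
is not constant its level is `p` times that of a fixed number. -/
theorem digit_power {c : QA} {h : X0Bar M} (hh : h ≠ 0) (hhfix : ∀ σ ∈ G, galM σ • h = h)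
    {ε : QA} (hε : ε ≠ 0) (hε0 : 0 < (ratVal hA).v ε)
    (hεlt : (ratVal hA).v ε < (p : ℚ) / ((p : ℚ) - 1)) {η : modularFunctionFieldFullC kk M}
    (hres : (sheetAt hpM hA).MC.Res (ε⁻¹ • (c • h ^ p - 1)) η) :
    (∃ γ, η = γ ^ p) ∧ ((∀ a : kk, η ≠ algebraMap kk _ a) →
      ∃ τ : QA, τ ≠ 0 ∧ (∀ σ ∈ G, σ τ = τ) ∧ (ratVal hA).v ε = p * (ratVal hA).v τ) := by
  classical
  set V := ratVal hA
  set MC := (sheetAt hpM hA).MC
  have hp : p.Prime := Fact.out
  have hπ : Function.Surjective (residue A) := residue_surjective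
  refine ⟨exists_pow_digit (R := MC.toReduction) V hπ MC.scaled hε hε0 hεlt hres, fun hnc => ?_⟩
  have h1 : MC.Res (c • h ^ p) 1 := by
    have := (res_smul_zero (R := MC.toReduction) V (c := ε) (Or.inr hε0) hres.mem).add
      MC.toReduction.res_one
    rwa [smul_smul, mul_inv_cancel₀ hε, one_smul, sub_add_cancel, zero_add] at this
  set U := Submodule.span QA (Set.range ![1, h])
  haveI : FiniteDimensional QA U := FiniteDimensional.span_of_finite QA (Set.finite_range _)
  have h1U : (1 : X0Bar M) ∈ U := Submodule.subset_span ⟨0, rfl⟩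
  have hhU : h ∈ U := Submodule.subset_span ⟨1, rfl⟩
  obtain ⟨r, v, w, hvU, hvw, hw, hsp, hvfix⟩ := exists_fixed_basis_level hpM hA (smooth_level hpM hA hp5)
    (G := (G : Set GG)) (fun σ hσ => hW.le hσ) U (fun σ hσ y hy => by
      induction hy using Submodule.span_induction with
      | mem y hy =>
        obtain ⟨i, rfl⟩ := hy
        fin_cases i
        · show galM σ • (1 : X0Bar M) ∈ U
          rw [smul_one]; exact h1U
        · show galM σ • h ∈ U
          rw [hhfix σ hσ]; exact hhU
      | zero => rw [smul_zero]; exact Submodule.zero_mem _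
      | add a b _ _ ha hb => rw [smul_add]; exact Submodule.add_mem _ ha hb
      | smul a y _ hy => rw [FlatModel.isArith_galois.smul_smul σ]; exact Submodule.smul_mem _ _ hy)
  -- a basis vector with non constant reduction
  obtain ⟨j, hj⟩ : ∃ j, ∀ a : kk, w j ≠ algebraMap kk _ a := by
    by_contra hall
    push Not at hall
    choose a ha using hall
    have hUle : Module.finrank QA U ≤ 1 := by
      have hr : r ≤ 1 := by
        have hspan : Set.range w ⊆ (Submodule.span kk {(1 : modularFunctionFieldFullC kk M)} :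
            Set (modularFunctionFieldFullC kk M)) := by
          rintro _ ⟨i, rfl⟩
          rw [ha i, Algebra.algebraMap_eq_smul_one]
          exact Submodule.smul_mem _ _ (Submodule.mem_span_singleton_self _)
        haveI : FiniteDimensional kk (Submodule.span kk {(1 : modularFunctionFieldFullC kk M)}) :=
          FiniteDimensional.span_of_finite _ (Set.finite_singleton _)
        have h2 := finrank_span_eq_card hw
        rw [Fintype.card_fin] at h2
        have h3 := Submodule.finrank_mono (Submodule.span_le.2 hspan)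
        rw [h2, finrank_span_singleton one_ne_zero] at h3
        exact h3
      rw [← hsp]
      exact (finrank_range_le_card v).trans (by simpa using hr)
    obtain ⟨u, hu⟩ : ∃ u : QA, u • (1 : X0Bar M) = h := by
      have heq : Submodule.span QA {(1 : X0Bar M)} = U :=
        Submodule.eq_of_le_of_finrank_le ((Submodule.span_singleton_le_iff_mem _ _).2 h1U)
          (by rw [finrank_span_singleton one_ne_zero]; exact hUle)
      exact Submodule.mem_span_singleton.1 (heq.symm ▸ hhU)
    rw [← hu, _root_.smul_pow, one_pow, smul_smul] at hres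
    have h4 : MC.Res ((ε⁻¹ * (c * u ^ p - 1)) • (1 : X0Bar M)) η := by
      convert hres using 1
      simp only [Algebra.smul_def, map_mul, map_sub, map_one, map_pow, map_inv₀]
      ring
    obtain ⟨hcA, he⟩ := coef_mem (R := MC.toReduction) hπ MC.toReduction.res_one one_ne_zero h4
    exact hnc _ (he.trans (Algebra.algebraMap_eq_smul_one _).symm)
  set ξ := v j
  have hξ : MC.Res ξ (w j) := hvw j
  have hξfix : ∀ σ ∈ G, galM σ • ξ = ξ := fun σ hσ => hvfix σ hσ j
  have hli : ∀ a b : QA, a • (1 : X0Bar M) + b • ξ = 0 → a = 0 ∧ b = 0 := by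
    intro a b hab
    have hind : LinearIndependent kk ![(1 : modularFunctionFieldFullC kk M), w j] := by
      refine LinearIndependent.pair_iff.2 fun x y hxy => ?_
      rcases eq_or_ne y 0 with rfl | hy
      · rw [zero_smul, add_zero, smul_eq_zero] at hxy
        exact ⟨hxy.resolve_right one_ne_zero, rfl⟩
      exfalso
      refine hj (-x / y) ?_
      rw [Algebra.smul_def, Algebra.smul_def, mul_one] at hxy
      rw [map_div₀, map_neg, eq_div_iff ((_root_.map_ne_zero _).2 hy)]
      linear_combination hxy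
    have hres2 : ∀ i, (toLRed MC.toReduction).Res (![(1 : X0Bar M), ξ] i)
        (![(1 : modularFunctionFieldFullC kk M), w j] i) := by
      intro i
      fin_cases i
      · exact MC.toReduction.res_one
      · exact hξ
    exact LinearIndependent.pair_iff.1
      (LRed.linearIndependent_of_res hπ hres2 hind) a b hab
  obtain ⟨a, b, hab⟩ : ∃ a b : QA, a • (1 : X0Bar M) + b • ξ = h := by
    have hle : Submodule.span QA (Set.range ![(1 : X0Bar M), ξ]) ≤ U := Submodule.span_le.2 (by
      rintro _ ⟨i, rfl⟩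
      fin_cases i
      · exact h1U
      · exact hvU j)
    have hind : LinearIndependent QA ![(1 : X0Bar M), ξ] := LinearIndependent.pair_iff.2 hli
    have heq := Submodule.eq_of_le_of_finrank_le hle (by
      rw [finrank_span_eq_card hind]
      exact finrank_range_le_card _)
    obtain ⟨c', hc'⟩ := (Submodule.mem_span_range_iff_exists_fun QA).1 (heq.symm ▸ hhU)
    exact ⟨c' 0, c' 1, by rw [← hc', Fin.sum_univ_two]; rfl⟩
  have hfixab : ∀ σ ∈ G, σ a = a ∧ σ b = b := fun σ hσ => by
    have h2 := hhfix σ hσ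
    rw [← hab, smul_add, FlatModel.isArith_galois.smul_smul σ,
      FlatModel.isArith_galois.smul_smul σ, smul_one, hξfix σ hσ] at h2
    obtain ⟨e1, e2⟩ := hli (σ a - a) (σ b - b) (by
      rw [sub_smul, sub_smul, sub_add_sub_comm, h2, sub_self])
    exact ⟨sub_eq_zero.1 e1, sub_eq_zero.1 e2⟩
  -- the constant term dominates
  have hba : a ≠ 0 ∧ (b = 0 ∨ V.v a < V.v b) := by
    by_contra hcon
    have hb0 : b ≠ 0 := by
      intro hb
      refine hcon ⟨fun ha => hh ?_, Or.inl hb⟩
      rw [← hab, ha, hb, zero_smul, zero_smul, add_zero]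
    have hm : a / b ∈ A := by
      rcases eq_or_ne a 0 with ha | ha
      · rw [ha, zero_div]; exact A.zero_mem
      · rw [V.mem_iff _ (div_ne_zero ha hb0), V.v_div ha hb0]
        have : ¬ V.v a < V.v b := fun hlt => hcon ⟨ha, Or.inr hlt⟩
        linarith
    set q := residue A ⟨_, hm⟩
    have hq : MC.Res ((a / b) • (1 : X0Bar M) + ξ) (q • 1 + w j) :=
      (MC.toReduction.res_one.smul ⟨_, hm⟩).add hξ
    have hqne : q • (1 : modularFunctionFieldFullC kk M) + w j ≠ 0 := fun h0 =>
      hj (-q) (by rw [map_neg, Algebra.algebraMap_eq_smul_one]; linear_combination h0)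
    have hpw := hq.pow p
    have hexp : (c * b ^ p) • ((a / b) • (1 : X0Bar M) + ξ) ^ p = c • h ^ p := by
      rw [← hab, ← smul_smul, ← _root_.smul_pow, smul_add, smul_smul, mul_div_cancel₀ _ hb0]
    obtain ⟨hcA, hce⟩ := coef_mem (R := MC.toReduction) hπ hpw (pow_ne_zero _ hqne)
      (hexp.symm ▸ h1)
    have hne : residue A ⟨_, hcA⟩ ≠ 0 := fun h0 => by
      rw [h0, zero_smul] at hce; exact one_ne_zero hce
    obtain ⟨ρ, hρ⟩ := IsAlgClosed.exists_pow_nat_eq (residue A ⟨_, hcA⟩)⁻¹ hp.pos
    refine hj (ρ - q) ?_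
    have he : q • (1 : modularFunctionFieldFullC kk M) + w j = algebraMap kk _ ρ := by
      refine pow_inj_Eb kk (p := p) ?_
      rw [← map_pow, hρ, map_inv₀]
      refine eq_inv_of_mul_eq_one_right ?_
      rw [← Algebra.smul_def, ← hce]
    rw [map_sub, ← he, Algebra.algebraMap_eq_smul_one, add_sub_cancel_left]
  obtain ⟨ha0, hb⟩ := hba
  rcases eq_or_ne b 0 with hb0 | hb0
  · exfalso
    rw [hb0, zero_smul, add_zero] at hab
    have h4 : MC.Res ((ε⁻¹ * (c * a ^ p - 1)) • (1 : X0Bar M)) η := by
      convert hres using 1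
      rw [← hab]
      simp only [Algebra.smul_def, map_mul, map_sub, map_one, map_pow, map_inv₀]
      ring
    obtain ⟨hcA, he⟩ := coef_mem (R := MC.toReduction) hπ MC.toReduction.res_one one_ne_zero h4
    exact hnc _ (he.trans (Algebra.algebraMap_eq_smul_one _).symm)
  have hlt := hb.resolve_left hb0
  have hτ0 : 0 < V.v (b / a) := by rw [V.v_div hb0 ha0]; linarith
  have hre : (c * a ^ p) • (1 + (b / a) • ξ) ^ p = c • h ^ p := by
    rw [← hab, ← smul_smul, ← _root_.smul_pow, smul_add, smul_smul, mul_div_cancel₀ _ ha0]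
  rw [← hre] at hres
  rcases exists_level (R := MC.toReduction) V hπ (div_ne_zero hb0 ha0) hτ0 hξ hj hε hεlt hres with
    ⟨e, he⟩ | hlev
  · exact absurd he (hnc e)
  · exact ⟨b / a, div_ne_zero hb0 ha0, fun σ hσ => by
      rw [map_div₀, (hfixab σ hσ).1, (hfixab σ hσ).2], hlev⟩

end At

end FLTAgent.MazurPrinciple
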