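import Fermat.Agent.MazurPrinciple.Red

/-!
# Values near the first sheet

The width of the thin sets is measured by a function `u` with a nonzero reduction on the first
sheet whose product with its mirror image is a power of `p`.
-/

set_option autoImplicit false
set_option linter.style.haveILetI false
set_option linter.unusedSectionVars false

noncomputable section

namespace FLTAgent.MazurPrinciple

open AlgebraicCurve FLTAgent.Curves FLTAgent.Specialization FLTAgent.BadRed Polynomial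
  IntermediateField

variable {L k : Type*} [Field L] [Field k] {A : ValuationSubring L} {π : A →+* k}
  {FC Fb F : Type*} [Field FC] [Field Fb] [Field F] [Algebra L FC]
  [Algebra k Fb] [Algebra L F] [IsAlgClosed L] [IsFunctionField L FC] [IsFunctionField L F]
  [IsAlgClosed k] [IsFunctionField k Fb] {p : ℕ}

/-- A function measuring the distance to the two sheets. -/
structure UnitData (S : Sheet π FC Fb F p) where
  u : F
  u' : F
  ub : Fb
  w : ℕ
  w_pos : 0 < w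
  mul_eq : u * u' = algebraMap L F ((p : L) ^ w)
  u_int : IntegralWrt L S.X u
  u'_int : IntegralWrt L S.X u'
  u_res : S.R₁.Res u ub
  u'_res : S.R₂.Res u' ub
  ub_reg : IntegralWrt k S.MC.xb ub
  ub_ne : ub ≠ 0
  V_ub : S.V ub = ub ^ p

variable {S : Sheet π FC Fb F p} (U : UnitData S) (V : RatVal π p)

namespace UnitData

theorem u_ne : U.u ≠ 0 := U.u_res.ne_zero U.ub_ne

theorem u'_ne : U.u' ≠ 0 := U.u'_res.ne_zero U.ub_ne

theorem map_p (V : RatVal π p) : π (p : A) = 0 :=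
  (V.res_iff (p : A) (by simpa using V.p_ne)).2 (by simp [V.v_p])

include V in
theorem u'_res₁ : S.R₁.Res U.u' 0 := by
  have h : U.u' = ((p : A) ^ U.w : A).1 • U.u⁻¹ := by
    rw [Algebra.smul_def, ← div_eq_mul_inv, eq_div_iff U.u_ne, mul_comm, U.mul_eq]
    simp
  rw [h]
  have h' := (U.u_res.inv U.ub_ne).smul ((p : A) ^ U.w)
  rwa [map_pow, map_p V, zero_pow U.w_pos.ne', zero_smul] at h'

include V in
theorem u_res₂ : S.R₂.Res U.u 0 := by
  have h : U.u = ((p : A) ^ U.w : A).1 • U.u'⁻¹ := by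
    rw [Algebra.smul_def, ← div_eq_mul_inv, eq_div_iff U.u'_ne, U.mul_eq]
    simp
  rw [h]
  have h' := (U.u'_res.inv U.ub_ne).smul ((p : A) ^ U.w)
  rwa [map_pow, map_p V, zero_pow U.w_pos.ne', zero_smul] at h'

include V

omit U in
theorem w_le (U U₀ : UnitData S) (e : U₀.u = U.u) : U.w ≤ U₀.w := by
  by_contra h
  push Not at h
  have hne : algebraMap L F ((p : L) ^ U₀.w) ≠ 0 :=
    (_root_.map_ne_zero _).2 (pow_ne_zero _ V.p_ne)
  have e' : U.u' = ((p : A) ^ (U.w - U₀.w) : A).1 • U₀.u' := by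
    refine mul_left_cancel₀ U.u_ne ?_
    rw [U.mul_eq, Algebra.smul_def, mul_left_comm, ← e, U₀.mul_eq, ← map_mul]
    congr 1
    push_cast
    rw [← pow_add, Nat.sub_add_cancel h.le]
  have h' := U₀.u'_res.smul ((p : A) ^ (U.w - U₀.w))
  rw [← e', map_pow, map_p V, zero_pow (Nat.sub_ne_zero_of_lt h), zero_smul] at h'
  exact U.ub_ne (U.u'_res.unique h')

variable {Q : Place L F} (hQ : InChart S Q)

/-- The position of an integral point between the two sheets. -/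
def theta (Q : Place L F) : ℚ := V.v (ev Q U.u)

include hQ

theorem ev_mem : ev Q U.u ∈ A :=
  chart_value_mem U.u_int U.u_res.mem (U.u_res₂ V).mem hQ

theorem ev_mem' : ev Q U.u' ∈ A :=
  chart_value_mem U.u'_int (U.u'_res₁ V).mem U.u'_res.mem hQ

theorem ev_mul' : ev Q U.u * ev Q U.u' = (p : L) ^ U.w := by
  rw [← ev_mul Q (hQ.ordGE U.u_int) (hQ.ordGE U.u'_int), U.mul_eq, ev_const]

theorem ev_ne : ev Q U.u ≠ 0 := fun h => by
  have := U.ev_mul' V hQ
  rw [h, zero_mul] at this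
  exact pow_ne_zero _ V.p_ne this.symm

theorem ev_ne' : ev Q U.u' ≠ 0 := fun h => by
  have := U.ev_mul' V hQ
  rw [h, mul_zero] at this
  exact pow_ne_zero _ V.p_ne this.symm

theorem theta_nonneg : 0 ≤ U.theta V Q :=
  (V.mem_iff _ (U.ev_ne V hQ)).1 (U.ev_mem V hQ)

theorem v_ev' : V.v (ev Q U.u') = U.w - U.theta V Q := by
  have h := congrArg V.v (U.ev_mul' V hQ)
  rw [V.v_mul _ _ (U.ev_ne V hQ) (U.ev_ne' V hQ), V.v_pow V.p_ne, V.v_p] at h
  push_cast at h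
  rw [theta]
  linarith

theorem theta_le : U.theta V Q  ≤ U.w := by
  have := (V.mem_iff _ (U.ev_ne' V hQ)).1 (U.ev_mem' V hQ)
  rw [U.v_ev' V hQ] at this
  linarith

theorem res_eq_zero_iff : π ⟨_, U.ev_mem V hQ⟩ = 0 ↔ 0 < U.theta V Q :=
  V.res_iff ⟨_, U.ev_mem V hQ⟩ (U.ev_ne V hQ)

theorem res_eq_zero_iff' : π ⟨_, U.ev_mem' V hQ⟩ = 0 ↔ U.theta V Q < U.w := by
  rw [V.res_iff ⟨_, U.ev_mem' V hQ⟩ (U.ev_ne' V hQ)]
  show 0 < V.v (ev Q U.u') ↔ _
  rw [U.v_ev' V hQ, sub_pos]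

variable (hS : S.Good)
include hS

/-- The basic relation between the two measuring functions and the point below. -/
theorem res_sum : π ⟨_, U.ev_mem V hQ⟩ + π ⟨_, U.ev_mem' V hQ⟩ ^ p =
    ev (red hS Q) U.ub := by
  obtain ⟨ψ, hψ, hψw⟩ := exists_regular_lift hS U.ub_reg
  rw [← (red_spec hS hQ hψ hψw).2]
  have hp : 1 < p := S.one_lt
  obtain ⟨h, hz⟩ := chart_value_res (S := S) (Z := U.u + U.u' ^ p - S.α ψ)
    (integralWrt_sub (integralWrt_add U.u_int (integralWrt_pow U.u'_int p)) (integralWrt_α hψ))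
    (by simpa [zero_pow (show p ≠ 0 by omega)] using
      (U.u_res.add ((U.u'_res₁ V).pow p)).sub (S.α₁ _ _ hψw))
    (by simpa [U.V_ub] using ((U.u_res₂ V).add (U.u'_res.pow p)).sub (S.α₂ _ _ hψw)) hQ
  have hu' : OrdGE Q 0 (U.u' ^ p) := by simpa using (hQ.ordGE U.u'_int).pow p
  have e : (⟨_, h⟩ : A) = ⟨_, U.ev_mem V hQ⟩ + ⟨_, U.ev_mem' V hQ⟩ ^ p -
      ⟨_, ev_α_mem hS hQ hψ hψw⟩ := Subtype.ext (by
    push_cast
    rw [ev_sub Q ((hQ.ordGE U.u_int).add hu' |>.mono le_rfl) (hQ.ordGE (integralWrt_α hψ)),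
      ev_add Q (hQ.ordGE U.u_int) hu', ev_pow Q (hQ.ordGE U.u'_int)])
  rw [e, map_sub, map_add, map_pow, sub_eq_zero] at hz
  exact hz

/-- Off the zeros of `ub` a point is on exactly one sheet. -/
theorem theta_cases (h : ev (red hS Q) U.ub ≠ 0) : U.theta V Q = 0 ∨ U.theta V Q = U.w := by
  by_contra hne
  push Not at hne
  apply h
  rw [← U.res_sum V hQ hS, (U.res_eq_zero_iff V hQ).2 (lt_of_le_of_ne (U.theta_nonneg V hQ)
    hne.1.symm), (U.res_eq_zero_iff' V hQ).2 (lt_of_le_of_ne (U.theta_le V hQ) hne.2)]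
  have : 1 < p := S.one_lt
  rw [zero_pow (by omega), add_zero]

theorem ev_ub_of_theta_zero (h : U.theta V Q = 0) :
    π ⟨_, U.ev_mem V hQ⟩ = ev (red hS Q) U.ub ∧ ev (red hS Q) U.ub ≠ 0 := by
  have h1 : π ⟨_, U.ev_mem' V hQ⟩ = 0 := (U.res_eq_zero_iff' V hQ).2 (by rw [h]; exact_mod_cast U.w_pos)
  have h2 : π ⟨_, U.ev_mem V hQ⟩ ≠ 0 := fun h0 => by
    have := (U.res_eq_zero_iff V hQ).1 h0
    rw [h] at this
    exact lt_irrefl _ this
  have h3 := U.res_sum V hQ hS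
  have : 1 < p := S.one_lt
  rw [h1, zero_pow (by omega), add_zero] at h3
  exact ⟨h3, h3 ▸ h2⟩

theorem theta_pos_of_node (h : ev (red hS Q) U.ub = 0) :
    0 < U.theta V Q ∧ U.theta V Q < U.w := by
  have h3 := U.res_sum V hQ hS
  rw [h] at h3
  constructor
  · refine lt_of_le_of_ne (U.theta_nonneg V hQ) fun h0 => ?_
    exact (U.ev_ub_of_theta_zero V hQ hS h0.symm).2 h
  · refine lt_of_le_of_ne (U.theta_le V hQ) fun h0 => ?_
    have h1 : π ⟨_, U.ev_mem V hQ⟩ = 0 := (U.res_eq_zero_iff V hQ).2 (by rw [h0]; exact_mod_cast U.w_pos)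
    rw [h1, zero_add] at h3
    have h4 := pow_eq_zero_iff (n := p) (by have := S.one_lt; omega) |>.1 h3
    have := (U.res_eq_zero_iff' V hQ).1 h4
    rw [h0] at this
    exact lt_irrefl _ this

end UnitData

open UnitData

variable {Z : F} {z : Fb}

include V in
/-- Multiplying by a high power of the measuring function gives integrality on both sheets. -/
theorem exists_pow_mem (Z : F) : ∃ l : ℕ, Z * U.u ^ l ∈ S.R₂.O := by
  rcases eq_or_ne Z 0 with rfl | hZ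
  · exact ⟨0, by rw [zero_mul]; exact zero_mem _⟩
  obtain ⟨d, g, hg, hd⟩ := S.scaled₂ Z hZ
  have hd0 : d ≠ 0 := by
    rintro rfl
    rw [zero_smul] at hd
    exact hg (hd.unique S.R₂.res_zero)
  obtain ⟨N, hN, -⟩ := S.arch ((p : A) ^ U.w) d⁻¹ (by
    rw [map_pow, map_p V, zero_pow U.w_pos.ne'])
  refine ⟨N, ?_⟩
  have e : Z * U.u ^ N = (d⁻¹ * ((p : L) ^ U.w) ^ N) • ((d • Z) * U.u'⁻¹ ^ N) := by
    rw [show U.u = algebraMap L F ((p : L) ^ U.w) * U.u'⁻¹ by
      rw [← div_eq_mul_inv, eq_div_iff U.u'_ne, U.mul_eq]]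
    rw [mul_pow, ← map_pow, ← Algebra.smul_def, mul_smul_comm, smul_mul_assoc, smul_smul,
      mul_assoc, mul_comm (((p : L) ^ U.w) ^ N) d, ← mul_assoc, inv_mul_cancel₀ hd0, one_mul]
  rw [e]
  exact smul_mem_O (by simpa using hN) (mul_mem hd.mem
    (pow_mem (U.u'_res.inv U.ub_ne).mem N))

include V in
/-- The reduction of a function without poles in the chart has poles only at zeros of `ub`. -/
theorem exists_pow_regular (hZ : IntegralWrt L S.X Z) (h : S.R₁.Res Z z) :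
    ∃ l : ℕ, Z * U.u ^ l ∈ S.R₂.O ∧ IntegralWrt k S.MC.xb (z * U.ub ^ l) := by
  obtain ⟨l, hl⟩ := exists_pow_mem U V Z
  refine ⟨l, hl, ?_⟩
  obtain ⟨g, hg⟩ := S.R₂.exists_res_of_mem hl
  exact (S.integralWrt_res (integralWrt_mul hZ (integralWrt_pow U.u_int l))
    (show (S.pair 1).Res (Z * U.u ^ l) (z * U.ub ^ l, g) from
      ⟨h.mul (U.u_res.pow l), by rwa [one_smul]⟩)).1

include V in
/-- A function with zero reduction on the first sheet is small near it. -/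
theorem exists_small_bound (hZ : IntegralWrt L S.X Z) (h : S.R₁.Res Z 0) :
    ∃ (δ : ℚ) (l : ℕ), 0 < δ ∧ ∀ Q : Place L F, InChart S Q →
      V.GE (δ - l * U.theta V Q) (ev Q Z) := by
  rcases eq_or_ne Z 0 with rfl | hZ0
  · exact ⟨1, 0, one_pos, fun Q _ => Or.inl (ev_zero Q)⟩
  obtain ⟨s, g, hg, hs⟩ := S.scaled₁ Z hZ0
  have hsA : s ∉ A := fun hA => hg (hs.unique (by
    have := h.smul ⟨s, hA⟩
    rwa [smul_zero] at this))
  have hs0 : s ≠ 0 := fun h0 => hsA (h0 ▸ zero_mem A)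
  obtain ⟨l, hl⟩ := exists_value_bound U.u_int U.u_res.mem (U.u_res₂ V) hZ hs.mem
  refine ⟨-V.v s, l, neg_pos.2 (not_le.1 fun h0 => hsA ((V.mem_iff s hs0).2 h0)),
    fun Q hQ => ?_⟩
  rcases eq_or_ne (ev Q Z) 0 with h0 | h0
  · exact Or.inl h0
  have hu := U.ev_ne V hQ
  have hne : s * ev Q Z * ev Q U.u ^ l ≠ 0 := mul_ne_zero (mul_ne_zero hs0 h0) (pow_ne_zero _ hu)
  have h1 := (V.mem_iff _ hne).1 (hl Q hQ)
  rw [V.v_mul _ _ (mul_ne_zero hs0 h0) (pow_ne_zero _ hu), V.v_mul _ _ hs0 h0,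
    V.v_pow hu] at h1
  exact Or.inr (by rw [theta]; linarith)

include V in
/-- The first reduction bounds values near the first sheet. -/
theorem exists_scaled_bound (hZ : IntegralWrt L S.X Z) {c : L} (hc0 : c ≠ 0)
    (hc : c • Z ∈ S.R₁.O) : ∃ l : ℕ, ∀ Q : Place L F, InChart S Q →
      V.GE (-V.v c - l * U.theta V Q) (ev Q Z) := by
  obtain ⟨l, hl⟩ := exists_value_bound U.u_int U.u_res.mem (U.u_res₂ V) hZ hc
  refine ⟨l, fun Q hQ => ?_⟩
  rcases eq_or_ne (ev Q Z) 0 with h0 | h0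
  · exact Or.inl h0
  have hu := U.ev_ne V hQ
  have hne : c * ev Q Z * ev Q U.u ^ l ≠ 0 := mul_ne_zero (mul_ne_zero hc0 h0) (pow_ne_zero _ hu)
  have h1 := (V.mem_iff _ hne).1 (hl Q hQ)
  rw [V.v_mul _ _ (mul_ne_zero hc0 h0) (pow_ne_zero _ hu), V.v_mul _ _ hc0 h0,
    V.v_pow hu] at h1
  exact Or.inr (by rw [theta]; linarith)

variable (hS : S.Good)
include hS V

/-- On the first sheet values reduce to the first reduction. -/
theorem value_res (hZ : IntegralWrt L S.X Z) (h : S.R₁.Res Z z) {Q : Place L F}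
    (hQ : InChart S Q) (hθ : U.theta V Q = 0) :
    OrdGE (red hS Q) 0 z ∧ ∃ hm : ev Q Z ∈ A, π ⟨_, hm⟩ = ev (red hS Q) z := by
  obtain ⟨l, -, hreg⟩ := exists_pow_regular U V hZ h
  obtain ⟨ψ, hψ, hψw⟩ := exists_regular_lift hS hreg
  have hu := U.ev_ne V hQ
  obtain ⟨hu1, hub⟩ := U.ev_ub_of_theta_zero V hQ hS hθ
  obtain ⟨hw, hwe⟩ := red_spec hS hQ hψ hψw
  have hubord : OrdGE (red hS Q) 0 U.ub := U.ub_reg _ (red_finite hS hQ)
  have hub0 : (red hS Q).ord U.ub = 0 := by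
    refine le_antisymm ?_ (hubord.le_ord U.ub_ne)
    by_contra hlt
    exact hub ((ev_eq_zero_iff _ hubord).2 (ordGE_of_le (by omega)))
  have hz : OrdGE (red hS Q) 0 z := by
    rcases eq_or_ne z 0 with h0 | h0
    · exact Or.inl h0
    have h1 := hw.le_ord (mul_ne_zero h0 (pow_ne_zero l U.ub_ne))
    rw [(red hS Q).ord_mul h0 (pow_ne_zero l U.ub_ne), ord_pow, hub0, mul_zero, add_zero] at h1
    exact ordGE_of_le h1
  refine ⟨hz, ?_⟩
  have hint := integralWrt_mul hZ (integralWrt_pow U.u_int l)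
  obtain ⟨δ, l', hδ, hb⟩ := exists_small_bound U V (integralWrt_sub hint (integralWrt_α hψ))
    (by simpa using (h.mul (U.u_res.pow l)).sub (S.α₁ _ _ hψw))
  have hs := hb Q hQ
  rw [hθ, mul_zero, sub_zero] at hs
  rw [ev_sub Q (hQ.ordGE hint) (hQ.ordGE (integralWrt_α hψ)),
    ev_mul Q (hQ.ordGE hZ) (hQ.ordGE (integralWrt_pow U.u_int l)),
    ev_pow Q (hQ.ordGE U.u_int)] at hs
  have hmemd : ev Q Z * ev Q U.u ^ l - ev Q (S.α ψ) ∈ A := V.mem_iff_GE.2 (hs.mono V hδ.le)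
  have hres : π ⟨_, hmemd⟩ = 0 := V.res_iff_GT.2 (hs.gt V hδ)
  have hαm := ev_α_mem hS hQ hψ hψw
  have hui : (ev Q U.u)⁻¹ ∈ A :=
    (V.mem_iff _ (inv_ne_zero hu)).2 (by rw [V.v_inv hu, ← theta, hθ, neg_zero])
  have e : ev Q Z = (ev Q Z * ev Q U.u ^ l - ev Q (S.α ψ) + ev Q (S.α ψ)) *
      (ev Q U.u)⁻¹ ^ l := by
    rw [sub_add_cancel, inv_pow, mul_inv_cancel_right₀ (pow_ne_zero _ hu)]
  have hm : ev Q Z ∈ A := e ▸ mul_mem (add_mem hmemd hαm) (pow_mem hui _)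
  refine ⟨hm, ?_⟩
  have hprod : (⟨_, hm⟩ : A) * ⟨_, U.ev_mem V hQ⟩ ^ l = ⟨_, hmemd⟩ + ⟨_, hαm⟩ :=
    Subtype.ext (by push_cast; ring)
  have h2 := congrArg π hprod
  rw [map_mul, map_pow, map_add, hres, zero_add, hu1, hwe,
    ev_mul _ hz (by simpa using hubord.pow l), ev_pow _ hubord] at h2
  exact mul_right_cancel₀ (pow_ne_zero _ hub) h2

end FLTAgent.MazurPrinciple
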