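import Fermat.Agent.LocalEC.AtP
import Fermat.Agent.LocalEC.Inertia
import Fermat.Agent.LocalEC.Nodal

/-!
# Torsion at a node in residue characteristic `p`
-/

set_option autoImplicit false
set_option linter.style.haveILetI false

noncomputable section

namespace FLTAgent.MazurPrinciple

open WeierstrassCurve WeierstrassCurve.Affine IsLocalRing Polynomial FLTAgent.LocalEC
  FLTAgent.Torsion

variable {K : Type*} [Field K] [DecidableEq K] {A : ValuationSubring K}
  {W : WeierstrassCurve.Affine K} (hN : NodeModel A W)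

include hN

omit [DecidableEq K] in
theorem node_isElliptic : W.IsElliptic := by
  have e : W.Δ = W.a₄ ^ 2 * (W.b₂ ^ 2 - 64 * W.a₄) := by
    simp only [WeierstrassCurve.Δ, b₂, b₄, b₆, b₈, hN.a₃_eq, hN.a₆_eq]
    ring
  refine ⟨isUnit_iff_ne_zero.2 ?_⟩
  rw [e]
  refine mul_ne_zero (pow_ne_zero 2 hN.a₄_ne) fun h => ?_
  have h1 : A.valuation (W.b₂ ^ 2 - 64 * W.a₄) = 1 := by
    rw [A.valuation.map_sub_eq_of_lt_left, map_pow, hN.b₂_unit, one_pow]
    rw [map_pow, hN.b₂_unit, one_pow, map_mul]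
    exact (mul_le_of_le_one_left' (val_le_one (natCast_mem A 64))).trans_lt hN.a₄_lt
  rw [h, map_zero] at h1
  exact zero_ne_one h1

/-- In characteristic `p` the smooth part of a node has no `p`-torsion. -/
theorem inE1_of_inE0_of_nsmul [IsAlgClosed (ResidueField A)] {p : ℕ} [hp : Fact p.Prime]
    [CharP (ResidueField A) p] {P : W.Point} (hP : InE0 hN.toIntCoeff P) (hpP : p • P = 0) :
    InE1 A P := by
  classical
  set V := hN.toIntCoeff.redCurve
  have ha₃ : V.a₃ = 0 := (residue_eq_zero_iff_val_lt_one _).mpr (by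
    show A.valuation W.a₃ < 1; rw [hN.a₃_eq, map_zero]; exact zero_lt_one)
  have ha₆ : V.a₆ = 0 := (residue_eq_zero_iff_val_lt_one _).mpr (by
    show A.valuation W.a₆ < 1; rw [hN.a₆_eq, map_zero]; exact zero_lt_one)
  have ha₄ : V.a₄ = 0 := (residue_eq_zero_iff_val_lt_one _).mpr hN.a₄_lt
  have hb₂ : V.a₁ ^ 2 + 4 * V.a₂ ≠ 0 := by
    have h := (residue_ne_zero_iff_val_eq_one ⟨_, hN.mem_b₂⟩).mpr hN.b₂_unit
    have e : residue A ⟨_, hN.mem_b₂⟩ = V.a₁ ^ 2 + 4 * V.a₂ := by
      change _ = residue A ⟨_, hN.mem₁⟩ ^ 2 + 4 * residue A ⟨_, hN.mem₂⟩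
      rw [← map_pow, ← map_ofNat (residue A) 4, ← map_mul, ← map_add]
      rfl
    rwa [e] at h
  obtain ⟨d, hd⟩ := IsAlgClosed.exists_root
    (Polynomial.C 1 * Polynomial.X ^ 2 + Polynomial.C V.a₁ * Polynomial.X + Polynomial.C (-V.a₂))
    (by rw [Polynomial.degree_quadratic (one_ne_zero (α := ResidueField A))]; decide)
  simp only [Polynomial.IsRoot, Polynomial.eval_add, Polynomial.eval_mul, Polynomial.eval_C,
    Polynomial.eval_pow, Polynomial.eval_X, one_mul] at hd
  set d' := -V.a₁ - d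
  have hc : IsNodal V d d' :=
    ⟨by simp [d'], by simp only [d']; linear_combination -hd, ha₃, ha₄, ha₆,
      fun e => hb₂ (by
        simp only [d'] at e
        linear_combination (-4 : ResidueField A) * hd + (d - (-V.a₁ - d)) * e)⟩
  have hpow : ∀ (m : ℕ) (R : V.Point), nodeParam d d' (m • R) = nodeParam d d' R ^ m := by
    intro m R
    induction m with
    | zero => rw [zero_nsmul, pow_zero]; rfl
    | succ m IH => rw [succ_nsmul, hc.nodeParam_add, IH, pow_succ]
  have h1 : redHom hN.toIntCoeff (p • ⟨P, hP⟩) = 0 := by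
    rw [show p • (⟨P, hP⟩ : e0Subgroup hN.toIntCoeff) = 0 from Subtype.ext hpP, map_zero]
  rw [map_nsmul] at h1
  have h2 : nodeParam d d' (redHom hN.toIntCoeff ⟨P, hP⟩) = 1 := by
    refine frobenius_inj (ResidueField A) p ?_
    rw [frobenius_def, frobenius_def, one_pow, ← hpow, h1]
    rfl
  exact (redHom_eq_zero_iff hN.toIntCoeff ⟨P, hP⟩).1 (hc.nodeParam_injective h2)

omit [DecidableEq K] in
theorem node_b₈ : W.b₈ = -W.a₄ ^ 2 := hN.b₈_eq

/-- The values at the node of the multiplication polynomials. -/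
theorem mulPoly_eval_node [IsAlgClosed K] [CharZero K] [W.IsElliptic] (j : ℕ) :
    ∀ {Ae Be Ao Bo : K[X]}, IsMulPoly W (2 * j) Ae Be → IsMulPoly W (2 * j + 1) Ao Bo →
      A.valuation (Ae.eval 0) = A.valuation W.a₄ ^ (2 * j ^ 2) ∧
      A.valuation (Bo.eval 0) = A.valuation W.a₄ ^ (2 * j * (j + 1)) := by
  induction j with
  | zero =>
    intro Ae Be Ao Bo he ho
    obtain ⟨rfl, -⟩ := isMulPoly_unique he isMulPoly_zero
    obtain ⟨-, rfl⟩ := isMulPoly_unique ho isMulPoly_one
    simp
  | succ j IH =>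
    intro Ae' Be' Ao' Bo' he' ho'
    obtain ⟨Ae, Be, he⟩ := exists_isMulPoly (W := W) (2 * j)
    obtain ⟨Ao, Bo, ho⟩ := exists_isMulPoly (W := W) (2 * j + 1)
    obtain ⟨h1, h2⟩ := IH he ho
    set u := A.valuation W.a₄
    have hu : u ≠ 0 := (Valuation.ne_zero_iff _).2 hN.a₄_ne
    -- the numerators of `2 j` and `2 j + 2` multiply to the first step polynomial
    have hA : Ae * Ae' = stepPoly W Ao Bo 0 := by
      have hden := mulPoly_den_mul he ho he'
      have hS : stepPoly W Ao Bo 2 = Be * Be' := by rw [hden, stepPoly]; simp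
      have h0 : (stepPoly W Ao Bo 0 - Ae * Ae') * (Be * Be') = 0 := by
        refine Polynomial.funext fun x => ?_
        obtain ⟨y, hy⟩ := exists_point_of_X (W := W) x
        obtain ⟨c, -, e₀, -, e₂⟩ := he.step_relation ho x y hy
        obtain ⟨d, -, er⟩ := he'.xRep_nsmul x y hy
        rw [show 2 * (j + 1) = 2 * j + 2 from by ring] at er
        simp only [er] at e₀ e₂
        simp at e₀ e₂
        rw [hS, eval_mul] at e₂
        rw [eval_mul, eval_mul, eval_sub, eval_mul, eval_zero, e₀]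
        linear_combination (Ae.eval x * Ae'.eval x) * (-e₂)
      rcases eq_or_ne j 0 with rfl | hj
      · obtain ⟨rfl, rfl⟩ := isMulPoly_unique he isMulPoly_zero
        obtain ⟨rfl, rfl⟩ := isMulPoly_unique ho isMulPoly_one
        have hT0 : stepPoly W X 1 0 = X ^ 4 + C (-W.b₄) * X ^ 2 + C (-W.b₈) := by
          simp [stepPoly, hN.b₆_eq]
          ring
        have hmon : (stepPoly W X 1 0).Monic ∧ (stepPoly W X 1 0).natDegree = 4 := by
          rw [hT0]
          exact ⟨by monicity!, by compute_degree!⟩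
        have hcross : stepPoly W X 1 0 * Be' = stepPoly W X 1 1 * Ae' := by
          refine Polynomial.funext fun x => ?_
          obtain ⟨y, hy⟩ := exists_point_of_X (W := W) x
          obtain ⟨c, -, e₀, e₁, -⟩ := he.step_relation ho x y hy
          obtain ⟨d, -, er⟩ := he'.xRep_nsmul x y hy
          simp only [er] at e₀ e₁
          simp at e₀ e₁
          rw [eval_mul, eval_mul, e₀, e₁]
          ring
        rw [one_mul]
        have hdvd : Ae' ∣ stepPoly W X 1 0 :=
          he'.coprime.dvd_of_dvd_mul_right ⟨stepPoly W X 1 1, hcross.trans (mul_comm _ _)⟩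
        exact (eq_of_monic_of_dvd_of_natDegree_le he'.monic hmon.1 hdvd
          (by rw [hmon.2, he'.natDegree_eq]; norm_num)).symm
      · refine (sub_eq_zero.1 ((mul_eq_zero.1 h0).resolve_right (mul_ne_zero
          (mulPoly_den_natDegree he (by omega)).1 (mulPoly_den_natDegree he' (by omega)).1))).symm
    have h3 : A.valuation (Ae'.eval 0) = u ^ (2 * (j + 1) ^ 2) := by
      have e := congrArg (fun q : K[X] => A.valuation (q.eval 0)) hA
      have e0 : (stepPoly W Ao Bo 0).eval 0 = W.a₄ ^ 2 * Bo.eval 0 ^ 2 := by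
        rw [stepPoly]
        simp [hN.b₆_eq, hN.b₈_eq]
      simp only [eval_mul, map_mul, e0, map_pow, h1, h2] at e
      refine mul_left_cancel₀ (pow_ne_zero (2 * j ^ 2) hu) (e.trans ?_)
      rw [← pow_mul, ← pow_add, ← pow_add]
      congr 1
      ring
    refine ⟨h3, ?_⟩
    have e := congrArg (fun q : K[X] => A.valuation (q.eval 0)) (mulPoly_den_mul ho he' ho')
    simp only [eval_mul, map_mul, eval_pow, eval_sub, eval_X, zero_mul, sub_zero, map_pow, h2,
      h3] at e
    refine mul_left_cancel₀ (pow_ne_zero (2 * j * (j + 1)) hu) (e.trans ?_)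
    rw [← pow_mul, ← pow_add]
    congr 1
    ring

/-- The denominator of multiplication by an odd `p ≥ 3` is small at the node. -/
theorem mulPoly_den_node_lt [IsAlgClosed K] [CharZero K] [W.IsElliptic] {p : ℕ} (hp : Odd p)
    (h3 : 3 ≤ p) {Ao Bo : K[X]} (h : IsMulPoly W p Ao Bo) : A.valuation (Bo.eval 0) < 1 := by
  obtain ⟨j, rfl⟩ := hp
  obtain ⟨Ae, Be, he⟩ := exists_isMulPoly (W := W) (2 * j)
  rw [(mulPoly_eval_node hN j he h).2]
  exact pow_lt_one₀ zero_le hN.a₄_lt (Nat.mul_ne_zero (by omega) (by omega))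

omit [DecidableEq K] in
/-- The abscissa of the difference of a point outside `E₀` and a conjugate congruent to it. -/
theorem val_sub_abscissa {σ : K →+* K} (hσ : ResidueFix A σ) {x y : K} (he : W.Equation x y)
    (hu : A.valuation W.a₄ < A.valuation x) (hx : A.valuation x < 1)
    (hv : A.valuation (σ x) = A.valuation x) (hne : x ≠ σ x)
    (hD : 1 < A.valuation (W.addX x (σ x) ((y + σ y + W.a₁ * σ x + W.a₃) / (x - σ x)))) :
    A.valuation (W.addX x (σ x) ((y + σ y + W.a₁ * σ x + W.a₃) / (x - σ x))) *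
      A.valuation (x - σ x) ^ 2 = A.valuation x ^ 2 := by
  have hx0 : (0 : A.ValueGroup) < A.valuation x := hN.u_pos.trans hu
  have hxne : x ≠ 0 := A.valuation.pos_iff.mp hx0
  set F := y + σ y + W.a₁ * σ x + W.a₃ with hF
  set d := x - σ x with hd
  set X₃ := W.addX x (σ x) (F / d) with hX₃
  have hd0 : d ≠ 0 := sub_ne_zero.2 hne
  have hr : y / x ∈ A := mem_of_val_le_one (by
    rw [map_div₀]; exact div_le_one_of_le₀ (hN.val_y_le he hu.le hx.le) zero_le)
  have hσy : σ y - y = σ (y / x) * (σ x - x) + (σ (y / x) - y / x) * x := by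
    rw [map_div₀]
    have : σ x ≠ 0 := (map_ne_zero σ).2 hxne
    field_simp
    ring
  have hsmall : A.valuation ((σ (y / x) - y / x) * x) < A.valuation x := by
    rw [map_mul]; exact mul_lt_of_lt_one_left hx0 (hσ _ hr)
  have hdle : A.valuation d ≤ A.valuation x := A.valuation.map_sub_le le_rfl hv.le
  have hFeq : F = psi W x y + ((σ y - y) + W.a₁ * (σ x - x)) := by
    rw [hF, hN.psi_eq, hN.a₃_eq]; ring
  have hid : X₃ * d ^ 2 = F ^ 2 + (W.a₁ * F * d - (W.a₂ + x + σ x) * d ^ 2) := by
    rw [hX₃]; simp only [addX]; field_simp; ring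
  have hrest : ∀ c : A.ValueGroup, A.valuation d ≤ c →
      A.valuation (W.a₁ * (σ x - x)) ≤ c ∧ A.valuation (σ (y / x) * (σ x - x)) ≤ c := by
    intro c hc
    rw [map_mul, map_mul, A.valuation.map_sub_swap (σ x) x, ← hd]
    exact ⟨(mul_le_of_le_one_left' (val_le_one hN.mem₁)).trans hc,
      (mul_le_of_le_one_left' (val_le_one (hσ.map_mem hr))).trans hc⟩
  have hsum : A.valuation (W.a₂ + x + σ x) ≤ 1 :=
    val_le_one (add_mem (add_mem hN.mem₂ (mem_of_val_le_one hx.le))
      (mem_of_val_le_one (hv.le.trans hx.le)))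
  have hdlt : A.valuation d < A.valuation x := by
    refine hdle.lt_of_ne fun h => ?_
    have hFle : A.valuation F ≤ A.valuation x := by
      rw [hFeq]
      refine A.valuation.map_add_le (hN.val_psi he hu hx).le (A.valuation.map_add_le ?_ (hrest _ hdle).1)
      rw [hσy]
      exact A.valuation.map_add_le (hrest _ hdle).2 hsmall.le
    have hle : A.valuation (X₃ * d ^ 2) ≤ A.valuation x ^ 2 := by
      rw [hid]
      refine A.valuation.map_add_le (by rw [map_pow]; exact pow_le_pow_left₀ zero_le hFle 2)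
        (A.valuation.map_sub_le ?_ ?_)
      · rw [map_mul, map_mul, sq]
        exact mul_le_mul' ((mul_le_of_le_one_left' (val_le_one hN.mem₁)).trans hFle) hdle
      · rw [map_mul, map_pow]
        exact (mul_le_of_le_one_left' hsum).trans (pow_le_pow_left₀ zero_le hdle 2)
    rw [map_mul, map_pow, h] at hle
    exact absurd hle (not_le.2 (lt_mul_of_one_lt_left (pow_pos hx0 2) hD))
  have hFv : A.valuation F = A.valuation x := by
    rw [hFeq, A.valuation.map_add_eq_of_lt_left, hN.val_psi he hu hx]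
    rw [hN.val_psi he hu hx]
    refine A.valuation.map_add_lt ?_ ((hrest _ le_rfl).1.trans_lt hdlt)
    rw [hσy]
    exact A.valuation.map_add_lt ((hrest _ le_rfl).2.trans_lt hdlt) hsmall
  have hv2 : A.valuation (F ^ 2) = A.valuation x ^ 2 := by rw [map_pow, hFv]
  rw [← map_pow, ← map_mul, hid, A.valuation.map_add_eq_of_lt_left, hv2]
  rw [hv2]
  refine A.valuation.map_sub_lt ?_ ?_
  · rw [map_mul, map_mul, sq, hFv]
    exact mul_lt_mul' (mul_le_of_le_one_left' (val_le_one hN.mem₁)) hdlt zero_le hx0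
  · rw [map_mul, map_pow]
    exact (mul_le_of_le_one_left' hsum).trans_lt (pow_lt_pow_left₀ hdlt zero_le two_ne_zero)

end FLTAgent.MazurPrinciple
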