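import Fermat.Agent.MazurPrinciple.WildField
import Fermat.Agent.MazurPrinciple.FreyNode
import Fermat.Agent.LocalEC.FreyAtP
import Fermat.Agent.FrobTrace.Global

/-!
# The Frey curve at a place over `p ∣ abc`

The kernel of reduction on the `p`-torsion is a line, inertia is `(χ *; 0 1)`, and the abscissa of a
point outside the line gives a unit moved as far as `ζ - 1`.
-/

set_option autoImplicit false
set_option linter.style.haveILetI false
set_option maxHeartbeats 800000

noncomputable section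

namespace FLTAgent.MazurPrinciple

open WeierstrassCurve WeierstrassCurve.Affine IsLocalRing FLTAgent.LocalEC
open scoped WeierstrassCurve.Affine

local notation "QA" => AlgebraicClosure ℚ
local notation "GG" => (AlgebraicClosure ℚ ≃ₐ[ℚ] AlgebraicClosure ℚ)

variable (P : FreyPackage) {A : ValuationSubring QA}

/-- The abscissa of a point of the kernel of reduction is at most `p ^ (-2/(p-1))`. -/
theorem frey_abscissa_bound (hA : A.LiesOverPrime P.p) {x₀ y₀ : QA}
    (h₀ : (freyBar P).Nonsingular x₀ y₀) (hx₀ : x₀ ∉ A)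
    (hT : P.p • Point.some x₀ y₀ h₀ = 0) :
    A.valuation (P.p : QA) * A.valuation x₀ ^ ((P.p - 1) / 2) ≤ 1 := by
  classical
  have hp2 : P.p ≠ 2 := by have := P.hp5; omega
  have hW := intCoeff_frey P P.pp hp2 hA
  set R := Point.some x₀ y₀ h₀ with hR
  have hv1 : ∀ {k : ℕ}, ¬P.p ∣ k → A.valuation (k : QA) = 1 := val_natCast_eq_one hA P.pp
  obtain ⟨X, hX, hprod⟩ := frey_torsion_product P hA
  have hhalf : ∀ k ∈ Finset.Icc 1 ((P.p - 1) / 2), ¬P.p ∣ k := fun k hk hd => by
    rw [Finset.mem_Icc] at hk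
    have := Nat.le_of_dvd hk.1 hd
    omega
  let g : ℕ → QA := fun k => match k • R with
    | .zero => 0
    | .some x _ _ => x
  have hg : ∀ k, ¬P.p ∣ k → ∃ y h, k • R = Point.some (g k) y h ∧ g k ∉ A ∧
      A.valuation (g k) = A.valuation x₀ := by
    intro k hk
    obtain ⟨x', y', h', e, hx', hv', -⟩ := e1_nsmul hW (h := h₀) hx₀ (hv1 hk)
    have hgk : g k = x' := by simp only [g, hR, e]
    exact ⟨y', hgk ▸ h', by rw [e]; congr 1; exact hgk.symm, hgk ▸ hx', hgk ▸ hv'⟩
  have hinj : Set.InjOn g (Finset.Icc 1 ((P.p - 1) / 2)) := by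
    intro a ha b hb e
    rw [Finset.mem_coe] at ha hb
    obtain ⟨ya, hya, ea, -⟩ := hg a (hhalf a ha)
    obtain ⟨yb, hyb, eb, -⟩ := hg b (hhalf b hb)
    rw [Finset.mem_Icc] at ha hb
    have key : ∀ n : ℕ, 0 < n → n < P.p → n • R ≠ 0 := fun n h1 h2 h => by
      refine Point.some_ne_zero h₀ ?_
      exact eq_zero_of_inE1_of_nsmul hW (inE1_some_iff.mpr hx₀)
        (hv1 fun hd => absurd (Nat.le_of_dvd h1 hd) (not_le.mpr h2)) h
    rcases (Point.X_eq_iff (h₁ := hya) (h₂ := hyb)).mp e with e' | e'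
    · rw [← ea, ← eb] at e'
      by_contra hne
      rcases Nat.lt_or_gt_of_ne hne with hlt | hlt
      · refine key (b - a) (by omega) (by omega) ?_
        rw [sub_nsmul _ hlt.le, e', add_neg_cancel]
      · refine key (a - b) (by omega) (by omega) ?_
        rw [sub_nsmul _ hlt.le, e', add_neg_cancel]
    · rw [← ea, ← eb] at e'
      exact absurd (by rw [add_nsmul, e', neg_add_cancel]) (key (a + b) (by omega) (by omega))
  have hsub : (Finset.Icc 1 ((P.p - 1) / 2)).image g ⊆ X := by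
    intro r hr
    rw [Finset.mem_image] at hr
    obtain ⟨k, hk, rfl⟩ := hr
    obtain ⟨y, h, e, hgA, -⟩ := hg k (hhalf k hk)
    exact (hX _).2 ⟨hgA, y, h, by rw [← e, smul_comm, hT, nsmul_zero]⟩
  have himg : ∏ r ∈ (Finset.Icc 1 ((P.p - 1) / 2)).image g, A.valuation r =
      A.valuation x₀ ^ ((P.p - 1) / 2) := by
    rw [Finset.prod_image hinj, Finset.prod_congr rfl fun k hk =>
      (hg k (hhalf k hk)).choose_spec.choose_spec.2.2, Finset.prod_const, Nat.card_Icc,
      Nat.add_sub_cancel]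
  rw [← hprod, ← himg, ← Finset.prod_sdiff hsub]
  exact mul_le_mul_right (le_mul_of_one_le_left' (Finset.one_le_prod fun r hr =>
    (not_mem_iff_one_lt_val.mp ((hX r).1 (Finset.mem_sdiff.1 hr).1).1).le)) _

/-- The node model of the Frey curve at a place over `p ∣ abc`. -/
theorem exists_node (hA : A.LiesOverPrime P.p) (habc : (P.p : ℤ) ∣ P.a * P.b * P.c) :
    ∃ (W' : WeierstrassCurve.Affine QA) (C : PointChange (freyBar P) W') (m : ℤ),
      C.u = 1 ∧ C.s = 0 ∧ C.r ∈ A ∧ (∀ σ : GG, σ C.r = C.r ∧ σ C.t = C.t) ∧ NodeModel A W' ∧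
      A.valuation (m : QA) ^ P.p = A.valuation W'.a₄ := by
  have hp2 : P.p ≠ 2 := by have := P.hp5; omega
  rcases freyReduction P P.pp hp2 hA with ⟨hW, hΔ⟩ | ⟨W', C, hu, hs, hr, hfix, hN, m, hm⟩
  · exfalso
    rw [freyBar_Δ] at hΔ
    have h256 : A.valuation ((256 : ℕ) : QA) = 1 := val_natCast_eq_one hA P.pp fun h => hp2 <| by
      have h' : P.p ∣ 2 ^ 8 := h
      exact (Nat.prime_dvd_prime_iff_eq P.pp Nat.prime_two).mp (P.pp.dvd_of_dvd_pow h')
    push_cast at h256
    rw [map_div₀, h256, div_one, map_pow] at hΔ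
    have hlt : A.valuation (((P.a * P.b * P.c : ℤ) : QA) ^ P.p) < 1 := by
      rw [map_pow]
      exact pow_lt_one₀ zero_le (val_intCast_lt_one hA habc) P.hp0
    push_cast at hlt
    rw [mul_pow, mul_pow] at hlt
    exact (pow_lt_one₀ zero_le hlt two_ne_zero).ne hΔ
  · exact ⟨W', C, m, hu, hs, hr, hfix, hN, hm⟩

omit P in
theorem v_le_of_val_le {p : ℕ} [Fact p.Prime] (hA : A.LiesOverPrime p) {a b : QA} (ha : a ≠ 0)
    (hb : b ≠ 0) (h : A.valuation a ≤ A.valuation b) :
    (ratVal hA).v b ≤ (ratVal hA).v a := by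
  have h1 : a / b ∈ A := mem_of_val_le_one (by rw [map_div₀]; exact div_le_one_of_le₀ h zero_le)
  have h2 := ((ratVal hA).mem_iff _ (div_ne_zero ha hb)).1 h1
  rw [(ratVal hA).v_div ha hb] at h2
  linarith

/-- The local structure of the `p`-torsion of the Frey curve over `p ∣ abc`. -/
theorem exists_frey_place [Fact P.p.Prime] (hA : A.LiesOverPrime P.p)
    (habc : (P.p : ℤ) ∣ P.a * P.b * P.c) :
    ∃ (R T : freyTorsion P) (w : QA), R ≠ 0 ∧
      (∀ x : freyTorsion P, ∃ a b : ℕ, x = a • R + b • T) ∧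
      (∀ σ ∈ A.inertiaSubgroupIn ℚ,
        σ • R = ExtCitation.cycloExp P.p σ • R ∧ ∃ c : ℕ, σ • T = T + c • R) ∧
      w ≠ 0 ∧ (ratVal hA).v w = 0 ∧ (∀ τ : GG, τ • T = T → τ w = w) ∧
      (∀ σ ∈ A.inertiaSubgroupIn ℚ, σ • T ≠ T →
        ¬ (ratVal hA).GT (1 / ((P.p : ℚ) - 1)) (σ w - w)) := by
  classical
  have hp : P.p.Prime := P.pp
  have hp2 : P.p ≠ 2 := by have := P.hp5; omega
  have hW := intCoeff_frey P P.pp hp2 hA
  haveI : CharP (ResidueField A) P.p := FrobTrace.charP_residueField hA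
  haveI : IsAlgClosed (ResidueField A) := FrobTrace.isAlgClosed_residueField A
  obtain ⟨W', C, m, hu, hs, hr, hfix, hN, hm⟩ := exists_node P hA habc
  haveI := node_isElliptic hN
  have hpre : ∀ {x y : QA} (h : (freyBar P).Nonsingular x y),
      ∃ (x' y' : QA) (h' : W'.Nonsingular x' y'),
        C.pointMap (Point.some x' y' h') = Point.some x y h := by
    intro x y h
    obtain ⟨x', y', he, ex, ey⟩ := C.exists_preimage h.1
    subst ex ey
    exact ⟨x', y', C.nonsingular_of_map he h, rfl⟩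
  have eX : ∀ z, C.X z = z + C.r := fun z => by rw [PointChange.X, hu, one_pow, one_mul]
  have hshift : ∀ z : QA, z ∉ A → A.valuation (z + C.r) = A.valuation z := fun z hz =>
    A.valuation.map_add_eq_of_lt_left ((val_le_one hr).trans_lt (not_mem_iff_one_lt_val.mp hz))
  -- the kernel of reduction on the torsion
  let H : AddSubgroup (freyTorsion P) :=
    (e1Subgroup hW).comap (freyTorsion P).subtype.toAddMonoidHom
  let M : Submodule (ZMod P.p) (freyTorsion P) := AddSubgroup.toZModSubmodule P.p H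
  have hM : ∀ x : freyTorsion P, x ∈ M ↔ InE1 (W := freyBar P) A x.1 := fun x => Iff.rfl
  obtain ⟨X, hX, hprod⟩ := frey_torsion_product P hA
  have hne : X.Nonempty := by
    by_contra hc
    rw [Finset.not_nonempty_iff_eq_empty] at hc
    rw [hc, Finset.prod_empty, mul_one] at hprod
    exact (A.mem_nonunits_iff.mp hA : A.valuation (P.p : QA) < 1).ne hprod
  obtain ⟨r₀, hr₀⟩ := hne
  obtain ⟨hr₀A, s₀, hs₀, hR₀⟩ := (hX r₀).mp hr₀
  set R₀ : freyTorsion P := ⟨Point.some r₀ s₀ hs₀, (torsion_iff P).mpr hR₀⟩ with hR₀def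
  have hR₀M : R₀ ∈ M := (hM _).mpr (inE1_some_iff.mpr hr₀A)
  have hR₀0 : R₀ ≠ 0 := fun e => Point.some_ne_zero hs₀ (congrArg Subtype.val e)
  have hMtop : M ≠ ⊤ := by
    intro htop
    have hall : ∀ T : (freyBar P).Point, P.p • T = 0 → InE1 A T := fun T hT =>
      (hM ⟨T, (torsion_iff P).mpr hT⟩).mp (htop ▸ Submodule.mem_top)
    obtain ⟨Am, B, hmul⟩ := FLTAgent.Torsion.exists_isMulPoly (W := W') P.p
    have hBne := (mulPoly_den_natDegree hmul hp.ne_zero).1
    have hroot : ∀ r, r ∈ B.roots.toFinset →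
        r ∉ A ∧ ∃ s h, P.p • Point.some (W' := W') r s h = 0 := by
      intro r hr'
      rw [Multiset.mem_toFinset, Polynomial.mem_roots hBne] at hr'
      obtain ⟨s, hs'⟩ := FLTAgent.Torsion.exists_point_of_X (W := W') r
      have hp0 := (hmul.nsmul_eq_zero_iff hs').mpr hr'
      have h1 := hall (C.pointMap (Point.some r s hs')) (by rw [← map_nsmul, hp0, map_zero])
      rw [inE1_pointMap C hu hr, inE1_some_iff] at h1
      exact ⟨h1, s, hs', hp0⟩
    have hbij : ∏ r ∈ B.roots.toFinset, A.valuation r = ∏ r ∈ X, A.valuation r := by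
      refine Finset.prod_bij (fun r _ => C.X r) (fun r hr' => ?_) (fun a _ b _ h => C.X_injective h)
        (fun r hr' => ?_) fun r hr' => ?_
      · obtain ⟨hrA, s, h, hp0⟩ := hroot r hr'
        refine (hX _).2 ⟨?_, C.Y r s, C.nonsingular_map h, ?_⟩
        · rw [eX, add_mem_cancel_right hr]; exact hrA
        · rw [← C.pointMap_some h, ← map_nsmul, hp0, map_zero]
      · obtain ⟨hrA, s, h, hp0⟩ := (hX r).1 hr'
        obtain ⟨x', y', h', e⟩ := hpre h
        have hp' : P.p • Point.some x' y' h' = 0 := C.pointMap_injective (by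
          rw [map_nsmul, e, hp0, map_zero])
        rw [C.pointMap_some, Point.some.injEq] at e
        exact ⟨x', Multiset.mem_toFinset.2 ((Polynomial.mem_roots hBne).2
          ((hmul.nsmul_eq_zero_iff h').mp hp')), e.1⟩
      · rw [eX, hshift r (hroot r hr').1]
    have hlt := mulPoly_den_node_lt hN P.hp_odd (by have := P.hp5; omega) hmul
    rw [mulPoly_den_eval P.hp_odd hmul 0, map_mul, map_pow, map_pow, ← mul_pow, map_prod,
      Finset.prod_congr rfl (fun r _ => by rw [zero_sub, A.valuation.map_neg]), hbij, hprod,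
      one_pow] at hlt
    exact lt_irrefl _ hlt
  haveI : WeierstrassCurve.IsElliptic (P.freyCurve⁄QA) := freyBar_isElliptic P
  have hn0 : ((P.p : ℕ) : QA) ≠ 0 := Nat.cast_ne_zero.mpr P.hp0
  haveI := FLTAgent.Torsion.finite_torsionBy (W := P.freyCurve) (K := QA) hn0
  have h2 : Module.finrank (ZMod P.p) (freyTorsion P) = 2 :=
    FLTAgent.Torsion.finrank_torsionBy (W := P.freyCurve) (K := QA) hn0
  have hspan : Submodule.span (ZMod P.p) {R₀} = M := by
    have hlt : Module.finrank (ZMod P.p) M < 2 := h2 ▸ Submodule.finrank_lt hMtop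
    exact Submodule.eq_of_le_of_finrank_le ((Submodule.span_singleton_le_iff_mem _ _).mpr hR₀M)
      (by rw [finrank_span_singleton hR₀0]; omega)
  have hmemM : ∀ x ∈ M, ∃ k : ℕ, x = k • R₀ := by
    intro x hx
    rw [← hspan, Submodule.mem_span_singleton] at hx
    obtain ⟨c, hc⟩ := hx
    exact ⟨c.val, by rw [← hc, ← Nat.cast_smul_eq_nsmul (ZMod P.p), ZMod.natCast_zmod_val]⟩
  have hline : ∀ T : (freyBar P).Point, P.p • T = 0 → InE1 A T →
      ∃ k : ℕ, T = k • Point.some r₀ s₀ hs₀ := by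
    intro T hT hT1
    obtain ⟨k, hk⟩ := hmemM ⟨T, (torsion_iff P).mpr hT⟩ ((hM _).mpr hT1)
    exact ⟨k, congrArg Subtype.val hk⟩
  -- a point outside the line
  obtain ⟨T₀, -, hT₀M⟩ := SetLike.exists_of_lt (lt_top_iff_ne_top.mpr hMtop)
  obtain ⟨T', hTp⟩ := T₀
  rcases T' with _ | ⟨xb, yb, hb⟩
  · exact absurd M.zero_mem hT₀M
  replace hb : (freyBar P).Nonsingular xb yb := hb
  obtain ⟨x, y, h, e⟩ := hpre hb
  set T₁ := Point.some x y h with hT₁
  have hpb : P.p • Point.some xb yb hb = 0 := (torsion_iff P).mp hTp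
  have hp1 : P.p • T₁ = 0 := C.pointMap_injective (by rw [map_nsmul, e, map_zero]; exact hpb)
  set T : freyTorsion P := ⟨Point.some xb yb hb, hTp⟩ with hTdef
  have hTM : T ∉ M := hT₀M
  have h0 : ¬InE0 hN.toIntCoeff T₁ := fun h0 => hTM <| (hM T).2 <| by
    show InE1 A (Point.some xb yb hb)
    rw [← e, inE1_pointMap C hu hr]
    exact inE1_of_inE0_of_nsmul hN h0 hp1
  obtain ⟨k, -, -, hk⟩ := hN.exists_xVal_pow_eq hp2 hp1 h0
  have hu' : A.valuation W'.a₄ < A.valuation x := by
    have := hN.u_lt_xVal P.hp_odd hp1 h0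
    rwa [hT₁, xVal_some] at this
  have hx1 : A.valuation x < 1 := by
    have := hN.not_inE0_iff.mp h0
    rwa [hT₁, xVal_some] at this
  have hxv : A.valuation x = A.valuation ((m : QA) ^ (2 * k)) := by
    rw [hT₁, xVal_some, ← hm, ← pow_mul, mul_comm P.p (2 * k), pow_mul] at hk
    rw [map_pow]
    exact (pow_left_inj₀ zero_le zero_le hp.ne_zero).mp hk
  have hxne : x ≠ 0 := A.valuation.pos_iff.mp (hN.u_pos.trans hu')
  set c : QA := (m : QA) ^ (2 * k) with hc
  have hc0 : c ≠ 0 := fun h' => hxne (A.valuation.zero_iff.1 (by rw [hxv, h', map_zero]))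
  have hcfix : ∀ σ : GG, σ c = c := fun σ => by rw [hc, map_pow, map_intCast]
  set w : QA := x / c with hw
  have hw0 : w ≠ 0 := div_ne_zero hxne hc0
  have heX : ∀ σ : GG, ∀ z, σ (C.X z) = C.X (σ z) := fun σ z => by
    rw [eX, eX, map_add, (hfix σ).1]
  have heY : ∀ σ : GG, ∀ z z', σ (C.Y z z') = C.Y (σ z) (σ z') := fun σ z z' => by
    simp [PointChange.Y, hu, hs, (hfix σ).2]
  refine ⟨R₀, T, w, hR₀0, fun z => ?_, fun σ hσ => ⟨?_, ?_⟩, hw0, ?_, fun τ hτ => ?_,
    fun σ hσ hσT => ?_⟩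
  · have htop : Submodule.span (ZMod P.p) {R₀, T} = ⊤ := by
      refine Submodule.eq_top_of_finrank_eq (le_antisymm (Submodule.finrank_le _) ?_)
      have hlt : M < Submodule.span (ZMod P.p) {R₀, T} := by
        refine lt_of_le_of_ne (hspan ▸ Submodule.span_mono (by simp)) fun he => hTM ?_
        rw [he]
        exact Submodule.subset_span (by simp)
      have h3 := Submodule.finrank_lt_finrank_of_lt hlt
      have h4 : Module.finrank (ZMod P.p) M = 1 := by
        rw [← hspan]; exact finrank_span_singleton hR₀0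
      omega
    have hz : z ∈ Submodule.span (ZMod P.p) {R₀, T} := htop ▸ Submodule.mem_top
    obtain ⟨a, b, hab⟩ := Submodule.mem_span_pair.1 hz
    exact ⟨a.val, b.val, by
      rw [← Nat.cast_smul_eq_nsmul (ZMod P.p), ← Nat.cast_smul_eq_nsmul (ZMod P.p),
        ZMod.natCast_zmod_val, ZMod.natCast_zmod_val, hab]⟩
  · exact Subtype.ext (frey_inertia_e1 P hA hs₀ hr₀A hR₀ hline hσ)
  · have h1 : InE1 A (σ • (Point.some xb yb hb : (freyBar P).Point) - Point.some xb yb hb) := by
      rw [← neg_sub, inE1_neg]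
      exact frey_sub_smul_inE1 P hp hp2 hA hσ hpb
    obtain ⟨d, hd⟩ := hmemM (σ • T - T) ((hM _).2 h1)
    exact ⟨d, by rw [← hd]; abel⟩
  · have h1 := v_le_of_val_le hA hw0 one_ne_zero
      (by rw [hw, map_div₀, map_one, hxv, div_self ((Valuation.ne_zero_iff _).2 hc0)])
    have h2 := v_le_of_val_le hA one_ne_zero hw0
      (by rw [hw, map_div₀, map_one, hxv, div_self ((Valuation.ne_zero_iff _).2 hc0)])
    rw [(ratVal hA).v_one] at h1 h2
    exact le_antisymm h2 h1
  · obtain ⟨h', e'⟩ := smul_some P τ hb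
    have h1 : τ • (Point.some xb yb hb : (freyBar P).Point) = Point.some xb yb hb :=
      congrArg Subtype.val hτ
    rw [e', Point.some.injEq] at h1
    have e1 := e
    rw [hT₁, C.pointMap_some, Point.some.injEq] at e1
    have h2 : τ x = x := C.X_injective (by rw [← heX, e1.1]; exact h1.1)
    rw [hw, map_div₀, h2, hcfix]
  -- the move of `w`
  have hres : ResidueFix A (σ : QA →+* QA) := residueFix_of_mem_inertia hσ
  have hdec := inertia_le_decomposition hσ
  obtain ⟨h', e'⟩ := smul_some P σ hb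
  have e1 := e
  rw [hT₁, C.pointMap_some, Point.some.injEq] at e1
  have h'' : (freyBar P).Nonsingular (C.X (σ x)) (C.Y (σ x) (σ y)) := by
    rw [← heX, ← heY, e1.1, e1.2]; exact h'
  have h₁ : W'.Nonsingular (σ x) (σ y) :=
    C.nonsingular_of_map ((C.equation_iff_map _ _).mp h''.1) h''
  have eσ : C.pointMap (Point.some _ _ h₁) = σ • (Point.some xb yb hb : (freyBar P).Point) := by
    rw [e', C.pointMap_some, Point.some.injEq, ← heX, ← heY, e1.1, e1.2]
    exact ⟨rfl, rfl⟩
  have hσT' : Point.some _ _ h₁ ≠ T₁ := fun he => hσT (Subtype.ext (by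
    show σ • (Point.some xb yb hb : (freyBar P).Point) = Point.some xb yb hb
    rw [← eσ, he, e]))
  have hdiff : InE1 A (T₁ - Point.some _ _ h₁) := by
    rw [← inE1_pointMap C hu hr, map_sub, e, eσ]
    exact frey_sub_smul_inE1 P hp hp2 hA hσ hpb
  have hxne' : x ≠ σ x := by
    intro he
    rcases (Point.X_eq_iff (h₁ := h₁) (h₂ := h)).mp he.symm with e2 | e2
    · exact hσT' e2
    · rw [e2, sub_neg_eq_add, ← two_nsmul] at hdiff
      refine h0 ?_
      obtain ⟨j, hj⟩ := P.hp_odd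
      have h3 : (j + 1) • (2 • T₁) = T₁ := by
        rw [← mul_nsmul', show (j + 1) * 2 = 1 + P.p by omega, add_nsmul, hp1, add_zero, one_nsmul]
      rw [← h3]
      exact (mem_e0Subgroup hN.toIntCoeff).mp (nsmul_mem
        ((mem_e0Subgroup hN.toIntCoeff).mpr (inE0_of_inE1 hN.toIntCoeff hdiff)) _)
  obtain ⟨y₃, h₃, e₃⟩ := sub_some_of_X_ne h h₁ hxne'
  rw [hT₁, e₃, inE1_some_iff] at hdiff
  set x₃ := W'.addX x (σ x) ((y + σ y + W'.a₁ * σ x + W'.a₃) / (x - σ x))
  have hkey := val_sub_abscissa hN hres h.1 hu' hx1 (Carayol.valuation_apply hdec x) hxne'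
    (not_mem_iff_one_lt_val.mp hdiff)
  have hbound := frey_abscissa_bound P hA (x₀ := C.X x₃) (y₀ := C.Y x₃ y₃) (C.nonsingular_map h₃)
    (by rw [eX, add_mem_cancel_right hr]; exact hdiff) (by
      rw [← C.pointMap_some h₃, ← map_nsmul, ← e₃, nsmul_sub]
      rw [show P.p • (Point.some x y h : W'.Point) = 0 from hp1, zero_sub, map_neg, neg_eq_zero,
        map_nsmul, eσ, ← nsmul_smul_point, hpb, smul_point_zero])
  rw [eX, hshift _ hdiff] at hbound
  intro hgt
  set d : QA := σ w - w with hd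
  have hd' : d = -(x - σ x) / c := by rw [hd, hw, map_div₀, hcfix]; ring
  have hd0 : d ≠ 0 := by
    rw [hd']; exact div_ne_zero (neg_ne_zero.2 (sub_ne_zero.2 hxne')) hc0
  have hX0 : (0 : A.ValueGroup) < A.valuation x := hN.u_pos.trans hu'
  have hdv : A.valuation x₃ * A.valuation d ^ 2 = 1 := by
    rw [hd', map_div₀, A.valuation.map_neg, div_pow, ← mul_div_assoc, ← hxv]
    exact (div_eq_one_iff_eq (pow_ne_zero 2 hX0.ne')).2 hkey
  have hple : A.valuation (P.p : QA) ≤ A.valuation (d ^ (P.p - 1)) := by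
    obtain ⟨j, hj⟩ := P.hp_odd
    rw [show (P.p - 1) / 2 = j by omega] at hbound
    calc A.valuation (P.p : QA)
        = A.valuation (P.p : QA) * (A.valuation x₃ * A.valuation d ^ 2) ^ j := by
          rw [hdv, one_pow, mul_one]
      _ = (A.valuation (P.p : QA) * A.valuation x₃ ^ j) * (A.valuation d ^ 2) ^ j := by
          rw [mul_pow, mul_assoc]
      _ ≤ 1 * (A.valuation d ^ 2) ^ j := mul_le_mul_left hbound _
      _ = _ := by rw [one_mul, ← pow_mul, map_pow, show P.p - 1 = 2 * j by omega]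
  have hv := v_le_of_val_le hA hn0 (pow_ne_zero _ hd0) hple
  rw [(ratVal hA).v_pow hd0, (ratVal hA).v_p, Nat.cast_sub hp.one_le, Nat.cast_one] at hv
  have hp1' : (0 : ℚ) < (P.p : ℚ) - 1 := by
    have : (5 : ℚ) ≤ (P.p : ℚ) := by exact_mod_cast P.hp5
    linarith
  have hlt := hgt.lt (ratVal hA) hd0
  rw [div_lt_iff₀ hp1'] at hlt
  linarith

end FLTAgent.MazurPrinciple
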