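import Fermat.Agent.MazurPrinciple.FreyPlace
import Fermat.Agent.Mazur.Kummer
import Fermat.Agent.Reducible.Frey

/-!
# The field of the `p`-torsion of the Frey curve at a place over `p ∣ abc`

Inertia cuts out on the `p`-torsion a field `K₀(ζ_p, θ)` of smallest possible jump.
-/

set_option autoImplicit false
set_option linter.style.haveILetI false
set_option maxHeartbeats 800000

noncomputable section

namespace FLTAgent.MazurPrinciple

open FLTAgent.LocalEC FLTAgent.Reducible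

local notation "QA" => AlgebraicClosure ℚ
local notation "GG" => (AlgebraicClosure ℚ ≃ₐ[ℚ] AlgebraicClosure ℚ)

variable {p : ℕ} [hp : Fact p.Prime] {V : Type} [AddCommGroup V] [Module (ZMod p) V]
  [DistribMulAction GG V]

/-- An element of the Galois group commutes with the scalars. -/
theorem smul_zmod_smul (τ : GG) (c : ZMod p) (x : V) : τ • c • x = c • τ • x :=
  ZMod.map_smul (DistribSMul.toAddMonoidHom V τ) c x

variable (p) in
/-- The elements acting as `(χ *; 0 1)` in the basis `R`, `T`. -/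
def borel (R T : V) : Subgroup GG where
  carrier := {τ | τ • R = (omegaChar p τ : ZMod p) • R ∧ ∃ c : ZMod p, τ • T = T + c • R}
  one_mem' := ⟨by rw [map_one, Units.val_one, one_smul, one_smul],
    0, by rw [one_smul, zero_smul, add_zero]⟩
  mul_mem' {σ τ} := by
    rintro ⟨h1, c, hc⟩ ⟨h2, d, hd⟩
    refine ⟨?_, c + (omegaChar p σ : ZMod p) * d, ?_⟩
    · rw [mul_smul, h2, smul_zmod_smul, h1, smul_smul, map_mul, Units.val_mul, mul_comm]
    · rw [mul_smul, hd, smul_add, hc, smul_zmod_smul, h1, smul_smul, add_smul, add_assoc,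
        mul_comm d]
  inv_mem' {σ} := by
    rintro ⟨h1, c, hc⟩
    have h1' : σ⁻¹ • R = (omegaChar p σ⁻¹ : ZMod p) • R := by
      rw [inv_smul_eq_iff, smul_zmod_smul, h1, smul_smul, ← Units.val_mul, map_inv,
        inv_mul_cancel, Units.val_one, one_smul]
    refine ⟨h1', -((omegaChar p σ⁻¹ : ZMod p) * c), ?_⟩
    rw [inv_smul_eq_iff, smul_add, hc, smul_zmod_smul, h1, smul_smul, neg_mul, mul_right_comm,
      ← Units.val_mul, map_inv, inv_mul_cancel, Units.val_one, one_mul, neg_smul]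
    abel

open scoped Classical in
variable (p) in
/-- The translation part. -/
def shift (R T : V) (τ : GG) : ZMod p :=
  if h : ∃ c : ZMod p, τ • T = T + c • R then h.choose else 0

theorem shift_eq {R T : V} (hR : R ≠ 0) {τ : GG} {c : ZMod p} (h : τ • T = T + c • R) :
    shift p R T τ = c := by
  classical
  have h' : ∃ c : ZMod p, τ • T = T + c • R := ⟨c, h⟩
  rw [shift, dif_pos h']
  exact smul_left_injective (ZMod p) hR (add_left_cancel (h'.choose_spec.symm.trans h))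

theorem shift_spec {R T : V} (hR : R ≠ 0) {τ : GG} (hτ : τ ∈ borel p R T) :
    τ • T = T + shift p R T τ • R := by
  obtain ⟨-, c, hc⟩ := hτ
  rwa [shift_eq hR hc]

theorem shift_mul {R T : V} (hR : R ≠ 0) {σ τ : GG} (hσ : σ ∈ borel p R T)
    (hτ : τ ∈ borel p R T) :
    shift p R T (σ * τ) = shift p R T σ + (omegaChar p σ : ZMod p) * shift p R T τ :=
  shift_eq hR (by
    rw [mul_smul, shift_spec hR hτ, smul_add, shift_spec hR hσ, smul_zmod_smul, hσ.1,
      smul_smul, add_smul, add_assoc, mul_comm (shift p R T τ)])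

/-- The smallest possible jump. -/
theorem exists_wildData_frey (P : FreyPackage) [Fact P.p.Prime] {A : ValuationSubring QA}
    (hA : A.LiesOverPrime P.p) (habc : (P.p : ℤ) ∣ P.a * P.b * P.c) {ζ : QA}
    (hζ : IsPrimitiveRoot ζ P.p) :
    ∃ (G : Subgroup GG) (σ₀ : GG), WildData hA ζ G σ₀ ∧
      ∀ τ ∈ G, ∀ x : freyTorsion P, τ • x = x := by
  classical
  haveI : NeZero P.p := ⟨P.hp0⟩
  obtain ⟨R, T, w, hR, hbasis, hI, hw0, hwv, hwT, hwσ⟩ := exists_frey_place P hA habc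
  let I := A.inertiaSubgroupIn ℚ
  let G : Subgroup GG := I ⊓ fixer (freyTorsion P)
  have hω : ∀ τ : GG, (omegaChar P.p τ : ZMod P.p) = (ExtCitation.cycloExp P.p τ : ZMod P.p) :=
    omegaChar_eq P.p
  have hIU : ∀ τ ∈ I, τ ∈ borel P.p R T := by
    intro τ hτ
    obtain ⟨h1, c, hc⟩ := hI τ hτ
    exact ⟨by rw [h1, hω, Nat.cast_smul_eq_nsmul], (c : ZMod P.p),
      by rw [hc, Nat.cast_smul_eq_nsmul]⟩
  have hfixer : ∀ τ : GG, τ • R = R → τ • T = T → τ ∈ fixer (freyTorsion P) := by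
    intro τ hτR hτT x
    obtain ⟨a, b, rfl⟩ := hbasis x
    rw [smul_add, smul_comm τ a R, smul_comm τ b T, hτR, hτT]
  have hω1 : ∀ τ : GG, τ ζ = ζ → (omegaChar P.p τ : ZMod P.p) = 1 := fun τ h => by
    rw [omegaChar_eq_one_of_fix P.p hζ h, Units.val_one]
  have hpow : ∀ a b : ℕ, (a : ZMod P.p) = b → ζ ^ a = ζ ^ b := fun a b h => by
    rw [pow_eq_pow_mod a hζ.pow_eq_one, (ZMod.natCast_eq_natCast_iff' a b P.p).1 h,
      ← pow_eq_pow_mod b hζ.pow_eq_one]
  have hGζ : ∀ τ ∈ G, τ ζ = ζ := by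
    intro τ hτ
    have h1 := (hIU τ hτ.1).1
    rw [hτ.2 R] at h1
    have h2 : (omegaChar P.p τ : ZMod P.p) = 1 :=
      smul_left_injective (ZMod P.p) hR (by simpa only [one_smul] using h1.symm)
    rw [map_eq_pow_cycloExp P.p τ hζ.pow_eq_one,
      hpow _ 1 (by rw [← hω, h2, Nat.cast_one]), pow_one]
  have hn : ∀ σ ∈ I, ∀ τ ∈ G, σ⁻¹ * τ * σ ∈ G := fun σ hσ τ hτ =>
    ⟨I.mul_mem (I.mul_mem (I.inv_mem hσ) hτ.1) hσ, fun x => by
      rw [mul_smul, mul_smul, hτ.2, inv_smul_smul]⟩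
  by_cases htame : ∀ τ ∈ I, τ ζ = ζ → τ ∈ G
  · exact ⟨G, 1, wildData_tame hA hζ inf_le_left hn hGζ htame, fun τ hτ => hτ.2⟩
  push Not at htame
  obtain ⟨σ₀, hσ, hσζ, hσG⟩ := htame
  have hfR : ∀ τ ∈ I, τ ζ = ζ → τ • R = R := fun τ hτ h => by
    rw [(hIU τ hτ).1, hω1 τ h, one_smul]
  have hσR := hfR σ₀ hσ hσζ
  have hc₀ : shift P.p R T σ₀ ≠ 0 := fun h => hσG ⟨hσ, hfixer _ hσR (by
    rw [shift_spec hR (hIU _ hσ), h, zero_smul, add_zero])⟩
  set c₀ := shift P.p R T σ₀ with hc₀def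
  have hpows : ∀ n : ℕ, (σ₀ ^ n) • R = R ∧ (σ₀ ^ n) • T = T + ((n : ZMod P.p) * c₀) • R := by
    intro n
    induction n with
    | zero =>
      refine ⟨one_smul _ R, ?_⟩
      rw [pow_zero, one_smul, Nat.cast_zero, zero_mul, zero_smul, add_zero]
    | succ n ih =>
      refine ⟨by rw [pow_succ, mul_smul, hσR, ih.1], ?_⟩
      rw [pow_succ, mul_smul, shift_spec hR (hIU _ hσ), smul_add, ih.2, smul_zmod_smul, ih.1,
        ← hc₀def, Nat.cast_succ, add_mul, one_mul, add_smul, add_assoc]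
  have hσp : σ₀ ^ P.p ∈ G := ⟨I.pow_mem hσ _, hfixer _ (hpows _).1 (by
    rw [(hpows _).2, ZMod.natCast_self, zero_mul, zero_smul, add_zero])⟩
  have hgen : ∀ τ ∈ I, τ ζ = ζ → ∃ j : ℕ, (σ₀ ^ j)⁻¹ * τ ∈ G := by
    intro τ hτ hτζ
    refine ⟨(shift P.p R T τ * c₀⁻¹).val, I.mul_mem (I.inv_mem (I.pow_mem hσ _)) hτ,
      hfixer _ ?_ ?_⟩
    · rw [mul_smul, hfR τ hτ hτζ, inv_smul_eq_iff, (hpows _).1]
    · rw [mul_smul, inv_smul_eq_iff, shift_spec hR (hIU _ hτ), (hpows _).2,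
        ZMod.natCast_zmod_val, inv_mul_cancel_right₀ hc₀]
  -- the Kummer element
  let W : Subgroup GG := fixer (freyTorsion P) ⊓ (omegaChar P.p).ker
  have hWopen : IsOpen (W : Set GG) :=
    (isOpen_fixing_frey P).inter (isOpen_ker_omegaChar P.p)
  have hWU : W ≤ borel P.p R T := fun τ hτ =>
    ⟨by rw [hτ.1 R, MonoidHom.mem_ker.1 hτ.2, Units.val_one, one_smul],
      0, by rw [hτ.1 T, zero_smul, add_zero]⟩
  obtain ⟨θ, hθ0, hθ⟩ := Mazur.exists_kummer (borel P.p R T) W hWopen hWU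
    (fun τ => ζ ^ (shift P.p R T τ).val) (fun τ _ => pow_ne_zero _ (hζ.ne_zero P.hp0))
    (fun σ hσ' τ hτ => by
      rw [shift_mul hR hσ' hτ, map_pow, map_eq_pow_cycloExp P.p σ hζ.pow_eq_one, ← pow_mul,
        ← pow_add]
      refine hpow _ _ ?_
      rw [ZMod.natCast_zmod_val, Nat.cast_add, Nat.cast_mul, ZMod.natCast_zmod_val,
        ZMod.natCast_zmod_val, hω])
    (fun τ hτ => by
      rw [shift_eq hR (c := 0) (by rw [hτ.1 T, zero_smul, add_zero]), ZMod.val_zero, pow_zero])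
  have hθG : ∀ τ ∈ G, τ θ = θ := fun τ hτ => by
    rw [hθ τ (hIU τ hτ.1), shift_eq hR (c := 0) (by rw [hτ.2 T, zero_smul, add_zero]),
      ZMod.val_zero, pow_zero, one_mul]
  have hθp : ∀ τ ∈ I, τ (θ ^ P.p) = θ ^ P.p := fun τ hτ => by
    rw [map_pow, hθ τ (hIU τ hτ), mul_pow, ← pow_mul, mul_comm _ P.p, pow_mul, hζ.pow_eq_one,
      one_pow, one_mul]
  have hη : IsPrimitiveRoot (ζ ^ c₀.val) P.p := by
    refine hζ.pow_of_coprime _ ((P.pp.coprime_iff_not_dvd.2 fun h => hc₀ ?_).symm)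
    rw [← ZMod.natCast_zmod_val c₀, (ZMod.natCast_eq_zero_iff _ _).2 h]
  have hσT : σ₀ • T ≠ T := fun h => hσG ⟨hσ, hfixer _ hσR h⟩
  exact ⟨G, σ₀, wildData_wild hA (by have := P.hp5; omega) hζ inf_le_left hn hGζ hσ hσζ hσp hgen
    hθ0 hθG hθp hη (hθ σ₀ (hIU _ hσ)) hw0 hwv (fun τ hτ => hwT τ (hτ.2 T)) (hwσ σ₀ hσ hσT),
    fun τ hτ => hτ.2⟩

end FLTAgent.MazurPrinciple
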