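import Fermat.Agent.MazurPrinciple.Classify

/-!
# Values at the divisor of a function, organised by the two sheets

For a function `f` with divisor `p D` and a glued point `t`, reciprocity with a test function
produces a number `λ` with `p v(λ)` read off from the reductions of `f`, and with the effect of an
automorphism on `λ ^ p` read off from its effect on the two sheets.
-/

set_option autoImplicit false
set_option linter.style.haveILetI false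
set_option linter.unusedSectionVars false

noncomputable section

namespace FLTAgent.MazurPrinciple

open AlgebraicCurve FLTAgent.Curves FLTAgent.Specialization FLTAgent.BadRed IntermediateField
open AlgebraicCurve.SemilinearAut (baseAut)

variable {L k : Type*} [Field L] [Field k] {A : ValuationSubring L} {π : A →+* k}
  {FC Fb F : Type*} [Field FC] [Field Fb] [Field F] [Algebra L FC]
  [Algebra k Fb] [Algebra L F] [IsAlgClosed L] [IsFunctionField L FC] [IsFunctionField L F]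
  [IsAlgClosed k] [IsFunctionField k Fb] {p : ℕ} [Fact p.Prime] {S : Sheet π FC Fb F p}

open scoped Classical

theorem transcendental_of_ord_ne {K E : Type*} [Field K] [Field E] [Algebra K E] [IsAlgClosed K]
    {Q : Place K E} {φ : E} (h : Q.ord φ ≠ 0) : Transcendental K φ := by
  intro halg
  obtain ⟨a, ha⟩ := minpoly.mem_range_of_degree_eq_one K φ
    (IsAlgClosed.degree_eq_one_of_irreducible K (minpoly.irreducible halg.isIntegral))
  exact h (by rw [← ha, ord_algebraMap])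

/-- Constants avoiding finitely many equations `a + x ^ p b = 0`. -/
theorem exists_ne_pow (k : Type*) [Field k] [IsAlgClosed k] (p : ℕ) [Fact p.Prime] [CharP k p]
    {ι : Type*} (s : Finset ι) (a b : ι → k) :
    ∃ x : k, x ≠ 0 ∧ ∀ i ∈ s, b i ≠ 0 → a i + x ^ p * b i ≠ 0 := by
  have hsub : ∀ i, {x : k | b i ≠ 0 ∧ a i + x ^ p * b i = 0}.Subsingleton := by
    rintro i x ⟨hb, hx⟩ y ⟨-, hy⟩
    refine frobenius_inj k p ?_
    simp only [frobenius_def]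
    exact mul_right_cancel₀ hb (by linear_combination hx - hy)
  have hfin : ({0} ∪ ⋃ i ∈ s, {x : k | b i ≠ 0 ∧ a i + x ^ p * b i = 0}).Finite :=
    (Set.finite_singleton _).union
      (Set.Finite.biUnion (Finset.finite_toSet _) fun i _ => (hsub i).finite)
  obtain ⟨x, hx⟩ := hfin.infinite_compl.nonempty
  simp only [Set.mem_compl_iff, Set.mem_union, Set.mem_singleton_iff, Set.mem_iUnion, not_or,
    not_exists] at hx
  exact ⟨x, hx.1, fun i hi hb h0 => hx.2 i hi ⟨hb, h0⟩⟩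

variable {U : UnitData S} {H : Set (SemilinearAut L F)}

theorem sum_zpow_aux {ι : Type*} (s : Finset ι) (n : ι → ℤ) {x : L} (hx : x ≠ 0) :
    ∏ i ∈ s, x ^ n i = x ^ ∑ i ∈ s, n i := by
  induction s using Finset.induction with
  | empty => simp
  | insert a t ha ih => rw [Finset.prod_insert ha, Finset.sum_insert ha, zpow_add₀ hx, ih]

theorem RatVal.charZero (V : RatVal π p) : CharZero L := by
  obtain ⟨q, hq⟩ := CharP.exists L
  rcases CharP.char_is_prime_or_zero L q with hq' | rfl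
  · exfalso
    haveI : CharP k p := (CharP.charP_iff_prime_eq_zero Fact.out).2 (by
      rw [← map_natCast π]; exact UnitData.map_p V)
    have h0 : (q : A) = 0 := Subtype.ext (by simp)
    have h1 : (q : k) = 0 := by rw [← map_natCast π, h0, map_zero]
    rw [CharP.cast_eq_zero_iff k p, Nat.prime_dvd_prime_iff_eq Fact.out hq'] at h1
    subst h1
    exact V.p_ne (CharP.cast_eq_zero L p)
  · exact CharP.charP_to_charZero L

variable (V : RatVal π p) (hS : S.Good) (hdeg : finrankAlong L S.β = p + 1)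
  (hS' : ∀ h, (S.swap h).Good)

/-- What is asked of two functions at a finite set of points: non-zero values, valuation of the
first given by `W`, and ratio congruent to `y`. -/
def Controlled (r : ℚ) (f f' : F) (W : Place L F → ℚ) (y : Place L F → L)
    (s : Finset (Place L F)) : Prop :=
  ∀ Q ∈ s, Q.ord f = 0 ∧ ev Q f ≠ 0 ∧ V.v (ev Q f) = W Q ∧
    OrdGE Q 0 f' ∧ V.Near r (ev Q f') (y Q * ev Q f)

section Num

variable {Z₀ : Divisor k Fb} {bad : Finset (Place k Fb)} {m e : ℕ}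
  (P₀ : Probe S U H Z₀ bad m) (he : P₀.Big e) {c : A} (hc : π c ≠ 0)
include he hc V hS

theorem Probe.num_prod {B₂ : Finset (Place k Fb)} (hav : P₀.Avoids e (π c) B₂) {f f' : F}
    {d₁ d₂ κ₁ κ₂ : L} (slope : Place k Fb → ℚ) {r : ℚ} (hr : 0 ≤ r) {W : Place L F → ℚ}
    {y : Place L F → L}
    (hctl : Controlled V r f f' W y (finZeros S (P₀.num e (c : L))))
    (hI : ∀ Q ∈ finZeros S (P₀.num e (c : L)), red hS Q ∈ P₀.zeros → y Q = κ₁ ∧
      ((red hS Q ∈ U.nodes ∧ U.theta V Q * ((red hS Q).ord U.ub + e * Z₀ (red hS Q) : ℤ) =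
          U.w * (red hS Q).ord U.ub ∧ W Q = -V.v d₁ + slope (red hS Q) * U.theta V Q) ∨
        (red hS Q ∉ U.nodes ∧ W Q = -V.v d₁)))
    (hII : ∀ Q ∈ finZeros S (P₀.num e (c : L)), red hS Q ∉ P₀.zeros →
      y Q = κ₂ ∧ W Q = -V.v d₂)
    (hκ₁ : κ₁ ≠ 0) (hκ₂ : κ₂ ≠ 0) :
    ∀ T σo, T = U.nodes.filter (fun t => 0 < Z₀ t) → σo = ∑ t ∈ T, t.ord U.ub →
    ∏ Q ∈ finZeros S (P₀.num e (c : L)), ev Q f ^ Q.ord (P₀.num e (c : L)) ≠ 0 ∧
    V.v (∏ Q ∈ finZeros S (P₀.num e (c : L)), ev Q f ^ Q.ord (P₀.num e (c : L))) =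
      ((e : ℤ) * m * S.MC.deg + σo : ℤ) * -V.v d₁ +
        ((e : ℤ) * m * p * S.MC.deg - σo : ℤ) * -V.v d₂ +
        ∑ t ∈ T, U.w * (t.ord U.ub : ℚ) * slope t ∧
    V.Near r (∏ Q ∈ finZeros S (P₀.num e (c : L)), ev Q f' ^ Q.ord (P₀.num e (c : L)))
      ((κ₁ ^ ((e : ℤ) * m * S.MC.deg + σo) * κ₂ ^ ((e : ℤ) * m * p * S.MC.deg - σo)) *
        ∏ Q ∈ finZeros S (P₀.num e (c : L)), ev Q f ^ Q.ord (P₀.num e (c : L))) := by
  intro T σo hT hσo
  set N := P₀.num e (c : L)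
  set s := finZeros S N
  set s₁ := s.filter fun Q => red hS Q ∈ P₀.zeros
  set s₂ := s.filter fun Q => red hS Q ∉ P₀.zeros
  have hn₁ : ∑ Q ∈ s₁, Q.ord N = (e : ℤ) * m * S.MC.deg + σo := by
    rw [hσo, hT]; exact P₀.sum_first he hc V hS hav
  have hn₂ : ∑ Q ∈ s₂, Q.ord N = (e : ℤ) * m * p * S.MC.deg - σo := by
    have h := Finset.sum_filter_add_sum_filter_not s (fun Q => red hS Q ∈ P₀.zeros)
      (fun Q => Q.ord N)
    rw [P₀.sum_finZeros he hc V] at h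
    push_cast at h
    linarith
  have hne : ∀ Q ∈ s, ev Q f ^ Q.ord N ≠ 0 := fun Q hQ => zpow_ne_zero _ (hctl Q hQ).2.1
  refine ⟨Finset.prod_ne_zero_iff.2 hne, ?_, ?_⟩
  · rw [V.v_prod s _ hne, Finset.sum_congr rfl fun Q hQ => (V.v_zpow (hctl Q hQ).2.1 _).trans
      (congrArg _ (hctl Q hQ).2.2.1),
      ← Finset.sum_filter_add_sum_filter_not s (fun Q => red hS Q ∈ P₀.zeros)]
    have h2 : ∑ Q ∈ s₂, (Q.ord N : ℚ) * W Q =
        ((e : ℤ) * m * p * S.MC.deg - σo : ℤ) * -V.v d₂ := by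
      rw [Finset.sum_congr rfl fun Q hQ => by
          rw [(hII Q (Finset.mem_filter.1 hQ).1 (Finset.mem_filter.1 hQ).2).2],
        ← Finset.sum_mul, ← Int.cast_sum, hn₂]
    have h1 : ∑ Q ∈ s₁, (Q.ord N : ℚ) * W Q =
        ((e : ℤ) * m * S.MC.deg + σo : ℤ) * -V.v d₁ +
          ∑ t ∈ T, U.w * (t.ord U.ub : ℚ) * slope t := by
      have hW : ∀ Q ∈ s₁, (Q.ord N : ℚ) * W Q = (Q.ord N : ℚ) * -V.v d₁ +
          if red hS Q ∈ T then slope (red hS Q) * ((Q.ord N : ℚ) * U.theta V Q) else 0 := by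
        intro Q hQ
        rw [Finset.mem_filter] at hQ
        rcases (hI Q hQ.1 hQ.2).2 with ⟨hn, -, hW⟩ | ⟨hn, hW⟩
        · rw [if_pos, hW]
          · ring
          · rw [hT, Finset.mem_filter, ← P₀.node _ hn]
            exact ⟨hn, (P₀.mem_zeros.1 hQ.2).2⟩
        · rw [if_neg, hW, add_zero]
          rw [hT, Finset.mem_filter]
          exact fun h => hn h.1
      rw [Finset.sum_congr rfl hW, Finset.sum_add_distrib, ← Finset.sum_mul, ← Int.cast_sum, hn₁,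
        ← Finset.sum_filter]
      refine congrArg _ ?_
      rw [← Finset.sum_fiberwise_of_maps_to (g := red hS) (t := T)
        (fun Q hQ => (Finset.mem_filter.1 hQ).2)]
      refine Finset.sum_congr rfl fun t ht => ?_
      rw [hT, Finset.mem_filter] at ht
      have hz : t ∈ P₀.zeros :=
        P₀.mem_zeros.2 ⟨(U.mem_nodes.1 ht.1).1, (P₀.node t ht.1).symm ▸ ht.2⟩
      have hset : (s₁.filter fun Q => red hS Q ∈ T).filter (fun Q => red hS Q = t) =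
          s.filter fun Q => red hS Q = t := by
        ext Q
        simp only [s₁, Finset.mem_filter]
        refine ⟨fun h => ⟨h.1.1.1, h.2⟩, fun h => ⟨⟨⟨h.1, h.2 ▸ hz⟩, ?_⟩, h.2⟩⟩
        rw [hT, Finset.mem_filter, h.2]
        exact ht
      rw [hset, Finset.sum_congr rfl fun Q hQ => by rw [(Finset.mem_filter.1 hQ).2],
        ← Finset.mul_sum, P₀.sum_theta he hc V hS hav ht.1 ht.2 fun Q hQ hred => ?_]
      · ring
      · rcases (hI Q hQ (hred ▸ hz)).2 with ⟨-, h, -⟩ | ⟨h, -⟩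
        · exact hred ▸ h
        · exact absurd (hred ▸ ht.1) h
    rw [h1, h2]
    ring
  · have hnear := RatVal.Near.prod V hr s fun Q hQ => (hctl Q hQ).2.2.2.2.zpow V hr (Q.ord N)
    convert hnear using 1
    rw [Finset.prod_congr rfl fun Q hQ => (mul_zpow (y Q) (ev Q f) (Q.ord N)),
      Finset.prod_mul_distrib]
    congr 1
    rw [← Finset.prod_filter_mul_prod_filter_not s (fun Q => red hS Q ∈ P₀.zeros)]
    congr 1
    · rw [Finset.prod_congr rfl fun Q hQ => by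
          rw [(hI Q (Finset.mem_filter.1 hQ).1 (Finset.mem_filter.1 hQ).2).1],
        sum_zpow_aux _ _ hκ₁, hn₁]
    · rw [Finset.prod_congr rfl fun Q hQ => by
          rw [(hII Q (Finset.mem_filter.1 hQ).1 (Finset.mem_filter.1 hQ).2).1],
        sum_zpow_aux _ _ hκ₂, hn₂]

end Num

/-- The product over the divisor of a quotient of two test functions. -/
theorem prod_support_div {N₁ N₀ : F} (h₁ : N₁ ≠ 0) (h₀ : N₀ ≠ 0)
    (hcancel : ∀ Q : Place L F, Q.ord S.X < 0 → Q.ord N₁ = Q.ord N₀) {φ : F}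
    (hφ : ∀ Q ∈ finZeros S N₁ ∪ finZeros S N₀, ev Q φ ≠ 0) :
    (∀ Q ∈ (divOf L (N₁ / N₀)).support, Q ∈ finZeros S N₁ ∪ finZeros S N₀) ∧
    ∏ Q ∈ (divOf L (N₁ / N₀)).support, ev Q φ ^ Q.ord (N₁ / N₀) =
      (∏ Q ∈ finZeros S N₁, ev Q φ ^ Q.ord N₁) / ∏ Q ∈ finZeros S N₀, ev Q φ ^ Q.ord N₀ := by
  have hsupp : ∀ Q ∈ (divOf L (N₁ / N₀)).support, Q ∈ finZeros S N₁ ∪ finZeros S N₀ := by
    intro Q hQ
    rw [Finsupp.mem_support_iff, divOf_apply, ord_div Q h₁ h₀] at hQ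
    rw [Finset.mem_union, mem_finZeros, mem_finZeros]
    by_cases hX : 0 ≤ Q.ord S.X
    · simp only [hX, and_true]
      omega
    · exact absurd (by rw [hcancel Q (not_le.1 hX), sub_self]) hQ
  refine ⟨hsupp, ?_⟩
  rw [Finset.prod_subset hsupp fun Q _ hQ => by
      rw [Finsupp.notMem_support_iff, divOf_apply] at hQ
      rw [hQ, zpow_zero],
    Finset.prod_congr rfl fun Q hQ => by rw [ord_div Q h₁ h₀, zpow_sub₀ (hφ Q hQ)],
    Finset.prod_div_distrib]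
  congr 1
  · refine (Finset.prod_subset Finset.subset_union_left fun Q hQ hQ' => ?_).symm
    rw [Finset.mem_union, or_iff_right hQ', mem_finZeros] at hQ
    rw [mem_finZeros, not_and_or, not_not] at hQ'
    rw [hQ'.resolve_right (not_not.2 hQ.2), zpow_zero]
  · refine (Finset.prod_subset Finset.subset_union_right fun Q hQ hQ' => ?_).symm
    rw [Finset.mem_union, or_iff_left hQ', mem_finZeros] at hQ
    rw [mem_finZeros, not_and_or, not_not] at hQ'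
    rw [hQ'.resolve_right (not_not.2 hQ.2), zpow_zero]

section Main

include V hS hdeg hS'

theorem exists_slope {m₀ : ℕ} (hm₀ : 0 < m₀) (hH : LiftsInvariant S H)
    (hliftc : ∀ a : k, ∃ c : A, π c = a ∧ ∀ σ ∈ H, baseAut σ (c : L) = c)
    (hu : ∀ σ ∈ H, σ • U.u = U.u) {σ₀ : SemilinearAut L F} (hσ₀ : σ₀ ∈ H)
    {f : F} (hf0 : f ≠ 0) (D : Divisor L F) (hD : ∀ Q, Q.ord f = (p : ℤ) * D Q)
    {d₁ d₂ : L} {g₁ g₂ : Fb} (hg₁ : g₁ ≠ 0) (hg₂ : g₂ ≠ 0)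
    (hr₁ : S.R₁.Res (d₁ • f) g₁) (hr₂ : S.R₂.Res (d₂ • f) g₂)
    {r : ℚ} (hr : 0 ≤ r) {κ₁ κ₂ : L} (hκ₁ : κ₁ ≠ 0) (hκ₁v : V.v κ₁ = 0) (hκ₂ : κ₂ ≠ 0)
    (hκ₂v : V.v κ₂ = 0) {s₁ s₂ : L} (hs₁ : s₁ ≠ 0) (hs₁r : r < -V.v s₁) (hs₂ : s₂ ≠ 0)
    (hs₂r : r < -V.v s₂) (hh₁ : s₁ • (σ₀ • f / f - algebraMap L F κ₁) ∈ S.R₁.O)
    (hh₂ : s₂ • (σ₀ • f / f - algebraMap L F κ₂) ∈ S.R₂.O)
    {t : Place k Fb} (ht : t ∈ U.nodes) :
    ∃ lam : L, lam ≠ 0 ∧ (∀ σ ∈ H, (∀ Q, D (σ • Q) = D Q) → baseAut σ lam = lam) ∧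
      (p : ℚ) * V.v lam = U.w * (t.ord g₁ : ℚ) + (t.ord U.ub : ℚ) * (V.v d₂ - V.v d₁) ∧
      V.Near r ((baseAut σ₀ lam / lam) ^ p) ((κ₁ / κ₂) ^ (t.ord U.ub)) := by
  haveI : CharP k p := (CharP.charP_iff_prime_eq_zero Fact.out).2 (by
    rw [← map_natCast π]; exact UnitData.map_p V)
  set U' := U.swap hS' hdeg
  -- the thresholds near the glued points
  have hnode : ∀ t' ∈ U.nodes, ∃ ρ : ℚ, 0 < ρ ∧ ∀ Q : Place L F, InChart S Q →
      red hS Q = t' → U.theta V Q < ρ → Q.ord f = 0 ∧ ev Q f ≠ 0 ∧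
        V.v (ev Q f) = -V.v d₁ + (t'.ord g₁ : ℚ) / t'.ord U.ub * U.theta V Q ∧
        OrdGE Q 0 (σ₀ • f / f - algebraMap L F κ₁) ∧
        V.GT r (ev Q (σ₀ • f / f - algebraMap L F κ₁)) := by
    intro t' ht'
    obtain ⟨h1, h2⟩ := U.mem_nodes.1 ht'
    obtain ⟨ρ, hρ, hv⟩ := fun_node_value U V hS h1 h2 hg₁ hr₁
    obtain ⟨ρ', hρ', hs⟩ := fun_node_small U V hS h1 h2 hs₁ hh₁ hs₁r
    refine ⟨min ρ ρ', lt_min hρ hρ', fun Q hQ hred hθ => ?_⟩
    obtain ⟨ha, hb, hc⟩ := hv Q hQ hred (hθ.trans_le (min_le_left _ _))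
    obtain ⟨hd, he⟩ := hs Q hQ hred (hθ.trans_le (min_le_right _ _))
    refine ⟨ha, hb, ?_, hd, he⟩
    have : (t'.ord U.ub : ℚ) ≠ 0 := by exact_mod_cast h2.ne'
    rw [div_mul_eq_mul_div, ← hc]
    field_simp
    ring
  choose! ρf hρf hρ' using hnode
  set ρs : Finset ℚ := insert 1 (U.nodes.image ρf)
  set ρ := ρs.min' ⟨1, Finset.mem_insert_self _ _⟩
  have hρ : 0 < ρ := by
    refine (Finset.lt_min'_iff _ _).2 ?_
    intro y hy
    simp only [ρs, Finset.mem_insert, Finset.mem_image] at hy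
    rcases hy with rfl | ⟨t', ht', rfl⟩
    exacts [one_pos, hρf t' ht']
  have hρle : ∀ t' ∈ U.nodes, ρ ≤ ρf t' := fun t' ht' =>
    Finset.min'_le _ _ (Finset.mem_insert_of_mem (Finset.mem_image_of_mem _ ht'))
  obtain ⟨B₁, hB₁⟩ := fun_general_value U V hS hg₁ hr₁
  obtain ⟨B₁s, hB₁s⟩ := fun_general_small U V hS hs₁ hh₁
  obtain ⟨B₂v, hB₂v⟩ := fun_general_value U' V (hS' hdeg) hg₂ hr₂
  obtain ⟨B₂s, hB₂s⟩ := fun_general_small U' V (hS' hdeg) hs₂ hh₂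
  -- the two test functions
  have htZ : (0 : Divisor k Fb) ≤ Finsupp.single t 1 := Finsupp.single_nonneg.2 zero_le_one
  have htf : ∀ P : Place k Fb, P.ord S.MC.xb < 0 → Finsupp.single t (1 : ℤ) P = 0 := fun P hP =>
    Finsupp.single_eq_of_ne fun h => by
      have := (U.mem_nodes.1 ht).1
      rw [← h] at this
      omega
  obtain ⟨m₁, hm₁⟩ := nonempty_probe hS U hH htZ htf
  obtain ⟨m₂, hm₂⟩ := nonempty_probe hS U hH (Z := (0 : Divisor k Fb)) le_rfl fun P _ => rfl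
  set m := m₀ + m₁ + m₂
  obtain ⟨P₁⟩ := hm₁ m (by omega) (B₁ ∪ B₁s)
  obtain ⟨P₀⟩ := hm₂ m (by omega) (B₁ ∪ B₁s)
  obtain ⟨C₁, n₁, hC₁⟩ := P₁.exists_class V hS hdeg hS' (B₂v ∪ B₂s) hρ
  obtain ⟨C₀, n₀, hC₀⟩ := P₀.exists_class V hS hdeg hS' (B₂v ∪ B₂s) hρ
  obtain ⟨b₁, hb₁⟩ := P₁.exists_big (by omega)
  obtain ⟨b₀, hb₀⟩ := P₀.exists_big (by omega)
  set e := n₁ + n₀ + b₁ + b₀
  have he₁ := hb₁ e (by omega)
  have he₀ := hb₀ e (by omega)
  obtain ⟨x₁, hx₁, hx₁'⟩ := exists_ne_pow k p C₁ (fun P => ev P P₁.w ^ (e * p))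
    (fun P => ev P U.ub)
  obtain ⟨x₀, hx₀, hx₀'⟩ := exists_ne_pow k p C₀ (fun P => ev P P₀.w ^ (e * p))
    (fun P => ev P U.ub)
  obtain ⟨c₁, hc₁, hc₁H⟩ := hliftc x₁
  obtain ⟨c₀, hc₀, hc₀H⟩ := hliftc x₀
  have hc₁0 : π c₁ ≠ 0 := hc₁ ▸ hx₁
  have hc₀0 : π c₀ ≠ 0 := hc₀ ▸ hx₀
  have hav₁ : P₁.Avoids e (π c₁) C₁ :=
    ⟨fun P hP => Finsupp.single_eq_of_ne fun h => hP (h ▸ ht), htZ,
      fun P hP _ hub => hc₁ ▸ hx₁' P hP hub⟩
  have hav₀ : P₀.Avoids e (π c₀) C₀ :=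
    ⟨fun P _ => rfl, le_rfl, fun P hP _ hub => hc₀ ▸ hx₀' P hP hub⟩
  set slope : Place k Fb → ℚ := fun P => (P.ord g₁ : ℚ) / P.ord U.ub
  set W : Place L F → ℚ := fun Q =>
    if U.theta V Q = U.w then -V.v d₂
    else if red hS Q ∈ U.nodes then -V.v d₁ + slope (red hS Q) * U.theta V Q else -V.v d₁
  set y : Place L F → L := fun Q => if U.theta V Q = U.w then κ₂ else κ₁
  -- the common control
  have hsmall : ∀ {Q : Place L F} {κ : L}, κ ≠ 0 → V.v κ = 0 → Q.ord f = 0 →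
      OrdGE Q 0 (σ₀ • f / f - algebraMap L F κ) →
      V.GT r (ev Q (σ₀ • f / f - algebraMap L F κ)) →
      OrdGE Q 0 (σ₀ • f) ∧ V.Near r (ev Q (σ₀ • f)) (κ * ev Q f) := by
    intro Q κ hκ hκv hf hh hv
    have hratio : OrdGE Q 0 (σ₀ • f / f) := by
      simpa using hh.add (ordGE_algebraMap Q κ)
    have he : ev Q (σ₀ • f) = ev Q (σ₀ • f / f) * ev Q f := by
      rw [← ev_mul Q hratio (ordGE_of_le hf.ge), div_mul_cancel₀ _ hf0]
    refine ⟨by simpa [div_mul_cancel₀ _ hf0] using hratio.mul (ordGE_of_le hf.ge), ?_⟩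
    rw [he]
    refine RatVal.Near.mul V hr (V.near_of_sub hr hκ hκv ?_)
      (V.near_refl (ev_ne_zero_of_ord hf0 hf))
    rwa [ev_sub Q hratio (ordGE_algebraMap Q κ), ev_const] at hv
  have hclass : ∀ {Z : Divisor k Fb} (P : Probe S U H Z (B₁ ∪ B₁s) m) (Q : Place L F),
      InChart S Q →
      ((red hS Q ∈ P.zeros ∧ red hS Q ∈ U.nodes ∧ U.theta V Q < ρ ∧
          U.theta V Q * ((red hS Q).ord U.ub + e * Z (red hS Q) : ℤ) =
            U.w * (red hS Q).ord U.ub) ∨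
      (red hS Q ∈ P.zeros ∧ red hS Q ∉ U.nodes ∧ U.theta V Q = 0 ∧ red hS Q ∉ B₁ ∪ B₁s) ∨
      (red hS Q ∉ P.zeros ∧ U.theta V Q = U.w ∧ red (hS' hdeg) Q ∉ B₂v ∪ B₂s)) →
      (Q.ord f = 0 ∧ ev Q f ≠ 0 ∧ V.v (ev Q f) = W Q ∧ OrdGE Q 0 (σ₀ • f) ∧
        V.Near r (ev Q (σ₀ • f)) (y Q * ev Q f)) ∧
      (red hS Q ∈ P.zeros → y Q = κ₁ ∧
        ((red hS Q ∈ U.nodes ∧ U.theta V Q * ((red hS Q).ord U.ub + e * Z (red hS Q) : ℤ) =
            U.w * (red hS Q).ord U.ub ∧ W Q = -V.v d₁ + slope (red hS Q) * U.theta V Q) ∨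
          (red hS Q ∉ U.nodes ∧ W Q = -V.v d₁))) ∧
      (red hS Q ∉ P.zeros → y Q = κ₂ ∧ W Q = -V.v d₂) := by
    intro Z P Q hQ h
    rcases h with ⟨hz, hn, hθ, hθe⟩ | ⟨hz, hn, hθ, hb⟩ | ⟨hz, hθ, hb⟩
    · have hθ12 : U.theta V Q ≠ U.w :=
        ((U.theta_pos_of_node V hQ hS ((U.mem_nodes_iff (U.mem_nodes.1 hn).1).1 hn)).2).ne
      obtain ⟨h1, h2, h3, h4, h5⟩ := hρ' _ hn Q hQ rfl (hθ.trans_le (hρle _ hn))
      obtain ⟨h6, h7⟩ := hsmall hκ₁ hκ₁v h1 h4 h5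
      have hy : y Q = κ₁ := if_neg hθ12
      have hW : W Q = -V.v d₁ + slope (red hS Q) * U.theta V Q := by
        simp only [W, if_neg hθ12, if_pos hn]
      exact ⟨⟨h1, h2, h3.trans hW.symm, h6, hy.symm ▸ h7⟩,
        fun _ => ⟨hy, Or.inl ⟨hn, hθe, hW⟩⟩, fun h => absurd hz h⟩
    · have hθ12 : U.theta V Q ≠ U.w := by
        rw [hθ]; exact_mod_cast U.w_pos.ne
      rw [Finset.mem_union, not_or] at hb
      obtain ⟨h1, h2, h3⟩ := hB₁ Q hQ hθ hb.1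
      obtain ⟨h4, h5⟩ := hB₁s Q hQ hθ hb.2
      obtain ⟨h6, h7⟩ := hsmall hκ₁ hκ₁v h1 h4 (h5.gt V hs₁r)
      have hy : y Q = κ₁ := if_neg hθ12
      have hW : W Q = -V.v d₁ := by simp only [W, if_neg hθ12, if_neg hn]
      exact ⟨⟨h1, h2, by rw [hW]; linarith, h6, hy.symm ▸ h7⟩,
        fun _ => ⟨hy, Or.inr ⟨hn, hW⟩⟩, fun h => absurd hz h⟩
    · rw [Finset.mem_union, not_or] at hb
      have hθ' : U'.theta V Q = 0 := by
        rw [show U'.theta V Q = U.w - U.theta V Q from U.v_ev' V hQ, hθ, sub_self]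
      obtain ⟨h1, h2, h3⟩ := hB₂v Q (hQ.swap hS hdeg) hθ' hb.1
      obtain ⟨h4, h5⟩ := hB₂s Q (hQ.swap hS hdeg) hθ' hb.2
      obtain ⟨h6, h7⟩ := hsmall hκ₂ hκ₂v h1 h4 (h5.gt V hs₂r)
      have hy : y Q = κ₂ := if_pos hθ
      have hW : W Q = -V.v d₂ := if_pos hθ
      exact ⟨⟨h1, h2, by rw [hW]; linarith, h6, hy.symm ▸ h7⟩,
        fun h => absurd h hz, fun _ => ⟨hy, hW⟩⟩
  have hall₁ : ∀ Q ∈ finZeros S (P₁.num e (c₁ : L)), _ := fun Q hQ =>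
    hclass P₁ Q (P₁.ord_pos he₁ hc₁0 V hS hQ).1 (hC₁ e (by omega) he₁ c₁ hc₁0 hav₁ Q hQ)
  have hall₀ : ∀ Q ∈ finZeros S (P₀.num e (c₀ : L)), _ := fun Q hQ =>
    hclass P₀ Q (P₀.ord_pos he₀ hc₀0 V hS hQ).1 (hC₀ e (by omega) he₀ c₀ hc₀0 hav₀ Q hQ)
  obtain ⟨hne₁, hv₁, hnear₁⟩ := P₁.num_prod V hS he₁ hc₁0 hav₁ slope hr
    (fun Q hQ => (hall₁ Q hQ).1) (fun Q hQ => (hall₁ Q hQ).2.1) (fun Q hQ => (hall₁ Q hQ).2.2)
    hκ₁ hκ₂ {t} (t.ord U.ub)
    (by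
      ext P
      simp only [Finset.mem_singleton, Finset.mem_filter, Finsupp.single_apply]
      refine ⟨fun h => ⟨h ▸ ht, by rw [if_pos h.symm]; exact one_pos⟩, fun h => ?_⟩
      by_contra hP
      rw [if_neg (Ne.symm hP)] at h
      exact lt_irrefl _ h.2)
    (by rw [Finset.sum_singleton])
  obtain ⟨hne₀, hv₀, hnear₀⟩ := P₀.num_prod V hS he₀ hc₀0 hav₀ slope hr
    (fun Q hQ => (hall₀ Q hQ).1) (fun Q hQ => (hall₀ Q hQ).2.1) (fun Q hQ => (hall₀ Q hQ).2.2)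
    hκ₁ hκ₂ ∅ 0 (by simp) (by simp)
  -- the quotient
  set N₁ := P₁.num e (c₁ : L)
  set N₀ := P₀.num e (c₀ : L)
  set Φ := N₁ / N₀ with hΦ
  have h₁0 : N₁ ≠ 0 := P₁.num_ne he₁ hc₁0 V hS
  have h₀0 : N₀ ≠ 0 := P₀.num_ne he₀ hc₀0 V hS
  have hcancel : ∀ Q : Place L F, Q.ord S.X < 0 → Q.ord N₁ = Q.ord N₀ := fun Q hQ => by
    rw [P₁.ord_num_pole he₁ hc₁0 V hQ, P₀.ord_num_pole he₀ hc₀0 V hQ]
  have hevne : ∀ Q ∈ finZeros S N₁ ∪ finZeros S N₀,
      Q.ord f = 0 ∧ ev Q f ≠ 0 ∧ ev Q (σ₀ • f) ≠ 0 := by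
    intro Q hQ
    rcases Finset.mem_union.1 hQ with h | h
    · exact ⟨(hall₁ Q h).1.1, (hall₁ Q h).1.2.1, (hall₁ Q h).1.2.2.2.2.1⟩
    · exact ⟨(hall₀ Q h).1.1, (hall₀ Q h).1.2.1, (hall₀ Q h).1.2.2.2.2.1⟩
  obtain ⟨hsupp, hR⟩ := prod_support_div h₁0 h₀0 hcancel (φ := f) fun Q hQ => (hevne Q hQ).2.1
  obtain ⟨-, hR'⟩ := prod_support_div h₁0 h₀0 hcancel (φ := σ₀ • f) fun Q hQ => (hevne Q hQ).2.2
  have hΦfix : ∀ σ ∈ H, σ • Φ = Φ := fun σ hσ => by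
    rw [hΦ, smul_div₀', P₁.num_fix hσ (hu σ hσ) (hc₁H σ hσ), P₀.num_fix hσ (hu σ hσ) (hc₀H σ hσ)]
  have hΦT : Transcendental L Φ := by
    obtain ⟨htf', hto⟩ := U.mem_nodes.1 ht
    have hsum := P₁.filter_red he₁ hc₁0 V hS (P := t) htf'
    rw [P₁.ord_nrm_node he₁ hc₁0 ht (hav₁.nonneg t), Finsupp.single_eq_same, if_neg one_ne_zero,
      mul_one] at hsum
    obtain ⟨Q, hQ, -⟩ := Finset.exists_ne_zero_of_sum_ne_zero
      (s := (finZeros S N₁).filter fun Q => red hS Q = t) (f := fun Q => Q.ord N₁)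
      (by rw [hsum]; positivity)
    rw [Finset.mem_filter] at hQ
    obtain ⟨hchart, hpos, -, -⟩ := P₁.ord_pos he₁ hc₁0 V hS hQ.1
    have h0 : Q.ord N₀ = 0 := by
      by_contra hne
      have hmem : Q ∈ finZeros S N₀ := mem_finZeros.2 ⟨hne, hchart.1⟩
      rcases hC₀ e (by omega) he₀ c₀ hc₀0 hav₀ Q hmem with ⟨hz, -⟩ | ⟨-, hn, -⟩ | ⟨-, hθ, -⟩
      · have := (P₀.mem_zeros.1 hz).2
        rw [hQ.2, P₀.node t ht] at this
        exact lt_irrefl _ this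
      · exact hn (hQ.2 ▸ ht)
      · exact ((U.theta_pos_of_node V hchart hS
          (hQ.2 ▸ (U.mem_nodes_iff htf').1 ht)).2).ne hθ
    refine transcendental_of_ord_ne (Q := Q) ?_
    rw [hΦ, ord_div Q h₁0 h₀0, h0, sub_zero]
    exact hpos.ne'
  have hΦ0 : Φ ≠ 0 := div_ne_zero h₁0 h₀0
  have hdisj : ∀ Q : Place L F, Q.ord Φ ≠ 0 → Q.ord f = 0 := fun Q hQ =>
    (hevne Q (hsupp Q (Finsupp.mem_support_iff.2 (by rwa [divOf_apply])))).1
  haveI : CharZero L := V.charZero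
  have hrec := reciprocity hΦT hf0 hdisj
  have hordΦ : ∀ Q ∈ (divOf L f).support, Q.ord Φ = 0 := fun Q hQ => by
    by_contra h
    rw [Finsupp.mem_support_iff, divOf_apply] at hQ
    exact hQ (hdisj Q h)
  set lam := ∏ Q ∈ (divOf L f).support, ev Q Φ ^ D Q with hlam
  have hlam0 : lam ≠ 0 :=
    Finset.prod_ne_zero_iff.2 fun Q hQ => zpow_ne_zero _ (ev_ne_zero_of_ord hΦ0 (hordΦ Q hQ))
  have hlamp : lam ^ p = ∏ Q ∈ (divOf L Φ).support, ev Q f ^ Q.ord Φ := by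
    rw [hrec, hlam, ← Finset.prod_pow]
    exact Finset.prod_congr rfl fun Q _ => by rw [hD, ← zpow_natCast, ← zpow_mul, mul_comm]
  refine ⟨lam, hlam0, fun σ hσ hσD => ?_, ?_, ?_⟩
  · have hmem : ∀ Q, σ • Q ∈ (divOf L f).support ↔ Q ∈ (divOf L f).support := fun Q => by
      simp only [Finsupp.mem_support_iff, divOf_apply, hD, hσD]
    rw [hlam, map_prod]
    refine Finset.prod_nbij' (fun Q => σ • Q) (fun Q => σ⁻¹ • Q)
      (fun Q hQ => (hmem Q).2 hQ) (fun Q hQ => (hmem _).1 (by rwa [smul_inv_smul]))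
      (fun Q _ => inv_smul_smul σ Q) (fun Q _ => smul_inv_smul σ Q) (fun Q hQ => ?_)
    rw [map_zpow₀, hσD, ← ev_smul_aut σ Q (ordGE_of_le (hordΦ Q hQ).ge), hΦfix σ hσ]
  · have h := congrArg V.v hlamp
    rw [V.v_pow hlam0, hR, V.v_div hne₁ hne₀, hv₁, hv₀, Finset.sum_singleton,
      Finset.sum_empty] at h
    rw [h]
    have : (t.ord U.ub : ℚ) ≠ 0 := by exact_mod_cast (U.mem_nodes.1 ht).2.ne'
    simp only [slope]
    field_simp
    push_cast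
    ring
  · have hσR : baseAut σ₀ (lam ^ p) = ∏ Q ∈ (divOf L Φ).support, ev Q (σ₀ • f) ^ Q.ord Φ := by
      rw [hlamp]
      exact baseAut_prod_support σ₀ (hΦfix σ₀ hσ₀) fun Q hQ =>
        ordGE_of_le (hevne Q (hsupp Q hQ)).1.ge
    rw [div_pow, ← map_pow, hσR, hR', hlamp, hR]
    have h := RatVal.Near.div V hr hnear₁ hnear₀
    have h' := RatVal.Near.div V hr h (V.near_refl (r := r) (div_ne_zero hne₁ hne₀))
    convert h' using 1
    set n := (e : ℤ) * m * S.MC.deg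
    set n' := (e : ℤ) * m * p * S.MC.deg
    rw [mul_div_mul_comm, mul_div_assoc, div_self (div_ne_zero hne₁ hne₀), mul_one, add_zero,
      sub_zero, zpow_add₀ hκ₁, zpow_sub₀ hκ₂, div_zpow]
    field_simp

end Main

end FLTAgent.MazurPrinciple
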