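import Fermat.Agent.MazurPrinciple.UnitBasic
import Fermat.Agent.MazurPrinciple.Slopes
import Fermat.Agent.BadRed.Symmetry
import Fermat.Agent.FlatModel.ModularCoords
import Fermat.Agent.GoodModel.Final
import Fermat.Agent.Carayol.Const
import Fermat.Agent.MazurPrinciple.Range

/-!
# The sheets at a place over `p` with the action of inertia

Both orders of the two sheets are good; inertia fixes the measuring function, the reductions of
the spaces of functions lift to inertia invariant functions, and residues lift to the inertia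
field.
-/

set_option autoImplicit false
set_option linter.style.haveILetI false
set_option linter.unusedSectionVars false
set_option maxHeartbeats 1000000
set_option synthInstance.maxHeartbeats 400000

noncomputable section

open AlgebraicCurve ModularCurve IntermediateField IsLocalRing
open AlgebraicCurve.SemilinearAut (baseAut)

namespace FLTAgent.MazurPrinciple

open FLTAgent.Curves FLTAgent.Specialization FLTAgent.BadRed

local notation "QA" => AlgebraicClosure ℚ
local notation "GG" => (AlgebraicClosure ℚ ≃ₐ[ℚ] AlgebraicClosure ℚ)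

section Transport

variable {K F F' : Type*} [Field K] [Field F] [Field F'] [Algebra K F] [Algebra K F']
  [IsAlgClosed K] [Curves.IsFunctionField K F] [Curves.IsFunctionField K F']

theorem inftyBound_map (φ : F →ₐ[K] F') {x f : F} {c : ℤ} (h : InftyBound K x c f) :
    InftyBound K (φ x) c (φ f) := fun v hv => by
  rw [ord_map_eq] at hv ⊢
  have he : (0 : ℤ) < Place.ramificationIndexAlong φ v := by
    exact_mod_cast ramificationIndexAlong_pos φ v
  have hx : (below φ v).ord x < 0 := by nlinarith
  rcases eq_or_ne f 0 with rfl | hf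
  · rw [map_zero]; exact ordGE_zero _ _
  refine ordGE_of_le ?_
  rw [ord_map_eq]
  have := (h _ hx).le_ord hf
  nlinarith

theorem integralWrt_hom (φ : F →ₐ[K] F') {x f : F} (h : IntegralWrt K x f) :
    IntegralWrt K (φ x) (φ f) := fun v hv => by
  rw [ordGE_map_iff]
  rw [ord_map_eq] at hv
  exact h _ ((mul_nonneg_iff_of_pos_left
    (by exact_mod_cast ramificationIndexAlong_pos φ v)).1 hv)

theorem ord_map_neg (φ : F →ₐ[K] F') {x : F} (v : Place K F') :
    v.ord (φ x) < 0 ↔ (below φ v).ord x < 0 := by
  have he : (0 : ℤ) < Place.ramificationIndexAlong φ v := by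
    exact_mod_cast ramificationIndexAlong_pos φ v
  rw [ord_map_eq]
  constructor <;> intro h <;> nlinarith

end Transport

section Swap

variable {M q : ℕ} [NeZero M] [Fact q.Prime] [NeZero q] [NeZero (M * q)] (hqM : ¬ q ∣ M)
  {A : ValuationSubring QA} {k : Type*} [Field k] [IsAlgClosed k] {π : A →+* k}
  (hπ : Function.Surjective π) (hA : RankOne π) [CharP k q]
  [Curves.IsFunctionField k (modularFunctionFieldFullC k M)]

/-- The sheets in the other order are good as well. -/
theorem modularSheet_swap_good (hsm : (modularModel hπ M (natCast_ne_zero hqM k)).Smooth)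
    (h : finrankAlong QA (modularSheet hqM hπ hA).β = q + 1) :
    ((modularSheet hqM hπ hA).swap h).Good := by
  have G := modularSheet_good hqM hπ hA hsm
  set S := modularSheet hqM hπ hA
  set w := swapEnd hqM
  have hwa : ∀ z, w (S.α z) = S.β z := fun z => swapEnd_alpha hqM z
  have hwb : ∀ z, w (S.β z) = S.α z := fun z => swapEnd_beta hqM z
  have hX : S.X = S.α S.MC.x := rfl
  have hX' : (S.swap h).X = S.β S.MC.x := rfl
  have hβ : (S.swap h).β (S.swap h).MC.x = S.α S.MC.x := rfl
  refine ⟨G.smooth, ?_, ?_, ?_, ?_, G.exists_root⟩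
  · have h1 := integralWrt_hom w G.β_int
    rw [hX, hwa, hwb] at h1
    rw [hX', hβ]
    exact h1
  · have h1 := inftyBound_map w G.β_le
    rw [hX, hwa, hwb] at h1
    rw [hX', hβ]
    exact h1
  · intro v hv
    rw [hX', ← hwa, ord_map_neg] at hv
    rw [hβ, ← hwb, ord_map_neg]
    exact G.β_pole _ hv
  · obtain ⟨P, hP, hdeg, hint⟩ := G.exists_poly
    refine ⟨P, hP, hdeg, ?_⟩
    have h1 := integralWrt_hom w hint
    rw [hX, map_div₀, ← Polynomial.aeval_algHom_apply, hwa, hwb] at h1
    rw [hX', hβ]
    exact h1

end Swap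

section At

variable {p : ℕ} [Fact p.Prime] [NeZero p] {M : ℕ} [NeZero M] [NeZero (M * p)] (hpM : ¬ p ∣ M)
  {A : ValuationSubring QA} [IsAlgClosed (ResidueField A)] [CharP (ResidueField A) p]
  [Curves.IsFunctionField (ResidueField A) (modularFunctionFieldFullC (ResidueField A) M)]
  (hA : A.LiesOverPrime p)

local notation "kk" => ResidueField A

include hA hpM in
/-- At level `M` the model is smooth. -/
theorem smooth_level (hp5 : InRange p M) :
    (modularModel (π := residue A) residue_surjective M (natCast_ne_zero hpM kk)).Smooth :=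
  hp5.smooth hpM hA _

include hA hpM in
theorem sheetAt_good (hp5 : InRange p M) : (sheetAt hpM hA).Good :=
  modularSheet_good hpM residue_surjective (rankOne_residue hA) (smooth_level hpM hA hp5)

include hA hpM in
theorem sheetAt_swap_good (hp5 : InRange p M) (h : finrankAlong QA (sheetAt hpM hA).β = p + 1) :
    ((sheetAt hpM hA).swap h).Good :=
  modularSheet_swap_good hpM residue_surjective (rankOne_residue hA) (smooth_level hpM hA hp5) h

/-- The semilinear automorphisms given by inertia. -/
def inertiaSet (A : ValuationSubring QA) (N : ℕ) : Set (SemilinearAut QA (X0Bar N)) :=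
  (fun σ : GG => arithmeticGalois (modularFunctionFieldFull N) σ) '' (A.inertiaSubgroupIn ℚ : Set GG)

theorem baseAut_arith {N : ℕ} (σ : GG) (c : QA) :
    baseAut (arithmeticGalois (modularFunctionFieldFull N) σ) c = σ c := rfl

omit [IsAlgClosed (ResidueField A)] [CharP (ResidueField A) p]
  [Curves.IsFunctionField (ResidueField A) (modularFunctionFieldFullC (ResidueField A) M)] in
include hA in
theorem exists_liftc (N : ℕ) (a : kk) :
    ∃ c : A, residue A c = a ∧ ∀ σ ∈ inertiaSet A N, baseAut σ (c : QA) = c := by
  obtain ⟨z, hz, hza⟩ := Carayol.exists_residue_eq hA a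
  refine ⟨z, hza, ?_⟩
  rintro _ ⟨σ, hσ, rfl⟩
  rw [baseAut_arith]
  exact Carayol.mem_K0.1 hz σ hσ

theorem smul_unitSer {N : ℕ} [NeZero N] {u : X0Bar N} (hu : (u : LaurentSeries QA) = unitSer QA p)
    {σ : SemilinearAut QA (X0Bar N)} (hσ : σ ∈ inertiaSet A N) : σ • u = u := by
  obtain ⟨τ, -, rfl⟩ := hσ
  refine Subtype.ext ?_
  rw [coe_arithmeticGalois_smul, hu, coeffMap_unitSer]

include hA hpM in
theorem liftsInvariant_of_smooth
    (hM : (modularModel (π := residue A) residue_surjective M (natCast_ne_zero hpM kk)).Smooth) :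
    LiftsInvariant (sheetAt hpM hA) (inertiaSet A (M * p)) := by
  set MC := modularModel (π := residue A) residue_surjective M (natCast_ne_zero hpM kk)
  obtain ⟨j, hj⟩ := MC.exists_le_mul MC.bound
  refine ⟨j, fun m hm w hw => ?_⟩
  obtain ⟨C⟩ := FlatModel.exists_eqCoords (A := A) (natCast_ne_zero hpM kk) m
  obtain ⟨B⟩ := FlatModel.exists_fixedBasis hM FlatModel.isArith_galois
    (FlatModel.smul_jq (natCast_ne_zero hpM kk)) (hj m hm) C
  change w ∈ riemannRochSpace ((m : ℤ) • poleDiv kk MC.xb) at hw
  rw [← B.span_res] at hw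
  obtain ⟨c, rfl⟩ := (Submodule.mem_span_range_iff_exists_fun kk).1 hw
  choose z hz hzc using fun i => Carayol.exists_residue_eq hA (c i)
  refine ⟨∑ i, (z i : QA) • B.b i,
    Submodule.sum_mem _ fun i _ => Submodule.smul_mem _ _ (B.mem i), ?_, ?_⟩
  · refine Reduction.Res.sum fun i _ => ?_
    rw [← hzc i]
    exact (B.res i).smul (z i)
  · rintro _ ⟨σ, hσ, rfl⟩
    show arithmeticGalois (modularFunctionFieldFull (M * p)) σ • heckeAlphaBar QA M p _ =
      heckeAlphaBar QA M p _
    rw [galois_smul_alpha]
    congr 1
    rw [Finset.smul_sum]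
    refine Finset.sum_congr rfl fun i _ => ?_
    rw [FlatModel.isArith_galois.smul_smul σ, B.fixed, Carayol.mem_K0.1 (hz i) σ hσ]

include hA hpM in
theorem liftsInvariant (hp5 : InRange p M) :
    LiftsInvariant (sheetAt hpM hA) (inertiaSet A (M * p)) :=
  liftsInvariant_of_smooth hpM hA (smooth_level hpM hA hp5)

end At

end FLTAgent.MazurPrinciple
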