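import Mathlib

/-!
# Two modules tied by a quadratic relation

`r` satisfies at every element the characteristic relation of the two-dimensional `ρ`.
-/

set_option autoImplicit false
set_option linter.unusedSectionVars false
set_option linter.style.haveILetI false

noncomputable section

namespace FLTAgent.MazurPrinciple

open Polynomial

section Recursion

variable {k : Type*} [Field k] {E : Type*} [AddCommGroup E] [Module k E] [Module.Finite k E]

theorem end_mul_self (h2 : Module.finrank k E = 2) (f : Module.End k E) :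
    f * f - LinearMap.trace k E f • f + LinearMap.det f • (1 : Module.End k E) = 0 := by
  classical
  let b := Module.finBasisOfFinrankEq k E h2
  apply (LinearMap.toMatrix b b).injective
  have h := Matrix.aeval_self_charpoly (LinearMap.toMatrix b b f)
  rw [Matrix.charpoly_fin_two, map_add, map_sub, map_pow, map_mul, aeval_C, aeval_C, aeval_X,
    Algebra.algebraMap_eq_smul_one, Algebra.algebraMap_eq_smul_one, smul_one_mul,
    ← LinearMap.trace_eq_matrix_trace, LinearMap.det_toMatrix] at h
  rw [map_zero, map_add, map_sub, map_smul, map_smul, LinearMap.toMatrix_one,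
    LinearMap.toMatrix_mul, ← pow_two]
  exact h

/-- The relation of a power follows from the relation of the element. -/
theorem pow_relation (h2 : Module.finrank k E = 2) (f : Module.End k E) {S : Type*} [Ring S]
    [Algebra k S] (T : S) (hT : T * T - LinearMap.trace k E f • T + LinearMap.det f • 1 = 0)
    (j : ℕ) :
    T ^ j * T ^ j - LinearMap.trace k E (f ^ j) • T ^ j + LinearMap.det (f ^ j) • 1 = 0 := by
  classical
  set a := LinearMap.trace k E f
  set d := LinearMap.det f
  set q : k[X] := X ^ 2 - C a * X + C d with hq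
  let q' := AdjoinRoot.mk q
  have hrec : ∀ i, LinearMap.trace k E (f ^ (i + 2)) =
      a * LinearMap.trace k E (f ^ (i + 1)) - d * LinearMap.trace k E (f ^ i) := by
    intro i
    have h := congrArg (fun g => LinearMap.trace k E (f ^ i * g)) (end_mul_self h2 f)
    simp only [mul_add, mul_sub, mul_smul_comm, mul_one, mul_zero, map_add, map_sub, map_smul,
      smul_eq_mul, map_zero, ← pow_two, ← pow_add, ← pow_succ] at h
    linear_combination h
  have hr : q' X * (q' (C a) - q' X) = q' (C d) := by
    have h0 : q' q = 0 := AdjoinRoot.mk_self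
    simp only [hq, map_add, map_sub, map_mul, map_pow] at h0
    linear_combination -h0
  have hsum : ∀ i, q' (C (LinearMap.trace k E (f ^ i))) = q' X ^ i + (q' (C a) - q' X) ^ i ∧
      q' (C (LinearMap.trace k E (f ^ (i + 1)))) =
        q' X ^ (i + 1) + (q' (C a) - q' X) ^ (i + 1) := by
    intro i
    induction i with
    | zero =>
      refine ⟨?_, ?_⟩
      · rw [pow_zero, LinearMap.trace_one, h2, pow_zero, pow_zero]
        simp only [Nat.cast_ofNat, map_ofNat]
        norm_num
      · rw [zero_add, pow_one, pow_one, pow_one, add_sub_cancel]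
    | succ i ih =>
      refine ⟨ih.2, ?_⟩
      rw [hrec, map_sub, map_mul, map_mul, map_sub, map_mul, map_mul, ih.1, ih.2, ← hr]
      ring
  have hdvd : q ∣ (X ^ j) ^ 2 - C (LinearMap.trace k E (f ^ j)) * X ^ j +
      C (LinearMap.det (f ^ j)) := by
    rw [← AdjoinRoot.mk_eq_zero]
    show q' _ = 0
    simp only [map_add, map_sub, map_mul, map_pow, (hsum j).1]
    rw [← hr, mul_pow]
    ring
  have hqT : aeval T q = 0 := by
    rw [hq]
    simp only [map_add, map_sub, map_mul, aeval_C, aeval_X,
      Algebra.algebraMap_eq_smul_one, smul_one_mul, pow_two]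
    exact hT
  generalize LinearMap.det (f ^ j) = e at hdvd ⊢
  obtain ⟨c, hc⟩ := hdvd
  have h := congrArg (aeval T) hc
  rw [map_mul, hqT, zero_mul] at h
  simp only [map_add, map_sub, map_mul, map_pow, aeval_C, aeval_X,
    Algebra.algebraMap_eq_smul_one, smul_one_mul, pow_two] at h
  exact h

end Recursion

section Group

variable {Γ : Type*} [Group Γ] {p : ℕ} [hp : Fact p.Prime]

/-- The subgroup acting trivially on a subspace. -/
def fixing {V : Type*} [AddCommGroup V] [Module (ZMod p) V] (r : Γ →* Module.End (ZMod p) V)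
    (W : Submodule (ZMod p) V) : Subgroup Γ where
  carrier := {g | ∀ w ∈ W, r g w = w}
  one_mem' w _ := by rw [map_one, Module.End.one_apply]
  mul_mem' {a b} ha hb w hw := by rw [map_mul, Module.End.mul_apply, hb w hw, ha w hw]
  inv_mem' {a} ha w hw := by
    conv_lhs => rw [← ha w hw, ← Module.End.mul_apply, ← map_mul, inv_mul_cancel, map_one,
      Module.End.one_apply]

/-- A group of unipotent maps of a finite module has a nonzero fixed vector. -/
theorem exists_fixed_of_unipotent {V : Type*} [AddCommGroup V] [Module (ZMod p) V] [Finite V]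
    [Nontrivial V] (r : Γ →* Module.End (ZMod p) V) (K : Subgroup Γ)
    (hK : ∀ g ∈ K, (r g - 1) * (r g - 1) = 0) :
    ∃ v : V, v ≠ 0 ∧ ∀ g ∈ K, r g v = v := by
  classical
  let act : K →* Equiv.Perm V :=
    { toFun := fun g =>
        { toFun := r g
          invFun := r (g⁻¹ : Γ)
          left_inv := fun v => by
            rw [← Module.End.mul_apply, ← map_mul, inv_mul_cancel, map_one, Module.End.one_apply]
          right_inv := fun v => by
            rw [← Module.End.mul_apply, ← map_mul, mul_inv_cancel, map_one,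
              Module.End.one_apply] }
      map_one' := Equiv.ext fun v => show r 1 v = v by rw [map_one, Module.End.one_apply]
      map_mul' := fun a b => Equiv.ext fun v =>
        show r ((a : Γ) * b) v = r a (r b v) by rw [map_mul, Module.End.mul_apply] }
  have hpow : ∀ g ∈ K, r (g ^ p) = 1 := by
    intro g hg
    have h : ∀ n : ℕ, r g ^ n = 1 + n • (r g - 1) := by
      intro n
      induction n with
      | zero => simp
      | succ n ih =>
        have h1 : r g = 1 + (r g - 1) := by abel
        rw [pow_succ, ih]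
        conv_lhs => arg 2; rw [h1]
        rw [mul_add, mul_one, add_mul, one_mul, smul_mul_assoc, hK g hg, smul_zero, add_zero,
          succ_nsmul]
        abel
    rw [map_pow, h, ← Nat.cast_smul_eq_nsmul (ZMod p), ZMod.natCast_self, zero_smul, add_zero]
  have hP : IsPGroup p act.range := by
    rintro ⟨_, g, rfl⟩
    refine ⟨1, Subtype.ext ?_⟩
    rw [pow_one, SubgroupClass.coe_pow, OneMemClass.coe_one, ← map_pow]
    refine Equiv.ext fun v => ?_
    show r ((g : Γ) ^ p) v = v
    rw [hpow g g.2, Module.End.one_apply]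
  have hdvd : p ∣ Nat.card V := by
    obtain ⟨v, hv⟩ := exists_ne (0 : V)
    have : addOrderOf v = p := addOrderOf_eq_prime (by
      rw [← Nat.cast_smul_eq_nsmul (ZMod p), ZMod.natCast_self, zero_smul]) hv
    exact this ▸ addOrderOf_dvd_natCard v
  have h := hP.card_modEq_card_fixedPoints V
  have h0 : (0 : V) ∈ MulAction.fixedPoints act.range V := by
    rintro ⟨_, g, rfl⟩
    exact map_zero (r (g : Γ))
  have hd : p ∣ Nat.card (MulAction.fixedPoints act.range V) :=
    Nat.modEq_zero_iff_dvd.1 (h.symm.trans (Nat.modEq_zero_iff_dvd.2 hdvd))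
  haveI : Nonempty (MulAction.fixedPoints act.range V) := ⟨⟨0, h0⟩⟩
  have h1 : 1 < Nat.card (MulAction.fixedPoints act.range V) :=
    hp.out.one_lt.trans_le (Nat.le_of_dvd Nat.card_pos hd)
  haveI := Finite.one_lt_card_iff_nontrivial.1 h1
  obtain ⟨⟨v, hv⟩, hne⟩ := exists_ne (⟨0, h0⟩ : MulAction.fixedPoints act.range V)
  exact ⟨v, fun e => hne (Subtype.ext e), fun g hg => hv ⟨act ⟨g, hg⟩, _, rfl⟩⟩

variable {E : Type*} [AddCommGroup E] [Module (ZMod p) E] [Finite E]
  (h2 : Module.finrank (ZMod p) E = 2) (ρ : Γ →* Module.End (ZMod p) E)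
  (hirr : ∀ L : Submodule (ZMod p) E, (∀ g, ∀ x ∈ L, ρ g x ∈ L) → L = ⊥ ∨ L = ⊤)

include h2 hirr in
/-- A normal subgroup of unipotent maps is trivial. -/
theorem eq_one_of_unipotent (K : Subgroup Γ) [K.Normal]
    (hK : ∀ g ∈ K, (ρ g - 1) * (ρ g - 1) = 0) : ∀ g ∈ K, ρ g = 1 := by
  haveI : Nontrivial E := Module.nontrivial_of_finrank_eq_succ h2
  obtain ⟨v, hv0, hv⟩ := exists_fixed_of_unipotent ρ K hK
  let L : Submodule (ZMod p) E :=
    { carrier := {x | ∀ g ∈ K, ρ g x = x}
      zero_mem' := fun g _ => map_zero _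
      add_mem' := fun ha hb g hg => by rw [map_add, ha g hg, hb g hg]
      smul_mem' := fun c x hx g hg => by rw [map_smul, hx g hg] }
  rcases hirr L (fun γ x hx g hg => by
      have h := congrArg (ρ γ) (hx _ (Subgroup.Normal.conj_mem' ‹K.Normal› g hg γ))
      rwa [← Module.End.mul_apply, ← map_mul, mul_assoc, mul_inv_cancel_left, map_mul,
        Module.End.mul_apply] at h) with h | h
  · exact absurd (show v ∈ L from hv) (by rw [h]; exact hv0)
  · exact fun g hg => LinearMap.ext fun x => (h ▸ Submodule.mem_top : x ∈ L) g hg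

include h2 hirr in
theorem not_forall_eq_one : ¬ ∀ g, ρ g = 1 := by
  intro h
  haveI : Nontrivial E := Module.nontrivial_of_finrank_eq_succ h2
  haveI : Module.Finite (ZMod p) E := Module.finite_of_finrank_eq_succ h2
  obtain ⟨v, hv⟩ := exists_ne (0 : E)
  rcases hirr (Submodule.span (ZMod p) {v}) (fun g x hx => by
      rw [h, Module.End.one_apply]; exact hx) with e | e
  · exact hv (by simpa using e)
  · have h1 := finrank_span_singleton (K := ZMod p) hv
    rw [e, finrank_top, h2] at h1
    omega

include h2 hirr in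
/-- The eigen-line of an element commuting with everything. -/
theorem eq_smul_of_commute {σ : Γ} (hσ : ∀ g, ρ g * ρ σ = ρ σ * ρ g) {c : ZMod p} {R : E}
    (hR : R ≠ 0) (hσR : ρ σ R = c • R) : ∀ x, ρ σ x = c • x := by
  let L : Submodule (ZMod p) E := LinearMap.ker (ρ σ - c • 1)
  have hmem : ∀ x, x ∈ L ↔ ρ σ x = c • x := fun x => sub_eq_zero
  rcases hirr L (fun g x hx => by
      rw [hmem] at hx ⊢
      rw [← Module.End.mul_apply, ← hσ, Module.End.mul_apply, hx, map_smul]) with h | h
  · exact absurd ((hmem R).2 hσR) (by rw [h]; exact hR)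
  · exact fun x => (hmem x).1 (h ▸ Submodule.mem_top)

theorem det_conj_eq (g n : Γ) :
    LinearMap.det (ρ (g * n * g⁻¹)) = LinearMap.det (ρ n) := by
  have h := congrArg LinearMap.det (map_mul ρ g g⁻¹)
  rw [mul_inv_cancel, map_one, map_one, map_mul] at h
  rw [map_mul, map_mul, map_mul, map_mul, mul_right_comm, ← h, one_mul]

/-- The commutators have determinant one. -/
theorem det_commutator (g n : Γ) : LinearMap.det (ρ (g * n * g⁻¹ * n⁻¹)) = 1 := by
  rw [map_mul, map_mul, det_conj_eq, ← map_mul, ← map_mul, mul_inv_cancel, map_one, map_one]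

/-- The elements of determinant one. -/
def detOne : Subgroup Γ := ((LinearMap.det.comp ρ).toHomUnits).ker

theorem mem_detOne {g : Γ} : g ∈ detOne ρ ↔ LinearMap.det (ρ g) = 1 := by
  rw [detOne, MonoidHom.mem_ker, Units.ext_iff]
  rfl

include h2 hirr in
/-- Not every element has `1` as an eigenvalue. -/
theorem not_forall_trace_eq :
    ¬ ∀ g, LinearMap.trace (ZMod p) E (ρ g) = 1 + LinearMap.det (ρ g) := by
  intro h
  haveI : Module.Finite (ZMod p) E := Module.finite_of_finrank_eq_succ h2
  haveI : (detOne ρ).Normal := MonoidHom.normal_ker _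
  have hK := eq_one_of_unipotent h2 ρ hirr (detOne ρ) fun g hg => by
    have h1 := end_mul_self h2 (ρ g)
    rw [h g, (mem_detOne ρ).1 hg, one_smul, add_smul, one_smul] at h1
    rw [sub_mul, mul_sub, mul_one, one_mul, ← h1]
    abel
  have hcomm : ∀ σ g, ρ g * ρ σ = ρ σ * ρ g := fun σ g => by
    have h1 := hK _ ((mem_detOne ρ).2 (det_commutator ρ g σ))
    rw [← map_mul, ← map_mul, show g * σ = g * σ * g⁻¹ * σ⁻¹ * (σ * g) by group, map_mul, h1,
      one_mul]
  refine not_forall_eq_one h2 ρ hirr fun σ => ?_
  have hdet : LinearMap.det (ρ σ - 1) = 0 := by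
    classical
    let b := Module.finBasisOfFinrankEq (ZMod p) E h2
    have h1 := h σ
    rw [LinearMap.trace_eq_matrix_trace (ZMod p) b, ← LinearMap.det_toMatrix b] at h1
    rw [← LinearMap.det_toMatrix b, map_sub, LinearMap.toMatrix_one, Matrix.det_fin_two]
    rw [Matrix.trace_fin_two, Matrix.det_fin_two] at h1
    simp only [Matrix.sub_apply, Matrix.one_apply_eq, ne_eq, Fin.reduceEq, not_false_eq_true,
      Matrix.one_apply_ne, sub_zero]
    linear_combination -h1
  obtain ⟨R, hR, hR0⟩ := (Submodule.ne_bot_iff _).1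
    (bot_lt_iff_ne_bot.1 (LinearMap.bot_lt_ker_of_det_eq_zero hdet))
  rw [LinearMap.mem_ker, LinearMap.sub_apply, Module.End.one_apply, sub_eq_zero] at hR
  exact LinearMap.ext fun x => by
    rw [eq_smul_of_commute h2 ρ hirr (hcomm σ) (c := 1) hR0 (by rw [one_smul, hR]) x, one_smul,
      Module.End.one_apply]

variable {V : Type*} [AddCommGroup V] [Module (ZMod p) V] (r : Γ →* Module.End (ZMod p) V)
  (hrel : ∀ g, r g * r g - LinearMap.trace (ZMod p) E (ρ g) • r g +
    LinearMap.det (ρ g) • 1 = 0)

include h2 hirr hrel in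
/-- An element cannot be scalar on a stable part without being so on `E`. -/
theorem false_of_scalar (W : Submodule (ZMod p) V) (hW : ∀ g, ∀ w ∈ W, r g w ∈ W)
    (hW0 : W ≠ ⊥) {σ : Γ} {c : ZMod p} (hσW : ∀ w ∈ W, r σ w = c • w)
    {R T : E} (hR : R ≠ 0) (hσR : ρ σ R = c • R) (hσT : ρ σ T ≠ c • T) : False := by
  haveI : Module.Finite (ZMod p) E := Module.finite_of_finrank_eq_succ h2
  haveI : (fixing r W).Normal := ⟨fun n hn g w hw => by
    rw [map_mul, map_mul, Module.End.mul_apply, Module.End.mul_apply, hn _ (hW _ w hw),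
      ← Module.End.mul_apply, ← map_mul, mul_inv_cancel, map_one, Module.End.one_apply]⟩
  haveI : (detOne ρ).Normal := MonoidHom.normal_ker _
  obtain ⟨w₀, hw₀, hw₀0⟩ := (Submodule.ne_bot_iff _).1 hW0
  have hK := eq_one_of_unipotent h2 ρ hirr (fixing r W ⊓ detOne ρ) fun g hg => by
    have h1 := LinearMap.congr_fun (hrel g) w₀
    simp only [LinearMap.add_apply, LinearMap.sub_apply, Module.End.mul_apply,
      LinearMap.smul_apply, Module.End.one_apply, LinearMap.zero_apply, hg.1 w₀ hw₀,
      (mem_detOne ρ).1 hg.2, one_smul] at h1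
    have h3 : ((2 : ZMod p) - LinearMap.trace (ZMod p) E (ρ g)) • w₀ = 0 := by
      rw [sub_smul, two_smul, ← h1]
      abel
    have h4 := sub_eq_zero.1 ((smul_eq_zero.1 h3).resolve_right hw₀0)
    have h5 := end_mul_self h2 (ρ g)
    rw [← h4, (mem_detOne ρ).1 hg.2, one_smul, two_smul] at h5
    rw [sub_mul, mul_sub, mul_one, one_mul, ← h5]
    abel
  refine hσT (eq_smul_of_commute h2 ρ hirr (fun g => ?_) hR hσR T)
  have h1 := hK (g * σ * g⁻¹ * σ⁻¹) ⟨fun w hw => ?_, (mem_detOne ρ).2 (det_commutator ρ g σ)⟩
  · rw [← map_mul, ← map_mul, show g * σ = g * σ * g⁻¹ * σ⁻¹ * (σ * g) by group, map_mul, h1,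
      one_mul]
  · have hw' := hW σ⁻¹ w hw
    have e : c • r σ⁻¹ w = w := by
      rw [← hσW _ hw', ← Module.End.mul_apply, ← map_mul, mul_inv_cancel, map_one,
        Module.End.one_apply]
    rw [map_mul, map_mul, map_mul, Module.End.mul_apply, Module.End.mul_apply,
      Module.End.mul_apply, hσW _ (hW _ _ hw'), map_smul, ← Module.End.mul_apply, ← map_mul,
      mul_inv_cancel, map_one, Module.End.one_apply, e]

end Group

end FLTAgent.MazurPrinciple
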