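import Fermat.Agent.TorsionHom.GoodRep
import Fermat.Agent.BadRed.Torsion
import Fermat.Agent.EigenLattice.Galois
import Fermat.Agent.Mazur.PointPlace

/-!
# Functions fixed by Galois representing fixed torsion classes

A torsion class has exactly one reduced function, so a class fixed by a set of automorphisms of
`ℚ̄` is given by a function fixed by them.
-/

set_option autoImplicit false
set_option linter.style.haveILetI false
set_option synthInstance.maxHeartbeats 400000
set_option maxHeartbeats 1000000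

noncomputable section

open AlgebraicCurve ModularCurve

namespace FLTAgent.MazurPrinciple

open FLTAgent.Specialization FLTAgent.X0Fn

local notation "QA" => AlgebraicClosure ℚ
local notation "GG" => (AlgebraicClosure ℚ ≃ₐ[ℚ] AlgebraicClosure ℚ)

variable {N : ℕ} [NeZero N]

local notation "gal" => arithmeticGalois (modularFunctionFieldFull N)

omit [NeZero N] in
theorem order_gal (σ : GG) (x : X0Bar N) :
    ((gal σ • x : X0Bar N) : LaurentSeries QA).order = (x : LaurentSeries QA).order ∧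
      ((gal σ • x : X0Bar N) : LaurentSeries QA).leadingCoeff =
        σ (x : LaurentSeries QA).leadingCoeff := by
  rw [coe_arithmeticGalois_smul]
  rcases eq_or_ne (x : LaurentSeries QA) 0 with h0 | h0
  · rw [h0, map_zero]; simp
  have hne : coeffMap (σ : QA →+* QA) (x : LaurentSeries QA) ≠ 0 := by
    simpa using h0
  have ho : (coeffMap (σ : QA →+* QA) (x : LaurentSeries QA)).order =
      (x : LaurentSeries QA).order := by
    refine le_antisymm (HahnSeries.order_le_of_coeff_ne_zero ?_)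
      (HahnSeries.order_le_of_coeff_ne_zero fun h => ?_)
    · rw [coeffMap_coeff]
      exact fun h => HahnSeries.coeff_order_eq_zero.not.2 h0
        (by simpa using h)
    · exact HahnSeries.coeff_order_eq_zero.not.2 hne (by rw [coeffMap_coeff, h, map_zero])
  refine ⟨ho, ?_⟩
  rw [HahnSeries.leadingCoeff_eq, HahnSeries.leadingCoeff_eq, ho, coeffMap_coeff]
  rfl

theorem smul_infPlace (σ : GG) :
    gal σ • TorsionHom.infPlace N Mazur.kappa0 = TorsionHom.infPlace N Mazur.kappa0 := by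
  set v := TorsionHom.infPlace N Mazur.kappa0
  refine Curves.place_eq_of_le fun f hf => ?_
  rw [← Curves.ordGE_zero_iff_mem] at hf ⊢
  rcases hf with rfl | hf
  · exact Curves.ordGE_zero _ _
  refine Or.inr ?_
  rw [show f = gal σ • ((gal σ)⁻¹ • f) from (smul_inv_smul _ f).symm, SemilinearAut.ord_smul] at hf
  rw [← TorsionHom.order_coe] at hf ⊢
  rwa [← (order_gal σ ((gal σ)⁻¹ • f)).1, smul_inv_smul] at hf

theorem reduced_smul {n : ℕ} {x : X0Bar N} (σ : GG)
    (hx : TorsionHom.Reduced Mazur.kappa0 n x) :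
    TorsionHom.Reduced Mazur.kappa0 n (gal σ • x) := by
  have hne : ∀ {y : X0Bar N}, y ≠ 0 → gal σ • y ≠ 0 := fun hy => by
    rw [ne_eq, smul_eq_zero_iff_eq]; exact hy
  have hgood : ∀ (τ : GG) (y : X0Bar N), TorsionHom.Good Mazur.kappa0 n y →
      TorsionHom.Good Mazur.kappa0 n (gal τ • y) := by
    intro τ y hy
    refine ⟨by rw [ne_eq, smul_eq_zero_iff_eq]; exact hy.1, fun v => ?_⟩
    rw [BadRed.ord_smul']
    refine ⟨(hy.2 _).1, fun hv => (hy.2 _).2 fun e => hv ?_⟩
    have h1 := congrArg (fun w => gal τ • w) e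
    rwa [smul_inv_smul, smul_infPlace] at h1
  refine ⟨hgood σ x hx.1, by rw [(order_gal σ x).2, hx.2.1, map_one], fun y hy hg => ?_⟩
  have hinv : (gal σ)⁻¹ = gal σ⁻¹ := (map_inv _ σ).symm
  have h := hgood σ⁻¹ _ hg
  rw [smul_mul', smul_pow', ← hinv, inv_smul_smul] at h
  have h1 := hx.2.2 ((gal σ)⁻¹ • y) (by rw [ne_eq, smul_eq_zero_iff_eq]; exact hy) h
  have h2 : ∀ z : X0Bar N, (TorsionHom.infPlace N Mazur.kappa0).ord (gal σ • z) =
      (TorsionHom.infPlace N Mazur.kappa0).ord z := fun z => by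
    conv_lhs => rw [← smul_infPlace σ]
    rw [SemilinearAut.ord_smul]
  rw [← h2, ← h2 x, smul_mul', smul_pow', smul_inv_smul] at h1
  exact h1

/-- **A fixed class has a fixed function.** -/
theorem exists_fixed_rep {n : ℕ} (hn : n ≠ 0) {G : Set GG} {x : JZero N} (hnx : n • x = 0)
    (hfix : ∀ σ ∈ G, σ • x = x) :
    ∃ (f : X0Bar N) (D : Divisor.degZero (K := QA) (F := X0Bar N)), f ≠ 0 ∧
      (∀ v : Place QA (X0Bar N), v.ord f = (n : ℤ) * (D : Divisor QA (X0Bar N)) v) ∧
      Pic0.mk D = x ∧ ∀ σ ∈ G, gal σ • f = f := by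
  classical
  haveI : Curves.IsFunctionField QA (X0Bar N) := (isFunctionField_and_finrank Mazur.kappa0).1
  obtain ⟨D₀, f₀, rfl, hf₀, hD₀⟩ := BadRed.exists_torsion_rep
    (L := QA) (F := X0Bar N) (n := n) (x := x) (Pic0.mem_torsion.2 (by rwa [natCast_zsmul]))
  obtain ⟨y, hy, hred⟩ := TorsionHom.exists_reduced (κ := Mazur.kappa0) hn hf₀
    fun v => ⟨_, hD₀ v⟩
  set f := f₀ * y ^ n
  have hdeg : Curves.divOf QA y ∈ Divisor.degZero (K := QA) (F := X0Bar N) :=
    Divisor.mem_degZero.2 (Curves.degree_divOf y)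
  set D : Divisor.degZero (K := QA) (F := X0Bar N) := D₀ + ⟨_, hdeg⟩
  have hD : ∀ v : Place QA (X0Bar N), v.ord f = (n : ℤ) * (D : Divisor QA (X0Bar N)) v := by
    intro v
    rw [v.ord_mul hf₀ (pow_ne_zero _ hy), Curves.ord_pow, hD₀, AddSubgroup.coe_add,
      Finsupp.add_apply, Curves.divOf_apply]
    ring
  have hcl : Pic0.mk D = Pic0.mk D₀ := by
    refine QuotientAddGroup.eq_iff_sub_mem.2 (AddSubgroup.mem_addSubgroupOf.2 ⟨y, hy, fun v => ?_⟩)
    simp [D, Curves.divOf_apply]
  refine ⟨f, D, hred.1.1, hD, hcl, fun σ hσ => ?_⟩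
  have h : gal σ • Pic0.mk D = Pic0.mk D := by
    rw [hcl, ← galois_smul_pic0_def]; exact hfix σ hσ
  rw [SemilinearAut.pic0_smul_mk] at h
  obtain ⟨w, hw, hwv⟩ := AddSubgroup.mem_addSubgroupOf.1 (QuotientAddGroup.eq_iff_sub_mem.1 h)
  have hne : gal σ • f ≠ 0 := by rw [ne_eq, smul_eq_zero_iff_eq]; exact hred.1.1
  obtain ⟨c, hc⟩ := Curves.eq_algebraMap_of_forall_ord_nonneg (K := QA)
    (f := (gal σ • f) / (f * w ^ n)) fun v => by
      have h1 := hwv v
      rw [AddSubgroupClass.coe_sub, Finsupp.sub_apply, SemilinearAut.coe_degZeroSMulHom,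
        SemilinearAut.divisor_smul_apply] at h1
      rw [Curves.ord_div v hne (mul_ne_zero hred.1.1 (pow_ne_zero _ hw)),
        v.ord_mul hred.1.1 (pow_ne_zero _ hw), Curves.ord_pow, BadRed.ord_smul', hD, hD, ← h1]
      linarith [mul_sub (n : ℤ) ((D : Divisor QA (X0Bar N)) ((gal σ)⁻¹ • v))
        ((D : Divisor QA (X0Bar N)) v)]
  obtain ⟨d, hd⟩ := IsAlgClosed.exists_pow_nat_eq c (Nat.pos_of_ne_zero hn)
  have he : gal σ • f = f * (algebraMap QA (X0Bar N) d * w) ^ n := by
    rw [mul_pow, ← map_pow, hd, ← hc]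
    field_simp [hred.1.1, pow_ne_zero n hw]
  have hd0 : algebraMap QA (X0Bar N) d * w ≠ 0 := fun h0 => by
    rw [h0, zero_pow hn, mul_zero] at he
    exact hne he
  exact (reduced_smul σ hred).eq_of_pow hn hred hd0 he

end FLTAgent.MazurPrinciple
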