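import Fermat.Agent.MazurPrinciple.Congr
import Fermat.Agent.BadRed.Modular
import Fermat.Agent.Mazur.PointUnit

/-!
# The measuring function of the two sheets of `X₀(Mp)`

`u = Δ(τ)/Δ(pτ)` has a nonzero reduction on the first sheet, and its product with its mirror image
is `p ^ 12`.
-/

set_option autoImplicit false
set_option linter.style.haveILetI false
set_option maxHeartbeats 200000
set_option synthInstance.maxHeartbeats 400000

noncomputable section

open UpperHalfPlane hiding I I_re I_im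
open Filter ModularCurve AlgebraicCurve IntermediateField
open FLTAgent.X0Fn (Cos W0 expW expL PerL XF iota trans jF cuspEmb affMap)
open FLTAgent.ModEq (qp HasExp substHom deltaSer deltaInvSer)
open FLTAgent.ES (dlt jfun)
open scoped MatrixGroups Manifold

namespace FLTAgent.MazurPrinciple

open FLTAgent.Curves FLTAgent.Specialization FLTAgent.BadRed

local notation "QA" => AlgebraicClosure ℚ

/-- The series of `Δ(τ)/Δ(pτ)` over any ring. -/
def unitSer (R : Type*) [CommRing R] (p : ℕ) [NeZero p] : LaurentSeries R :=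
  deltaSer R * qExpand R p (deltaInvSer R)

theorem coeffMap_unitSer {R R' : Type*} [CommRing R] [CommRing R'] (f : R →+* R') (p : ℕ)
    [NeZero p] : coeffMap f (unitSer R p) = unitSer R' p := by
  rw [unitSer, unitSer, map_mul, coeffMap_qExpand, ModEq.coeffMap_deltaSer,
    ModEq.coeffMap_deltaInvSer]

theorem unitSer_ne_zero {R : Type*} [Field R] (p : ℕ) [NeZero p] : unitSer R p ≠ 0 := by
  refine left_ne_zero_of_mul_eq_one (b := qExpand R p (deltaSer R) * deltaInvSer R) ?_
  calc _ = deltaSer R * deltaInvSer R * qExpand R p (deltaSer R * deltaInvSer R) := by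
        rw [unitSer, map_mul]; ring
    _ = 1 := by rw [ModEq.deltaSer_mul_inv, map_one, one_mul]

theorem modularUnitSeries_eq (p : ℕ) [NeZero p] : modularUnitSeries p = unitSer ℚ p := by
  have hd : deltaSeries = deltaSer ℚ := rfl
  have hi : (deltaSeriesN p)⁻¹ = qExpand ℚ p (deltaInvSer ℚ) := by
    refine inv_eq_of_mul_eq_one_right ?_
    rw [deltaSeriesN, hd, ← map_mul, ModEq.deltaSer_mul_inv, map_one]
  rw [modularUnitSeries, hi, hd, unitSer]

variable (p : ℕ) [Fact p.Prime] [NeZero p]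

theorem exists_level_unit : ∃ f : X0Bar p, (f : LaurentSeries QA) = unitSer QA p ∧ f ≠ 0 ∧
    ∀ v : Place QA (X0Bar p), 0 ≤ v.ord (jF QA p) → v.ord f = 0 := by
  obtain ⟨f, hf, hf0, -, -, h⟩ := Mazur.exists_unit (p := p)
  refine ⟨f, ?_, hf0, fun v hv => h v (fun e => ?_) fun e => ?_⟩
  · rw [hf, modularUnitSeries_eq, coeffEmb, coeffMap_unitSer]
  · exact absurd ((Mazur.ord_jF_neg_iff v).2 (Or.inl e)) (not_lt.2 hv)
  · exact absurd ((Mazur.ord_jF_neg_iff v).2 (Or.inr e)) (not_lt.2 hv)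

theorem hasExp_unitF_S :
    HasExp p (fun τ ↦ Mazur.unitF p (ModularGroup.S • τ)) (Mazur.unitSeriesS (p := p) 1) := by
  have hp0 : (p : ℕ) ≠ 0 := (Fact.out : p.Prime).ne_zero
  have h2 := ModEq.hasExp_discriminant_inv.comp_affine (n := p) 1 1 (affMap 1 p 0) (fun τ ↦ by
    rw [Mazur.qp_affMap one_ne_zero hp0 dvd_rfl, Nat.div_self (Nat.pos_of_ne_zero hp0)]
    simp) (Mazur.tendsto_affMap one_ne_zero hp0 0)
  refine ((HasExp.const ((p : ℂ) ^ 12)).mul (Mazur.hasExp_dlt_level.mul h2)).congr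
    (Eventually.of_forall fun τ ↦ ?_)
  have h := Mazur.unitF_S (p := p) 0 τ
  rw [zpow_zero, one_smul] at h
  rw [h]
  simp [mul_assoc]
  exact Or.inl (Or.inl rfl)

variable {p} {M : ℕ} [NeZero M] [NeZero (M * p)] (hpM : ¬ p ∣ M)

/-- The field of level `p` inside that of level `Mp`. -/
def inclLevel : X0Bar p →ₐ[QA] X0Bar (M * p) :=
  IntermediateField.inclusion (X0Bar_mono (dvd_mul_left p M))

@[simp] theorem coe_inclLevel (z : X0Bar p) :
    ((inclLevel (M := M) z : X0Bar (M * p)) : LaurentSeries QA) = (z : LaurentSeries QA) := by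
  rw [inclLevel, IntermediateField.coe_inclusion]

theorem inclLevel_jEl : inclLevel (M := M) (Kronecker.jEl p) =
    heckeAlphaBar QA M p (Kronecker.jEl M) := by
  rw [← jEl_eq_alpha]
  exact Subtype.ext ((coe_inclLevel _).trans ((Kronecker.coe_jEl p).trans
    (Kronecker.coe_jEl (M * p)).symm))

theorem inclLevel_jNEl : inclLevel (M := M) (Kronecker.jNEl p) =
    heckeBetaBar QA M p (Kronecker.jEl M) := Subtype.ext <| by
  rw [coe_inclLevel, Kronecker.coe_jNEl, jqNModC, coe_heckeBetaBar, Kronecker.coe_jEl]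

open Mazur in
theorem expL_trans_S_jd (hmem : coeffEmb QA (qExpand ℚ p jq) ∈ X0Fn.XA QA p) :
    expL (p : ℝ) ⟨trans (ModularGroup.S : Cos p) (X0Fn.toW kappa0 ⟨_, hmem⟩),
      X0Fn.trans_mem_PerL _ _⟩ = jqModC ℂ := by
  have hp0 : (p : ℕ) ≠ 0 := (Fact.out : p.Prime).ne_zero
  have hq : ∀ τ, X0Fn.qh 1 (affMap 1 p 0 τ) = 1 * X0Fn.qh (p : ℝ) τ ^ 1 := fun τ => by
    rw [X0Fn.qh_affMap one_ne_zero hp0 dvd_rfl, Nat.div_self (Nat.pos_of_ne_zero hp0)]
    simp
  have hfun : trans (ModularGroup.S : Cos p) (X0Fn.toW kappa0 ⟨_, hmem⟩) = jfun ∘ affMap 1 p 0 := by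
    funext τ
    rw [X0Fn.trans_mk, X0Fn.toW_gen kappa0 dvd_rfl]
    show X0Fn.jd p (ModularGroup.S⁻¹ • τ) = jfun (affMap 1 p 0 τ)
    rw [X0Fn.jd_eq, Function.comp_apply]
    have key : affMap p 1 0 (ModularGroup.S⁻¹ • τ) = ModularGroup.S • affMap 1 p 0 τ := by
      have hS : ModularGroup.S⁻¹ • τ = ModularGroup.S • τ := by
        rw [inv_smul_eq_iff]
        apply UpperHalfPlane.ext
        rw [UpperHalfPlane.modular_S_smul, UpperHalfPlane.modular_S_smul]
        simp only [UpperHalfPlane.coe_mk]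
        have := UpperHalfPlane.ne_zero τ
        field_simp
      rw [hS]
      apply UpperHalfPlane.ext
      rw [X0Fn.coe_affMap hp0 one_ne_zero, UpperHalfPlane.modular_S_smul,
        UpperHalfPlane.modular_S_smul]
      simp only [UpperHalfPlane.coe_mk]
      rw [X0Fn.coe_affMap one_ne_zero hp0]
      have := UpperHalfPlane.ne_zero τ
      have : (p : ℂ) ≠ 0 := Nat.cast_ne_zero.mpr hp0
      simp
      field_simp
    rw [key, FLTAgent.ES.jfun_smul]
  have he : (⟨trans (ModularGroup.S : Cos p) (X0Fn.toW kappa0 ⟨_, hmem⟩),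
      X0Fn.trans_mem_PerL _ _⟩ : PerL (p : ℝ)) =
      ⟨jfun ∘ affMap 1 p 0, X0Fn.jfun_comp_mem_PerL (X0Fn.mdiff_affMap one_ne_zero hp0 0)
        one_ne_zero one_ne_zero hq⟩ := Subtype.ext hfun
  rw [he, X0Fn.expL_jfun_comp (X0Fn.mdiff_affMap one_ne_zero hp0 0) one_ne_zero one_ne_zero hq,
    inv_one, ← X0Fn.qExpand_jq 1, qExpand_one_apply, ← jqModC_rat, coeffMap_jqModC]

open Mazur in
/-- The expansion at the other cusp is the expansion of the mirror image. -/
theorem cuspEmb_S_eq (z : X0Bar p) :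
    coeffMap kappa0 (swapEnd hpM (inclLevel z) : LaurentSeries QA) =
      cuspEmb kappa0 (ModularGroup.S : Cos p) z := by
  let φ : X0Bar p →+* LaurentSeries ℂ :=
    ((coeffMap kappa0).comp (X0Bar (M * p)).val.toRingHom).comp
      ((swapEnd hpM).toRingHom.comp (inclLevel (M := M)).toRingHom)
  have hφ : ∀ y, φ y = coeffMap kappa0 (swapEnd hpM (inclLevel y) : LaurentSeries QA) :=
    fun y => rfl
  have h : φ = cuspEmb kappa0 (ModularGroup.S : Cos p) := by
    refine Kronecker.ringHom_ext p φ _ (fun c => ?_) ?_ ?_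
    · rw [hφ, AlgHom.commutes, AlgHom.commutes, IntermediateField.coe_algebraMap_apply,
        algebraMap_laurentSeries_eq_single, coeffMap_single]
      exact (X0Fn.cuspEmb_algebraMap kappa0 _ c).symm
    · have e : (Kronecker.jEl p : X0Bar p) = jF QA p := Subtype.ext (by
        refine (Kronecker.coe_jEl p).trans ?_
        show _ = coeffEmb QA jq
        rw [coeffEmb, ← jqModC_rat, coeffMap_jqModC])
      rw [hφ, inclLevel_jEl, swapEnd_alpha, coe_heckeBetaBar, Kronecker.coe_jEl, coeffMap_qExpand,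
        coeffMap_jqModC, e, X0Fn.cuspEmb_jF, X0Fn.iota_coeffEmb, ← jqModC_rat, coeffMap_jqModC]
    · have hmem : coeffEmb QA (qExpand ℚ p jq) ∈ X0Fn.XA QA p :=
        Algebra.subset_adjoin ⟨_, ⟨p, inferInstance, dvd_rfl, rfl⟩, rfl⟩
      have e : (Kronecker.jNEl p : X0Bar p) = X0Fn.incA QA p ⟨_, hmem⟩ := Subtype.ext (by
        refine (Kronecker.coe_jNEl p).trans ?_
        show _ = coeffEmb QA (qExpand ℚ p jq)
        rw [jqNModC, coeffEmb, coeffMap_qExpand, ← jqModC_rat, coeffMap_jqModC])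
      rw [hφ, inclLevel_jNEl, swapEnd_beta, coe_heckeAlphaBar, Kronecker.coe_jEl, coeffMap_jqModC,
        e, X0Fn.cuspEmb_incA, X0Fn.cuspHom_apply]
      exact (expL_trans_S_jd hmem).symm
  exact (hφ z).symm.trans (congrArg (fun f : X0Bar p →+* LaurentSeries ℂ => f z) h)

theorem swap_unit {f : X0Bar p} (hf : (f : LaurentSeries QA) = unitSer QA p) :
    inclLevel (M := M) f * swapEnd hpM (inclLevel f) =
      algebraMap QA (X0Bar (M * p)) ((p : QA) ^ 12) := by
  apply Subtype.ext
  set κ := Mazur.kappa0 with hκ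
  set W : W0 p := ⟨Mazur.unitF p, Mazur.unitF_mem⟩
  have hW : iota (N := p) κ (f : LaurentSeries QA) = expW p W := by
    refine HasExp.unique ?_ (Mazur.hasExp_expL ⟨_, X0Fn.W0_le_PerL W.2⟩)
    rw [hf, X0Fn.iota, RingHom.comp_apply, coeffMap_unitSer]
    exact Mazur.hasExp_unitF
  have hS : cuspEmb κ (ModularGroup.S : Cos p) f = Mazur.unitSeriesS (p := p) 1 := by
    rw [Mazur.cuspEmb_eq κ f hW]
    refine (Mazur.hasExp_expL (N := p) ⟨trans (ModularGroup.S : Cos p) W,
      X0Fn.trans_mem_PerL _ W⟩).unique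
        ((hasExp_unitF_S p).congr (Eventually.of_forall fun τ ↦ ?_))
    rw [show ((⟨trans (ModularGroup.S : Cos p) W, X0Fn.trans_mem_PerL _ W⟩ : PerL (p : ℝ)) :
      ℍ → ℂ) τ = (W : ℍ → ℂ) (ModularGroup.S⁻¹ • τ) from X0Fn.trans_mk W _ τ]
    show Mazur.unitF p _ = Mazur.unitF p _
    congr 1
    rw [eq_inv_smul_iff]
    apply UpperHalfPlane.ext
    rw [UpperHalfPlane.modular_S_smul, UpperHalfPlane.modular_S_smul]
    simp only [UpperHalfPlane.coe_mk]
    have := UpperHalfPlane.ne_zero τ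
    field_simp
  refine HahnSeries.ext (funext fun n => κ.injective ?_)
  refine congrArg (fun x : LaurentSeries ℂ => x.coeff n)
    (?_ : coeffMap κ (_ : LaurentSeries QA) = coeffMap κ _)
  rw [IntermediateField.coe_mul, map_mul, hκ, cuspEmb_S_eq hpM f, ← hκ, hS, coe_inclLevel, hf,
    coeffMap_unitSer, Mazur.unitSeriesS, ModEq.substHom_one, qExpand_one_apply]
  rw [IntermediateField.coe_algebraMap_apply, algebraMap_laurentSeries_eq_single, coeffMap_single,
    ← HahnSeries.C_apply, unitSer]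
  simp only [map_pow, map_natCast]
  have h1 := ModEq.deltaSer_mul_inv ℂ
  have h2 : qExpand ℂ p (deltaSer ℂ) * qExpand ℂ p (deltaInvSer ℂ) = 1 := by
    rw [← map_mul, h1, map_one]
  calc _ = (p : LaurentSeries ℂ) ^ 12 * ((deltaSer ℂ * deltaInvSer ℂ) *
      (qExpand ℂ p (deltaSer ℂ) * qExpand ℂ p (deltaInvSer ℂ))) := by ring
    _ = _ := by rw [h1, h2, one_mul, mul_one]

section Data

variable {A : ValuationSubring QA} {k : Type*} [Field k] [IsAlgClosed k] {π : A →+* k}
  (hπ : Function.Surjective π) (hA : RankOne π) [CharP k p]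
  [Curves.IsFunctionField k (modularFunctionFieldFullC k M)]

theorem qExpand_unitSer_char :
    qExpand k p (unitSer k p) = unitSer k p ^ p := by
  rw [Kronecker.laurent_pow_char p, coeffMap_unitSer]

theorem res_unitSer (f : X0Bar (M * p)) (hf : (f : LaurentSeries QA) = unitSer QA p) :
    (laurentReduction π (X0Bar (M * p))).Res f (unitSer k p) := by
  have hmem : coeffMap A.subtype (unitSer A p) ∈ X0Bar (M * p) := by
    rw [coeffMap_unitSer, ← hf]
    exact f.2
  have h := laurentReduction_res (π := π) hmem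
  rwa [show (⟨coeffMap A.subtype (unitSer A p), hmem⟩ : X0Bar (M * p)) = f from
    Subtype.ext ((coeffMap_unitSer _ p).trans hf.symm), coeffMap_unitSer π] at h

include hπ hA hpM in
theorem sheet_res₁_iff {f : X0Bar (M * p)} {g : modularFunctionFieldFullC k M} :
    (modularSheet hpM hπ hA).R₁.Res f g ↔
      (laurentReduction π (X0Bar (M * p))).Res f (g : LaurentSeries k) :=
  (modularPre hpM hπ hA).sheet_res₁

include hπ hA hpM in
theorem sheet_res₂_iff {f : X0Bar (M * p)} {g : modularFunctionFieldFullC k M} :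
    (modularSheet hpM hπ hA).R₂.Res f g ↔
      (laurentReduction π (X0Bar (M * p))).Res (swapEnd hpM f) (g : LaurentSeries k) :=
  (modularPre hpM hπ hA).sheet_res₂

theorem jF_eq_jEl : jF QA p = (Kronecker.jEl p : X0Bar p) := by
  refine Subtype.ext ?_
  show coeffEmb QA jq = _
  rw [Kronecker.coe_jEl, coeffEmb, ← jqModC_rat, coeffMap_jqModC]

include hpM in
theorem sheet_X_eq : (modularSheet hpM hπ hA).X = inclLevel (M := M) (Kronecker.jEl p) := by
  rw [inclLevel_jEl]
  exact congrArg (heckeAlphaBar QA M p) (modelX_eq hπ (natCast_ne_zero hpM k))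

omit [Fact p.Prime] in
theorem ord_inclLevel_eq_zero {f g : X0Bar p}
    (h : ∀ v : Place QA (X0Bar p), 0 ≤ v.ord g → v.ord f = 0)
    {v : Place QA (X0Bar (M * p))} (hv : 0 ≤ v.ord (inclLevel (M := M) g)) :
    v.ord (inclLevel (M := M) f) = 0 := by
  rw [ord_map_eq] at hv
  rw [ord_map_eq, h _ ((mul_nonneg_iff_of_pos_left
    (by exact_mod_cast ramificationIndexAlong_pos _ v)).1 hv), mul_zero]

theorem integralWrt_of_ord_zero {X u u' : X0Bar (M * p)} {c : QA}
    (hu : ∀ v : Place QA (X0Bar (M * p)), 0 ≤ v.ord X → v.ord u = 0) (h : u' = c • u⁻¹) :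
    IntegralWrt QA X u ∧ IntegralWrt QA X u' := by
  refine ⟨fun v hv => ordGE_of_le (hu v hv).ge, fun v hv => ?_⟩
  rw [h, Algebra.smul_def]
  simpa using (ordGE_algebraMap v c).mul (ordGE_of_le (v := v) (f := u⁻¹) (c := 0)
    (by rw [v.ord_inv, hu v hv, neg_zero]))

theorem res_zero_of_smul_inv {u u' : X0Bar (M * p)}
    (h : u' = ((p : QA) ^ 12) • u⁻¹)
    (hres : (laurentReduction π (X0Bar (M * p))).Res u (unitSer k p)) :
    (laurentReduction π (X0Bar (M * p))).Res u' 0 := by
  have hz : π ((p : A) ^ 12) = 0 := by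
    rw [map_pow, map_natCast, CharP.cast_eq_zero, zero_pow (by norm_num)]
  have h1 := (hres.inv (unitSer_ne_zero p)).smul ((p : A) ^ 12)
  rw [hz] at h1
  have e : (((p : A) ^ 12 : A) : QA) = (p : QA) ^ 12 := by simp
  rw [e, ← h] at h1
  rw [Algebra.smul_def, map_zero, zero_mul] at h1
  exact h1

theorem specialV_unit {ub : modularFunctionFieldFullC k M}
    (hub : (ub : LaurentSeries k) = unitSer k p) : specialV k M p ub = ub ^ p := by
  refine Subtype.ext ?_
  rw [IntermediateField.coe_pow, coe_specialV, hub]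
  exact qExpand_unitSer_char

include hπ hA hpM in
theorem exists_ub {u : X0Bar (M * p)}
    (hres : (laurentReduction π (X0Bar (M * p))).Res u (unitSer k p)) :
    ∃ ub : modularFunctionFieldFullC k M, (ub : LaurentSeries k) = unitSer k p ∧ ub ≠ 0 :=
  ⟨⟨_, (modularPre hpM hπ hA).res_mem.1 hres⟩, rfl, fun h =>
    unitSer_ne_zero p ((congrArg Subtype.val h).trans (ZeroMemClass.coe_zero _))⟩

include hπ hA hpM in
theorem exists_unitData_aux {u u' : X0Bar (M * p)} (hmul : u * u' =
      algebraMap QA (X0Bar (M * p)) ((p : QA) ^ 12)) (hsw : u' = swapEnd hpM u) (hu0 : u ≠ 0)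
    (hf : (u : LaurentSeries QA) = unitSer QA p)
    (hord : ∀ v : Place QA (X0Bar (M * p)),
      0 ≤ v.ord (modularSheet hpM hπ hA).X → v.ord u = 0) :
    ∃ U : UnitData (modularSheet hpM hπ hA), U.u = u ∧ U.u' = u' ∧ U.w = 12 ∧
      (U.ub : LaurentSeries k) = unitSer k p := by
  have hu' : u' = ((p : QA) ^ 12) • u⁻¹ := by
    rw [Algebra.smul_def, ← hmul, mul_comm u u', mul_assoc, mul_inv_cancel₀ hu0, mul_one]
  obtain ⟨hint, hint'⟩ := integralWrt_of_ord_zero hord hu'
  have hres := res_unitSer (π := π) u hf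
  obtain ⟨ub, hub, hne⟩ := exists_ub hpM hπ hA hres
  have h1 : (modularSheet hpM hπ hA).R₁.Res u ub :=
    (sheet_res₁_iff hpM hπ hA).2 (by rw [hub]; exact hres)
  have h2 : (modularSheet hpM hπ hA).R₂.Res u' ub := by
    refine (sheet_res₂_iff hpM hπ hA).2 ?_
    rw [hsw, swapEnd_swapEnd, hub]
    exact hres
  have h0 : (modularSheet hpM hπ hA).R₂.Res u 0 := by
    refine (sheet_res₂_iff hpM hπ hA).2 ?_
    rw [← hsw, ZeroMemClass.coe_zero]
    exact res_zero_of_smul_inv hu' hres
  have hp1 : ((modularSheet hpM hπ hA).pair 1).Res u (ub, 0) :=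
    ⟨h1, by rw [one_smul]; exact h0⟩
  exact ⟨{ u := u, u' := u', ub := ub, w := 12, w_pos := by norm_num, mul_eq := hmul, u_int := hint, u'_int := hint'
           u_res := h1, u'_res := h2
           ub_reg := ((modularSheet hpM hπ hA).integralWrt_res hint hp1).1
           ub_ne := hne, V_ub := specialV_unit hub }, rfl, rfl, rfl, hub⟩

include hπ hA hpM in
/-- The measuring data of the modular sheets. -/
theorem exists_unitData : ∃ U : UnitData (modularSheet hpM hπ hA),
    (U.u : LaurentSeries QA) = unitSer QA p ∧ U.u' = swapEnd hpM U.u ∧ U.w = 12 ∧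
      (U.ub : LaurentSeries k) = unitSer k p := by
  obtain ⟨f, hf, hf0, hord⟩ := exists_level_unit p
  have hu : ∀ v : Place QA (X0Bar (M * p)), 0 ≤ v.ord (modularSheet hpM hπ hA).X →
      v.ord (inclLevel (M := M) f) = 0 := fun v hv => by
    rw [sheet_X_eq hpM hπ hA] at hv
    exact ord_inclLevel_eq_zero (by rw [← jF_eq_jEl]; exact hord) hv
  obtain ⟨U, h1, h2, h3, h4⟩ := exists_unitData_aux hpM hπ hA (swap_unit hpM hf) rfl
    (fun h => hf0 ((map_eq_zero _).1 h)) ((coe_inclLevel f).trans hf) hu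
  exact ⟨U, by rw [h1, coe_inclLevel, hf], by rw [h2, h1], h3, h4⟩

include hπ hA hpM in
/-- The exponent is determined by the function. -/
theorem w_eq_twelve (V : RatVal π p) (U : UnitData (modularSheet hpM hπ hA))
    (hu : (U.u : LaurentSeries QA) = unitSer QA p) : U.w = 12 := by
  obtain ⟨U₀, hu₀, -, hw₀, -⟩ := exists_unitData hpM hπ hA
  have e : U₀.u = U.u := Subtype.ext (hu₀.trans hu.symm)
  exact hw₀ ▸ le_antisymm (UnitData.w_le V U U₀ e) (UnitData.w_le V U₀ U e.symm)

end Data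

end FLTAgent.MazurPrinciple
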