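import Fermat.Agent.MazurPrinciple.ResidualHecke
import Fermat.Agent.Mazur.ImmersionHecke
import Fermat.Agent.MazurPrinciple.UnitBasic
import Fermat.Agent.MazurPrinciple.Rep

/-!
# `T_r` on series, in every level

The norm giving `T_r` of a series does not depend on the level, so the operator on the divisors of
the special fibre of level `M` can be read off from series of level `Mp`.
-/

set_option autoImplicit false
set_option linter.style.haveILetI false
set_option linter.unusedSectionVars false
set_option synthInstance.maxHeartbeats 400000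
set_option maxHeartbeats 1000000

noncomputable section

open AlgebraicCurve ModularCurve

namespace FLTAgent.MazurPrinciple

open FLTAgent.Kronecker FLTAgent.Specialization FLTAgent.ModEq

local notation "QA" => AlgebraicClosure ℚ

section Compat

theorem qExpand_substHom {R : Type*} [CommRing R] (u : Rˣ) (m d : ℕ) [NeZero m] [NeZero d]
    [NeZero (d * m)] (f : LaurentSeries R) :
    qExpand R d (substHom u m f) = substHom u (d * m) f := by
  rw [substHom_apply, substHom_apply, qExpand_qExpand]

/-- The norm computing `T_r` is the same series in every level. -/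
theorem coe_normAlpha_eq {N N' r : ℕ} [NeZero N] [NeZero N'] [Fact r.Prime] (hN : N ∣ N')
    (hr : ¬ r ∣ N') {y : X0Bar N} {y' : X0Bar N'}
    (h : (y : LaurentSeries QA) = (y' : LaurentSeries QA)) :
    (normAlpha N r (heckeBetaBar QA N r y) : LaurentSeries QA) =
      (normAlpha N' r (heckeBetaBar QA N' r y') : LaurentSeries QA) := by
  haveI : NeZero r := ⟨(Fact.out : r.Prime).ne_zero⟩
  obtain ⟨d, rfl⟩ := hN
  haveI : NeZero d := ⟨fun h0 => NeZero.ne (N * d) (by rw [h0, mul_zero])⟩
  haveI : NeZero (N * r) := ⟨mul_ne_zero (NeZero.ne N) (NeZero.ne r)⟩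
  haveI : NeZero (N * d * r) := ⟨mul_ne_zero (NeZero.ne (N * d)) (NeZero.ne r)⟩
  have hrN : ¬ r ∣ N := fun h0 => hr (h0.mul_right d)
  obtain ⟨ζ, hζ⟩ := exists_isPrimitiveRoot_units (K := QA) (N * d * r)
    (Nat.cast_ne_zero.2 (NeZero.ne (N * d * r)))
  have hζd : IsPrimitiveRoot (ζ ^ d) (N * r) :=
    hζ.pow (Nat.pos_of_ne_zero (NeZero.ne _)) (by ring)
  refine qExpand_injective (R := QA) (N * d * r) ?_
  have key : ∀ z : LaurentSeries QA,
      qExpand QA (N * d * r) z = qExpand QA d (qExpand QA (N * r) z) := fun z => by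
    rw [qExpand_qExpand]
    congr 1
    ring
  conv_lhs => rw [key, qExpand_normAlpha hrN hζd, map_prod]
  rw [qExpand_normAlpha hr hζ, ← h]
  refine Finset.prod_congr rfl fun i _ => ?_
  cases i with
  | none =>
    show qExpand QA d (qExpand QA (r * (N * r)) _) = qExpand QA (r * (N * d * r)) _
    rw [qExpand_qExpand]
    congr 1
    ring
  | some b =>
    show qExpand QA d (substHom ((ζ ^ d) ^ ((b : ℕ) * N)) N _) =
      substHom (ζ ^ ((b : ℕ) * (N * d))) (N * d) _
    haveI : NeZero (d * N) := ⟨mul_ne_zero (NeZero.ne d) (NeZero.ne N)⟩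
    rw [qExpand_substHom, ← pow_mul, show d * ((b : ℕ) * N) = (b : ℕ) * (N * d) by ring]
    congr 1
    ring

end Compat

section Norm

variable {N r : ℕ} [NeZero N] [Fact r.Prime] (A : ValuationSubring QA) {kk : Type*} [Field kk]
  (π : A →+* kk)

local notation "LL" => AlgebraicClosure ℚ

/-- The residual norm, a monoid homomorphism. -/
theorem exists_norm_hom (hrN : ¬ r ∣ N) :
    ∃ R : LaurentSeries kk →* LaurentSeries kk, (∀ z, z ≠ 0 → R z ≠ 0) ∧
      ∀ (y : LaurentSeries A) (hy : coeffMap A.subtype y ∈ modularFunctionFieldBar N),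
        ∃ g : LaurentSeries A,
          coeffMap A.subtype g = (normAlpha N r (heckeBetaBar LL N r ⟨_, hy⟩) : LaurentSeries LL) ∧
            qExpand kk (N * r) (coeffMap π g) = R (coeffMap π y) := by
  classical
  haveI : NeZero (N * r) := ⟨Nat.mul_ne_zero (NeZero.ne N) (NeZero.ne r)⟩
  obtain ⟨ζ, hζ⟩ := exists_isPrimitiveRoot_units (K := LL) (N * r)
    (Nat.cast_ne_zero.2 (NeZero.ne (N * r)))
  have hζ1 : (ζ : LL) ^ (N * r) = 1 := by
    rw [← Units.val_pow_eq_pow_val, hζ.pow_eq_one, Units.val_one]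
  have hζA : (ζ : LL) ∈ A := mem_of_pow_eq_one A (NeZero.ne _) hζ1
  have hζA' : (⟨(ζ : LL), hζA⟩ : A) ^ (N * r) = 1 := Subtype.ext hζ1
  let u : Aˣ := Units.ofPowEqOne _ _ hζA' (NeZero.ne _)
  have hu : Units.map A.subtype.toMonoidHom u = ζ := Units.ext rfl
  refine ⟨(qExpand kk (r * (N * r))).toMonoidHom *
    ∏ b : Fin r, (substHom (Units.map π.toMonoidHom (u ^ ((b : ℕ) * N))) N).toMonoidHom,
    fun z hz ↦ ?_, fun y hy ↦ ?_⟩
  · rw [MonoidHom.mul_apply, MonoidHom.finsetProd_apply]
    exact mul_ne_zero ((map_ne_zero_iff _ (RingHom.injective _)).2 hz)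
      (Finset.prod_ne_zero_iff.2 fun b _ ↦ (map_ne_zero_iff _ (RingHom.injective _)).2 hz)
  set R : LaurentSeries A := qExpand A (r * (N * r)) y *
    ∏ b : Fin r, substHom (u ^ ((b : ℕ) * N)) N y with hR
  set G : LaurentSeries LL := (normAlpha N r (heckeBetaBar LL N r ⟨_, hy⟩) : LaurentSeries LL)
  have hG : coeffMap A.subtype R = qExpand LL (N * r) G := by
    rw [qExpand_normAlpha hrN hζ, Fintype.prod_option, hR, map_mul, map_prod, coeffMap_qExpand]
    simp only [coeffMap_substHom, map_pow, hu]
    rfl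
  have hmem : ∀ n : ℤ, G.coeff n ∈ A := fun n ↦ by
    have h := congrArg (fun z : LaurentSeries LL => z.coeff (((N * r : ℕ) : ℤ) * n)) hG
    simp only [qExpand_coeff_mul, coeffMap_coeff] at h
    rw [← h]
    exact (R.coeff _).2
  let g : LaurentSeries A :=
    { coeff := fun n => ⟨G.coeff n, hmem n⟩
      isPWO_support' := G.isPWO_support.mono fun n hn h0 => hn (Subtype.ext h0) }
  have hg : coeffMap A.subtype g = G := by ext n; rfl
  refine ⟨g, hg, ?_⟩
  have hgR : qExpand A (N * r) g = R := by
    refine coeffMap_injective A.subtype Subtype.val_injective ?_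
    rw [coeffMap_qExpand, hg, hG]
  rw [← coeffMap_qExpand, hgR, hR, map_mul, map_prod, coeffMap_qExpand]
  simp only [coeffMap_substHom, MonoidHom.mul_apply, MonoidHom.finsetProd_apply]
  rfl

end Norm

section Residual

variable {M : ℕ} [NeZero M] {A : ValuationSubring QA} [IsAlgClosed (IsLocalRing.ResidueField A)]
  [Curves.IsFunctionField (IsLocalRing.ResidueField A)
    (modularFunctionFieldFullC (IsLocalRing.ResidueField A) M)]
  {r : ℕ} [Fact r.Prime]

local notation "kA" => IsLocalRing.ResidueField A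
local notation "Jk" => modularFunctionFieldFullC (IsLocalRing.ResidueField A) M

variable (hMk : (M : IsLocalRing.ResidueField A) ≠ 0)
  (hM : (modularModel (IsLocalRing.residue_surjective (R := A)) M hMk).Smooth)
  (hgen : PrincipalGeneratedByIntegral A (IsLocalRing.residue A) M)

/-- The norm of a series of level `N`, as an integral series of level `N`. -/
def HasNorm (A : ValuationSubring QA) (N r : ℕ) [NeZero N] [Fact r.Prime]
    (R : LaurentSeries (IsLocalRing.ResidueField A) →* LaurentSeries (IsLocalRing.ResidueField A))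
    (E : ℕ) [NeZero E] : Prop :=
  ∀ (y : LaurentSeries A) (hy : coeffMap A.subtype y ∈ X0Bar N),
    ∃ g : LaurentSeries A,
      coeffMap A.subtype g = (normAlpha N r (heckeBetaBar QA N r ⟨_, hy⟩) : LaurentSeries QA) ∧
        qExpand (IsLocalRing.ResidueField A) E (coeffMap (IsLocalRing.residue A) g) =
      R (coeffMap (IsLocalRing.residue A) y)

include hgen hM in
/-- `T_r` on the divisors of the special fibre of level `M`, through series of any higher level. -/
theorem exists_residual_hecke {N' : ℕ} [NeZero N'] (hMN : M ∣ N') (hr : ¬ r ∣ N')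
    [HasPrincipalDivisors QA (modularFunctionFieldBar (M * r))]
    (hα : HeckeAlphaBarIntegral QA M r) (hβ : HeckeBetaBarIntegral QA M r) :
    ∃ (T : Divisor kA Jk →+ Divisor kA Jk) (R : LaurentSeries kA →* LaurentSeries kA) (E : ℕ)
      (_ : NeZero E), (∀ D, T (Model.divMap hM D) = Model.divMap hM (heckeDivBar hα hβ D)) ∧
      (∀ z, z ≠ 0 → R z ≠ 0) ∧ HasNorm A N' r R E ∧
      ∀ g : Jk, g ≠ 0 → ∃ G : Jk, G ≠ 0 ∧ T (Curves.divOf kA g) = Curves.divOf kA G ∧
        qExpand kA E (G : LaurentSeries kA) = R (g : LaurentSeries kA) := by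
  classical
  haveI : NeZero r := ⟨(Fact.out : r.Prime).ne_zero⟩
  haveI : NeZero (M * r) := ⟨mul_ne_zero (NeZero.ne M) (NeZero.ne r)⟩
  haveI : NeZero (N' * r) := ⟨mul_ne_zero (NeZero.ne N') (NeZero.ne r)⟩
  have hrM : ¬ r ∣ M := fun h => hr (h.trans hMN)
  set π := IsLocalRing.residue A
  haveI : Nonempty (Place QA (X0Bar M)) := ⟨TorsionHom.infPlace M Mazur.kappa0⟩
  set s : Divisor kA Jk →+ Divisor QA (X0Bar M) :=
    Finsupp.mapDomain.addMonoidHom (Function.invFun (Model.place hM))
  obtain ⟨R, hR0, hR⟩ := exists_norm_hom (N := N') (r := r) A π hr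
  have hsec : ∀ D, Model.divMap hM (D - s (Model.divMap hM D)) = 0 := fun D => by
    induction D using Finsupp.induction_linear with
    | zero => simp
    | add D E hD hE => rw [map_add, map_add, add_sub_add_comm, map_add, hD, hE, add_zero]
    | single P n =>
      rw [map_sub, Model.divMap_single]
      show _ - Model.divMap hM (Finsupp.mapDomain _ (Finsupp.single _ n)) = 0
      rw [Finsupp.mapDomain_single, Model.divMap_single,
        Function.invFun_eq (f := Model.place hM) ⟨P, rfl⟩, sub_self]
  refine ⟨((Model.divMap hM).comp (heckeDivBar hα hβ)).comp s, R, N' * r, inferInstance,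
    fun D => ?_, hR0, hR, fun g hg => ?_⟩
  · have hk := hsec D
    have h := divMap_hecke_eq_zero hMk hM hgen hrM hα hβ hk
    rw [map_sub, map_sub, sub_eq_zero] at h
    exact h.symm
  · obtain ⟨a, ha, b, hb, hab⟩ := IntermediateField.mem_adjoin_iff_div.1
      (show (g : LaurentSeries kA) ∈ IntermediateField.adjoin kA (divisorExpansionsC kA M) from g.2)
    have hg' : (g : LaurentSeries kA) ≠ 0 := fun h0 => hg (Subtype.ext h0)
    have hb0 : b ≠ 0 := fun h0 => hg' (by rw [hab, h0, div_zero])
    have ha0 : a ≠ 0 := fun h0 => hg' (by rw [hab, h0, zero_div])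
    obtain ⟨ya, hya, hyak⟩ :=
      Mazur.exists_series_lift (IsLocalRing.residue_surjective (R := A)) ha
    obtain ⟨yb, hyb, hybk⟩ :=
      Mazur.exists_series_lift (IsLocalRing.residue_surjective (R := A)) hb
    have hres := fun {y : LaurentSeries A} (hy : coeffMap A.subtype y ∈ X0Bar M)
      (hyk : coeffMap π y ∈ Jk) =>
        modularModel_res_series (IsLocalRing.residue_surjective (R := A)) M hMk hy hyk
    have hak : coeffMap π ya ∈ Jk := hyak ▸ IntermediateField.algebra_adjoin_le_adjoin _ _ ha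
    have hbk : coeffMap π yb ∈ Jk := hybk ▸ IntermediateField.algebra_adjoin_le_adjoin _ _ hb
    have hane : (⟨_, hak⟩ : Jk) ≠ 0 := fun h => ha0 (by rw [← hyak]; exact congrArg Subtype.val h)
    have hbne : (⟨_, hbk⟩ : Jk) ≠ 0 := fun h => hb0 (by rw [← hybk]; exact congrArg Subtype.val h)
    have hstep : ∀ (y : LaurentSeries A) (hy : coeffMap A.subtype y ∈ X0Bar M),
        coeffMap π y ≠ 0 → ∃ G : Jk, G ≠ 0 ∧
          qExpand kA (N' * r) (G : LaurentSeries kA) = R (coeffMap π y) ∧
          Model.divMap hM (heckeDivBar hα hβ (Curves.divOf QA (⟨_, hy⟩ : X0Bar M))) =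
            Curves.divOf kA G := by
      intro y hy hne
      have hy' : coeffMap A.subtype y ∈ X0Bar N' := X0Bar_mono hMN hy
      obtain ⟨γ, hγ, hγk⟩ := hR y hy'
      rw [← coe_normAlpha_eq hMN hr (y := (⟨_, hy⟩ : X0Bar M)) (y' := ⟨_, hy'⟩) rfl] at hγ
      have hγM : coeffMap A.subtype γ ∈ X0Bar M := hγ ▸ SetLike.coe_mem _
      have hγJ : coeffMap π γ ∈ Jk := res_mem_full (IsLocalRing.residue_surjective (R := A)) M
        hMk (laurentReduction_res hγM)
      have hGne : (⟨_, hγJ⟩ : Jk) ≠ 0 := fun h0 => hR0 _ hne (by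
        rw [← hγk, show coeffMap π γ = 0 from congrArg Subtype.val h0, map_zero])
      refine ⟨⟨_, hγJ⟩, hGne, hγk, ?_⟩
      rw [← Model.divMap_divOf hM (hres hγM hγJ) hGne]
      congr 1
      refine Finsupp.ext fun P => ?_
      have hy0 : (⟨_, hy⟩ : X0Bar M) ≠ 0 := fun h0 => hne (by
        rw [ModEq.coeffMap_injective A.subtype Subtype.val_injective
          ((congrArg Subtype.val h0 : coeffMap A.subtype y = 0).trans (map_zero _).symm), map_zero])
      rw [heckeDivBar_apply_of_ord hα hβ hy0 (fun P => Curves.divOf_apply _ P) P,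
        Curves.divOf_apply]
      exact congrArg P.ord (Subtype.ext hγ.symm)
    obtain ⟨Ga, hGa, hGak, hTa⟩ := hstep ya hya (by rw [hyak]; exact ha0)
    obtain ⟨Gb, hGb, hGbk, hTb⟩ := hstep yb hyb (by rw [hybk]; exact hb0)
    -- the lift of the fraction
    set ua : X0Bar M := ⟨_, hya⟩
    set ub : X0Bar M := ⟨_, hyb⟩
    have hdiv : Curves.divOf kA g = Model.divMap hM (Curves.divOf QA ua - Curves.divOf QA ub) := by
      rw [map_sub, Model.divMap_divOf hM (hres hya hak) hane,
        Model.divMap_divOf hM (hres hyb hbk) hbne, ← Specialization.divOf_div hane hbne]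
      congr 1
      refine Subtype.ext ?_
      show (g : LaurentSeries kA) = coeffMap π ya / coeffMap π yb
      rw [hyak, hybk]
      exact hab
    have hk : Model.divMap hM ((Curves.divOf QA ua - Curves.divOf QA ub) -
        s (Curves.divOf kA g)) = 0 := by
      rw [hdiv]; exact hsec _
    have h := divMap_hecke_eq_zero hMk hM hgen hrM hα hβ hk
    rw [map_sub, map_sub, map_sub, map_sub, hTa, hTb, sub_eq_zero] at h
    refine ⟨Ga / Gb, div_ne_zero hGa hGb, ?_, ?_⟩
    · show Model.divMap hM (heckeDivBar hα hβ (s _)) = _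
      rw [← h, Specialization.divOf_div hGa hGb]
    · rw [IntermediateField.coe_div, map_div₀, hGak, hGbk, hab, ← hyak, ← hybk]
      rw [div_eq_iff (hR0 _ (hybk.symm ▸ hb0)), ← map_mul, div_mul_cancel₀ _ (hybk.symm ▸ hb0)]

end Residual

end FLTAgent.MazurPrinciple
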