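import Fermat.Agent.MazurPrinciple.GaloisSetup
import Fermat.Agent.BadRed.Norm

/-!
# Finite stable spaces of functions have fixed bases with independent reductions

An echelon basis in coordinates on which the group acts by its action on the constants is fixed.
-/

set_option autoImplicit false
set_option linter.style.haveILetI false
set_option linter.unusedSectionVars false
set_option maxHeartbeats 1000000
set_option synthInstance.maxHeartbeats 400000

noncomputable section

open AlgebraicCurve ModularCurve IntermediateField IsLocalRing Polynomial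

namespace FLTAgent.MazurPrinciple

open FLTAgent.Curves FLTAgent.Specialization FLTAgent.BadRed

local notation "QA" => AlgebraicClosure ℚ
local notation "GG" => (AlgebraicClosure ℚ ≃ₐ[ℚ] AlgebraicClosure ℚ)

section Echelon

variable {L k : Type*} [Field L] [Field k] {A : ValuationSubring L} {π : A →+* k}
  (hπ : Function.Surjective π) {ι : Type*} [Fintype ι]

include hπ in
/-- An integral echelon basis of a space of coordinate vectors. -/
theorem exists_echelon_family (U : Submodule L (ι → L)) :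
    ∃ (r : ℕ) (v : Fin r → ι → L) (J : Fin r → ι), (∀ j, v j ∈ U) ∧ (∀ j i, v j i ∈ A) ∧
      (∀ i j, v j (J i) = if i = j then 1 else 0) ∧
      ∀ x ∈ U, (∀ j, x (J j) = 0) → x = 0 := by
  classical
  induction hn : Module.finrank L U using Nat.strong_induction_on generalizing U with
  | h n ih =>
    subst hn
    by_cases h0 : U = ⊥
    · exact ⟨0, Fin.elim0, Fin.elim0, fun j => j.elim0, fun j => j.elim0, fun i => i.elim0,
        fun x hx _ => by rwa [h0, Submodule.mem_bot] at hx⟩
    obtain ⟨f, hfU, hf0⟩ := (Submodule.ne_bot_iff U).1 h0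
    obtain ⟨s, i₀, hs, hi₀⟩ := (Reduction.base_total hπ).exists_scale_family hf0
    change ∀ i, s * f i ∈ A at hs
    set U' : Submodule L (ι → L) := U ⊓ LinearMap.ker (LinearMap.proj i₀) with hU'
    have hne : f ∉ U' := fun h => by
      have h1 : f i₀ = 0 := h.2
      rw [h1, mul_zero] at hi₀
      exact zero_ne_one hi₀
    have hlt : U' < U := lt_of_le_of_ne inf_le_left fun e => hne (e ▸ hfU)
    obtain ⟨r, v, J, hvU, hvA, hvJ, hvz⟩ := ih _ (Submodule.finrank_lt_finrank_of_lt hlt) U' rfl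
    set w : ι → L := s • f - ∑ j, (s * f (J j)) • v j with hw
    have hwU : w ∈ U := sub_mem (Submodule.smul_mem _ _ hfU)
      (Submodule.sum_mem _ fun j _ => Submodule.smul_mem _ _ (hvU j).1)
    have hwA : ∀ i, w i ∈ A := fun i => by
      simp only [hw, Pi.sub_apply, Pi.smul_apply, smul_eq_mul, Finset.sum_apply]
      exact sub_mem (hs i) (sum_mem fun j _ => mul_mem (hs _) (hvA j i))
    have hw0 : w i₀ = 1 := by
      simp only [hw, Pi.sub_apply, Pi.smul_apply, smul_eq_mul, Finset.sum_apply]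
      rw [hi₀, sub_eq_self]
      exact Finset.sum_eq_zero fun j _ => by rw [show v j i₀ = 0 from (hvU j).2, mul_zero]
    have hwJ : ∀ i, w (J i) = 0 := fun i => by
      simp [hw, hvJ]
    refine ⟨r + 1, Fin.cons w v, Fin.cons i₀ J, Fin.cases hwU fun j => (hvU j).1,
      Fin.cases hwA hvA, fun i j => ?_, fun x hx h => ?_⟩
    · refine Fin.cases ?_ (fun i => ?_) i <;> refine Fin.cases ?_ (fun j => ?_) j
      · simpa using hw0
      · simpa [(Fin.succ_ne_zero j).symm] using (hvU j).2
      · simpa using hwJ i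
      · simpa [Fin.succ_inj] using hvJ i j
    · refine hvz x ⟨hx, ?_⟩ fun j => by simpa using h j.succ
      simpa using h 0

include hπ in
/-- A stable space has a fixed echelon basis. -/
theorem exists_fixed_echelon (U : Submodule L (ι → L)) (T : Set (L →+* L))
    (hU : ∀ τ ∈ T, ∀ x ∈ U, (fun i => τ (x i)) ∈ U) :
    ∃ (r : ℕ) (v : Fin r → ι → L) (J : Fin r → ι), (∀ j, v j ∈ U) ∧ (∀ j i, v j i ∈ A) ∧
      (∀ i j, v j (J i) = if i = j then 1 else 0) ∧ Submodule.span L (Set.range v) = U ∧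
      ∀ τ ∈ T, ∀ j i, τ (v j i) = v j i := by
  obtain ⟨r, v, J, hvU, hvA, hvJ, hvz⟩ := exists_echelon_family hπ U
  refine ⟨r, v, J, hvU, hvA, hvJ, le_antisymm (Submodule.span_le.2 (by rintro _ ⟨j, rfl⟩; exact hvU j))
    fun x hx => ?_, fun τ hτ j i => ?_⟩
  · have h := hvz (x - ∑ j, x (J j) • v j) (sub_mem hx (Submodule.sum_mem _ fun j _ =>
      Submodule.smul_mem _ _ (hvU j))) fun i => by simp [hvJ]
    rw [sub_eq_zero.1 h]
    exact Submodule.sum_mem _ fun j _ => Submodule.smul_mem _ _ (Submodule.subset_span ⟨j, rfl⟩)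
  · refine sub_eq_zero.1 (congrFun (hvz ((fun i => τ (v j i)) - v j)
      (sub_mem (hU τ hτ _ (hvU j)) (hvU j)) fun l => ?_) i)
    rw [Pi.sub_apply, hvJ]
    split_ifs <;> simp

variable {E W : Type*} [AddCommGroup E] [Module L E] [AddCommGroup W] [Module k W] {R : LRed π E W}

include hπ in
/-- A stable space inside the span of a fixed family with independent reductions. -/
theorem exists_fixed_of_le {e : ι → E} {eb : ι → W} (hee : ∀ i, R.Res (e i) (eb i))
    (heb : LinearIndependent k eb) (T : Set ((L →+* L) × (E →+ E)))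
    (hsemi : ∀ τ ∈ T, ∀ (c : L) (x : E), τ.2 (c • x) = τ.1 c • τ.2 x)
    (hfix : ∀ τ ∈ T, ∀ i, τ.2 (e i) = e i) (U : Submodule L E)
    (hle : U ≤ Submodule.span L (Set.range e)) (hU : ∀ τ ∈ T, ∀ x ∈ U, τ.2 x ∈ U) :
    ∃ (r : ℕ) (v : Fin r → E) (w : Fin r → W), (∀ j, v j ∈ U) ∧ (∀ j, R.Res (v j) (w j)) ∧
      LinearIndependent k w ∧ Submodule.span L (Set.range v) = U ∧
      ∀ τ ∈ T, ∀ j, τ.2 (v j) = v j := by
  classical
  set Φ := Fintype.linearCombination L e
  have hΦ : ∀ (τ : (L →+* L) × (E →+ E)), τ ∈ T → ∀ a, τ.2 (Φ a) = Φ fun i => τ.1 (a i) := by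
    intro τ hτ a
    simp [Φ, Fintype.linearCombination_apply, hsemi τ hτ, hfix τ hτ]
  obtain ⟨r, v, J, hvU, hvA, hvJ, hspan, hfixv⟩ :=
    exists_fixed_echelon hπ (U.comap Φ) (Prod.fst '' T) (by
      rintro _ ⟨τ, hτ, rfl⟩ a ha
      rw [Submodule.mem_comap] at ha ⊢
      rw [← hΦ τ hτ]
      exact hU τ hτ _ ha)
  refine ⟨r, fun j => Φ (v j), fun j => ∑ i, π ⟨v j i, hvA j i⟩ • eb i, hvU, fun j => ?_, ?_, ?_,
    fun τ hτ j => ?_⟩
  · simp only [Φ, Fintype.linearCombination_apply]
    exact LRed.res_comb (fun i _ => hee i) fun i => ⟨v j i, hvA j i⟩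
  · rw [Fintype.linearIndependent_iff]
    intro c hc l
    simp only [Finset.smul_sum, smul_smul] at hc
    rw [Finset.sum_comm] at hc
    simp only [← Finset.sum_smul] at hc
    have h := Fintype.linearIndependent_iff.1 heb _ hc (J l)
    rw [Finset.sum_eq_single l (fun j _ hj => by
      rw [show (⟨v j (J l), hvA j (J l)⟩ : A) = 0 from Subtype.ext (by simp [hvJ, hj.symm]),
        map_zero, mul_zero]) (fun h => absurd (Finset.mem_univ l) h),
      show (⟨v l (J l), hvA l (J l)⟩ : A) = 1 from Subtype.ext (by simp [hvJ]), map_one,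
      mul_one] at h
    exact h
  · rw [show (Set.range fun j => Φ (v j)) = Φ '' Set.range v by rw [← Set.range_comp]; rfl,
      Submodule.span_image, hspan, Submodule.map_comap_eq_self]
    rwa [Fintype.range_linearCombination]
  · rw [hΦ τ hτ]
    exact congrArg Φ (funext fun i => hfixv τ.1 ⟨τ, hτ, rfl⟩ j i)

end Echelon

section Denominator

variable {F : Type*} [Field F] [Algebra QA F] [IsAlgClosed QA] [Curves.IsFunctionField QA F]
  (ρ : GG →* SemilinearAut QA F) (hρ : FlatModel.IsArith ρ) {x : F}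

include hρ in
theorem smul_aeval_fixed {σ : GG} (hx : ρ σ • x = x) (Q : QA[X]) :
    ρ σ • aeval x Q = aeval x (Q.map (σ : QA →+* QA)) := by
  induction Q using Polynomial.induction_on' with
  | add P R hP hR => rw [map_add, smul_add, hP, hR, Polynomial.map_add, map_add]
  | monomial n c =>
    rw [Polynomial.map_monomial, aeval_monomial, aeval_monomial, smul_mul', smul_pow', hx, hρ]
    rfl

theorem integralWrt_smul {g : SemilinearAut QA F} (hx : g • x = x) {f : F}
    (hf : IntegralWrt QA x f) : IntegralWrt QA x (g • f) := fun v hv => by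
  rcases eq_or_ne f 0 with rfl | hf0
  · rw [smul_zero]; exact ordGE_zero _ _
  refine ordGE_of_le ?_
  have key : ∀ z : F, v.ord (g • z) = (g⁻¹ • v).ord z := fun z => by
    have e := SemilinearAut.ord_smul g (g⁻¹ • v) z
    rwa [smul_inv_smul] at e
  rw [key]
  refine (hf _ ?_).le_ord hf0
  rwa [← key, hx]

include hρ in
/-- A stable space is pushed into a space of sections by a fixed polynomial in `x`. -/
theorem exists_fixed_denominator (hxL : Transcendental QA x) {G : Set GG}
    (hx : ∀ σ ∈ G, ρ σ • x = x) (U : Submodule QA F) [FiniteDimensional QA U]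
    (hU : ∀ σ ∈ G, ∀ f ∈ U, ρ σ • f ∈ U) :
    ∃ (Q : QA[X]) (m₀ : ℕ), Q.Monic ∧ (∀ σ ∈ G, Q.map (σ : QA →+* QA) = Q) ∧
      ∀ m, m₀ ≤ m → ∀ f ∈ U,
        aeval x Q * f ∈ riemannRochSpace ((m : ℤ) • poleDiv QA x) := by
  classical
  let P : QA[X] → Prop := fun Q => ∀ f ∈ U, IntegralWrt QA x (aeval x Q * f)
  have hne : ∃ n : ℕ, ∃ Q : QA[X], Q.Monic ∧ Q.natDegree = n ∧ P Q := by
    haveI := finiteDimensional_adjoin (K := QA) (F := F) hxL
    obtain ⟨B⟩ := nonempty_reducedBasis (K := QA) hxL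
    obtain ⟨Q, N, hQ, hQU⟩ := Reduction.exists_common_denominator (u := B.w)
      (by rw [← B.coe_wBasis hxL]; exact (B.wBasis hxL).span_eq) hxL U
    refine ⟨_, Q * Polynomial.C Q.leadingCoeff⁻¹, monic_mul_leadingCoeff_inv hQ, rfl, fun f hf => ?_⟩
    rw [map_mul, mul_right_comm, aeval_C]
    refine integralWrt_mul ?_ (integralWrt_algebraMap _ _)
    have hg := hQU f hf
    generalize aeval x Q * f = g at hg ⊢
    induction hg using Submodule.span_induction with
    | mem g hg =>
      obtain ⟨z, rfl⟩ := hg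
      exact integralWrt_mul (integralWrt_pow (integralWrt_self x) _) (B.integral z.2)
    | zero => exact fun v _ => ordGE_zero _ _
    | add g g' _ _ h h' => exact integralWrt_add h h'
    | smul c g _ h =>
      rw [Algebra.smul_def]
      exact integralWrt_mul (integralWrt_algebraMap x c) h
  obtain ⟨Q, hQm, hQd, hQ⟩ := Nat.find_spec hne
  have hQσ : ∀ σ ∈ G, Q.map (σ : QA →+* QA) = Q := by
    intro σ hσ
    by_contra hne'
    set D := Q.map (σ : QA →+* QA) - Q with hD
    have hD0 : D ≠ 0 := sub_ne_zero.2 hne'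
    have hdeg : D.degree < Q.degree := by
      have h := Polynomial.degree_sub_lt_left (p := Q.map (σ : QA →+* QA)) (q := Q)
        (Polynomial.degree_map _ _) ((hQm.map _).ne_zero)
        (by rw [(hQm.map _).leadingCoeff, hQm.leadingCoeff])
      rwa [Polynomial.degree_map] at h
    have hPσ : P (Q.map (σ : QA →+* QA)) := by
      let Sσ : Submodule QA F :=
        { carrier := {f | IntegralWrt QA x (aeval x (Q.map (σ : QA →+* QA)) * f)}
          zero_mem' := fun v _ => by rw [mul_zero]; exact ordGE_zero _ _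
          add_mem' := fun {a b} ha hb => by
            show IntegralWrt QA x _
            rw [mul_add]; exact integralWrt_add ha hb
          smul_mem' := fun c f hf => by
            show IntegralWrt QA x _
            rw [Algebra.smul_def, mul_left_comm]
            exact integralWrt_mul (integralWrt_algebraMap x c) hf }
      let b := Module.finBasis QA U
      let c : Fin (Module.finrank QA U) → U := fun i => ⟨ρ σ • (b i : F), hU σ hσ _ (b i).2⟩
      have hc : LinearIndependent QA c := by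
        refine LinearIndependent.of_comp U.subtype ?_
        have hb : LinearIndependent QA fun i => (b i : F) :=
          b.linearIndependent.map' U.subtype (Submodule.ker_subtype U)
        exact hb.map_of_injective_injective (σ.symm : QA →+* QA)
          (DistribSMul.toAddMonoidHom F (ρ σ))
          (fun r hr => by simpa using hr)
          (fun m hm => (smul_eq_zero_iff_eq (ρ σ)).1 hm)
          fun r m => by
            show ρ σ • ((σ.symm r) • m) = r • (ρ σ • m)
            rw [hρ.smul_smul, AlgEquiv.apply_symm_apply]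
      have hspan := hc.span_eq_top_of_card_eq_finrank' (Fintype.card_fin _)
      have hle : U ≤ Sσ := by
        intro f hf
        have hmem : (⟨f, hf⟩ : U) ∈ (Submodule.span QA (Set.range c)).map LinearMap.id :=
          by rw [Submodule.map_id, hspan]; exact Submodule.mem_top
        rw [Submodule.map_id] at hmem
        have h2 := Submodule.mem_map_of_mem (f := U.subtype) hmem
        rw [Submodule.map_span] at h2
        refine Submodule.span_le.2 ?_ h2
        rintro _ ⟨_, ⟨i, rfl⟩, rfl⟩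
        show IntegralWrt QA x (aeval x (Q.map (σ : QA →+* QA)) * ρ σ • (b i : F))
        rw [← smul_aeval_fixed ρ hρ (hx σ hσ), ← smul_mul']
        exact integralWrt_smul (hx σ hσ) (hQ _ (b i).2)
      exact hle
    have hlt : D.natDegree < Nat.find hne := by
      rw [← hQd]
      exact Polynomial.natDegree_lt_natDegree hD0 hdeg
    refine Nat.find_min hne hlt ⟨D * Polynomial.C D.leadingCoeff⁻¹,
      monic_mul_leadingCoeff_inv hD0, natDegree_mul_leadingCoeff_inv D hD0, fun f hf => ?_⟩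
    rw [map_mul, mul_right_comm, aeval_C]
    refine integralWrt_mul ?_ (integralWrt_algebraMap _ _)
    rw [hD, map_sub, sub_mul]
    exact integralWrt_sub (hPσ f hf) (hQ f hf)
  let b := Module.finBasis QA U
  choose m hm using fun i => exists_mem_poles (hQ _ (b i).2)
  refine ⟨Q, Finset.univ.sup m, hQm, hQσ, fun n hn f hf => ?_⟩
  have hle : U ≤ (riemannRochSpace ((n : ℤ) • poleDiv QA x)).comap
      (LinearMap.mulLeft QA (aeval x Q)) := by
    intro g hg
    have h := congrArg U.subtype (b.sum_repr ⟨g, hg⟩)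
    simp only [map_sum, map_smul, Submodule.subtype_apply] at h
    rw [← h]
    exact Submodule.sum_mem _ fun i _ => Submodule.smul_mem _ _
      (poles_mono ((Finset.le_sup (f := m) (Finset.mem_univ i)).trans hn) (hm i))
  exact hle hf

end Denominator

section Family

variable {L k : Type*} [Field L] [Field k] {A : ValuationSubring L} {π : A →+* k}
  {FC Fb F : Type*} [Field FC] [Field Fb] [Field F] [Algebra L FC]
  [Algebra k Fb] [Algebra L F] [IsAlgClosed L] [Curves.IsFunctionField L FC]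
  [Curves.IsFunctionField L F] [IsAlgClosed k] [Curves.IsFunctionField k Fb] {q : ℕ}
  (S : Sheet π FC Fb F q)

/-- The element separating the sheets. -/
def sepElem : F := 1 - (S.β S.MC.x - S.X ^ q) / (S.β S.MC.x - S.β S.MC.x ^ q ^ 2)

theorem pair_sepElem : (S.pair 1).Res (sepElem S) (1, 0) := by
  have hb := S.pair_β S.MC.x_res
  rw [S.V_xb] at hb
  have hn := LRed.res_sub hb (S.pair_pow S.pair_X q |> fun h => by rwa [one_pow] at h)
  have hd := LRed.res_sub hb (S.pair_pow hb (q ^ 2) |> fun h => by rwa [one_pow] at h)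
  set D := S.β S.MC.x - (S.β S.MC.x) ^ q ^ 2
  have hq := S.one_lt
  have h1 : (S.MC.xb ^ q - (S.MC.xb ^ q) ^ q ^ 2 : Fb) ≠ 0 := by
    rw [sub_ne_zero, ← pow_mul]
    exact fun h => absurd (S.xb_pow_inj h) (by nlinarith)
  have h2 : (S.MC.xb - S.MC.xb ^ q ^ 2 : Fb) ≠ 0 := by
    rw [sub_ne_zero]
    intro h
    have := S.xb_pow_inj (a := 1) (b := q ^ 2) (by rwa [pow_one])
    nlinarith
  obtain ⟨hd1, hd2⟩ := hd
  obtain ⟨hn1, hn2⟩ := hn
  simp only [one_smul, Prod.fst_sub, Prod.snd_sub, Prod.pow_fst, Prod.pow_snd] at hd1 hd2 hn1 hn2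
  refine ⟨?_, ?_⟩
  · have := S.R₁.res_one.sub (hn1.div hd1 h1)
    simpa [sepElem] using this
  · have := S.R₂.res_one.sub (hn2.div hd2 h2)
    rw [one_smul]
    rw [show ((S.MC.xb ^ q) ^ q : Fb) = S.MC.xb ^ q ^ 2 by rw [← pow_mul, sq], div_self h2,
      sub_self] at this
    exact this

/-- Powers of the separating element are arbitrarily small on the other sheet. -/
theorem sepElem_small :
    (∀ c : L, ∃ N₀, ∀ N, N₀ ≤ N → S.R₂.Res (c • sepElem S ^ N) 0) ∧
      ∀ c : L, ∃ N₀, ∀ N, N₀ ≤ N → S.R₁.Res (c • (1 - sepElem S) ^ N) 0 := by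
  set e := sepElem S
  have he := pair_sepElem S
  have he₁ : S.R₁.Res e 1 := he.1
  have he₂ : S.R₂.Res e 0 := by simpa using he.2
  have hf₁ : S.R₁.Res (1 - e) 0 := by simpa using S.R₁.res_one.sub he₁
  have hf₂ : S.R₂.Res (1 - e) 1 := by simpa using S.R₂.res_one.sub he₂
  have h0 : (S.pair 1).Res (e * (1 - e)) 0 := ⟨by simpa using he₁.mul hf₁,
    by rw [one_smul]; simpa using he₂.mul hf₂⟩
  obtain ⟨t₀, ht₀, ht₀'⟩ := S.exists_nonunit
  obtain ⟨t, ht, -, y, ⟨g, hy1, hy2⟩, hy⟩ := LRed.exists_small S.orth_one S.MC.surj h0 ht₀ ht₀'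
  rw [one_smul] at hy2
  have key : ∀ (R : Reduction π F Fb) (a b : F) (g : Fb), R.Res b 1 → R.Res y g →
      a * b = (t : L) • y → ∀ c : L, ∃ N₀, ∀ N, N₀ ≤ N → R.Res (c • a ^ N) 0 := by
    intro R a b g hb hg hab c
    obtain ⟨N₀, hN₀, hπ⟩ := S.arch t c ht
    refine ⟨N₀, fun N hN => ?_⟩
    have ha : a = (t : L) • (y * b⁻¹) := by
      rw [← smul_mul_assoc, ← hab, mul_assoc, mul_inv_cancel₀ (hb.ne_zero one_ne_zero), mul_one]
    obtain ⟨l, rfl⟩ := Nat.exists_eq_add_of_le hN
    have h := ((hg.mul (hb.inv one_ne_zero)).pow (N₀ + l)).smul (⟨_, hN₀⟩ * t ^ l)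
    rw [map_mul, hπ, zero_mul, zero_smul] at h
    rw [ha, _root_.smul_pow, smul_smul]
    convert h using 2
    push_cast
    ring
  exact ⟨key S.R₂ e (1 - e) _ hf₂ hy2 hy,
    key S.R₁ (1 - e) e _ he₁ hy1 (by rw [mul_comm]; exact hy)⟩

/-- A separating family made of `β x`, the separating element and `d⁻¹`. -/
theorem exists_col_family_sep {d : L} (hd : d ≠ 0) : ∃ a b : ℕ, ∀ z, (S.pair d).Res
    (Sum.elim (fun _ : Unit => sepElem S ^ a)
      (fun i : Fin q => S.β S.MC.x ^ (i : ℕ) * (d⁻¹ • (1 - sepElem S) ^ b)) z) (S.colRed z) := by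
  obtain ⟨hs₁, hs₂⟩ := sepElem_small S
  obtain ⟨he₁, he₂⟩ := pair_sepElem S
  obtain ⟨a, ha⟩ := hs₁ d
  obtain ⟨b, hb⟩ := hs₂ d⁻¹
  rw [one_smul] at he₂
  have hf₂ : S.R₂.Res (1 - sepElem S) 1 := by simpa using S.R₂.res_one.sub he₂
  refine ⟨a, b, ?_⟩
  rintro (u | i)
  · exact ⟨by simpa [Sheet.colRed] using he₁.pow a, by simpa [Sheet.colRed] using ha a le_rfl⟩
  · have h := S.pair_mul (S.pair_pow (S.pair_β S.MC.x_res) i)
      (show (S.pair d).Res (d⁻¹ • (1 - sepElem S) ^ b) (0, 1) from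
        ⟨hb b le_rfl, by rw [smul_smul, mul_inv_cancel₀ hd, one_smul]; simpa using hf₂.pow b⟩)
    rw [one_pow, one_mul] at h
    convert h using 1
    · rfl
    · simp [Sheet.colRed]

/-- Coordinates on a separating family. -/
theorem exists_col_coords {d : L} {v : Unit ⊕ Fin q → F}
    (hv : ∀ z, (S.pair d).Res (v z) (S.colRed z)) :
    ∃ a : Unit ⊕ Fin q → F →ₗ[L] FC, (∀ f, f = ∑ z, S.α (a z f) * v z) ∧
      ∀ (c : Unit ⊕ Fin q → FC) (z : Unit ⊕ Fin q), a z (∑ z, S.α (c z) * v z) = c z := by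
  classical
  letI := algebraAlong S.α
  haveI := isScalarTower_along S.α
  haveI : Module.Finite FC F := Kronecker.moduleFinite_of_functionField L
  have hsmul : ∀ (a : FC) (y : F), a • y = S.α a * y := fun a y => rfl
  have hli : LinearIndependent FC v := by
    rw [Fintype.linearIndependent_iff]
    intro a ha
    by_contra hne
    have hne' : a ≠ 0 := fun h => hne fun z => congrFun h z
    obtain ⟨s, c, -, hc, hres⟩ := Sheet.col_scale hv hne'
    simp only [hsmul] at ha
    rw [ha, mul_zero] at hres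
    exact hc ((S.pair d).unique hres (S.pair d).res_zero)
  have hcard : Fintype.card (Unit ⊕ Fin q) = Module.finrank FC F := by
    rw [show Module.finrank FC F = q + 1 from S.finrankAlong_α]
    simp [add_comm]
  let bas := basisOfLinearIndependentOfCardEqFinrank hli hcard
  have hbas : ∀ z, bas z = v z := fun z => by simp [bas]
  refine ⟨fun z => (bas.coord z).restrictScalars L, fun f => ?_, fun c z => ?_⟩
  · conv_lhs => rw [← bas.sum_repr f]
    simp only [hbas, hsmul]
    rfl
  · show bas.repr (∑ z, S.α (c z) * v z) z = c z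
    simp only [← hsmul, ← hbas]
    rw [bas.repr_sum_self]

theorem linearIndependent_col {r : ℕ} {g : Fin r → Fb} (hg : LinearIndependent k g) :
    LinearIndependent k fun y : (Unit ⊕ Fin q) × Fin r => (g y.2, S.V (g y.2)) * S.colRed y.1 := by
  rw [Fintype.linearIndependent_iff]
  intro c hc y
  have hcc : S.colComb (fun z => ∑ i, c (z, i) • g i) =
      ∑ y, c y • ((g y.2, S.V (g y.2)) * S.colRed y.1) := by
    rw [Fintype.sum_prod_type]
    refine Prod.ext ?_ ?_
    · simp [Sheet.colComb, Sheet.colRed, Prod.fst_sum, Fintype.sum_sum_type]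
    · simp only [Sheet.colComb, Fintype.sum_sum_type, map_sum, Finset.mul_sum]
      simp [Sheet.colRed, Prod.snd_sum, map_smul, mul_comm (S.V _)]
  have h := congrFun (S.colComb_eq_zero (hcc.trans hc)) y.1
  exact Fintype.linearIndependent_iff.1 hg _ h y.2

end Family

section At

variable {p : ℕ} [Fact p.Prime] [NeZero p] {M : ℕ} [NeZero M] [NeZero (M * p)] (hpM : ¬ p ∣ M)
  {A : ValuationSubring QA} [IsAlgClosed (ResidueField A)] [CharP (ResidueField A) p]
  [Curves.IsFunctionField (ResidueField A) (modularFunctionFieldFullC (ResidueField A) M)]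
  (hA : A.LiesOverPrime p)

local notation "kk" => ResidueField A
local notation "ρM" => arithmeticGalois (L := AlgebraicClosure ℚ) (modularFunctionFieldFull M)

include hA hpM in
/-- At level `M`, inside the sections. -/
theorem exists_fixed_basis_sections
    (hsm : (modularModel (π := residue A) residue_surjective M (natCast_ne_zero hpM kk)).Smooth) {G : Set GG} {m : ℕ}
    (hm : (sheetAt hpM hA).MC.bound ≤ (m : ℤ) * (sheetAt hpM hA).MC.deg)
    (U : Submodule QA (X0Bar M)) (hle : U ≤ FlatModel.polesSpace (sheetAt hpM hA).MC m)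
    (hU : ∀ σ ∈ G, ∀ f ∈ U, ρM σ • f ∈ U) :
    ∃ (r : ℕ) (v : Fin r → X0Bar M) (w : Fin r → modularFunctionFieldFullC kk M),
      (∀ i, v i ∈ U) ∧ (∀ i, (sheetAt hpM hA).MC.Res (v i) (w i)) ∧ LinearIndependent kk w ∧
      Submodule.span QA (Set.range v) = U ∧ ∀ σ ∈ G, ∀ i, ρM σ • v i = v i := by
  classical
  set MC := modularModel (π := residue A) residue_surjective M (natCast_ne_zero hpM kk)
  have hM : MC.Smooth := hsm
  obtain ⟨C⟩ := FlatModel.exists_eqCoords (A := A) (natCast_ne_zero hpM kk) m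
  obtain ⟨B⟩ := FlatModel.exists_fixedBasis hM FlatModel.isArith_galois
    (FlatModel.smul_jq (natCast_ne_zero hpM kk)) hm C
  let a : X0Bar M →ₗ[QA] (Fin B.r → QA) :=
    LinearMap.pi fun i => (LinearMap.proj (B.piv i)).comp C.coord
  have ha : ∀ f i, a f i = C.coord f (B.piv i) := fun _ _ => rfl
  obtain ⟨r, u, J, huU, huA, huJ, hspan, hfix⟩ :=
    exists_fixed_echelon (π := residue A) residue_surjective (U.map a)
      ((fun σ : GG => (σ : QA →+* QA)) '' G) (by
        rintro _ ⟨σ, hσ, rfl⟩ _ ⟨f, hf, rfl⟩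
        exact ⟨ρM σ • f, hU σ hσ f hf, funext fun i => C.equiv σ f (B.piv i)⟩)
  choose v hvU hvu using fun j => huU j
  have hexp : ∀ f ∈ U, f = ∑ i, a f i • B.b i := fun f hf => B.expand f (hle hf)
  have hv : ∀ j, v j = ∑ i, u j i • B.b i := fun j => by
    conv_lhs => rw [hexp _ (hvU j)]
    rw [hvu]
  have hres : ∀ j, MC.Res (v j) (∑ i, residue A ⟨u j i, huA j i⟩ • B.g i) := fun j => by
    rw [hv j]
    exact Reduction.Res.sum fun i _ => (B.res i).smul (⟨u j i, huA j i⟩ : A)
  set w := fun j => ∑ i, residue A ⟨u j i, huA j i⟩ • B.g i with hwdef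
  refine ⟨r, v, w, hvU, hres, ?_, ?_, fun σ hσ j => ?_⟩
  · clear_value w
    rw [Fintype.linearIndependent_iff]
    intro c hc l
    have h := congrFun (congrArg C.coordb hc) (B.piv (J l))
    have hcb : ∀ j, C.coordb (w j) (B.piv (J l)) = if l = j then 1 else 0 := fun j => by
      rw [hwdef]
      obtain ⟨z, hz, hz'⟩ := C.res _ _ (hle (hvU j)) (hres j) (B.piv (J l))
      rw [← hz']
      rw [← ha, hvu, huJ] at hz
      split_ifs at hz ⊢ with hlj
      · rw [show z = 1 from Subtype.ext hz, map_one]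
      · rw [show z = 0 from Subtype.ext hz, map_zero]
    rw [map_sum, Finset.sum_apply] at h
    simpa [hcb] using h
  · refine le_antisymm (Submodule.span_le.2 (by rintro _ ⟨j, rfl⟩; exact hvU j)) fun f hf => ?_
    have h1 : a f ∈ Submodule.span QA (Set.range u) := hspan.ge ⟨f, hf, rfl⟩
    obtain ⟨c, hc⟩ := (Submodule.mem_span_range_iff_exists_fun QA).1 h1
    have h2 : f = ∑ j, c j • v j := by
      rw [hexp f hf, ← hc]
      simp only [hv, Finset.sum_apply, Pi.smul_apply, smul_eq_mul, Finset.smul_sum, smul_smul,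
        Finset.sum_smul]
      exact Finset.sum_comm
    rw [h2]
    exact Submodule.sum_mem _ fun j _ => Submodule.smul_mem _ _ (Submodule.subset_span ⟨j, rfl⟩)
  · rw [hv j, Finset.smul_sum]
    refine Finset.sum_congr rfl fun i _ => ?_
    rw [FlatModel.isArith_galois.smul_smul σ, B.fixed]
    exact congrArg (· • B.b i) (hfix (σ : QA →+* QA) ⟨σ, hσ, rfl⟩ j i)

include hA hpM in
/-- A polynomial with fixed coefficients has a fixed multiple with nonzero reduction. -/
theorem exists_fixed_scale {G : Set GG} {Q : QA[X]} (hQ : Q ≠ 0)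
    (hQG : ∀ σ ∈ G, Q.map (σ : QA →+* QA) = Q) :
    ∃ (c : QA) (g : modularFunctionFieldFullC kk M), g ≠ 0 ∧
      (sheetAt hpM hA).MC.Res (c • aeval (sheetAt hpM hA).MC.x Q) g ∧ ∀ σ ∈ G, σ c = c := by
  classical
  set MC := (sheetAt hpM hA).MC
  obtain ⟨s, i₀, hs, hi₀⟩ := (Reduction.base_total
    (residue_surjective (R := A))).exists_scale_family
      (c := fun i : Fin (Q.natDegree + 1) => Q.coeff i) fun h0 => hQ (leadingCoeff_eq_zero.1
        (congrFun h0 (Fin.last Q.natDegree)))
  change ∀ i, s * _ ∈ A at hs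
  refine ⟨s, ∑ i : Fin (Q.natDegree + 1), residue A ⟨_, hs i⟩ • MC.xb ^ (i : ℕ), ?_, ?_,
    fun σ hσ => ?_⟩
  · intro h0
    have h := Fintype.linearIndependent_iff.1
      (Reduction.linearIndependent_pow_res MC.transcendental (Q.natDegree + 1)) _ h0 i₀
    rw [show (⟨s * Q.coeff i₀, hs i₀⟩ : A) = 1 from Subtype.ext hi₀, map_one] at h
    exact one_ne_zero h
  · rw [Polynomial.aeval_eq_sum_range, Finset.sum_range, Finset.smul_sum]
    refine Reduction.Res.sum fun i _ => ?_
    rw [smul_smul]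
    exact (MC.x_res.pow i).smul (⟨_, hs i⟩ : A)
  · have h := congrArg (fun P : QA[X] => P.coeff i₀) (hQG σ hσ)
    simp only [Polynomial.coeff_map] at h
    rw [eq_inv_of_mul_eq_one_left hi₀, map_inv₀]
    exact congrArg (·⁻¹) h

include hA hpM in
theorem exists_fixed_basis_level
    (hsm : (modularModel (π := residue A) residue_surjective M (natCast_ne_zero hpM kk)).Smooth) {G : Set GG}
    (hG : G ⊆ (A.inertiaSubgroupIn ℚ : Set GG)) (U : Submodule QA (X0Bar M))
    [FiniteDimensional QA U]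
    (hU : ∀ σ ∈ G, ∀ f ∈ U, arithmeticGalois (modularFunctionFieldFull M) σ • f ∈ U) :
    ∃ (r : ℕ) (v : Fin r → X0Bar M) (w : Fin r → modularFunctionFieldFullC kk M),
      (∀ i, v i ∈ U) ∧ (∀ i, (sheetAt hpM hA).MC.Res (v i) (w i)) ∧ LinearIndependent kk w ∧
      Submodule.span QA (Set.range v) = U ∧
      ∀ σ ∈ G, ∀ i, arithmeticGalois (modularFunctionFieldFull M) σ • v i = v i := by
  classical
  set MC := (sheetAt hpM hA).MC
  have hx : ∀ σ : GG, ρM σ • MC.x = MC.x := FlatModel.smul_jq (natCast_ne_zero hpM kk)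
  obtain ⟨Q, m₀, hQm, hQG, hQU⟩ := exists_fixed_denominator ρM FlatModel.isArith_galois
    MC.transcendental_x (G := G) (fun σ _ => hx σ) U hU
  obtain ⟨c, g, hg0, hres, hcG⟩ := exists_fixed_scale hpM hA hQm.ne_zero hQG
  set μ := c • aeval MC.x Q
  have hμ0 : μ ≠ 0 := hres.ne_zero hg0
  have hμG : ∀ σ ∈ G, ρM σ • μ = μ := fun σ hσ => by
    show ρM σ • (c • aeval MC.x Q) = _
    rw [FlatModel.isArith_galois.smul_smul σ, hcG σ hσ,
      smul_aeval_fixed ρM FlatModel.isArith_galois (hx σ), hQG σ hσ]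
  obtain ⟨m₁, hm₁⟩ := MC.exists_le_mul MC.bound
  set U' := U.map (LinearMap.mulLeft QA μ)
  obtain ⟨r, v, w, hvU, hvw, hw, hspan, hfix⟩ := exists_fixed_basis_sections hpM hA hsm
    (G := G) (hm₁ (max m₀ m₁) (le_max_right _ _)) U' (by
      rintro _ ⟨f, hf, rfl⟩
      show μ * f ∈ _
      rw [smul_mul_assoc]
      exact Submodule.smul_mem _ _ (hQU _ (le_max_left _ _) f hf)) (by
      rintro σ hσ _ ⟨f, hf, rfl⟩
      exact ⟨ρM σ • f, hU σ hσ f hf, by
        show μ * (ρM σ • f) = ρM σ • (μ * f)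
        rw [smul_mul', hμG σ hσ]⟩)
  refine ⟨r, fun i => μ⁻¹ * v i, fun i => g⁻¹ * w i, fun i => ?_,
    fun i => (hres.inv hg0).mul (hvw i), ?_, ?_, fun σ hσ i => ?_⟩
  · obtain ⟨f, hf, hfe⟩ := hvU i
    show μ⁻¹ * v i ∈ U
    rw [← hfe, LinearMap.mulLeft_apply, inv_mul_cancel_left₀ hμ0]
    exact hf
  · exact hw.map' (LinearMap.mulLeft kk g⁻¹) (LinearMap.ker_eq_bot.2
      (mul_right_injective₀ (inv_ne_zero hg0)))
  · rw [show (Set.range fun i => μ⁻¹ * v i) = LinearMap.mulLeft QA μ⁻¹ '' Set.range v by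
        rw [← Set.range_comp]; rfl, Submodule.span_image, hspan, ← Submodule.map_comp]
    have hcomp : (LinearMap.mulLeft QA μ⁻¹).comp (LinearMap.mulLeft QA μ) =
        (LinearMap.id : X0Bar M →ₗ[QA] X0Bar M) :=
      LinearMap.ext fun f => inv_mul_cancel_left₀ hμ0 f
    rw [hcomp, Submodule.map_id]
  · rw [smul_mul', smul_inv'', hμG σ hσ, hfix σ hσ i]

include hA hpM in
/-- A fixed separating family. -/
theorem exists_fixed_col {G : Set GG} {d : QA} (hd : d ≠ 0) (hdG : ∀ σ ∈ G, σ d = d) :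
    ∃ v : Unit ⊕ Fin p → X0Bar (M * p),
      (∀ z, ((sheetAt hpM hA).pair d).Res (v z) ((sheetAt hpM hA).colRed z)) ∧
      ∀ σ ∈ G, ∀ z, arithmeticGalois (modularFunctionFieldFull (M * p)) σ • v z = v z := by
  set S := sheetAt hpM hA
  set ρN := arithmeticGalois (L := QA) (modularFunctionFieldFull (M * p))
  have hβ : ∀ σ : GG, ρN σ • S.β S.MC.x = S.β S.MC.x := fun σ =>
    (galois_smul_beta σ S.MC.x).trans
      (congrArg S.β (FlatModel.smul_jq (natCast_ne_zero hpM kk) σ))
  have hX : ∀ σ : GG, ρN σ • S.X = S.X := fun σ =>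
    (galois_smul_alpha σ S.MC.x).trans
      (congrArg S.α (FlatModel.smul_jq (natCast_ne_zero hpM kk) σ))
  have he : ∀ σ : GG, ρN σ • sepElem S = sepElem S := fun σ => by
    simp [sepElem, smul_sub, div_eq_mul_inv, smul_mul', smul_pow', hβ, hX]
  obtain ⟨na, nb, hv⟩ := exists_col_family_sep S hd
  refine ⟨_, hv, ?_⟩
  rintro σ hσ (u | i)
  · show ρN σ • (sepElem S ^ na) = sepElem S ^ na
    rw [smul_pow', he]
  · show ρN σ • (S.β S.MC.x ^ (i : ℕ) * (d⁻¹ • (1 - sepElem S) ^ nb)) = _
    rw [smul_mul', smul_pow', hβ, FlatModel.isArith_galois.smul_smul σ, map_inv₀, hdG σ hσ,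
      smul_pow', smul_sub, smul_one, he]
    rfl

include hA hpM in
theorem exists_fixed_basis
    (hsm : (modularModel (π := residue A) residue_surjective M (natCast_ne_zero hpM kk)).Smooth) {G : Set GG}
    (hG : G ⊆ (A.inertiaSubgroupIn ℚ : Set GG)) {d : QA} (hd : d ≠ 0) (hdG : ∀ σ ∈ G, σ d = d)
    (U : Submodule QA (X0Bar (M * p))) [FiniteDimensional QA U]
    (hU : ∀ σ ∈ G, ∀ f ∈ U, arithmeticGalois (modularFunctionFieldFull (M * p)) σ • f ∈ U) :
    ∃ (r : ℕ) (v : Fin r → X0Bar (M * p))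
      (w : Fin r → modularFunctionFieldFullC kk M × modularFunctionFieldFullC kk M),
      (∀ i, v i ∈ U) ∧ (∀ i, ((sheetAt hpM hA).pair d).Res (v i) (w i)) ∧ LinearIndependent kk w ∧
      Submodule.span QA (Set.range v) = U ∧
      ∀ σ ∈ G, ∀ i, arithmeticGalois (modularFunctionFieldFull (M * p)) σ • v i = v i := by
  classical
  set S := sheetAt hpM hA
  set ρN := arithmeticGalois (L := QA) (modularFunctionFieldFull (M * p))
  have hαf : ∀ (σ : GG) (z : X0Bar M), ρN σ • S.α z = S.α (ρM σ • z) := fun σ z =>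
    galois_smul_alpha σ z
  obtain ⟨v, hv, hvfix⟩ := exists_fixed_col hpM hA (G := G) hd hdG
  obtain ⟨az, hexp, huniq⟩ := exists_col_coords S hv
  have hrepr : ∀ σ ∈ G, ∀ f z, az z (ρN σ • f) = ρM σ • az z f := by
    intro σ hσ f z
    have h : ρN σ • f = ∑ z, S.α (ρM σ • az z f) * v z := by
      conv_lhs => rw [hexp f]
      rw [Finset.smul_sum]
      exact Finset.sum_congr rfl fun z _ => by rw [smul_mul', hαf, hvfix σ hσ]
    rw [h]
    exact huniq _ z
  set U₀ : Submodule QA (X0Bar M) := ⨆ z, U.map (az z) with hU₀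
  haveI : FiniteDimensional QA U₀ := by rw [hU₀]; infer_instance
  obtain ⟨r₀, b, bb, -, hbw, hbb, hspan, hbfix⟩ := exists_fixed_basis_level hpM hA hsm hG U₀
    (fun σ hσ f hf => by
      induction hf using Submodule.iSup_induction' with
      | mem z f hf =>
        obtain ⟨g, hg, rfl⟩ := hf
        exact Submodule.mem_iSup_of_mem z ⟨ρN σ • g, hU σ hσ g hg, hrepr σ hσ g z⟩
      | zero => rw [smul_zero]; exact zero_mem _
      | add f f' _ _ h h' => rw [smul_add]; exact add_mem h h')
  let e : (Unit ⊕ Fin p) × Fin r₀ → X0Bar (M * p) := fun y => S.α (b y.2) * v y.1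
  let eb : (Unit ⊕ Fin p) × Fin r₀ →
      modularFunctionFieldFullC kk M × modularFunctionFieldFullC kk M := fun y =>
    (bb y.2, S.V (bb y.2)) * S.colRed y.1
  have hee : ∀ y, (S.pair d).Res (e y) (eb y) := fun y => by
    have h := S.pair_mul (S.pair_α (hbw y.2)) (hv y.1)
    rwa [one_mul] at h
  have heb : LinearIndependent kk eb := linearIndependent_col S hbb
  obtain ⟨r, v', w', h1, h2, h3, h4, h5⟩ := exists_fixed_of_le (R := S.pair d) residue_surjective
    hee heb ((fun σ : GG => ((σ : QA →+* QA), DistribSMul.toAddMonoidHom _ (ρN σ))) '' G)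
    (by rintro _ ⟨σ, -, rfl⟩ c x; exact FlatModel.isArith_galois.smul_smul σ c x)
    (by
      rintro _ ⟨σ, hσ, rfl⟩ y
      show ρN σ • (S.α (b y.2) * v y.1) = _
      rw [smul_mul', hαf, hbfix σ hσ, hvfix σ hσ])
    U (fun f hf => by
      rw [hexp f]
      refine Submodule.sum_mem _ fun z _ => ?_
      have hz : az z f ∈ Submodule.span QA (Set.range b) :=
        hspan.ge (Submodule.mem_iSup_of_mem z ⟨f, hf, rfl⟩)
      obtain ⟨c, hc⟩ := (Submodule.mem_span_range_iff_exists_fun QA).1 hz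
      rw [← hc, map_sum, Finset.sum_mul]
      refine Submodule.sum_mem _ fun i _ => ?_
      rw [Algebra.smul_def (c i), map_mul, AlgHom.commutes, mul_assoc, ← Algebra.smul_def]
      exact Submodule.smul_mem _ _ (Submodule.subset_span ⟨(z, i), rfl⟩))
    (by rintro _ ⟨σ, hσ, rfl⟩ x hx; exact hU σ hσ x hx)
  exact ⟨r, v', w', h1, h2, h3, h4, fun σ hσ i => h5 _ ⟨σ, hσ, rfl⟩ i⟩

end At

end FLTAgent.MazurPrinciple
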