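import Fermat.Agent.MazurPrinciple.NormDigit
import Fermat.Agent.MazurPrinciple.Digit

/-!
# A function moved by a constant on each sheet

If both norms of a function with constant reductions are `p`-th powers of functions close to one,
then the function is congruent to a constant on each sheet beyond `1 / (p - 1)`: otherwise the
first digit of a norm would be both constant and non-constant.
-/

set_option autoImplicit false
set_option linter.style.haveILetI false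
set_option linter.unusedSectionVars false
set_option maxHeartbeats 1000000

noncomputable section

namespace FLTAgent.MazurPrinciple

open AlgebraicCurve FLTAgent.Curves FLTAgent.Specialization FLTAgent.BadRed IntermediateField

variable {L k : Type*} [Field L] [Field k] {A : ValuationSubring L} {π : A →+* k}
  {FC Fb F : Type*} [Field FC] [Field Fb] [Field F] [Algebra L FC]
  [Algebra k Fb] [Algebra L F] [IsAlgClosed L] [IsFunctionField L FC] [IsFunctionField L F]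
  [IsAlgClosed k] [IsFunctionField k Fb] {p : ℕ} [Fact p.Prime] [CharP k p]
  (S : Sheet π FC Fb F p) (V : RatVal π p)

/-- An element that is one on the first sheet and zero on the second up to a given level. -/
theorem exists_sep_level (c : L) : ∃ E : F, (S.pair 1).Res E (1, 0) ∧
    c • (E - 1) ∈ S.R₁.O ∧ c • E ∈ S.R₂.O := by
  obtain ⟨e₁, e₂, h₁, h₂, hs₁, hs₂⟩ := S.exists_sep
  obtain ⟨N₁, hN₁⟩ := hs₁ 1
  obtain ⟨N₁', hN₁'⟩ := hs₁ c
  obtain ⟨N₂, hN₂⟩ := hs₂ 1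
  obtain ⟨N₂', hN₂'⟩ := hs₂ c
  set a := e₁ ^ (N₁ + N₁')
  set b := e₂ ^ (N₂ + N₂')
  have a₁ : S.R₁.Res a 1 := by simpa using h₁.pow (N₁ + N₁')
  have a₂ : S.R₂.Res a 0 := by simpa using hN₁ (N₁ + N₁') le_self_add
  have a₃ : S.R₂.Res (c • a) 0 := hN₁' (N₁ + N₁') le_add_self
  have b₂ : S.R₂.Res b 1 := by simpa using h₂.pow (N₂ + N₂')
  have b₁ : S.R₁.Res b 0 := by simpa using hN₂ (N₂ + N₂') le_self_add
  have b₃ : S.R₁.Res (c • b) 0 := hN₂' (N₂ + N₂') le_add_self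
  have d₁ : S.R₁.Res (a + b) 1 := by simpa using a₁.add b₁
  have d₂ : S.R₂.Res (a + b) 1 := by simpa using a₂.add b₂
  have hne : a + b ≠ 0 := d₁.ne_zero one_ne_zero
  refine ⟨a / (a + b), ⟨?_, ?_⟩, ?_, ?_⟩
  · simpa using a₁.div d₁ one_ne_zero
  · simpa using a₂.div d₂ one_ne_zero
  · have h := (S.R₁.res_zero.sub b₃).div d₁ one_ne_zero
    convert h.mem using 1
    rw [zero_sub, Algebra.smul_def, Algebra.smul_def]
    field_simp
    ring
  · have h := a₃.div d₂ one_ne_zero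
    convert h.mem using 1
    rw [Algebra.smul_def, Algebra.smul_def, mul_div_assoc]

/-- The norm along `α` is a constant times the `p`-th power of a function very close to one. -/
def NormClose (q₀ : F) : Prop :=
  ∃ (c : L) (H : FC) (s : L), @Algebra.norm FC F _ _ (algebraAlong S.α) q₀ = c • H ^ p ∧ s ≠ 0 ∧
    1 / ((p : ℚ) * ((p : ℚ) - 1)) < -V.v s ∧ s • (H - 1) ∈ S.MC.O

variable {S}

include V in
theorem const_of_normClose {q₀ : F} (hN : NormClose S V q₀) {a b ε : A} (ha : π a ≠ 0)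
    (hb : π b ≠ 0) (hε : π ε = 0) (hε0 : (ε : L) ≠ 0)
    (hεle : V.v (ε : L) ≤ 1 / ((p : ℚ) - 1)) {g₁ : Fb}
    (h₁ : S.R₁.Res ((ε : L)⁻¹ • (q₀ - algebraMap L F a)) g₁)
    (h₂ : (ε : L)⁻¹ • (q₀ - algebraMap L F b) ∈ S.R₂.O) :
    ∃ z : k, g₁ = algebraMap k Fb z := by
  obtain ⟨c, H, s, hnorm, hs, hsv, hH⟩ := hN
  have h := exists_norm_digit S hε hε0 ha hb h₁ h₂
  rw [hnorm, smul_smul] at h
  obtain ⟨z, hz⟩ := exists_const_digit (R := S.MC.toReduction) V S.MC.surj hs hsv hH hε0 hεle h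
  refine ⟨π a * z, ?_⟩
  rw [map_mul, ← hz, ← Algebra.smul_def, smul_smul, mul_inv_cancel₀ ha, one_smul]

variable (hdeg : finrankAlong L S.β = p + 1)

include V hdeg in
/-- **Constant on each sheet beyond `1 / (p - 1)`.** -/
theorem exists_kappa (hp3 : 3 ≤ p) {q₀ : F} {k₁ k₂ : k} (hk₁ : k₁ ≠ 0) (hk₂ : k₂ ≠ 0)
    (hq : (S.pair 1).Res q₀ (algebraMap k Fb k₁, algebraMap k Fb k₂))
    (hN₁ : NormClose S V q₀) (hN₂ : NormClose (S.swap hdeg) V q₀) :
    ∃ (κ₁ κ₂ : A) (s : L), π κ₁ = k₁ ∧ π κ₂ = k₂ ∧ s ≠ 0 ∧ 1 / ((p : ℚ) - 1) < -V.v s ∧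
      s • (q₀ - algebraMap L F κ₁) ∈ S.R₁.O ∧ s • (q₀ - algebraMap L F κ₂) ∈ S.R₂.O := by
  classical
  have hp : (3 : ℚ) ≤ p := by exact_mod_cast hp3
  have hlev : 1 / ((p : ℚ) - 1) < 1 := by rw [div_lt_one (by linarith)]; linarith
  have hlev0 : 0 < 1 / ((p : ℚ) - 1) := div_pos one_pos (by linarith)
  have hpF : (p : F) ≠ 0 := by
    rw [← map_natCast (algebraMap L F)]; exact (_root_.map_ne_zero _).2 V.p_ne
  obtain ⟨E, hE, hE₁, hE₂⟩ := exists_sep_level S (p : L)⁻¹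
  -- the two-dimensional family of candidates
  let w : Fin 2 → Fb × Fb := ![1, ((1 : Fb), (0 : Fb))]
  let v : Fin 2 → F := ![1, E]
  have hvw : ∀ i, (S.pair 1).Res (v i) (w i) := by
    intro i
    fin_cases i
    · exact S.pair_one
    · exact hE
  have hw : LinearIndependent k w := by
    refine LinearIndependent.pair_iff.2 fun x y h => ?_
    have h1 := congrArg Prod.fst h
    have h2 := congrArg Prod.snd h
    simp [smul_eq_zero] at h1 h2
    subst h2
    simpa using h1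
  set U := Submodule.span L (Set.range v)
  haveI : FiniteDimensional L U := FiniteDimensional.span_of_finite L (Set.finite_range v)
  have hmemU : ∀ x y : L, x • (1 : F) + y • E ∈ U := fun x y =>
    U.add_mem (U.smul_mem _ (Submodule.subset_span ⟨0, rfl⟩))
      (U.smul_mem _ (Submodule.subset_span ⟨1, rfl⟩))
  -- residues of candidates
  have hcand : ∀ x y : A, (S.pair 1).Res ((x : L) • (1 : F) + (y : L) • E)
      (algebraMap k Fb (π x + π y), algebraMap k Fb (π x)) := by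
    intro x y
    have h := (S.pair 1).res_add ((S.pair 1).res_smul x S.pair_one) ((S.pair 1).res_smul y hE)
    convert h using 1
    refine Prod.ext ?_ ?_ <;> simp [Algebra.smul_def]
  -- the final step
  have hfin : ∀ (x y : A) (u : L), π x = k₂ → π x + π y = k₁ → u ≠ 0 →
      1 / ((p : ℚ) - 1) < -V.v u → -V.v u ≤ 1 →
      u • (q₀ - ((x : L) • (1 : F) + (y : L) • E)) ∈ S.intRing →
      ∃ (κ₁ κ₂ : A) (s : L), π κ₁ = k₁ ∧ π κ₂ = k₂ ∧ s ≠ 0 ∧ 1 / ((p : ℚ) - 1) < -V.v s ∧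
        s • (q₀ - algebraMap L F κ₁) ∈ S.R₁.O ∧ s • (q₀ - algebraMap L F κ₂) ∈ S.R₂.O := by
    intro x y u hx hxy hu hlt hle hint
    have hsc : u * y * (p : L) ∈ A := by
      rcases eq_or_ne (y : L) 0 with h0 | h0
      · rw [h0, mul_zero, zero_mul]; exact A.zero_mem
      · rw [V.mem_iff _ (mul_ne_zero (mul_ne_zero hu h0) V.p_ne),
          V.v_mul _ _ (mul_ne_zero hu h0) V.p_ne, V.v_mul _ _ hu h0, V.v_p]
        have := (V.mem_iff _ h0).1 y.2
        linarith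
    refine ⟨x + y, x, u, by rw [map_add, hxy], hx, hu, hlt, ?_, ?_⟩
    · obtain ⟨g, hg⟩ := S.R₁.exists_res_of_mem hE₁
      convert add_mem hint.1 (hg.smul ⟨_, hsc⟩).mem using 1
      push_cast [Algebra.smul_def, map_mul, map_add, map_inv₀]
      field_simp [hpF]
      ring
    · obtain ⟨g, hg⟩ := S.R₂.exists_res_of_mem hE₂
      convert add_mem hint.2 (hg.smul ⟨_, hsc⟩).mem using 1
      push_cast [Algebra.smul_def, map_mul, map_inv₀]
      field_simp [hpF]
      ring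
  by_cases hqU : q₀ ∈ U
  · obtain ⟨c, hc⟩ := (Submodule.mem_span_range_iff_exists_fun L).1 hqU
    obtain ⟨cA, hcA, hcr⟩ := LRed.coord_res S.MC.surj hvw hw (hc.symm ▸ hq)
    have hres := hcand (cA 0) (cA 1)
    have he : ((cA 0 : L) • (1 : F) + (cA 1 : L) • E) = q₀ := by
      rw [← hc, Fin.sum_univ_two]
      simp [hcA, v]
    rw [he] at hres
    obtain ⟨r1, r2⟩ := Prod.ext_iff.1 ((S.pair 1).unique hres hq)
    refine hfin (cA 0) (cA 1) (p : L)⁻¹ ((algebraMap k Fb).injective r2)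
      ((algebraMap k Fb).injective r1) (inv_ne_zero V.p_ne) ?_ ?_ ?_
    · rw [V.v_inv V.p_ne, V.v_p]; linarith
    · rw [V.v_inv V.p_ne, V.v_p]; linarith
    · rw [he, sub_self, smul_zero]; exact zero_mem _
  obtain ⟨u, hu, s, η, hs0, hsr, hη, -⟩ := exists_farthest S.orth_one S.MC.surj U hqU
  obtain ⟨x₀, hx₀⟩ := S.MC.surj k₂
  obtain ⟨y₀, hy₀⟩ := S.MC.surj (k₁ - k₂)
  have hsA : s ∉ A := fun hmem => not_small_of_farthest (T := S.pair 1) hu hsr hη (hmemU x₀ y₀) (by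
    have h := (S.pair 1).res_smul ⟨s, hmem⟩ (LRed.res_sub hq (hcand x₀ y₀))
    rw [hx₀, hy₀, add_sub_cancel, sub_self, smul_zero] at h
    exact h)
  have hwpos : 0 < -V.v s := by
    rw [neg_pos]
    exact lt_of_not_ge fun h => hsA ((V.mem_iff _ hs0).2 h)
  have hsi : s⁻¹ ∈ A := (V.mem_iff _ (inv_ne_zero hs0)).2 (by rw [V.v_inv hs0]; linarith)
  have hsi0 : π ⟨_, hsi⟩ = 0 := Reduction.map_eq_zero_of_inv_notMem S.MC.surj (by simpa using hsA)
  have hqu : (S.pair 1).Res u (algebraMap k Fb k₁, algebraMap k Fb k₂) := by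
    have h := (S.pair 1).res_smul ⟨_, hsi⟩ hsr
    rw [hsi0, zero_smul, smul_smul, show s⁻¹ * s = 1 from inv_mul_cancel₀ hs0, one_smul] at h
    have h' := LRed.res_sub hq h
    rwa [sub_sub_cancel, sub_zero] at h'
  obtain ⟨c, rfl⟩ := (Submodule.mem_span_range_iff_exists_fun L).1 hu
  obtain ⟨cA, hcA, -⟩ := LRed.coord_res S.MC.surj hvw hw hqu
  have he : ((cA 0 : L) • (1 : F) + (cA 1 : L) • E) = ∑ i, c i • v i := by
    rw [Fin.sum_univ_two]
    simp [hcA, v]
  rw [← he] at hsr hqu hu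
  obtain ⟨r1, r2⟩ := Prod.ext_iff.1 ((S.pair 1).unique (hcand (cA 0) (cA 1)) hqu)
  have e2 := (algebraMap k Fb).injective r2
  have e1 := (algebraMap k Fb).injective r1
  have hint := S.integral_iff_mem.1 ⟨η, hsr⟩
  by_cases hbig : 1 / ((p : ℚ) - 1) < -V.v s
  · rcases le_or_gt (-V.v s) 1 with h1 | h1
    · exact hfin (cA 0) (cA 1) s e2 e1 hs0 hbig h1 hint
    · refine hfin (cA 0) (cA 1) (p : L)⁻¹ e2 e1 (inv_ne_zero V.p_ne)
        (by rw [V.v_inv V.p_ne, V.v_p]; linarith) (by rw [V.v_inv V.p_ne, V.v_p]; linarith) ?_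
      have hz : (p : L)⁻¹ * s⁻¹ ∈ A := by
        rw [V.mem_iff _ (mul_ne_zero (inv_ne_zero V.p_ne) (inv_ne_zero hs0)),
          V.v_mul _ _ (inv_ne_zero V.p_ne) (inv_ne_zero hs0), V.v_inv V.p_ne, V.v_inv hs0, V.v_p]
        linarith
      have h := (S.pair 1).res_smul ⟨_, hz⟩ hsr
      rw [smul_smul, show ((⟨_, hz⟩ : A) : L) * s = (p : L)⁻¹ from
        inv_mul_cancel_right₀ hs0 _] at h
      exact S.integral_iff_mem.1 ⟨_, h⟩
  -- otherwise both digits are constant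
  exfalso
  rw [not_lt] at hbig
  have hsmall : V.GT 0 (s * (cA 1 : L) * (p : L)) := by
    rcases eq_or_ne (cA 1 : L) 0 with h0 | h0
    · rw [h0, mul_zero, zero_mul]; exact Or.inl rfl
    · refine Or.inr ?_
      rw [V.v_mul _ _ (mul_ne_zero hs0 h0) V.p_ne, V.v_mul _ _ hs0 h0, V.v_p]
      have := (V.mem_iff _ h0).1 (cA 1).2
      linarith
  have t₁ : S.R₁.Res (s • (q₀ - algebraMap L F ((cA 0 + cA 1 : A) : L))) η.1 := by
    have h := hsr.1.add (res_smul_zero V hsmall hE₁)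
    rw [add_zero] at h
    convert h using 1
    push_cast [Algebra.smul_def, map_mul, map_add, map_inv₀]
    field_simp [hpF]
    ring
  have t₂ : S.R₂.Res (s • (q₀ - algebraMap L F (cA 0 : L))) η.2 := by
    have h2 := hsr.2
    rw [one_smul] at h2
    have h := h2.add (res_smul_zero V hsmall hE₂)
    rw [add_zero] at h
    convert h using 1
    push_cast [Algebra.smul_def, map_mul, map_inv₀]
    field_simp [hpF]
    ring
  have ha : π (cA 0 + cA 1) ≠ 0 := by rw [map_add, e1]; exact hk₁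
  have hb : π (cA 0) ≠ 0 := e2 ▸ hk₂
  have hεv : V.v ((⟨_, hsi⟩ : A) : L) ≤ 1 / ((p : ℚ) - 1) := by
    show V.v s⁻¹ ≤ _
    rw [V.v_inv hs0]; exact hbig
  obtain ⟨z₁, hz₁⟩ := const_of_normClose V hN₁ (a := cA 0 + cA 1) (b := cA 0) (ε := ⟨_, hsi⟩) ha
    hb hsi0 (inv_ne_zero hs0) hεv (g₁ := η.1) (by simpa using t₁) (by simpa using t₂.mem)
  obtain ⟨z₂, hz₂⟩ := const_of_normClose (S := S.swap hdeg) V hN₂ (a := cA 0) (b := cA 0 + cA 1)
    (ε := ⟨_, hsi⟩) hb ha hsi0 (inv_ne_zero hs0) hεv (g₁ := η.2)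
    (show S.R₂.Res _ _ by simpa using t₂) (show _ ∈ S.R₁.O by simpa using t₁.mem)
  obtain ⟨x, hx⟩ := S.MC.surj z₂
  obtain ⟨y, hy⟩ := S.MC.surj (z₁ - z₂)
  refine hη (LRed.mem_image_of_res (hmemU x y) ?_)
  have h := hcand x y
  rwa [hx, hy, add_sub_cancel, ← hz₁, ← hz₂] at h

end FLTAgent.MazurPrinciple
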