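import Fermat.Agent.MazurPrinciple.Reciprocity
import Fermat.Agent.MazurPrinciple.Val
import Fermat.Prelude.Def_AlgebraicCurve_BaseChangeGalois

/-!
# Multiplicative congruences, and values under semilinear automorphisms
-/

set_option autoImplicit false
set_option linter.style.haveILetI false
set_option linter.unusedSectionVars false

noncomputable section

namespace FLTAgent.MazurPrinciple

open AlgebraicCurve FLTAgent.Curves FLTAgent.Specialization FLTAgent.BadRed

namespace RatVal

variable {L k : Type*} [Field L] [Field k] {A : ValuationSubring L} {π : A →+* k} {p : ℕ}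
  (V : RatVal π p)

/-- Congruence of non-zero numbers up to units `1 + z`, `v z > r`. -/
def Near (r : ℚ) (x y : L) : Prop := x ≠ 0 ∧ y ≠ 0 ∧ V.GT r (x / y - 1)

variable {r : ℚ} {x y x' y' z : L}

theorem near_refl (hx : x ≠ 0) : V.Near r x x :=
  ⟨hx, hx, Or.inl (by rw [div_self hx, sub_self])⟩

variable (hr : 0 ≤ r)
include hr

theorem Near.v_eq (h : V.Near r x y) : V.v x = V.v y := by
  obtain ⟨hx, hy, h⟩ := h
  have h1 := V.v_add_eq (x := 1) (y := x / y - 1) one_ne_zero (h.mono V (by rw [V.v_one]; exact hr))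
  rw [add_sub_cancel, V.v_one, V.v_div hx hy] at h1
  linarith [h1.2]

theorem Near.mul (h : V.Near r x y) (h' : V.Near r x' y') : V.Near r (x * x') (y * y') := by
  obtain ⟨hx, hy, h⟩ := h
  obtain ⟨hx', hy', h'⟩ := h'
  refine ⟨mul_ne_zero hx hx', mul_ne_zero hy hy', ?_⟩
  have e : x * x' / (y * y') - 1 =
      (x / y - 1) * (x' / y' - 1) + (x / y - 1) + (x' / y' - 1) := by
    rw [mul_div_mul_comm]; ring
  rw [e]
  refine (RatVal.GT.add V ?_ h).add V h'
  exact (RatVal.GT.mul_ge V h (h'.ge V hr)).mono V (by linarith)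

theorem Near.inv (h : V.Near r x y) : V.Near r x⁻¹ y⁻¹ := by
  have hv := h.v_eq V hr
  obtain ⟨hx, hy, h⟩ := h
  refine ⟨inv_ne_zero hx, inv_ne_zero hy, ?_⟩
  have e : x⁻¹ / y⁻¹ - 1 = -((x / y - 1) * (y / x)) := by field_simp; ring
  rw [e]
  refine RatVal.GT.neg V ((RatVal.GT.mul_ge V h (s := 0) (Or.inr ?_)).mono V (by linarith))
  rw [V.v_div hy hx, hv, sub_self]

theorem Near.zpow (h : V.Near r x y) : ∀ n : ℤ, V.Near r (x ^ n) (y ^ n) := by
  intro n
  induction n using Int.induction_on with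
  | zero => simpa using V.near_refl one_ne_zero
  | succ i ih =>
    rw [zpow_add_one₀ h.1, zpow_add_one₀ h.2.1]
    exact ih.mul V hr h
  | pred i ih =>
    rw [zpow_sub_one₀ h.1, zpow_sub_one₀ h.2.1]
    exact ih.mul V hr (h.inv V hr)

theorem Near.pow (h : V.Near r x y) (n : ℕ) : V.Near r (x ^ n) (y ^ n) := by
  simpa using h.zpow V hr (n : ℤ)

theorem Near.div (h : V.Near r x y) (h' : V.Near r x' y') : V.Near r (x / x') (y / y') := by
  rw [div_eq_mul_inv, div_eq_mul_inv]
  exact h.mul V hr (h'.inv V hr)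

theorem Near.prod {ι : Type*} (s : Finset ι) {a b : ι → L} (h : ∀ i ∈ s, V.Near r (a i) (b i)) :
    V.Near r (∏ i ∈ s, a i) (∏ i ∈ s, b i) := by
  classical
  induction s using Finset.induction with
  | empty => simpa using V.near_refl one_ne_zero
  | insert i s hi ih =>
    rw [Finset.prod_insert hi, Finset.prod_insert hi]
    exact (h i (Finset.mem_insert_self _ _)).mul V hr
      (ih fun j hj => h j (Finset.mem_insert_of_mem hj))

/-- A small perturbation of a unit. -/
theorem near_of_sub (hy : y ≠ 0) (hy0 : V.v y = 0) (h : V.GT r (x - y)) : V.Near r x y := by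
  have h1 := V.v_add_eq (x := y) (y := x - y) hy (h.mono V (hy0.trans_le hr))
  rw [add_sub_cancel] at h1
  refine ⟨h1.1, hy, ?_⟩
  have h2 := RatVal.GT.mul_ge V h (y := y⁻¹) (s := 0) (Or.inr (by rw [V.v_inv hy, hy0, neg_zero]))
  rw [add_zero] at h2
  convert h2 using 1
  field_simp

end RatVal

section Semilinear

variable {K F : Type*} [Field K] [Field F] [Algebra K F] [IsAlgClosed K] [IsFunctionField K F]

open AlgebraicCurve.SemilinearAut (baseAut)

theorem ordGE_smul (σ : SemilinearAut K F) (Q : Place K F) {n : ℤ} {f : F} (h : OrdGE Q n f) :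
    OrdGE (σ • Q) n (σ • f) := by
  rcases h with h | h
  · exact Or.inl (by rw [h, smul_zero])
  · exact ordGE_of_le (by rwa [SemilinearAut.ord_smul])

theorem ev_smul_aut (σ : SemilinearAut K F) (Q : Place K F) {f : F} (hf : OrdGE Q 0 f) :
    ev (σ • Q) (σ • f) = baseAut σ (ev Q f) := by
  refine ev_eq _ ?_
  have h := ordGE_smul σ Q (ev_spec Q hf)
  rwa [smul_sub, SemilinearAut.smul_algebraMap] at h

theorem ord_smul_aut (σ : SemilinearAut K F) (f : F) (Q : Place K F) :
    (σ • Q).ord f = Q.ord (σ⁻¹ • f) := by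
  conv_lhs => rw [← smul_inv_smul σ f, SemilinearAut.ord_smul]

theorem mem_support_smul (σ : SemilinearAut K F) {Φ : F} (hΦ : σ • Φ = Φ) (Q : Place K F) :
    σ • Q ∈ (divOf K Φ).support ↔ Q ∈ (divOf K Φ).support := by
  rw [Finsupp.mem_support_iff, Finsupp.mem_support_iff, divOf_apply, divOf_apply]
  conv_lhs => rw [← hΦ, SemilinearAut.ord_smul]

/-- The automorphism moves a product over the divisor of an invariant function to the product of
the moved function. -/
theorem baseAut_prod_support (σ : SemilinearAut K F) {Φ f : F} (hΦ : σ • Φ = Φ)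
    (hf : ∀ Q ∈ (divOf K Φ).support, OrdGE Q 0 f) :
    baseAut σ (∏ Q ∈ (divOf K Φ).support, ev Q f ^ Q.ord Φ) =
      ∏ Q ∈ (divOf K Φ).support, ev Q (σ • f) ^ Q.ord Φ := by
  rw [map_prod]
  refine Finset.prod_nbij' (fun Q => σ • Q) (fun Q => σ⁻¹ • Q)
    (fun Q hQ => (mem_support_smul σ hΦ Q).2 hQ)
    (fun Q hQ => (mem_support_smul σ hΦ _).1 (by rwa [smul_inv_smul]))
    (fun Q _ => inv_smul_smul σ Q) (fun Q _ => smul_inv_smul σ Q) (fun Q hQ => ?_)
  have e : (σ • Q).ord Φ = Q.ord Φ := by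
    conv_lhs => rw [← hΦ, SemilinearAut.ord_smul]
  rw [map_zpow₀, ev_smul_aut σ Q (hf Q hQ), e]

end Semilinear

end FLTAgent.MazurPrinciple
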