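import Fermat.Agent.MazurPrinciple.Congr

/-!
# Orders of the values near the points glued by the two reductions
-/

set_option autoImplicit false
set_option linter.style.haveILetI false
set_option linter.unusedSectionVars false

noncomputable section

namespace FLTAgent.MazurPrinciple

open AlgebraicCurve FLTAgent.Curves FLTAgent.Specialization FLTAgent.BadRed Polynomial
  IntermediateField

theorem ord_eq_zero_of_ev_ne {K E : Type*} [Field K] [Field E] [Algebra K E] [IsAlgClosed K]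
    [IsFunctionField K E] {Q : Place K E} {f : E} (hf : OrdGE Q 0 f) (h : ev Q f ≠ 0) :
    f ≠ 0 ∧ Q.ord f = 0 := by
  have hf0 : f ≠ 0 := fun h0 => h (by rw [h0, ev_zero])
  refine ⟨hf0, le_antisymm ?_ (hf.le_ord hf0)⟩
  by_contra hlt
  exact h ((ev_eq_zero_iff Q hf).2 (ordGE_of_le (by omega)))

theorem ev_ne_zero_of_ord {K E : Type*} [Field K] [Field E] [Algebra K E] [IsAlgClosed K]
    [IsFunctionField K E] {Q : Place K E} {f : E} (hf0 : f ≠ 0) (h : Q.ord f = 0) :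
    ev Q f ≠ 0 := fun h0 => by
  have := ((ev_eq_zero_iff Q (ordGE_of_le h.ge)).1 h0).le_ord hf0
  omega

variable {L k : Type*} [Field L] [Field k] {A : ValuationSubring L} {π : A →+* k}
  {FC Fb F : Type*} [Field FC] [Field Fb] [Field F] [Algebra L FC]
  [Algebra k Fb] [Algebra L F] [IsAlgClosed L] [IsFunctionField L FC] [IsFunctionField L F]
  [IsAlgClosed k] [IsFunctionField k Fb] {p : ℕ} {S : Sheet π FC Fb F p} (U : UnitData S)
  (V : RatVal π p) (hS : S.Good)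

include V hS

/-- Values of a function without poles in the chart, near a glued point on the first sheet. -/
theorem node_order {t : Place k Fb} (ht : 0 ≤ t.ord S.MC.xb) (ho : 0 < t.ord U.ub) {Z : F}
    {z : Fb} (hZ : IntegralWrt L S.X Z) (h : S.R₁.Res Z z) (hz : z ≠ 0) :
    ∃ ρ : ℚ, 0 < ρ ∧ ∀ Q : Place L F, InChart S Q → red hS Q = t → U.theta V Q < ρ →
      ev Q Z ≠ 0 ∧ (t.ord U.ub : ℚ) * V.v (ev Q Z) = t.ord z * U.theta V Q := by
  obtain ⟨o, hoe⟩ : ∃ o : ℕ, t.ord U.ub = o :=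
    ⟨(t.ord U.ub).toNat, (Int.toNat_of_nonneg ho.le).symm⟩
  have hopos : 0 < o := by rw [hoe] at ho; exact_mod_cast ho
  obtain ⟨l, -, hreg⟩ := exists_pow_regular U V hZ h
  have hzl : z * U.ub ^ l ≠ 0 := mul_ne_zero hz (pow_ne_zero _ U.ub_ne)
  obtain ⟨n, hn⟩ : ∃ n : ℕ, t.ord (z * U.ub ^ l) = n :=
    ⟨(t.ord (z * U.ub ^ l)).toNat, (Int.toNat_of_nonneg ((hreg t ht).le_ord hzl)).symm⟩
  have hna : (n : ℤ) = t.ord z + l * o := by
    rw [← hn, t.ord_mul hz (pow_ne_zero _ U.ub_ne), ord_pow, hoe]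
  set r := (z * U.ub ^ l) ^ o / U.ub ^ n
  have hr0 : r ≠ 0 := div_ne_zero (pow_ne_zero _ hzl) (pow_ne_zero _ U.ub_ne)
  have hr : t.ord r = 0 := by
    rw [ord_div t (pow_ne_zero _ hzl) (pow_ne_zero _ U.ub_ne), ord_pow, ord_pow, hn, hoe]
    ring
  obtain ⟨ψ₀, γ₀, hψ₀, hr₀, hγ₀, -, hγ₀P, hγ₀t⟩ := exists_clear hS 0 le_rfl (poleDiv k r)
    (poleDiv_nonneg _) {t} (by simpa using ht)
  have ht0 : t.ord γ₀ = 0 := by
    simpa [poleDiv_eq_zero hr.ge] using hγ₀t t (Finset.mem_singleton_self t)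
  obtain ⟨ψ₁, hψ₁, hr₁⟩ := exists_regular_lift hS (w := r * γ₀) fun P hP => by
    refine ordGE_of_le ?_
    have := hγ₀P P hP
    rw [map_zero, Finsupp.zero_apply, poleDiv_apply] at this
    rw [P.ord_mul hr0 hγ₀]
    omega
  have hint₁ := integralWrt_mul (integralWrt_pow (integralWrt_mul hZ
    (integralWrt_pow U.u_int l)) o) (integralWrt_α (S := S) hψ₀)
  have hint₂ := integralWrt_mul (integralWrt_pow U.u_int n) (integralWrt_α (S := S) hψ₁)
  obtain ⟨δ, l', hδ, hb⟩ := exists_small_bound U V (integralWrt_sub hint₁ hint₂)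
    (by
      have := (((h.mul (U.u_res.pow l)).pow o).mul (S.α₁ _ _ hr₀)).sub
        ((U.u_res.pow n).mul (S.α₁ _ _ hr₁))
      convert this using 1
      have := pow_ne_zero n U.ub_ne
      simp only [r]
      field_simp
      ring)
  refine ⟨δ / (n + l' + 1), by positivity, fun Q hQ hred hθ => ?_⟩
  have hθ0 := U.theta_nonneg V hQ
  have hu := U.ev_ne V hQ
  have hval : ∀ {ψ : FC} {w : Fb}, IntegralWrt L S.MC.x ψ → S.MC.Res ψ w → w ≠ 0 → t.ord w = 0 →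
      ev Q (S.α ψ) ≠ 0 ∧ V.v (ev Q (S.α ψ)) = 0 := by
    intro ψ w hψ hw hw0 hwt
    have h2 := (red_spec hS hQ hψ hw).2
    exact V.v_eq_zero_of_res (a := ⟨_, ev_α_mem hS hQ hψ hw⟩)
      (h2 ▸ hred ▸ ev_ne_zero_of_ord hw0 hwt)
  obtain ⟨h1ne, h1v⟩ := hval hψ₁ hr₁ (mul_ne_zero hr0 hγ₀) (by rw [t.ord_mul hr0 hγ₀, hr, ht0,
    add_zero])
  obtain ⟨h0ne, h0v⟩ := hval hψ₀ hr₀ hγ₀ ht0
  set x := ev Q U.u ^ n * ev Q (S.α ψ₁)
  have hx : x ≠ 0 := mul_ne_zero (pow_ne_zero _ hu) h1ne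
  have hxv : V.v x = n * U.theta V Q := by
    rw [V.v_mul _ _ (pow_ne_zero _ hu) h1ne, V.v_pow hu, h1v, add_zero]; rfl
  have hl0 : OrdGE Q 0 (Z * U.u ^ l) :=
    hQ.ordGE (integralWrt_mul hZ (integralWrt_pow U.u_int l))
  have hy := hb Q hQ
  rw [ev_sub Q (hQ.ordGE hint₁) (hQ.ordGE hint₂),
    ev_mul Q (by simpa using hl0.pow o) (hQ.ordGE (integralWrt_α hψ₀)), ev_pow Q hl0,
    ev_mul Q (hQ.ordGE hZ) (hQ.ordGE (integralWrt_pow U.u_int l)),
    ev_pow Q (hQ.ordGE U.u_int),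
    ev_mul Q (by simpa using (hQ.ordGE U.u_int).pow n) (hQ.ordGE (integralWrt_α hψ₁)),
    ev_pow Q (hQ.ordGE U.u_int)] at hy
  rw [lt_div_iff₀ (by positivity)] at hθ
  obtain ⟨hne, hv⟩ := V.v_add_eq hx (hy.gt V (r' := V.v x) (by rw [hxv]; nlinarith))
  rw [add_sub_cancel] at hne hv
  have hpz : ev Q Z * ev Q U.u ^ l ≠ 0 := fun h0 => hne (by
    rw [h0, zero_pow (by omega), zero_mul])
  refine ⟨left_ne_zero_of_mul hpz, ?_⟩
  rw [V.v_mul _ _ (pow_ne_zero _ hpz) h0ne, h0v, add_zero, V.v_pow hpz,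
    V.v_mul _ _ (left_ne_zero_of_mul hpz) (pow_ne_zero _ hu), V.v_pow hu, hxv] at hv
  have hnq : (n : ℚ) = t.ord z + l * o := by exact_mod_cast hna
  rw [hnq, ← UnitData.theta] at hv
  rw [hoe]
  push_cast
  linarith

/-- Clearing the poles of a function in the chart. -/
theorem exists_clear_fun (f : F) : ∃ B : Finset (Place k Fb), ∀ s : Finset (Place k Fb),
    (∀ P ∈ s, 0 ≤ P.ord S.MC.xb) → ∃ (ψ : FC) (w : Fb), IntegralWrt L S.MC.x ψ ∧
      S.MC.Res ψ w ∧ w ≠ 0 ∧ IntegralWrt L S.X (f * S.α ψ) ∧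
      (∀ P ∈ s, P ∉ B → P.ord w = 0) := by
  classical
  set E : Divisor L FC := Finsupp.mapDomain (below S.α) (poleDiv L f)
  have hE : 0 ≤ E := by
    simp only [E, Finsupp.mapDomain, Finsupp.sum]
    exact Finset.sum_nonneg fun v _ => Finsupp.single_nonneg.2 (poleDiv_nonneg f v)
  refine ⟨(Model.divMap hS.smooth E).support, fun s hs => ?_⟩
  obtain ⟨ψ, w, hψ, hw, hw0, hψE, -, hws⟩ := exists_clear hS E hE 0 le_rfl s hs
  refine ⟨ψ, w, hψ, hw, hw0, fun Q hQ => ?_, fun P hP hPB => ?_⟩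
  · rcases eq_or_ne (f * S.α ψ) 0 with h0 | h0
    · exact Or.inl h0
    obtain ⟨hf0, hψ0⟩ := mul_ne_zero_iff.1 h0
    refine ordGE_of_le ?_
    rw [Q.ord_mul hf0 hψ0, ord_map_eq]
    rcases le_or_gt 0 (Q.ord f) with hf | hf
    · have h1 := (hψ _ ((mul_nonneg_iff_of_pos_left
        (by exact_mod_cast ramificationIndexAlong_pos S.α Q)).1
          ((ord_map_eq S.α Q S.MC.x) ▸ hQ))).le_ord ((map_ne_zero S.α).1 hψ0)
      positivity
    · have h1 : -Q.ord f ≤ E (below S.α Q) := by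
        have hle : Finsupp.single (below S.α Q) (poleDiv L f Q) ≤ E := by
          simp only [E, Finsupp.mapDomain, Finsupp.sum]
          exact Finset.single_le_sum
            (f := fun v => Finsupp.single (below S.α v) (poleDiv L f v))
            (fun v _ => Finsupp.single_nonneg.2 (poleDiv_nonneg f v))
            (Finsupp.mem_support_iff.2 (by rw [poleDiv_apply]; omega))
        have := hle (below S.α Q)
        rw [Finsupp.single_eq_same, poleDiv_apply] at this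
        omega
      rcases hψE (below S.α Q) with h2 | h2 | h2
      · exact absurd h2 ((map_ne_zero S.α).1 hψ0)
      · have h3 : (1 : ℤ) ≤ Place.ramificationIndexAlong S.α Q := by
          exact_mod_cast ramificationIndexAlong_pos S.α Q
        nlinarith
      · exfalso
        have h3 : (0 : ℤ) < Place.ramificationIndexAlong S.α Q := by
          exact_mod_cast ramificationIndexAlong_pos S.α Q
        rw [Sheet.X, ord_map_eq] at hQ
        nlinarith
  · simpa [Finsupp.notMem_support_iff.1 hPB] using hws P hP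

omit hS in
theorem fun_eval {f : F} {ψ : FC} (hint : IntegralWrt L S.X (f * S.α ψ))
    (hψ : IntegralWrt L S.MC.x ψ) {Q : Place L F} (hQ : InChart S Q)
    (hne : ev Q (S.α ψ) ≠ 0) :
    OrdGE Q 0 f ∧ ev Q (f * S.α ψ) = ev Q f * ev Q (S.α ψ) := by
  obtain ⟨hψ0, hord⟩ := ord_eq_zero_of_ev_ne (hQ.ordGE (integralWrt_α hψ)) hne
  have h : OrdGE Q 0 f := by
    rcases eq_or_ne f 0 with h0 | h0
    · exact Or.inl h0
    have := (hQ.ordGE hint).le_ord (mul_ne_zero h0 hψ0)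
    rw [Q.ord_mul h0 hψ0, hord, add_zero] at this
    exact ordGE_of_le this
  exact ⟨h, ev_mul Q h (hQ.ordGE (integralWrt_α hψ))⟩

/-- Values of an arbitrary function near a glued point on the first sheet. -/
theorem fun_node_value {t : Place k Fb} (ht : 0 ≤ t.ord S.MC.xb) (ho : 0 < t.ord U.ub) {f : F}
    {c : L} {g : Fb} (hg : g ≠ 0) (h : S.R₁.Res (c • f) g) :
    ∃ ρ : ℚ, 0 < ρ ∧ ∀ Q : Place L F, InChart S Q → red hS Q = t → U.theta V Q < ρ →
      Q.ord f = 0 ∧ ev Q f ≠ 0 ∧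
        (t.ord U.ub : ℚ) * (V.v c + V.v (ev Q f)) = t.ord g * U.theta V Q := by
  obtain ⟨B, hB⟩ := exists_clear_fun V hS f
  obtain ⟨ψ, w, hψ, hw, hw0, hint, -⟩ := hB ∅ (by simp)
  have hc : c ≠ 0 := fun h0 => hg (by
    rw [h0, zero_smul] at h; exact h.unique S.R₁.res_zero)
  have hint' : IntegralWrt L S.X (c • (f * S.α ψ)) := fun v hv => (hint v hv).smul c
  obtain ⟨ρ₁, hρ₁, h₁⟩ := node_order U V hS ht ho hint'
    (by rw [← smul_mul_assoc]; exact h.mul (S.α₁ _ _ hw)) (mul_ne_zero hg hw0)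
  obtain ⟨ρ₂, hρ₂, h₂⟩ := node_order U V hS ht ho (integralWrt_α hψ) (S.α₁ _ _ hw) hw0
  refine ⟨min ρ₁ ρ₂, lt_min hρ₁ hρ₂, fun Q hQ hred hθ => ?_⟩
  obtain ⟨hne, hv⟩ := h₁ Q hQ hred (hθ.trans_le (min_le_left _ _))
  obtain ⟨hψne, hψv⟩ := h₂ Q hQ hred (hθ.trans_le (min_le_right _ _))
  obtain ⟨hf, he⟩ := fun_eval V hint hψ hQ hψne
  rw [ev_smul Q c (hQ.ordGE hint), he] at hne hv
  have hfne : ev Q f ≠ 0 := left_ne_zero_of_mul (right_ne_zero_of_mul hne)
  refine ⟨(ord_eq_zero_of_ev_ne hf hfne).2, hfne, ?_⟩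
  rw [V.v_mul _ _ hc (mul_ne_zero hfne hψne), V.v_mul _ _ hfne hψne,
    t.ord_mul hg hw0] at hv
  push_cast at hv
  linarith

/-- Values of an arbitrary function at general points of the first sheet. -/
theorem fun_general_value {f : F} {c : L} {g : Fb} (hg : g ≠ 0) (h : S.R₁.Res (c • f) g) :
    ∃ B : Finset (Place k Fb), ∀ Q : Place L F, InChart S Q → U.theta V Q = 0 → red hS Q ∉ B →
      Q.ord f = 0 ∧ ev Q f ≠ 0 ∧ V.v c + V.v (ev Q f) = 0 := by
  classical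
  obtain ⟨B, hB⟩ := exists_clear_fun V hS f
  have hc : c ≠ 0 := fun h0 => hg (by
    rw [h0, zero_smul] at h; exact h.unique S.R₁.res_zero)
  refine ⟨B ∪ (divOf k g).support, fun Q hQ hθ hP => ?_⟩
  rw [Finset.mem_union, not_or, Finsupp.notMem_support_iff, divOf_apply] at hP
  obtain ⟨ψ, w, hψ, hw, hw0, hint, hws⟩ := hB {red hS Q} (by simpa using red_finite hS hQ)
  have hwQ := hws _ (Finset.mem_singleton_self _) hP.1
  have hψne := V.v_eq_zero_of_res (a := ⟨_, ev_α_mem hS hQ hψ hw⟩)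
    ((red_spec hS hQ hψ hw).2 ▸ ev_ne_zero_of_ord hw0 hwQ)
  have hint' : IntegralWrt L S.X (c • (f * S.α ψ)) := fun v hv => (hint v hv).smul c
  obtain ⟨hord, hm, he⟩ := value_res U V hS hint'
    (by rw [← smul_mul_assoc]; exact h.mul (S.α₁ _ _ hw)) hQ hθ
  have hgw : ev (red hS Q) (g * w) ≠ 0 :=
    ev_ne_zero_of_ord (mul_ne_zero hg hw0) (by rw [(red hS Q).ord_mul hg hw0, hP.2, hwQ, add_zero])
  obtain ⟨hne, hv⟩ := V.v_eq_zero_of_res (he ▸ hgw)
  obtain ⟨hf, he'⟩ := fun_eval V hint hψ hQ hψne.1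
  simp only [ev_smul Q c (hQ.ordGE hint), he'] at hne hv
  have hfne : ev Q f ≠ 0 := left_ne_zero_of_mul (right_ne_zero_of_mul hne)
  refine ⟨(ord_eq_zero_of_ev_ne hf hfne).2, hfne, ?_⟩
  rw [V.v_mul _ _ hc (mul_ne_zero hfne hψne.1), V.v_mul _ _ hfne hψne.1, hψne.2] at hv
  linarith

/-- Small functions take small values near a glued point on the first sheet. -/
theorem fun_node_small {t : Place k Fb} (ht : 0 ≤ t.ord S.MC.xb) (ho : 0 < t.ord U.ub) {g : F}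
    {c : L} (hc : c ≠ 0) (h : c • g ∈ S.R₁.O) {r : ℚ} (hr : r < -V.v c) :
    ∃ ρ : ℚ, 0 < ρ ∧ ∀ Q : Place L F, InChart S Q → red hS Q = t → U.theta V Q < ρ →
      OrdGE Q 0 g ∧ V.GT r (ev Q g) := by
  obtain ⟨B, hB⟩ := exists_clear_fun V hS g
  obtain ⟨ψ, w, hψ, hw, hw0, hint, -⟩ := hB ∅ (by simp)
  obtain ⟨l, hl⟩ := exists_scaled_bound U V hint hc
    (by rw [← smul_mul_assoc]; exact mul_mem h (S.α₁ _ _ hw).mem)
  obtain ⟨ρ₂, hρ₂, h₂⟩ := node_order U V hS ht ho (integralWrt_α hψ) (S.α₁ _ _ hw) hw0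
  set K : ℚ := l + |(t.ord w : ℚ)| + 1
  have hK : 0 < K := by positivity
  refine ⟨min ρ₂ ((-V.v c - r) / K), lt_min hρ₂ (div_pos (by linarith) hK),
    fun Q hQ hred hθ => ?_⟩
  obtain ⟨hψne, hψv⟩ := h₂ Q hQ hred (hθ.trans_le (min_le_left _ _))
  have hθ' := hθ.trans_le (min_le_right _ _)
  rw [lt_div_iff₀ hK] at hθ'
  obtain ⟨hf, he⟩ := fun_eval V hint hψ hQ hψne
  refine ⟨hf, ?_⟩
  rcases eq_or_ne (ev Q g) 0 with h0 | h0
  · exact Or.inl h0
  have h1 := (hl Q hQ).le V (by rw [he]; exact mul_ne_zero h0 hψne)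
  rw [he, V.v_mul _ _ h0 hψne] at h1
  refine Or.inr ?_
  have ho' : (1 : ℚ) ≤ t.ord U.ub := by exact_mod_cast ho
  have hθ0 := U.theta_nonneg V hQ
  have h3 : V.v (ev Q (S.α ψ)) ≤ |(t.ord w : ℚ)| * U.theta V Q := by
    rcases le_or_gt (V.v (ev Q (S.α ψ))) 0 with h4 | h4
    · exact h4.trans (by positivity)
    · nlinarith [le_abs_self (t.ord w : ℚ)]
  nlinarith

/-- Small functions take small values at general points of the first sheet. -/
theorem fun_general_small {g : F} {c : L} (hc : c ≠ 0) (h : c • g ∈ S.R₁.O) :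
    ∃ B : Finset (Place k Fb), ∀ Q : Place L F, InChart S Q → U.theta V Q = 0 → red hS Q ∉ B →
      OrdGE Q 0 g ∧ V.GE (-V.v c) (ev Q g) := by
  obtain ⟨B, hB⟩ := exists_clear_fun V hS g
  refine ⟨B, fun Q hQ hθ hP => ?_⟩
  obtain ⟨ψ, w, hψ, hw, hw0, hint, hws⟩ := hB {red hS Q} (by simpa using red_finite hS hQ)
  have hwQ := hws _ (Finset.mem_singleton_self _) hP
  obtain ⟨hψne, hψv⟩ := V.v_eq_zero_of_res (a := ⟨_, ev_α_mem hS hQ hψ hw⟩)
    ((red_spec hS hQ hψ hw).2 ▸ ev_ne_zero_of_ord hw0 hwQ)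
  obtain ⟨l, hl⟩ := exists_scaled_bound U V hint hc
    (by rw [← smul_mul_assoc]; exact mul_mem h (S.α₁ _ _ hw).mem)
  obtain ⟨hf, he⟩ := fun_eval V hint hψ hQ hψne
  refine ⟨hf, ?_⟩
  rcases eq_or_ne (ev Q g) 0 with h0 | h0
  · exact Or.inl h0
  have h1 := (hl Q hQ).le V (by rw [he]; exact mul_ne_zero h0 hψne)
  rw [he, V.v_mul _ _ h0 hψne, hθ, mul_zero, sub_zero] at h1
  simp only at hψv
  exact Or.inr (by linarith)

end FLTAgent.MazurPrinciple
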