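import Fermat.Agent.MazurPrinciple.Eval
import Fermat.Agent.BadRed.Norm

/-!
# The points of the curve below seen by the integral points
-/

set_option autoImplicit false
set_option linter.style.haveILetI false
set_option linter.unusedSectionVars false

noncomputable section

namespace FLTAgent.MazurPrinciple

open AlgebraicCurve FLTAgent.Curves FLTAgent.Specialization FLTAgent.BadRed Polynomial
  IntermediateField

section Along

variable {K F F' : Type*} [Field K] [Field F] [Field F'] [Algebra K F] [Algebra K F']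
  [IsAlgClosed K] [IsFunctionField K F] [IsFunctionField K F']

theorem isIntegral_toRingHom (φ : F →ₐ[K] F') : φ.toRingHom.IsIntegral := by
  letI := algebraAlong φ
  haveI := isScalarTower_along φ
  haveI : Module.Finite F F' := Kronecker.moduleFinite_of_functionField K
  exact (Algebra.IsIntegral.of_finite F F').isIntegral

/-- The point below. -/
def below (φ : F →ₐ[K] F') (Q : Place K F') : Place K F :=
  Q.restrictAlong φ (isIntegral_toRingHom φ)

theorem ord_map_eq (φ : F →ₐ[K] F') (Q : Place K F') (f : F) :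
    Q.ord (φ f) = Place.ramificationIndexAlong φ Q * (below φ Q).ord f :=
  Place.ord_restrictAlong φ (isIntegral_toRingHom φ) Q f

theorem ramificationIndexAlong_pos (φ : F →ₐ[K] F') (Q : Place K F') :
    0 < Place.ramificationIndexAlong φ Q := by
  letI := algebraAlong φ
  haveI := isScalarTower_along φ
  haveI := isIntegral_along φ (isIntegral_toRingHom φ)
  exact Place.ramificationIndex_pos Q

theorem ordGE_map_iff (φ : F →ₐ[K] F') (Q : Place K F') {f : F} :
    OrdGE Q 0 (φ f) ↔ OrdGE (below φ Q) 0 f := by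
  rcases eq_or_ne f 0 with rfl | hf
  · simp [ordGE_zero]
  have he := ramificationIndexAlong_pos φ Q
  have h := ord_map_eq φ Q f
  refine ⟨fun h0 => ordGE_of_le ?_, fun h0 => ordGE_of_le ?_⟩
  · have := h0.le_ord ((map_ne_zero φ).2 hf)
    rw [h] at this
    exact (mul_nonneg_iff_of_pos_left (by exact_mod_cast he)).1 this
  · rw [h]
    exact mul_nonneg (by positivity) (h0.le_ord hf)

theorem ev_map (φ : F →ₐ[K] F') (Q : Place K F') {f : F} (h : OrdGE (below φ Q) 0 f) :
    ev Q (φ f) = ev (below φ Q) f := by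
  refine ev_eq Q ?_
  have h1 := ev_spec (below φ Q) h
  set g := f - algebraMap K F (ev (below φ Q) f)
  have e : φ f - algebraMap K F' (ev (below φ Q) f) = φ g := by
    rw [map_sub, AlgHom.commutes]
  rw [e]
  rcases eq_or_ne g 0 with h0 | h0
  · rw [h0, map_zero]; exact ordGE_zero _ _
  refine ordGE_of_le ?_
  rw [ord_map_eq]
  have := h1.le_ord h0
  have := ramificationIndexAlong_pos φ Q
  nlinarith

end Along

section Poles

variable {L k : Type*} [Field L] [Field k] {A : ValuationSubring L} {π : A →+* k}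
  {F Fb : Type*} [Field F] [Field Fb] [Algebra L F] [Algebra k Fb]
  [IsAlgClosed L] [IsFunctionField L F] [IsAlgClosed k] [IsFunctionField k Fb]
  {M : Model π F Fb}

/-- The poles of the coordinate specialise to those of its reduction. -/
theorem divMap_poleDiv (hM : M.Smooth) :
    Model.divMap hM (poleDiv L M.x) = poleDiv k M.xb := by
  have h := Model.divMap_divOf hM M.x_res M.xb_ne_zero
  rw [divOf_eq_sub, map_sub] at h
  refine (eq_of_le_of_degree_le (fun v => ?_) ?_).symm
  · have h1 : 0 ≤ Model.divMap hM (poleDiv L M.x⁻¹) v :=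
      Model.divMap_nonneg hM (poleDiv_nonneg _) v
    have h2 : 0 ≤ Model.divMap hM (poleDiv L M.x) v :=
      Model.divMap_nonneg hM (poleDiv_nonneg _) v
    have h3 := DFunLike.congr_fun h v
    rw [Finsupp.sub_apply, divOf_apply] at h3
    rw [poleDiv_apply]
    omega
  · have h1 := M.degree_poles 1
    have h2 := M.degree_poles_red 1
    rw [one_smul] at h1 h2
    rw [Model.degree_divMap, h1, h2]

theorem exists_divMap_poles (hM : M.Smooth) (m : ℕ) :
    Model.divMap hM ((m : ℤ) • poleDiv L M.x) = (m : ℤ) • poleDiv k M.xb := by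
  rw [map_zsmul, divMap_poleDiv hM]

theorem poleDiv_eq_zero {K E : Type*} [Field K] [Field E] [Algebra K E] [IsAlgClosed K]
    [IsFunctionField K E] {y : E} {v : Place K E} (h : 0 ≤ v.ord y) : poleDiv K y v = 0 := by
  rw [poleDiv_apply]; omega

end Poles

variable {L k : Type*} [Field L] [Field k] {A : ValuationSubring L} {π : A →+* k}
  {FC Fb F : Type*} [Field FC] [Field Fb] [Field F] [Algebra L FC]
  [Algebra k Fb] [Algebra L F] [IsAlgClosed L] [IsFunctionField L FC] [IsFunctionField L F]
  [IsAlgClosed k] [IsFunctionField k Fb] {q : ℕ} {S : Sheet π FC Fb F q}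

theorem integralWrt_α {ψ : FC} (h : IntegralWrt L S.MC.x ψ) : IntegralWrt L S.X (S.α ψ) :=
  integralWrt_map S.α S.MC.transcendental_x h

variable (hS : S.Good)
include hS

theorem integralWrt_β {ψ : FC} (h : IntegralWrt L S.MC.x ψ) : IntegralWrt L S.X (S.β ψ) :=
  integralWrt_trans hS.β_int (integralWrt_map S.β S.MC.transcendental_x h)

/-- The point of the curve below seen by a point upstairs, over the residue field. -/
def red (Q : Place L F) : Place k Fb := Model.place hS.smooth (below S.α Q)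

/-- Functions regular off the poles of `x̄` lift. -/
theorem exists_regular_lift {w : Fb} (hw : IntegralWrt k S.MC.xb w) :
    ∃ ψ : FC, IntegralWrt L S.MC.x ψ ∧ S.MC.Res ψ w := by
  obtain ⟨m₀, hm₀⟩ := hS.smooth.image_poles
  obtain ⟨m, hm⟩ := exists_mem_poles hw
  have h := hm₀ (max m m₀) (le_max_right _ _)
  have hw' : w ∈ riemannRochSpace ((max m m₀ : ℕ) • poleDiv k S.MC.xb : Divisor k Fb) := by
    have := poles_mono (le_max_left m m₀) hm
    rwa [natCast_zsmul] at this
  rw [← natCast_zsmul, ← h] at hw'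
  obtain ⟨ψ, hψ, hr⟩ := (Reduction.mem_image S.MC.surj).1 hw'
  exact ⟨ψ, (mem_rrSpace_poles.1 hψ).1, hr⟩

variable {Q : Place L F} (hQ : InChart S Q) {ψ : FC} {w : Fb}
  (hψ : IntegralWrt L S.MC.x ψ) (hψw : S.MC.Res ψ w)
include hQ hψ hψw

theorem ordGE_below : OrdGE (below S.α Q) 0 ψ :=
  (ordGE_map_iff S.α Q).1 (hQ.ordGE (integralWrt_α hψ))

theorem ev_α_mem : ev Q (S.α ψ) ∈ A :=
  chart_value_mem (integralWrt_α hψ) (S.α₁ _ _ hψw).mem (S.α₂ _ _ hψw).mem hQ

/-- A function vanishing at a point has reduction vanishing at its specialisation, unless that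
specialisation is a pole of the coordinate. -/
theorem ordGE_red_sub {m : ℕ}
    (hm : ψ ∈ riemannRochSpace ((m : ℤ) • poleDiv L S.MC.x)) :
    OrdGE (red hS Q) (1 - (m : ℤ) * poleDiv k S.MC.xb (red hS Q))
      (w - algebraMap k Fb (π ⟨_, ev_α_mem hS hQ hψ hψw⟩)) := by
  classical
  set c : A := ⟨_, ev_α_mem hS hQ hψ hψw⟩
  set R := below S.α Q
  have hc : (c : L) = ev R ψ := ev_map S.α Q (ordGE_below hS hQ hψ hψw)
  have hres := hψw.sub (S.MC.res_algebraMap c)
  have hsp := ev_spec R (ordGE_below hS hQ hψ hψw)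
  rw [← hc] at hsp
  have hpole : poleDiv L S.MC.x R = 0 := by
    refine poleDiv_eq_zero ?_
    have h := hQ.1
    rw [show S.X = S.α S.MC.x from rfl, ord_map_eq] at h
    exact (mul_nonneg_iff_of_pos_left (by exact_mod_cast ramificationIndexAlong_pos S.α Q)).1 h
  have hmem : ψ - algebraMap L FC (c : L) ∈
      riemannRochSpace ((m : ℤ) • poleDiv L S.MC.x - Finsupp.single R 1) :=
    mem_rrSpace.2 fun v => by
      rw [Finsupp.sub_apply, Finsupp.single_apply]
      split_ifs with hv
      · subst hv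
        simpa [hpole] using hsp
      · simpa using ((mem_rrSpace.1 hm v).sub ((ordGE_algebraMap v (c : L)).mono (by
          have := poleDiv_nonneg (K := L) S.MC.x v
          simp only [Finsupp.smul_apply, smul_eq_mul, neg_nonpos, Finsupp.coe_zero,
            Pi.zero_apply] at this ⊢
          positivity)))
  have h := Model.res_mem_rrSpace hS.smooth hmem hres
  rw [map_sub, exists_divMap_poles, Model.divMap_single] at h
  have h2 := mem_rrSpace.1 h (red hS Q)
  rw [Finsupp.sub_apply, Finsupp.smul_apply, show Model.place hS.smooth R = red hS Q from rfl,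
    Finsupp.single_eq_same, smul_eq_mul] at h2
  exact h2.mono (by omega)

omit hψ hψw in
theorem red_finite : 0 ≤ (red hS Q).ord S.MC.xb := by
  by_contra hneg
  have hx : S.MC.x ∈ riemannRochSpace (((1 : ℕ) : ℤ) • poleDiv L S.MC.x) :=
    mem_rrSpace_poles.2 ⟨integralWrt_self _, fun v _ => ordGE_of_le (by simp)⟩
  have h := ordGE_red_sub hS hQ (integralWrt_self _) S.MC.x_res hx
  have hp : poleDiv k S.MC.xb (red hS Q) = -(red hS Q).ord S.MC.xb := by
    rw [poleDiv_apply]; omega
  set c := π ⟨_, ev_α_mem hS hQ (integralWrt_self (K := L) S.MC.x) S.MC.x_res⟩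
  have hc : OrdGE (red hS Q) ((red hS Q).ord S.MC.xb + 1) (algebraMap k Fb c) :=
    (ordGE_algebraMap _ _).mono (by omega)
  have h' := (h.mono (show (red hS Q).ord S.MC.xb + 1 ≤ _ by rw [hp]; push_cast; omega)).add hc
  rw [sub_add_cancel] at h'
  have := h'.le_ord S.xb_ne_zero
  omega

/-- Regular functions below take compatible values. -/
theorem red_spec : OrdGE (red hS Q) 0 w ∧
    π ⟨_, ev_α_mem hS hQ hψ hψw⟩ = ev (red hS Q) w := by
  obtain ⟨m, hm⟩ := exists_mem_poles hψ
  have h := ordGE_red_sub hS hQ hψ hψw hm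
  rw [poleDiv_eq_zero (red_finite hS hQ), mul_zero, sub_zero] at h
  refine ⟨?_, (ev_eq _ h).symm⟩
  simpa using (h.mono zero_le_one).add (ordGE_algebraMap (red hS Q)
    (π ⟨_, ev_α_mem hS hQ hψ hψw⟩))

theorem ev_red_α (g : L) (hg : g = ev Q (S.α ψ)) :
    ∃ h : g ∈ A, π ⟨g, h⟩ = ev (red hS Q) w := by
  subst hg
  exact ⟨_, (red_spec hS hQ hψ hψw).2⟩

omit hQ hψ hψw in
/-- Functions below with prescribed finite zeros and exact prescribed behaviour of the reduction
at finitely many points. -/
theorem exists_clear (E : Divisor L FC) (hE : 0 ≤ E) (Z : Divisor k Fb) (hZ : 0 ≤ Z)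
    (s : Finset (Place k Fb)) (hs : ∀ P ∈ s, 0 ≤ P.ord S.MC.xb) :
    ∃ (ψ : FC) (w : Fb), IntegralWrt L S.MC.x ψ ∧ S.MC.Res ψ w ∧ w ≠ 0 ∧
      (∀ R, ψ = 0 ∨ E R ≤ R.ord ψ ∨ R.ord S.MC.x < 0) ∧
      (∀ P, 0 ≤ P.ord S.MC.xb → Z P + Model.divMap hS.smooth E P ≤ P.ord w) ∧
      (∀ P ∈ s, P.ord w = Z P + Model.divMap hS.smooth E P) := by
  classical
  obtain ⟨j, hj⟩ := S.MC.exists_le_mul
    (S.MC.bound + Divisor.degree E + Divisor.degree Z + rBound k Fb + 1)
  have hj' := hj j le_rfl
  have hb : 0 ≤ S.MC.bound := by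
    have := rBound_nonneg (K := L) (F := FC)
    simp only [Model.bound]; omega
  have hrk := rBound_nonneg (K := k) (F := Fb)
  have hZ0 := degree_nonneg hZ
  have hE0 := degree_nonneg hE
  obtain ⟨w, hw, hw0, hws⟩ := exists_exact_many (K := k)
    (G := (j : ℤ) • poleDiv k S.MC.xb - Model.divMap hS.smooth E - Z)
    (by rw [map_sub, map_sub, S.MC.degree_poles_red, Model.degree_divMap]; omega) s
  have hw' : w ∈ riemannRochSpace
      (Model.divMap hS.smooth ((j : ℤ) • poleDiv L S.MC.x - E)) := by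
    rw [map_sub, exists_divMap_poles]
    exact rrSpace_le (sub_le_self _ hZ) hw
  rw [← Model.image_rrSpace hS.smooth (by rw [map_sub, S.MC.degree_poles]; omega)] at hw'
  obtain ⟨ψ, hψm, hψr⟩ := (Reduction.mem_image S.MC.surj).1 hw'
  refine ⟨ψ, w, fun v hv => ?_, hψr, hw0, fun R => ?_, fun P hP => ?_, fun P hP => ?_⟩
  · have h := mem_rrSpace.1 hψm v
    rw [Finsupp.sub_apply, Finsupp.smul_apply, poleDiv_eq_zero hv, smul_zero, zero_sub,
      neg_neg] at h
    exact h.mono (hE v)
  · rcases eq_or_ne ψ 0 with h0 | h0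
    · exact Or.inl h0
    by_cases hR : R.ord S.MC.x < 0
    · exact Or.inr (Or.inr hR)
    · have h := (mem_rrSpace.1 hψm R).le_ord h0
      rw [Finsupp.sub_apply, Finsupp.smul_apply, poleDiv_eq_zero (not_lt.1 hR), smul_zero] at h
      exact Or.inr (Or.inl (by omega))
  · have h := (mem_rrSpace.1 hw P).le_ord hw0
    rw [Finsupp.sub_apply, Finsupp.sub_apply, Finsupp.smul_apply, poleDiv_eq_zero hP,
      smul_zero] at h
    omega
  · have h := ((exact_iff hw).1 (hws P hP)).2
    rw [Finsupp.sub_apply, Finsupp.sub_apply, Finsupp.smul_apply, poleDiv_eq_zero (hs P hP),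
      smul_zero] at h
    omega

end FLTAgent.MazurPrinciple
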