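import Fermat.Agent.BadRed.Norm
import Fermat.Agent.MazurPrinciple.Red

/-!
# The first digit of a norm

If `f` is congruent to constants `a`, `b` modulo `ε` on the two sheets, then its norm is congruent
to `a b^p` modulo `ε`, and the next digit is that of `f` on the first sheet: the second sheet
contributes the trace of a purely inseparable extension, which vanishes.
-/

set_option autoImplicit false
set_option linter.style.haveILetI false
set_option linter.unusedSectionVars false

noncomputable section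

namespace FLTAgent.MazurPrinciple

open AlgebraicCurve FLTAgent.Curves FLTAgent.Specialization FLTAgent.BadRed IntermediateField Matrix

variable {L k : Type*} [Field L] [Field k] {A : ValuationSubring L} {π : A →+* k}
  {FC Fb F : Type*} [Field FC] [Field Fb] [Field F] [Algebra L FC]
  [Algebra k Fb] [Algebra L F] [IsAlgClosed L] [IsFunctionField L FC] [IsFunctionField L F]
  [IsAlgClosed k] [IsFunctionField k Fb] {q : ℕ} (S : Sheet π FC Fb F q)

/-- A family separating the sheets which is moreover divisible by `s` on the other sheet. -/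
theorem exists_sep_family (s : L) :
    ∃ v : Unit ⊕ Fin q → F, (∀ z, (S.pair 1).Res (v z) (S.colRed z)) ∧
      S.R₂.Res (s • v (Sum.inl ())) 0 ∧ ∀ i, S.R₁.Res (s • v (Sum.inr i)) 0 := by
  obtain ⟨e₁, e₂, h₁, h₂, hs₁, hs₂⟩ := S.exists_sep
  obtain ⟨N₁, hN₁⟩ := hs₁ 1
  obtain ⟨N₁', hN₁'⟩ := hs₁ s
  obtain ⟨N₂, hN₂⟩ := hs₂ 1
  obtain ⟨N₂', hN₂'⟩ := hs₂ s
  have a₁ : S.R₁.Res (e₁ ^ (N₁ + N₁')) 1 := by simpa using h₁.pow (N₁ + N₁')
  have a₂ := hN₁ (N₁ + N₁') le_self_add
  have a₃ := hN₁' (N₁ + N₁') le_add_self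
  have b₁ : S.R₂.Res (e₂ ^ (N₂ + N₂')) 1 := by simpa using h₂.pow (N₂ + N₂')
  have b₂ := hN₂ (N₂ + N₂') le_self_add
  have b₃ := hN₂' (N₂ + N₂') le_add_self
  rw [one_smul] at a₂ b₂
  refine ⟨Sum.elim (fun _ => e₁ ^ (N₁ + N₁'))
    (fun i => S.β S.MC.x ^ (i : ℕ) * e₂ ^ (N₂ + N₂')), ?_, a₃, fun i => ?_⟩
  · rintro (u | i)
    · exact ⟨a₁, by rw [one_smul]; exact a₂⟩
    · have h := S.pair_mul (S.pair_pow (S.pair_β S.MC.x_res) i)
        (show (S.pair 1).Res (e₂ ^ (N₂ + N₂')) (0, 1) from ⟨b₂, by rw [one_smul]; exact b₁⟩)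
      rw [one_pow, one_mul] at h
      convert h using 1
      · simp
      · simp [Sheet.colRed]
  · have h := ((S.β₁ _ _ S.MC.x_res).pow (i : ℕ)).mul b₃
    rw [mul_zero] at h
    rw [Sum.elim_inr, ← mul_smul_comm]
    exact h

theorem colComb_col (Mb : Matrix (Unit ⊕ Fin q) (Unit ⊕ Fin q) Fb) (g : Fb × Fb)
    (h : ∀ j, S.colComb (fun i => Mb i j) = g * S.colRed j) [CharP k q] :
    Mb (Sum.inl ()) (Sum.inl ()) = g.1 ∧
      ∑ i : Fin q, Mb (Sum.inr i) (Sum.inr i) = 0 := by
  haveI : NeZero q := ⟨by have := S.one_lt; omega⟩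
  haveI : CharP Fb q := (Algebra.charP_iff k Fb q).1 inferInstance
  refine ⟨by simpa [Sheet.colComb, Sheet.colRed] using congrArg Prod.fst (h (Sum.inl ())), ?_⟩
  set c : Fin q → Fb := fun l => Mb (Sum.inr l) (Sum.inr 0)
  have h0 : ∑ l : Fin q, S.MC.xb ^ (l : ℕ) * S.V (c l) = g.2 := by
    simpa [Sheet.colComb, Sheet.colRed, c] using congrArg Prod.snd (h (Sum.inr 0))
  have hdiag : ∀ i : Fin q, Mb (Sum.inr i) (Sum.inr i) = c 0 := by
    intro i
    set P : Fin q → Fb := fun j => if i ≤ j then c (j - i) else S.MC.xb * c (j - i)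
    have hP : ∑ j : Fin q, S.MC.xb ^ (j : ℕ) * S.V (P j) = g.2 * S.MC.xb ^ (i : ℕ) := by
      rw [← h0, Finset.sum_mul, ← Equiv.sum_comp (Equiv.addRight i)]
      refine Finset.sum_congr rfl fun l _ => ?_
      have hv : ((l + i : Fin q) : ℕ) = ((l : ℕ) + i) % q := Fin.val_add l i
      simp only [Equiv.coe_addRight, P, add_sub_cancel_right, Fin.le_def]
      have hl := l.2
      have hi := i.2
      rcases Nat.lt_or_ge ((l : ℕ) + i) q with hlt | hge
      · rw [Nat.mod_eq_of_lt hlt] at hv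
        rw [if_pos (by omega), hv, pow_add]
        ring
      · rw [Nat.mod_eq_sub_mod hge, Nat.mod_eq_of_lt (by omega)] at hv
        rw [if_neg (by omega), hv, map_mul, S.V_xb,
          show S.MC.xb ^ ((l : ℕ) + i - q) * (S.MC.xb ^ q * S.V (c l)) =
            S.MC.xb ^ ((l : ℕ) + i - q + q) * S.V (c l) by ring, Nat.sub_add_cancel hge, pow_add]
        ring
    have hB : ∑ j : Fin q, S.MC.xb ^ (j : ℕ) * S.V (Mb (Sum.inr j) (Sum.inr i)) =
        g.2 * S.MC.xb ^ (i : ℕ) := by
      simpa [Sheet.colComb, Sheet.colRed] using congrArg Prod.snd (h (Sum.inr i))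
    have := congrFun (S.indepV (fun j => Mb (Sum.inr j) (Sum.inr i) - P j) (by
      simp only [map_sub, mul_sub, Finset.sum_sub_distrib, hB, hP, sub_self])) i
    simpa [P, sub_eq_zero] using this
  simp [hdiag]

variable [CharP k q]

/-- **The first digit of a norm.** -/
theorem exists_norm_digit {f : F} {a b ε : A} (hε : π ε = 0) (hε0 : (ε : L) ≠ 0) (ha : π a ≠ 0)
    (hb : π b ≠ 0) {g₁ : Fb} (h₁ : S.R₁.Res ((ε : L)⁻¹ • (f - algebraMap L F a)) g₁)
    (h₂ : (ε : L)⁻¹ • (f - algebraMap L F b) ∈ S.R₂.O) :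
    S.MC.Res ((ε : L)⁻¹ • (((a : L) * (b : L) ^ q)⁻¹ • @Algebra.norm FC F _ _ (algebraAlong S.α) f
      - 1)) ((π a)⁻¹ • g₁) := by
  classical
  obtain ⟨g₂, hg₂⟩ := S.R₂.exists_res_of_mem h₂
  obtain ⟨v, hv, hv₂, hv₁⟩ := exists_sep_family S (ε : L)⁻¹
  letI := algebraAlong S.α
  haveI := isScalarTower_along S.α
  haveI : Module.Finite FC F := Kronecker.moduleFinite_of_functionField L
  have hsmul : ∀ (x : FC) (y : F), x • y = S.α x * y := fun x y => rfl
  have hli : LinearIndependent FC v := by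
    rw [Fintype.linearIndependent_iff]
    intro x hx
    by_contra hne
    obtain ⟨s, c, -, hc, hres⟩ := Sheet.col_scale hv (a := x) fun h => hne fun z => congrFun h z
    simp only [hsmul] at hx
    rw [hx, mul_zero] at hres
    exact hc ((S.pair 1).unique hres (S.pair 1).res_zero)
  have hcard : Fintype.card (Unit ⊕ Fin q) = Module.finrank FC F := by
    rw [show Module.finrank FC F = q + 1 from S.finrankAlong_α]
    simp [add_comm]
  let bas := basisOfLinearIndependentOfCardEqFinrank hli hcard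
  have hbas : ∀ z, bas z = v z := fun z => by simp [bas]
  set T := Algebra.leftMulMatrix bas f
  set D : Unit ⊕ Fin q → A := Sum.elim (fun _ => a) fun _ => b
  have hDA : ∀ z, π (D z) ≠ 0 := by rintro (u | i) <;> simpa [D]
  -- the matrix, up to the diagonal
  set Y : Matrix (Unit ⊕ Fin q) (Unit ⊕ Fin q) FC :=
    Matrix.of fun i j => (ε : L)⁻¹ • (T i j - if i = j then algebraMap L FC (D j) else 0)
  have hY : ∀ j, ∑ i, S.α (Y i j) * v i = (ε : L)⁻¹ • (f * v j - algebraMap L F (D j) * v j) := by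
    intro j
    have e : f * v j = ∑ i, S.α (T i j) * v i := by
      conv_lhs => rw [← hbas j, ← bas.sum_repr (f * bas j)]
      refine Finset.sum_congr rfl fun i _ => ?_
      rw [hsmul, show bas.repr (f * bas j) i = T i j from
        (Algebra.leftMulMatrix_eq_repr_mul bas f i j).symm, hbas]
    rw [e, show algebraMap L F (D j) * v j =
        ∑ i, S.α (if i = j then algebraMap L FC (D j) else 0) * v i by
      simp [apply_ite S.α, ite_mul, Finset.sum_ite_eq'], ← Finset.sum_sub_distrib,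
      Finset.smul_sum]
    refine Finset.sum_congr rfl fun i _ => ?_
    simp only [Y, Matrix.of_apply, map_smul, map_sub, sub_mul, smul_mul_assoc]
  have hres : ∀ j, (S.pair 1).Res (∑ i, S.α (Y i j) * v i) ((g₁, g₂) * S.colRed j) := by
    intro j
    rw [hY]
    rcases j with ⟨⟩ | i
    · obtain ⟨r₁, r₂⟩ := hv (Sum.inl ())
      rw [one_smul] at r₂
      refine ⟨?_, ?_⟩
      · convert h₁.mul r₁ using 1
        · simp [D, sub_mul]
        · simp
      · rw [one_smul]
        have h := (hg₂.mul r₂).add ((S.R₂.res_algebraMap (b - a)).mul hv₂)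
        convert h using 1
        · simp [D, sub_mul]
          rw [← smul_add]
          congr 1
          ring
        · simp [Sheet.colRed]
    · obtain ⟨r₁, r₂⟩ := hv (Sum.inr i)
      rw [one_smul] at r₂
      refine ⟨?_, ?_⟩
      · have h := (h₁.mul r₁).add ((S.R₁.res_algebraMap (a - b)).mul (hv₁ i))
        convert h using 1
        · simp [D, sub_mul]
          rw [← smul_add]
          congr 1
          ring
        · simp [Sheet.colRed]
      · rw [one_smul]
        convert hg₂.mul r₂ using 1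
        · simp [D, sub_mul]
        · simp
  have hint : ∀ i j, Y i j ∈ S.MC.O := fun i j => Sheet.col_coord hv (hres j) i
  let YO : Matrix (Unit ⊕ Fin q) (Unit ⊕ Fin q) S.MC.O := Matrix.of fun i j => ⟨Y i j, hint i j⟩
  let Mb := YO.map S.MC.red
  have hcol : ∀ j, S.colComb (fun i => Mb i j) = (g₁, g₂) * S.colRed j := fun j =>
    (S.pair 1).unique (Sheet.colComb_res hv fun i => ⟨hint i j, rfl⟩) (hres j)
  obtain ⟨h11, htr⟩ := colComb_col S Mb (g₁, g₂) hcol
  -- inverses of the diagonal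
  have hDi : ∀ z, algebraMap L FC (D z : L)⁻¹ ∈ S.MC.O := fun z => by
    rw [map_inv₀]
    exact ((S.MC.res_algebraMap (D z)).inv ((_root_.map_ne_zero _).2 (hDA z))).mem
  let Di : Unit ⊕ Fin q → S.MC.O := fun z => ⟨_, hDi z⟩
  let ε' : S.MC.O := ⟨algebraMap L FC (ε : L), S.MC.algebraMap_mem ε⟩
  let Z : Matrix (Unit ⊕ Fin q) (Unit ⊕ Fin q) S.MC.O := Matrix.diagonal Di * YO
  obtain ⟨P, hP⟩ : ∃ P : S.MC.O, (1 + ε' • Z).det = 1 + Z.trace * ε' + P * ε' ^ 2 :=
    ⟨_, Matrix.det_one_add_smul ε' Z⟩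
  have hD0 : ∀ z, (D z : L) ≠ 0 := fun z h0 => hDA z (by
    rw [show D z = 0 from Subtype.ext h0, map_zero])
  have hZ : ∀ i j, ((Z i j : S.MC.O) : FC) = algebraMap L FC (D i : L)⁻¹ * Y i j := fun i j => by
    simp only [Z, Matrix.diagonal_mul]
    rfl
  have hT : T = Matrix.diagonal (fun z => algebraMap L FC (D z)) *
      (1 + ε' • Z).map S.MC.O.subtype := by
    ext i j
    rw [Matrix.diagonal_mul, Matrix.map_apply, Matrix.add_apply, Matrix.smul_apply, smul_eq_mul,
      map_add, map_mul, Subring.coe_subtype, hZ]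
    have hd : algebraMap L FC (D i : L) * algebraMap L FC (D i : L)⁻¹ = 1 := by
      rw [← map_mul, mul_inv_cancel₀ (hD0 i), map_one]
    have he : algebraMap L FC (ε : L) * algebraMap L FC (ε : L)⁻¹ = 1 := by
      rw [← map_mul, mul_inv_cancel₀ hε0, map_one]
    simp only [Y, Matrix.of_apply, Algebra.smul_def, ε']
    rw [mul_add, show algebraMap L FC (D i : L) * (algebraMap L FC (ε : L) *
        (algebraMap L FC (D i : L)⁻¹ * (algebraMap L FC (ε : L)⁻¹ *
          (T i j - if i = j then algebraMap L FC (D j : L) else 0)))) =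
      (algebraMap L FC (D i : L) * algebraMap L FC (D i : L)⁻¹) *
        ((algebraMap L FC (ε : L) * algebraMap L FC (ε : L)⁻¹) *
          (T i j - if i = j then algebraMap L FC (D j : L) else 0)) by ring, hd, he, one_mul,
      one_mul]
    rcases eq_or_ne i j with rfl | hij
    · simp
    · simp [hij]
  have hN : Algebra.norm FC f =
      algebraMap L FC ((a : L) * (b : L) ^ q) * (((1 + ε' • Z).det : S.MC.O) : FC) := by
    rw [Algebra.norm_eq_matrix_det bas, show Algebra.leftMulMatrix bas f = T from rfl, hT,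
      Matrix.det_mul, Matrix.det_diagonal, Fintype.prod_sum_type]
    congr 1
    · simp [D]
    · exact (RingHom.map_det S.MC.O.subtype _).symm
  have hab : (a : L) * (b : L) ^ q ≠ 0 := mul_ne_zero (hD0 (Sum.inl ()))
    (pow_ne_zero _ fun h0 => hb (by rw [show b = 0 from Subtype.ext h0, map_zero]))
  have e : (ε : L)⁻¹ • (((a : L) * (b : L) ^ q)⁻¹ • Algebra.norm FC f - 1) =
      ((Z.trace + P * ε' : S.MC.O) : FC) := by
    rw [hN, ← Algebra.smul_def, smul_smul, inv_mul_cancel₀ hab, one_smul, hP]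
    push_cast
    rw [add_assoc, add_sub_cancel_left, show ((Z.trace : FC) * algebraMap L FC (ε : L) +
      (P : FC) * algebraMap L FC (ε : L) ^ 2) =
        (ε : L) • ((Z.trace : FC) + (P : FC) * algebraMap L FC (ε : L)) by
      rw [Algebra.smul_def]; ring, smul_smul, inv_mul_cancel₀ hε0, one_smul]
  rw [e]
  refine ⟨Subtype.prop _, ?_⟩
  show S.MC.red (Z.trace + P * ε') = _
  have hdi : ∀ z, S.MC.red (Di z) = algebraMap k Fb (π (D z))⁻¹ := fun z => by
    refine (show S.MC.Res (algebraMap L FC (D z : L)⁻¹) _ from ⟨hDi z, rfl⟩).unique ?_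
    rw [map_inv₀, map_inv₀]
    exact (S.MC.res_algebraMap (D z)).inv ((_root_.map_ne_zero _).2 (hDA z))
  rw [map_add, map_mul, show S.MC.red ε' = 0 by
    rw [show S.MC.red ε' = algebraMap k Fb (π ε) from S.MC.red_algebraMap ε, hε, map_zero],
    mul_zero, add_zero, Matrix.trace, map_sum, Fintype.sum_sum_type]
  simp only [Matrix.diag_apply, Z, Matrix.diagonal_mul, map_mul, hdi, Fintype.univ_punit,
    Finset.sum_singleton, ← Finset.mul_sum, D, Sum.elim_inl, Sum.elim_inr]
  rw [show S.MC.red (YO (Sum.inl ()) (Sum.inl ())) = g₁ from h11,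
    show ∑ i : Fin q, S.MC.red (YO (Sum.inr i) (Sum.inr i)) = 0 from htr, mul_zero, add_zero,
    Algebra.smul_def]

end FLTAgent.MazurPrinciple
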