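import Fermat.Agent.MazurPrinciple.HeckeUnit
import Fermat.Agent.MazurPrinciple.Count

/-!
# Lifting places and series

Every place of the special fibre is the specialisation of a place, poles of the coordinate come
from poles, and every function is a constant times a quotient of primitive integral series.
-/

set_option autoImplicit false
set_option linter.style.haveILetI false
set_option linter.unusedSectionVars false
set_option synthInstance.maxHeartbeats 400000
set_option maxHeartbeats 1000000

noncomputable section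

open AlgebraicCurve

namespace FLTAgent.MazurPrinciple

open FLTAgent.Curves FLTAgent.Specialization

section Model

variable {L k : Type*} [Field L] [Field k] {A : ValuationSubring L} {π : A →+* k}
  {F Fb : Type*} [Field F] [Field Fb] [Algebra L F] [Algebra k Fb] [IsAlgClosed L]
  [IsFunctionField L F] [IsAlgClosed k] [IsFunctionField k Fb] {M : Model π F Fb} (hM : M.Smooth)

include hM in
theorem place_pole {Q : Place L F} (hQ : Q.ord M.x < 0) : (Model.place hM Q).ord M.xb < 0 := by
  by_contra h
  have := (place_finite hM (not_lt.1 h)).1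
  omega

include hM in
theorem exists_of_divMap_ne {D : Divisor L F} {P : Place k Fb} (h : Model.divMap hM D P ≠ 0) :
    ∃ Q : Place L F, D Q ≠ 0 ∧ Model.place hM Q = P := by
  classical
  have h' : P ∈ (Finsupp.mapDomain (Model.place hM) D).support := Finsupp.mem_support_iff.2 h
  obtain ⟨Q, hQ, rfl⟩ := Finset.mem_image.1 (Finsupp.mapDomain_support h')
  exact ⟨Q, Finsupp.mem_support_iff.1 hQ, rfl⟩

include hM in
theorem exists_pole_lift {P : Place k Fb} (hP : P.ord M.xb < 0) :
    ∃ Q : Place L F, Q.ord M.x < 0 ∧ Model.place hM Q = P := by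
  obtain ⟨Q, hQ, hQP⟩ := exists_of_divMap_ne hM (D := poleDiv L M.x) (P := P)
    (by rw [divMap_poleDiv hM, poleDiv_apply]; omega)
  refine ⟨Q, ?_, hQP⟩
  rw [poleDiv_apply] at hQ
  omega

include hM in
/-- Every place of the special fibre is a specialisation. -/
theorem place_surjective : Function.Surjective (Model.place hM) := by
  intro P
  by_cases hP : P.ord M.xb < 0
  · obtain ⟨Q, -, hQ⟩ := exists_pole_lift hM hP
    exact ⟨Q, hQ⟩
  rw [not_lt] at hP
  obtain ⟨c, hc⟩ := M.surj (ev P M.xb)
  have hb := ev_spec P (ordGE_of_le (f := M.xb) hP)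
  rw [← hc] at hb
  have hne : M.xb - algebraMap k Fb (π c) ≠ 0 :=
    ne_zero_of_transcendental (transcendental_sub M.transcendental (π c))
  have hres : M.Res (M.x - algebraMap L F (c : L)) (M.xb - algebraMap k Fb (π c)) :=
    Reduction.Res.sub M.x_res (Reduction.res_algebraMap _ c)
  obtain ⟨Q, -, hQ⟩ := exists_of_divMap_ne hM
    (D := divOf L (M.x - algebraMap L F (c : L))) (P := P) (by
      rw [Model.divMap_divOf hM hres hne, divOf_apply]
      have := hb.le_ord hne
      omega)
  exact ⟨Q, hQ⟩

include hM in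
/-- Divisors of the special fibre lift with the same degree. -/
theorem exists_divMap_eq (E : Divisor k Fb) :
    ∃ D : Divisor L F, Model.divMap hM D = E ∧ Divisor.degree D = Divisor.degree E := by
  classical
  induction E using Finsupp.induction_linear with
  | zero => exact ⟨0, map_zero _, by rw [map_zero, map_zero]⟩
  | add E E' h h' =>
    obtain ⟨D, hD, hd⟩ := h
    obtain ⟨D', hD', hd'⟩ := h'
    exact ⟨D + D', by rw [map_add, hD, hD'], by rw [map_add, map_add, hd, hd']⟩
  | single P n =>
    obtain ⟨Q, rfl⟩ := place_surjective hM P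
    exact ⟨Finsupp.single Q n, Model.divMap_single hM Q n, by rw [degree_single', degree_single']⟩

include hM in
/-- A divisor at the poles lifts to a divisor at the poles. -/
theorem exists_divMap_pole (E : Divisor k Fb) (hE : ∀ P, E P ≠ 0 → P.ord M.xb < 0) :
    ∃ D : Divisor L F, Model.divMap hM D = E ∧ ∀ Q, D Q ≠ 0 → Q.ord M.x < 0 := by
  classical
  choose Q hQ hQP using fun P : E.support =>
    exists_pole_lift hM (hE P.1 (Finsupp.mem_support_iff.1 P.2))
  refine ⟨∑ P : E.support, Finsupp.single (Q P) (E P.1), ?_, fun v hv => ?_⟩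
  · rw [map_sum]
    conv_rhs => rw [← Finsupp.sum_single E]
    rw [Finsupp.sum, ← Finset.sum_coe_sort E.support]
    exact Finset.sum_congr rfl fun P _ => by rw [Model.divMap_single, hQP P]
  · rw [Finsupp.finsetSum_apply] at hv
    obtain ⟨P, -, hPv⟩ := Finset.exists_ne_zero_of_sum_ne_zero hv
    rw [Finsupp.single_apply, ite_ne_right_iff] at hPv
    exact hPv.1 ▸ hQ P

end Model

section Reduction

variable {L k : Type*} [Field L] [Field k] {A : ValuationSubring L} {π : A →+* k}
  {F Fb : Type*} [Field F] [Field Fb] [Algebra L F] [Algebra k Fb] {R : Reduction π F Fb}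

/-- Reductions of multiples of one function are proportional. -/
theorem res_proportional {f : F} {a b : L} {x y : Fb}
    (h : R.Res (a • f) x) (hx : x ≠ 0) (h' : R.Res (b • f) y) (hy : y ≠ 0) :
    ∃ l : k, l ≠ 0 ∧ y = algebraMap k Fb l * x := by
  have ha : a ≠ 0 := fun h0 => hx (by rw [h0, zero_smul] at h; exact h.unique R.res_zero)
  have hb : b ≠ 0 := fun h0 => hy (by rw [h0, zero_smul] at h'; exact h'.unique R.res_zero)
  rcases A.mem_or_inv_mem (b / a) with hm | hm
  · have h2 := h.smul ⟨_, hm⟩
    rw [smul_smul, show ((⟨_, hm⟩ : A) : L) * a = b from div_mul_cancel₀ b ha] at h2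
    have e := h'.unique h2
    exact ⟨_, fun h0 => hy (by rw [e, h0, zero_smul]), e.trans (Algebra.smul_def _ _)⟩
  · rw [inv_div] at hm
    have h2 := h'.smul ⟨_, hm⟩
    rw [smul_smul, show ((⟨_, hm⟩ : A) : L) * b = a from div_mul_cancel₀ a hb] at h2
    have e := h.unique h2
    have h0 : π ⟨_, hm⟩ ≠ 0 := fun h0 => hx (by rw [e, h0, zero_smul])
    refine ⟨(π ⟨_, hm⟩)⁻¹, inv_ne_zero h0, ?_⟩
    rw [e, ← Algebra.smul_def, smul_smul, inv_mul_cancel₀ h0, one_smul]

theorem res_zpow {f : F} {g : Fb} (h : R.Res f g) (hg : g ≠ 0) (n : ℤ) :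
    R.Res (f ^ n) (g ^ n) := by
  obtain ⟨m, rfl | rfl⟩ := n.eq_nat_or_neg
  · rw [zpow_natCast, zpow_natCast]; exact h.pow m
  · rw [zpow_neg, zpow_neg, zpow_natCast, zpow_natCast]
    exact (h.pow m).inv (pow_ne_zero _ hg)

end Reduction

section Series

open ModularCurve FLTAgent.Kronecker

local notation "QA" => AlgebraicClosure ℚ

variable {p : ℕ} [Fact p.Prime] {A : ValuationSubring QA} (hA : A.LiesOverPrime p)
  {N : ℕ} [NeZero N]

include hA in
/-- A function is a constant times a quotient of primitive integral series. -/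
theorem exists_series_rep {f : Specialization.X0Bar N} (hf : f ≠ 0) :
    ∃ (c : QA) (ya yb : LaurentSeries A) (hya : coeffMap A.subtype ya ∈ Specialization.X0Bar N)
      (hyb : coeffMap A.subtype yb ∈ Specialization.X0Bar N), c ≠ 0 ∧
      coeffMap (IsLocalRing.residue A) ya ≠ 0 ∧ coeffMap (IsLocalRing.residue A) yb ≠ 0 ∧
      f = c • ((⟨_, hya⟩ : Specialization.X0Bar N) / ⟨_, hyb⟩) := by
  haveI : IsAlgClosed (IsLocalRing.ResidueField A) := FrobTrace.isAlgClosed_residueField A
  have hfm : (f : LaurentSeries QA) ∈ modularFunctionFieldFullC QA N := by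
    rw [← laurentBaseChange_full_eq]; exact f.2
  rw [modularFunctionFieldFullC, IntermediateField.mem_adjoin_iff_div] at hfm
  obtain ⟨a, ha, b, hb, hab⟩ := hfm
  have hf' : (f : LaurentSeries QA) ≠ 0 := fun h => hf (Subtype.ext h)
  have ha0 : a ≠ 0 := fun h => hf' (by rw [hab, h, zero_div])
  have hb0 : b ≠ 0 := fun h => hf' (by rw [hab, h, div_zero])
  have hle : Algebra.adjoin QA (divisorExpansionsC QA N) ≤
      (Specialization.X0Bar N).toSubalgebra := by
    rw [Specialization.X0Bar, laurentBaseChange_full_eq]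
    exact IntermediateField.algebra_adjoin_le_adjoin QA _
  obtain ⟨ua, ya, hua, hya, hya'⟩ := exists_integral_multiple hA N ha ha0
  obtain ⟨ub, yb, hub, hyb, hyb'⟩ := exists_integral_multiple hA N hb hb0
  have hma : coeffMap A.subtype ya ∈ Specialization.X0Bar N := by
    rw [hya]; exact mul_mem (IntermediateField.algebraMap_mem _ ua) (hle ha)
  have hmb : coeffMap A.subtype yb ∈ Specialization.X0Bar N := by
    rw [hyb]; exact mul_mem (IntermediateField.algebraMap_mem _ ub) (hle hb)
  refine ⟨ub / ua, ya, yb, hma, hmb, div_ne_zero hub hua, hya', hyb', Subtype.ext ?_⟩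
  rw [Algebra.smul_def, MulMemClass.coe_mul, IntermediateField.coe_algebraMap_apply,
    IntermediateField.coe_div]
  show (f : LaurentSeries QA) = _ * (coeffMap A.subtype ya / coeffMap A.subtype yb)
  rw [hya, hyb, hab, map_div₀]
  field_simp [(_root_.map_ne_zero (algebraMap QA (LaurentSeries QA))).2 hua,
    (_root_.map_ne_zero (algebraMap QA (LaurentSeries QA))).2 hub]

variable {r : ℕ} [Fact r.Prime]

include hA in
/-- The residual norm computes the reduction of the norm. -/
theorem exists_norm_red {R : LaurentSeries (IsLocalRing.ResidueField A) →*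
      LaurentSeries (IsLocalRing.ResidueField A)} {E : ℕ} [NeZero E]
    (hR0 : ∀ z, z ≠ 0 → R z ≠ 0) (hR : HasNorm A N r R E) {f : Specialization.X0Bar N}
    (hf : f ≠ 0) :
    ∃ (c c' : QA) (z G : LaurentSeries (IsLocalRing.ResidueField A)), z ≠ 0 ∧ G ≠ 0 ∧
      (laurentReduction (IsLocalRing.residue A) (Specialization.X0Bar N)).Res (c • f) z ∧
      (laurentReduction (IsLocalRing.residue A) (Specialization.X0Bar N)).Res
        (c' • normAlpha N r (heckeBetaBar QA N r f)) G ∧
      qExpand (IsLocalRing.ResidueField A) E G = R z := by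
  haveI : NeZero r := ⟨(Fact.out : r.Prime).ne_zero⟩
  haveI : NeZero (N * r) := ⟨mul_ne_zero (NeZero.ne N) (NeZero.ne r)⟩
  haveI := instIsFunctionFieldX0Bar N
  haveI := instIsFunctionFieldX0Bar (N * r)
  obtain ⟨c, ya, yb, hya, hyb, hc, hya', hyb', rfl⟩ := exists_series_rep hA hf
  obtain ⟨ga, hga, hgak⟩ := hR ya hya
  obtain ⟨gb, hgb, hgbk⟩ := hR yb hyb
  have hgb0 : coeffMap (IsLocalRing.residue A) gb ≠ 0 := fun h0 => hR0 _ hyb'
    (by rw [← hgbk, h0, map_zero])
  have hga0 : coeffMap (IsLocalRing.residue A) ga ≠ 0 := fun h0 => hR0 _ hya'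
    (by rw [← hgak, h0, map_zero])
  have hga' := laurentReduction_res (π := IsLocalRing.residue A) (y := ga)
    (E := Specialization.X0Bar N) (hga ▸ SetLike.coe_mem _)
  have hgb' := laurentReduction_res (π := IsLocalRing.residue A) (y := gb)
    (E := Specialization.X0Bar N) (hgb ▸ SetLike.coe_mem _)
  obtain ⟨e, he, hnorm⟩ : ∃ e : QA, e ≠ 0 ∧ normAlpha N r (heckeBetaBar QA N r
      (c • ((⟨_, hya⟩ : Specialization.X0Bar N) / ⟨_, hyb⟩))) =
      e • (normAlpha N r (heckeBetaBar QA N r (⟨_, hya⟩ : Specialization.X0Bar N)) /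
        normAlpha N r (heckeBetaBar QA N r (⟨_, hyb⟩ : Specialization.X0Bar N))) := by
    letI := algebraAlong (heckeAlphaBar QA N r)
    haveI := isScalarTower_along (heckeAlphaBar QA N r)
    haveI : Module.Finite (Specialization.X0Bar N) (Specialization.X0Bar (N * r)) :=
      Kronecker.finiteAlong (heckeAlphaBar QA N r)
    refine ⟨c ^ Module.finrank (Specialization.X0Bar N) (Specialization.X0Bar (N * r)),
      pow_ne_zero _ hc, ?_⟩
    show Algebra.norm (Specialization.X0Bar N) _ = _
    have hb : (⟨_, hyb⟩ : Specialization.X0Bar N) ≠ 0 := fun h0 => hf (by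
      rw [h0, div_zero, smul_zero])
    have hdiv : ∀ x y : Specialization.X0Bar (N * r), y ≠ 0 →
        Algebra.norm (Specialization.X0Bar N) (x / y) =
          Algebra.norm (Specialization.X0Bar N) x / Algebra.norm (Specialization.X0Bar N) y := by
      intro x y hy
      rw [eq_div_iff (Algebra.norm_ne_zero_iff.2 hy), ← MonoidHom.map_mul, div_mul_cancel₀ x hy]
    rw [Algebra.smul_def, map_mul, map_div₀, MonoidHom.map_mul, hdiv _ _ ((map_ne_zero _).2 hb),
      AlgHom.commutes,
      show algebraMap QA (Specialization.X0Bar (N * r)) c =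
        algebraMap (Specialization.X0Bar N) (Specialization.X0Bar (N * r))
          (algebraMap QA (Specialization.X0Bar N) c) from
        IsScalarTower.algebraMap_apply _ _ _ c,
      Algebra.norm_algebraMap, ← map_pow, ← Algebra.smul_def]
    rfl
  refine ⟨c⁻¹, e⁻¹, coeffMap (IsLocalRing.residue A) ya / coeffMap (IsLocalRing.residue A) yb,
    coeffMap (IsLocalRing.residue A) ga / coeffMap (IsLocalRing.residue A) gb,
    div_ne_zero hya' hyb', div_ne_zero hga0 hgb0, ?_, ?_, ?_⟩
  · rw [smul_smul, inv_mul_cancel₀ hc, one_smul]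
    exact (laurentReduction_res hya).div (laurentReduction_res hyb) hyb'
  · rw [hnorm, smul_smul, inv_mul_cancel₀ he, one_smul]
    convert hga'.div hgb' hgb0 using 1
    exact congrArg₂ (· / ·) (Subtype.ext hga.symm) (Subtype.ext hgb.symm)
  · rw [map_div₀, hgak, hgbk, div_eq_iff (hR0 _ hyb'), ← MonoidHom.map_mul,
      div_mul_cancel₀ _ hyb']

end Series

end FLTAgent.MazurPrinciple
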