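import Fermat.Agent.MazurPrinciple.Count
import Fermat.Agent.MazurPrinciple.Near

/-!
# Invariant functions with exact poles and prescribed behaviour at finitely many points
-/

set_option autoImplicit false
set_option linter.style.haveILetI false
set_option linter.unusedSectionVars false

noncomputable section

namespace FLTAgent.MazurPrinciple

open AlgebraicCurve FLTAgent.Curves FLTAgent.Specialization FLTAgent.BadRed

/-- Places where the coordinate has a pole. -/
def polesOf {K E : Type*} [Field K] [Field E] [Algebra K E] [IsAlgClosed K] [IsFunctionField K E]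
    (x : E) : Finset (Place K E) := (poleDiv K x).support

theorem mem_polesOf {K E : Type*} [Field K] [Field E] [Algebra K E] [IsAlgClosed K]
    [IsFunctionField K E] {x : E} {P : Place K E} : P ∈ polesOf x ↔ P.ord x < 0 := by
  rw [polesOf, Finsupp.mem_support_iff, poleDiv_apply]
  omega

variable {L k : Type*} [Field L] [Field k] {A : ValuationSubring L} {π : A →+* k}
  {FC Fb F : Type*} [Field FC] [Field Fb] [Field F] [Algebra L FC]
  [Algebra k Fb] [Algebra L F] [IsAlgClosed L] [IsFunctionField L FC] [IsFunctionField L F]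
  [IsAlgClosed k] [IsFunctionField k Fb] {p : ℕ} {S : Sheet π FC Fb F p}

/-- Reduction of spaces of functions by invariant lifts. -/
def LiftsInvariant (S : Sheet π FC Fb F p) (H : Set (SemilinearAut L F)) : Prop :=
  ∃ m₀ : ℕ, ∀ m : ℕ, m₀ ≤ m → ∀ w ∈ riemannRochSpace ((m : ℤ) • poleDiv k S.MC.xb),
    ∃ ψ ∈ riemannRochSpace ((m : ℤ) • poleDiv L S.MC.x), S.MC.Res ψ w ∧
      ∀ σ ∈ H, σ • S.α ψ = S.α ψ

/-- A test function with prescribed orders at glued points. -/
structure Probe (S : Sheet π FC Fb F p) (U : UnitData S) (H : Set (SemilinearAut L F))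
    (Z : Divisor k Fb) (bad : Finset (Place k Fb)) (m : ℕ) where
  ψ : FC
  w : Fb
  int : IntegralWrt L S.MC.x ψ
  res : S.MC.Res ψ w
  w_ne : w ≠ 0
  pole : ∀ P : Place k Fb, P.ord S.MC.xb < 0 → P.ord w = m * P.ord S.MC.xb
  pole' : ∀ Q : Place L F, Q.ord S.X < 0 → Q.ord (S.α ψ) = m * Q.ord S.X
  reg : ∀ P : Place k Fb, 0 ≤ P.ord S.MC.xb → Z P ≤ P.ord w
  node : ∀ P ∈ U.nodes, P.ord w = Z P
  avoid : ∀ P ∈ bad, 0 ≤ P.ord S.MC.xb → P.ord w = Z P
  fix : ∀ σ ∈ H, σ • S.α ψ = S.α ψ

variable (hS : S.Good) (U : UnitData S) {H : Set (SemilinearAut L F)} (hH : LiftsInvariant S H)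
include hS hH

theorem nonempty_probe {Z : Divisor k Fb} (hZ : 0 ≤ Z) (hZf : ∀ P, P.ord S.MC.xb < 0 → Z P = 0) :
    ∃ m₁ : ℕ, ∀ m, m₁ ≤ m → ∀ bad : Finset (Place k Fb), Nonempty (Probe S U H Z bad m) := by
  classical
  obtain ⟨m₀, hm₀⟩ := hH
  obtain ⟨j, hj⟩ := S.MC.exists_le_mul (Divisor.degree Z + rBound k Fb + 1)
  refine ⟨max j m₀, fun m hm₁ bad => ?_⟩
  have hm := hj m ((le_max_left _ _).trans hm₁)
  obtain ⟨w, hw, hw0, hex⟩ := exists_exact_many (K := k)
    (G := (m : ℤ) • poleDiv k S.MC.xb - Z)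
    (by rw [map_sub, S.MC.degree_poles_red]; omega)
    (polesOf S.MC.xb ∪ U.nodes ∪ bad.filter fun P => 0 ≤ P.ord S.MC.xb)
  have hwm : w ∈ riemannRochSpace ((m : ℤ) • poleDiv k S.MC.xb) :=
    rrSpace_le (sub_le_self _ hZ) hw
  obtain ⟨ψ, hψ, hres, hfix⟩ := hm₀ m ((le_max_right _ _).trans hm₁) w hwm
  have hord : ∀ P : Place k Fb, P ∈ polesOf S.MC.xb ∪ U.nodes ∪
      (bad.filter fun P => 0 ≤ P.ord S.MC.xb) →
      P.ord w = -((m : ℤ) * poleDiv k S.MC.xb P) + Z P := fun P hP => by
    have h := ((exact_iff hw).1 (hex P hP)).2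
    rw [Finsupp.sub_apply, Finsupp.smul_apply, smul_eq_mul] at h
    omega
  have hpole : ∀ P : Place k Fb, P.ord S.MC.xb < 0 → P.ord w = m * P.ord S.MC.xb := fun P hP => by
    rw [hord P (Finset.mem_union_left _ (Finset.mem_union_left _ (mem_polesOf.2 hP))), hZf P hP,
      poleDiv_apply, max_eq_left (by omega)]
    ring
  have hψint := (mem_rrSpace_poles.1 hψ).1
  refine ⟨⟨ψ, w, hψint, hres, hw0, hpole, fun Q hQ => ?_, fun P hP => ?_,
    fun P hP => ?_, fun P hP hP' => ?_, hfix⟩⟩
  · set R := below S.α Q with hR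
    have he := ramificationIndexAlong_pos S.α Q
    have hψ0 : ψ ≠ 0 := fun h0 => hw0 (hres.unique (h0 ▸ S.MC.res_zero))
    have hX : S.X = S.α S.MC.x := rfl
    rw [hX, ord_map_eq, ← hR] at hQ
    have hxneg : R.ord S.MC.x < 0 := by
      by_contra h0
      push Not at h0
      have : (0 : ℤ) ≤ Place.ramificationIndexAlong S.α Q * R.ord S.MC.x := by positivity
      omega
    suffices hR' : R.ord ψ = m * R.ord S.MC.x by
      rw [hX, ord_map_eq, ord_map_eq, hR'.trans rfl]
      ring
    have h1 : (m : ℤ) * R.ord S.MC.x ≤ R.ord ψ := by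
      have h := (mem_rrSpace.1 hψ R).le_ord hψ0
      rw [Finsupp.smul_apply, smul_eq_mul, poleDiv_apply, max_eq_left (by omega)] at h
      linarith
    refine le_antisymm ?_ h1
    by_contra hlt
    push Not at hlt
    have hsub : ψ ∈ riemannRochSpace ((m : ℤ) • poleDiv L S.MC.x - Finsupp.single R 1) :=
      mem_rrSpace.2 fun v => by
        rw [Finsupp.sub_apply, Finsupp.single_apply]
        split_ifs with hv
        · subst hv
          refine ordGE_of_le ?_
          rw [Finsupp.smul_apply, smul_eq_mul, poleDiv_apply, max_eq_left (by omega)]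
          linarith
        · simpa using mem_rrSpace.1 hψ v
    have h2 := (mem_rrSpace.1 (Model.res_mem_rrSpace hS.smooth hsub hres)
      (Model.place hS.smooth R)).le_ord hw0
    have h3 := le_divMap_place hS.smooth (poleDiv_nonneg (K := L) S.MC.x) R
    rw [divMap_poleDiv hS.smooth, poleDiv_apply, poleDiv_apply, max_eq_left (by omega)] at h3
    have hneg : (Model.place hS.smooth R).ord S.MC.xb < 0 := by omega
    rw [map_sub, exists_divMap_poles, Model.divMap_single, Finsupp.sub_apply, Finsupp.smul_apply,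
      Finsupp.single_eq_same, smul_eq_mul, hpole _ hneg, poleDiv_apply,
      max_eq_left (by omega)] at h2
    linarith
  · have h := (mem_rrSpace.1 hw P).le_ord hw0
    rw [Finsupp.sub_apply, Finsupp.smul_apply, poleDiv_eq_zero hP, smul_zero] at h
    omega
  · rw [hord P (Finset.mem_union_left _ (Finset.mem_union_right _ hP)),
      poleDiv_eq_zero (U.mem_nodes.1 hP).1]
    ring
  · rw [hord P (Finset.mem_union_right _ (Finset.mem_filter.2 ⟨hP, hP'⟩)), poleDiv_eq_zero hP']
    ring

end FLTAgent.MazurPrinciple
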