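import Fermat.Agent.MazurPrinciple.Node
import Fermat.Agent.Curves.TraceDual
import Fermat.Agent.Kronecker.Cover

/-!
# Norms to a rational subfield at a fibre, and reciprocity
-/

set_option autoImplicit false
set_option linter.style.haveILetI false
set_option linter.unusedSectionVars false

noncomputable section

namespace FLTAgent.MazurPrinciple

open AlgebraicCurve FLTAgent.Curves Polynomial IntermediateField

variable {K F : Type*} [Field K] [Field F] [Algebra K F] [IsAlgClosed K] [IsFunctionField K F]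

theorem ev_prod (Q : Place K F) {ι : Type*} (s : Finset ι) {φ : ι → F}
    (h : ∀ i ∈ s, OrdGE Q 0 (φ i)) :
    OrdGE Q 0 (∏ i ∈ s, φ i) ∧ ev Q (∏ i ∈ s, φ i) = ∏ i ∈ s, ev Q (φ i) := by
  classical
  induction s using Finset.induction with
  | empty => exact ⟨by simpa using ordGE_one Q, by simpa using ev_one Q⟩
  | insert a s ha ih =>
    obtain ⟨h1, h2⟩ := ih fun i hi => h i (Finset.mem_insert_of_mem hi)
    have ha' := h a (Finset.mem_insert_self _ _)
    rw [Finset.prod_insert ha, Finset.prod_insert ha, ev_mul Q ha' h1, h2]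
    exact ⟨by simpa using ha'.mul h1, rfl⟩

theorem ev_zpow (Q : Place K F) {f : F} (hf : f ≠ 0) (h : Q.ord f = 0) (n : ℤ) :
    Q.ord (f ^ n) = 0 ∧ ev Q (f ^ n) = ev Q f ^ n := by
  refine ⟨by rw [Q.ord_zpow, h, mul_zero], ?_⟩
  obtain ⟨m, rfl | rfl⟩ := n.eq_nat_or_neg
  · simpa using ev_pow Q (ordGE_of_le h.ge) m
  · have hm : OrdGE Q 0 ((f ^ m)⁻¹) := ordGE_of_le (by rw [Q.ord_inv, ord_pow, h]; simp)
    have h1 := ev_mul Q (show OrdGE Q 0 (f ^ m) from ordGE_of_le (by rw [ord_pow, h]; simp)) hm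
    rw [mul_inv_cancel₀ (pow_ne_zero _ hf), ev_one, ev_pow Q (ordGE_of_le h.ge)] at h1
    rw [zpow_neg, zpow_natCast, zpow_neg, zpow_natCast]
    exact eq_inv_of_mul_eq_one_right h1.symm

theorem ev_det (Q : Place K F) {n : Type*} [Fintype n] [DecidableEq n] {M : Matrix n n F}
    {C : Matrix n n K} (h : ∀ i j, OrdGE Q 1 (M i j - algebraMap K F (C i j))) :
    OrdGE Q 0 M.det ∧ ev Q M.det = C.det := by
  have hM : ∀ i j, OrdGE Q 0 (M i j) := fun i j => by
    simpa using ((h i j).mono zero_le_one).add (ordGE_algebraMap Q (C i j))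
  have hp : ∀ σ : Equiv.Perm n, OrdGE Q 0 (∏ i, M (σ i) i) := fun σ =>
    (ev_prod Q _ fun i _ => hM _ _).1
  rw [Matrix.det_apply, Matrix.det_apply]
  have hterm : ∀ σ : Equiv.Perm n, OrdGE Q 0 (Equiv.Perm.sign σ • ∏ i, M (σ i) i) ∧
      ev Q (Equiv.Perm.sign σ • ∏ i, M (σ i) i) = Equiv.Perm.sign σ • ∏ i, C (σ i) i := fun σ => by
    have hs : OrdGE Q 0 (((Equiv.Perm.sign σ : ℤ) : F)) := by
      rw [← map_intCast (algebraMap K F)]; exact ordGE_algebraMap _ _
    rw [Units.smul_def, Units.smul_def, zsmul_eq_mul, zsmul_eq_mul, ev_mul Q hs (hp σ), (ev_prod Q _ fun i _ => hM _ _).2,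
      ← map_intCast (algebraMap K F), ev_const]
    refine ⟨by have := (ordGE_algebraMap Q ((Equiv.Perm.sign σ : ℤ) : K)).mul (hp σ); rwa [add_zero] at this, ?_⟩
    congr 1
    exact Finset.prod_congr rfl fun i _ => ev_eq Q (h _ _)
  exact ⟨OrdGE.sum fun σ _ => (hterm σ).1,
    (ev_sum Q _ fun σ _ => (hterm σ).1).trans (Finset.sum_congr rfl fun σ _ => (hterm σ).2)⟩

/-- The determinant of a combination of the identity and a projection. -/
theorem det_one_add_smul_of_idem {n : Type*} [Fintype n] [DecidableEq n] {E : Matrix n n K}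
    (hE : E * E = E) (c : K) :
    (1 + c • E).det = (1 + c) ^ Module.finrank K (LinearMap.range (Matrix.toLin' E)) := by
  set f := Matrix.toLin' E
  have hid : IsIdempotentElem f := by
    rw [IsIdempotentElem, Module.End.mul_eq_comp, ← Matrix.toLin'_mul, hE]
  have hp := LinearMap.IsIdempotentElem.isProj_range f hid
  set e := (LinearMap.range f).prodEquivOfIsCompl (LinearMap.ker f) hp.isCompl
  have key : Matrix.toLin' (1 + c • E) = e.toLinearMap ∘ₗ
      LinearMap.prodMap ((1 + c) • LinearMap.id) LinearMap.id ∘ₗ e.symm.toLinearMap := by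
    have h1 : LinearMap.prodMap ((1 + c) • LinearMap.id) LinearMap.id =
        (LinearMap.id : (LinearMap.range f × LinearMap.ker f) →ₗ[K] _) +
          c • LinearMap.prodMap LinearMap.id 0 := by
      refine LinearMap.ext fun x => ?_
      obtain ⟨x, y⟩ := x
      simp [add_smul]
    rw [h1, LinearMap.add_comp, LinearMap.comp_add, LinearMap.smul_comp, LinearMap.comp_smul,
      ← hp.eq_conj_prod_map', map_add, map_smul, Matrix.toLin'_one, LinearMap.id_comp,
      LinearEquiv.comp_coe, e.symm_trans_self, LinearEquiv.refl_toLinearMap]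
  rw [← LinearMap.det_toLin', key, LinearMap.det_conj, LinearMap.det_prodMap, LinearMap.det_smul,
    LinearMap.det_id, LinearMap.det_id, mul_one, mul_one]

theorem det_eq_one_of_nilpotent {n : Type*} [Fintype n] [DecidableEq n] {N : Matrix n n K}
    (hN : IsNilpotent N) : (1 + N).det = 1 := by
  have h := (Matrix.isNilpotent_charpoly_sub_pow_of_isNilpotent hN.neg).eq_zero
  rw [sub_eq_zero] at h
  have h2 := Matrix.eval_charpoly (-N) (1 : K)
  rw [h, Polynomial.eval_pow, Polynomial.eval_X, one_pow, map_one, sub_neg_eq_add] at h2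
  exact h2.symm

/-- The norm to `K(t)` of a unit at the zeros of `t`, evaluated at such a zero. -/
theorem exists_fiber_norm [CharZero K] {t : F} (ht : Transcendental K t) {y : F} (hy0 : y ≠ 0)
    (hy : ∀ v : Place K F, 0 < v.ord t → v.ord y = 0) {w : Place K F} (hw : 0 < w.ord t) :
    OrdGE w 0 ((Algebra.norm K⟮t⟯ y : K⟮t⟯) : F) ∧
      ev w ((Algebra.norm K⟮t⟯ y : K⟮t⟯) : F) = ∏ v ∈ zerosOf K t, ev v y ^ (v.ord t).toNat := by
  classical
  obtain ⟨u, hu, hred, hcoord⟩ := exists_inverse_basis (K := K) ht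
  have hyreg : ∀ v : Place K F, 0 < v.ord t → OrdGE v 0 y := fun v hv =>
    ordGE_of_le (hy v hv).ge
  -- the matrix of `y`
  have hreg : ∀ i j, ∀ v : Place K F, 0 < v.ord t →
      OrdGE v 0 ((Algebra.leftMulMatrix u y i j : K⟮t⟯) : F) := by
    intro i j v hv
    rw [Algebra.leftMulMatrix_eq_repr_mul]
    simpa using hcoord (y * u j) 0
      (fun v' hv' => by simpa using (hyreg v' hv').mul (hu j v' hv')) i v hv
  choose C hC using fun i j => exists_residue_adjoin ht (SetLike.coe_mem _) (hreg i j)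
  have hCy : RedMat t u y (Matrix.of C) := fun j v hv => by
    conv in y * u j => rw [← u.sum_repr (y * u j)]
    rw [← Finset.sum_sub_distrib]
    refine OrdGE.sum fun i _ => ?_
    have := (hC i j v hv).mul (hu i v hv)
    rw [add_zero, sub_mul] at this
    convert this using 1
    simp [Algebra.smul_def, Algebra.leftMulMatrix_eq_repr_mul]
  have hnorm := ev_det w (M := (Algebra.leftMulMatrix u y).map (fun z : K⟮t⟯ => (z : F)))
    (C := Matrix.of C) fun i j => (hC i j w hw).mono (by omega)
  have hcast : ((Algebra.norm K⟮t⟯ y : K⟮t⟯) : F) =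
      ((Algebra.leftMulMatrix u y).map (fun z : K⟮t⟯ => (z : F))).det := by
    rw [Algebra.norm_eq_matrix_det u]
    exact (K⟮t⟯).val.toRingHom.map_det _
  rw [hcast]
  refine ⟨hnorm.1, hnorm.2.trans ?_⟩
  -- idempotents at the zeros
  set Z := zerosOf K t
  set N : ℕ := ∑ v ∈ Z, (v.ord t).toNat + 1
  have hNv : ∀ v ∈ Z, v.ord t ≤ N := fun v hv => by
    have := Finset.single_le_sum (f := fun v => (v.ord t).toNat) (fun _ _ => Nat.zero_le _) hv
    have := Int.self_le_toNat (v.ord t)
    omega
  choose η hη1 hη0 hηw using fun v : Place K F =>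
    exists_approx_one v (Z.erase v) (Finset.notMem_erase _ _) N
  have hηreg : ∀ v : Place K F, ∀ v' : Place K F, 0 < v'.ord t → OrdGE v' 0 (η v) := fun v v' hv' => by
    by_cases h : v' = v
    · exact h ▸ hη0 v
    · exact (hηw v v' (Finset.mem_erase.2 ⟨h, mem_zerosOf.2 hv'⟩)).mono (by omega)
  have hE : ∀ v : Place K F, ∃ E : Matrix (Fin (Module.finrank K⟮t⟯ F))
      (Fin (Module.finrank K⟮t⟯ F)) K, RedMat t u (η v) E := fun v => by
    obtain ⟨E, hE, -⟩ := exists_redMat_trace ht u hu hcoord (hηreg v)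
    exact ⟨E, hE⟩
  choose E hE using hE
  set a : Place K F → K := fun v => ev v y
  have ha : ∀ v ∈ Z, a v ≠ 0 := fun v hv => ev_ne_zero_of_ord hy0 (hy v (mem_zerosOf.1 hv))
  set g : Place K F → F := fun v => 1 + (a v - 1) • η v
  have hgreg : ∀ v v' : Place K F, 0 < v'.ord t → OrdGE v' 0 (g v) := fun v v' hv' =>
    (ordGE_one v').add ((hηreg v v' hv').smul _)
  have hsmul : ∀ (c : K) {z : F} {D : Matrix (Fin (Module.finrank K⟮t⟯ F))
      (Fin (Module.finrank K⟮t⟯ F)) K}, RedMat t u z D → RedMat t u (1 + c • z) (1 + c • D) := by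
    intro c z D hD j v hv
    have h1 := (RedMat.one (t := t) (u := u)) j v hv
    convert h1.add ((hD j v hv).smul c) using 1
    simp only [Matrix.add_apply, Matrix.smul_apply, smul_eq_mul, add_smul, mul_smul,
      Finset.sum_add_distrib, smul_sub, Finset.smul_sum, add_mul, smul_mul_assoc]
    abel
  -- products
  have hprod : ∀ s ⊆ Z, ∃ D : Matrix (Fin (Module.finrank K⟮t⟯ F))
      (Fin (Module.finrank K⟮t⟯ F)) K, RedMat t u (∏ v ∈ s, g v) D ∧
        D.det = ∏ v ∈ s, a v ^ (v.ord t).toNat := by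
    intro s
    induction s using Finset.induction with
    | empty => exact fun _ => ⟨1, by simpa using RedMat.one, by simp⟩
    | insert v s hv ih =>
      intro hs
      obtain ⟨D, hD, hdet⟩ := ih ((Finset.subset_insert _ _).trans hs)
      have hvZ := hs (Finset.mem_insert_self _ _)
      have hvt := mem_zerosOf.1 hvZ
      refine ⟨(1 + (a v - 1) • E v) * D, ?_, ?_⟩
      · rw [Finset.prod_insert hv]
        exact (hsmul _ (hE v)).mul hD fun v' hv' => hgreg v v' hv'
      have hidem : E v * E v = E v := by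
        refine ((hE v).mul (hE v) (hηreg v)).unique hred ?_
        intro j v' hv'
        have h1 : OrdGE v' (v'.ord t) (η v * η v - η v) := by
          rw [show η v * η v - η v = η v * (η v - 1) by ring]
          by_cases h : v' = v
          · subst h
            simpa using (hη0 v').mul ((hη1 v').mono (hNv v' hvZ))
          · simpa using ((hηw v v' (Finset.mem_erase.2 ⟨h, mem_zerosOf.2 hv'⟩)).mono
              (hNv v' (mem_zerosOf.2 hv'))).mul ((hηreg v v' hv').sub (ordGE_one v'))
        have h3 := h1.mul (hu j v' hv')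
        rw [add_zero] at h3
        convert h3.add (hE v j v' hv') using 1
        ring
      have hrank : (Module.finrank K (LinearMap.range (Matrix.toLin' (E v))) : ℤ) = v.ord t := by
        have h := trace_eq_ord ht u hu hred hvt (hE v) hidem (hηreg v) (hη1 v)
          (fun v' hv' hne => (hηw v v' (Finset.mem_erase.2 ⟨hne, mem_zerosOf.2 hv'⟩)).mono
            (hNv v' (mem_zerosOf.2 hv'))) (hNv v hvZ)
        have hid : IsIdempotentElem (Matrix.toLin' (E v)) := by
          rw [IsIdempotentElem, Module.End.mul_eq_comp, ← Matrix.toLin'_mul, hidem]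
        rw [← Matrix.trace_toLin'_eq, (LinearMap.IsIdempotentElem.isProj_range _ hid).trace] at h
        exact_mod_cast h
      rw [Matrix.det_mul, det_one_add_smul_of_idem hidem, add_sub_cancel, hdet,
        Finset.prod_insert hv]
      congr 2
      omega
  obtain ⟨D, hD, hdet⟩ := hprod Z subset_rfl
  set y' := ∏ v ∈ Z, g v
  -- `y'` agrees with `y` to first order
  have hy' : ∀ v ∈ Z, OrdGE v 0 y' ∧ ev v y' = a v := fun v hv => by
    have hvt := mem_zerosOf.1 hv
    obtain ⟨h1, h2⟩ := ev_prod v Z fun i _ => hgreg i v hvt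
    refine ⟨h1, h2.trans ((Finset.prod_eq_single v ?_ (absurd hv)).trans ?_)⟩
    · intro i _ hiv
      refine ev_eq v ?_
      have hvi : v ∈ Z.erase i := Finset.mem_erase.2 ⟨Ne.symm hiv, hv⟩
      simpa [g] using ((hηw i v hvi).mono (show (1 : ℤ) ≤ N by omega)).smul (a i - 1)
    · refine ev_eq v ?_
      convert (((hη1 v).mono (show (1 : ℤ) ≤ N by omega)).smul (a v - 1)) using 1
      simp only [g, map_sub, map_one, Algebra.smul_def]
      ring
  have hy'0 : y' ≠ 0 := by
    obtain ⟨w', hw'⟩ := exists_ord_pos (K := K) ht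
    intro h
    have := (hy' w' (mem_zerosOf.2 hw')).2
    rw [h, ev_zero] at this
    exact ha w' (mem_zerosOf.2 hw') this.symm
  have hy'ord : ∀ v ∈ Z, v.ord y' = 0 := fun v hv =>
    (ord_eq_zero_of_ev_ne (hy' v hv).1 ((hy' v hv).2.symm ▸ ha v hv)).2
  have hq : ∀ v : Place K F, 0 < v.ord t → OrdGE v 0 (y / y') := fun v hv =>
    ordGE_of_le (by rw [ord_div v hy0 hy'0, hy v hv, hy'ord v (mem_zerosOf.2 hv)]; rfl)
  obtain ⟨G, hG, -⟩ := exists_redMat_trace ht u hu hcoord hq
  have hone : ∀ v : Place K F, 0 < v.ord t → OrdGE v 1 (y / y' - 1) := fun v hv => by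
    have hvZ := mem_zerosOf.2 hv
    have h1 : OrdGE v 1 (y - y') := by
      have := (ev_spec v (hyreg v hv)).sub (ev_spec v (hy' v hvZ).1)
      rw [(hy' v hvZ).2] at this
      simpa [a] using this
    rw [div_sub_one hy'0, div_eq_mul_inv]
    simpa using h1.mul (ordGE_of_le (c := 0) (by rw [v.ord_inv, hy'ord v hvZ]; simp))
  have hsub : RedMat t u (y / y' - 1) (G - 1) := fun j v hv => by
    convert (hG j v hv).sub ((RedMat.one (t := t) (u := u)) j v hv) using 1
    simp only [Matrix.sub_apply, sub_smul, Finset.sum_sub_distrib, sub_mul, one_mul]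
    abel
  have hnil : IsNilpotent (G - 1) := by
    have hpow : ∀ m : ℕ, RedMat t u ((y / y' - 1) ^ m) ((G - 1) ^ m) := by
      intro m
      induction m with
      | zero => simpa using RedMat.one
      | succ m ih =>
        rw [pow_succ, pow_succ]
        exact ih.mul hsub fun v hv => by simpa using (((hone v hv).mono zero_le_one).pow m)
    refine ⟨N, (hpow N).unique hred (RedMat.zero_of_ordGE hu fun v hv => ?_)⟩
    exact ((hone v hv).pow N).mono (by have := hNv v (mem_zerosOf.2 hv); omega)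
  have hG1 : G.det = 1 := by
    rw [← add_sub_cancel 1 G]
    exact det_eq_one_of_nilpotent hnil
  have hCG : Matrix.of C = G * D := hCy.unique hred (by
    have := hG.mul hD hq
    rwa [div_mul_cancel₀ _ hy'0] at this)
  rw [hCG, Matrix.det_mul, hG1, one_mul, hdet]

theorem exists_fiber_norm' [CharZero K] {G : IntermediateField K F} {t : F} (hG : G = K⟮t⟯)
    (ht : Transcendental K t) {y : F} (hy0 : y ≠ 0)
    (hy : ∀ v : Place K F, 0 < v.ord t → v.ord y = 0) {w : Place K F} (hw : 0 < w.ord t) :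
    OrdGE w 0 ((Algebra.norm G y : G) : F) ∧
      ev w ((Algebra.norm G y : G) : F) = ∏ v ∈ zerosOf K t, ev v y ^ (v.ord t).toNat := by
  subst hG
  exact exists_fiber_norm ht hy0 hy hw

theorem divOf_degree_sum (f : F) : ∑ R ∈ (divOf K f).support, R.ord f = 0 := by
  have h := degree_divOf (K := K) f
  rw [degree_eq_sum (s := (divOf K f).support) subset_rfl] at h
  simpa using h

/-- The norm to `K(t)` in terms of the divisor. -/
theorem exists_norm_eq_prod {t : F} (ht : Transcendental K t) {f : F} (hf0 : f ≠ 0)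
    (hdisj : ∀ v : Place K F, v.ord t ≠ 0 → v.ord f = 0) :
    ∃ c : K, ((Algebra.norm K⟮t⟯ f : K⟮t⟯) : F) =
      algebraMap K F c * ∏ R ∈ (divOf K f).support, (t - algebraMap K F (ev R t)) ^ R.ord f := by
  classical
  set G := K⟮t⟯
  set g : G := AdjoinSimple.gen K t
  have hgt : algebraMap G F g = t := AdjoinSimple.algebraMap_gen K t
  haveI : FiniteDimensional G F := finiteDimensional_adjoin (K := K) ht
  have hg : Transcendental K g := (transcendental_algebraMap_iff (algebraMap G F).injective).1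
    (by rwa [hgt])
  have hfin : Module.finrank K⟮g⟯ G = 1 := by
    have h := Kronecker.finrank_adjoin_algebraMap (K := K) (F := G) (F' := F) g
    rw [hgt] at h
    exact (Nat.mul_eq_right (Module.finrank_pos (R := G) (M := F)).ne').1 h.symm
  haveI : IsFunctionField K G :=
    IsFunctionField.mk_of g hg (FiniteDimensional.of_finrank_eq_succ hfin)
  haveI : HasPrincipalDivisors K F := hasPrincipalDivisors
  haveI : Algebra.IsIntegral G F := Algebra.IsIntegral.of_finite _ _
  have hpole : Divisor.degree (poleDiv K g) = 1 := by rw [degree_poleDiv hg, hfin]; rfl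
  obtain ⟨vi, hvi⟩ := Specialization.eq_single_of_degree_one (Specialization.poleDiv_nonneg g) hpole
  have hinf : ∀ v : Place K G, v.ord g < 0 → v = vi ∧ v.ord g = -1 := fun v hv => by
    have h := DFunLike.congr_fun hvi v
    rw [poleDiv_apply, Finsupp.single_apply] at h
    split_ifs at h with he
    · exact ⟨he.symm, by omega⟩
    · omega
  -- the zero of `g - λ`
  have hzero : ∀ l : K, ∃ v₀ : Place K G,
      ∀ v : Place K G, 0 ≤ v.ord g → v.ord (g - algebraMap K G l) = if v = v₀ then 1 else 0 := by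
    intro l
    have hl : g - algebraMap K G l ≠ 0 := fun h => hg (by
      rw [sub_eq_zero.1 h]; exact isAlgebraic_algebraMap l)
    have hpl : poleDiv K (g - algebraMap K G l) = poleDiv K g := Finsupp.ext fun v => by
      rw [poleDiv_apply, poleDiv_apply]
      rcases lt_or_ge (v.ord g) 0 with h | h
      · rw [sub_eq_add_neg, ← map_neg, (ord_add_eq_left (v := v) (ne_zero_of_transcendental hg)
          ((ordGE_algebraMap v (-l)).imp_right fun h' => by omega)).1]
      · have h1 := ((ordGE_of_le h).sub (ordGE_algebraMap v l)).le_ord hl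
        omega
    have hd : Divisor.degree (poleDiv K (g - algebraMap K G l)⁻¹) = 1 := by
      have h := degree_divOf (K := K) (g - algebraMap K G l)
      rw [Specialization.divOf_eq_sub, map_sub, hpl, hpole] at h
      omega
    obtain ⟨v₀, hv₀⟩ := Specialization.eq_single_of_degree_one (Specialization.poleDiv_nonneg _) hd
    refine ⟨v₀, fun v hv => ?_⟩
    have h := DFunLike.congr_fun hv₀ v
    have h1 := ((ordGE_of_le hv).sub (ordGE_algebraMap v l)).le_ord hl
    rw [poleDiv_apply, v.ord_inv, Finsupp.single_apply] at h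
    rcases eq_or_ne v₀ v with he | he
    · rw [if_pos he] at h; rw [if_pos he.symm]; omega
    · rw [if_neg he] at h; rw [if_neg he.symm]; omega
  set r := Algebra.norm G f
  have hr : r ≠ 0 := Algebra.norm_ne_zero_iff.2 hf0
  set s := (divOf K f).support
  have hs : ∀ R ∈ s, R.ord t = 0 := fun R hR => by
    by_contra h
    rw [Finsupp.mem_support_iff, divOf_apply] at hR
    exact hR (hdisj R h)
  set M := ∏ R ∈ s, (g - algebraMap K G (ev R t)) ^ R.ord f
  have hne : ∀ R : Place K F, g - algebraMap K G (ev R t) ≠ 0 := fun R h => hg (by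
    rw [sub_eq_zero.1 h]; exact isAlgebraic_algebraMap _)
  have hM : M ≠ 0 := Finset.prod_ne_zero_iff.2 fun R _ => zpow_ne_zero _ (hne R)
  have hrel : ∀ w : Place K F, ∀ x : G,
      (0 < w.ord (x : F) ↔ 0 < (w.restrict G).ord x) ∧
        (0 ≤ w.ord (x : F) ↔ 0 ≤ (w.restrict G).ord x) := fun w x => by
    have h := w.ord_restrict x
    have he : (0 : ℤ) < w.ramificationIndex (F := G) := by exact_mod_cast w.ramificationIndex_pos
    change w.ord (algebraMap G F x) = _ at h
    rw [show (x : F) = algebraMap G F x from rfl, h]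
    exact ⟨mul_pos_iff_of_pos_left he, mul_nonneg_iff_of_pos_left he⟩
  have hordM : ∀ v : Place K G, v.ord M = v.ord r := by
    intro v
    have hsum : v.ord M = ∑ R ∈ s, R.ord f * v.ord (g - algebraMap K G (ev R t)) := by
      simp only [M]
      clear_value s
      induction s using Finset.induction with
      | empty => simp
      | insert a s ha ih =>
        rw [Finset.prod_insert ha, Finset.sum_insert ha, v.ord_mul (zpow_ne_zero _ (hne a))
          (Finset.prod_ne_zero_iff.2 fun R _ => zpow_ne_zero _ (hne R)), v.ord_zpow,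
          ih (fun R hR => hs R (Finset.mem_insert_of_mem hR))
            (Finset.prod_ne_zero_iff.2 fun R _ => zpow_ne_zero _ (hne R))]
    rw [hsum, Kronecker.ord_norm v hf0]
    rcases lt_or_ge (v.ord g) 0 with hv | hv
    · have h1 : ∀ R ∈ s, v.ord (g - algebraMap K G (ev R t)) = -1 := fun R _ => by
        rw [sub_eq_add_neg, ← map_neg, (ord_add_eq_left (v := v) (ne_zero_of_transcendental hg)
          ((ordGE_algebraMap v (-(ev R t))).imp_right fun h' => by omega)).1]
        exact (hinf v hv).2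
      rw [Finset.sum_congr rfl fun R hR => by rw [h1 R hR], ← Finset.sum_mul,
        divOf_degree_sum, zero_mul, Finset.sum_eq_zero]
      intro w hw
      rw [Place.mem_fiber] at hw
      refine hdisj w fun h0 => ?_
      have := ((hrel w g).2).1 (le_of_eq h0.symm)
      rw [hw] at this
      omega
    · have h1 : ∀ R ∈ s, v.ord (g - algebraMap K G (ev R t)) =
          if R.restrict G = v then 1 else 0 := fun R hR => by
        obtain ⟨v₀, hv₀⟩ := hzero (ev R t)
        have hRg : 0 ≤ (R.restrict G).ord g := ((hrel R g).2).1 (le_of_eq (hs R hR).symm)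
        have hR0 : R.restrict G = v₀ := by
          by_contra hne'
          have h2 := hv₀ _ hRg
          rw [if_neg hne'] at h2
          have h3 : 0 < R.ord ((g - algebraMap K G (ev R t) : G) : F) := by
            rw [show ((g - algebraMap K G (ev R t) : G) : F) = t - algebraMap K F (ev R t) from rfl]
            have h4 := ev_spec R (ordGE_of_le (hs R hR).ge : OrdGE R 0 t)
            have h5 : t - algebraMap K F (ev R t) ≠ 0 := fun h => ht (by
              rw [sub_eq_zero.1 h]; exact isAlgebraic_algebraMap _)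
            exact h4.le_ord h5
          have := ((hrel R _).1).1 h3
          omega
        rw [hv₀ v hv, hR0]
        exact if_congr eq_comm rfl rfl
      rw [Finset.sum_congr rfl fun R hR => by rw [h1 R hR, mul_ite, mul_one, mul_zero],
        ← Finset.sum_filter]
      refine Finset.sum_subset (fun R hR => ?_) fun R hR hR' => ?_
      · rw [Finset.mem_filter] at hR
        exact Place.mem_fiber.2 hR.2
      · rw [Place.mem_fiber] at hR
        rw [Finset.mem_filter, not_and'] at hR'
        have := hR' hR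
        rwa [Finsupp.mem_support_iff, not_not, divOf_apply] at this
  obtain ⟨c, hc⟩ := eq_algebraMap_of_forall_ord_nonneg (K := K) (f := r / M) fun v => by
    rw [ord_div v hr hM, hordM, sub_self]
  refine ⟨c, ?_⟩
  have h : r = algebraMap K G c * M := by rw [← hc, div_mul_cancel₀ _ hM]
  calc ((r : G) : F) = algebraMap G F (algebraMap K G c * M) := by rw [← h]; rfl
    _ = _ := by
      rw [map_mul, ← IsScalarTower.algebraMap_apply, map_prod]
      refine congrArg _ (Finset.prod_congr rfl fun R _ => ?_)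
      rw [map_zpow₀, map_sub, hgt, ← IsScalarTower.algebraMap_apply]

/-- **Reciprocity** for two functions with disjoint divisors. -/
theorem reciprocity [CharZero K] {f Φ : F} (hΦ : Transcendental K Φ) (hf0 : f ≠ 0)
    (hdisj : ∀ v : Place K F, v.ord Φ ≠ 0 → v.ord f = 0) :
    ∏ v ∈ (divOf K Φ).support, ev v f ^ v.ord Φ =
      ∏ v ∈ (divOf K f).support, ev v Φ ^ v.ord f := by
  classical
  obtain ⟨c, hc⟩ := exists_norm_eq_prod hΦ hf0 hdisj
  set s := (divOf K f).support
  have hs : ∀ R ∈ s, R.ord Φ = 0 := fun R hR => by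
    by_contra h
    rw [Finsupp.mem_support_iff, divOf_apply] at hR
    exact hR (hdisj R h)
  have hΦ0 := ne_zero_of_transcendental hΦ
  have hl : ∀ R ∈ s, ev R Φ ≠ 0 := fun R hR => ev_ne_zero_of_ord hΦ0 (hs R hR)
  -- at a zero
  obtain ⟨w₀, hw₀⟩ := exists_ord_pos (K := K) hΦ
  have h0 := (exists_fiber_norm hΦ hf0 (fun v hv => hdisj v hv.ne') hw₀).2
  rw [hc] at h0
  have hterm : ∀ R ∈ s, OrdGE w₀ 0 ((Φ - algebraMap K F (ev R Φ)) ^ R.ord f) ∧
      ev w₀ ((Φ - algebraMap K F (ev R Φ)) ^ R.ord f) = (-ev R Φ) ^ R.ord f := fun R hR => by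
    have hb := ordGE_of_le (f := Φ) (v := w₀) (c := 0) hw₀.le
    have he : ev w₀ (Φ - algebraMap K F (ev R Φ)) = -ev R Φ := by
      rw [ev_sub _ hb (ordGE_algebraMap _ _), ev_const,
        (ev_eq_zero_iff _ hb).2 (ordGE_of_le hw₀), zero_sub]
    obtain ⟨h1, h2⟩ := ord_eq_zero_of_ev_ne (hb.sub (ordGE_algebraMap _ (ev R Φ)))
      (by rw [he]; exact neg_ne_zero.2 (hl R hR))
    obtain ⟨h3, h4⟩ := ev_zpow w₀ h1 h2 (R.ord f)
    exact ⟨ordGE_of_le h3.ge, h4.trans (by rw [he])⟩
  obtain ⟨hp1, hp2⟩ := ev_prod w₀ s fun R hR => (hterm R hR).1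
  rw [ev_mul _ (ordGE_algebraMap _ _) hp1, ev_const, hp2,
    Finset.prod_congr rfl fun R hR => (hterm R hR).2] at h0
  -- at a pole
  have hΦi := transcendental_inv hΦ
  obtain ⟨w₁, hw₁⟩ := exists_ord_pos (K := K) hΦi
  have hadj : K⟮Φ⟯ = K⟮Φ⁻¹⟯ := by
    refine le_antisymm ?_ ?_ <;> rw [IntermediateField.adjoin_simple_le_iff]
    · simpa using inv_mem (mem_adjoin_simple_self K Φ⁻¹)
    · exact inv_mem (mem_adjoin_simple_self K Φ)
  have h1 := (exists_fiber_norm' hadj hΦi hf0
    (fun v hv => hdisj v (by rw [v.ord_inv] at hv; omega)) hw₁).2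
  rw [hc] at h1
  have hprod : ∏ R ∈ s, (Φ - algebraMap K F (ev R Φ)) ^ R.ord f =
      ∏ R ∈ s, (1 - ev R Φ • Φ⁻¹) ^ R.ord f := by
    have e : ∀ R : Place K F, Φ - algebraMap K F (ev R Φ) = Φ * (1 - ev R Φ • Φ⁻¹) := fun R => by
      rw [Algebra.smul_def, mul_sub, mul_one, mul_left_comm, mul_inv_cancel₀ hΦ0, mul_one]
    simp only [e, mul_zpow, Finset.prod_mul_distrib]
    have hsum : ∀ s' : Finset (Place K F),
        ∏ R ∈ s', Φ ^ R.ord f = Φ ^ (∑ R ∈ s', R.ord f) := by
      intro s'
      induction s' using Finset.induction with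
      | empty => simp
      | insert a s' ha ih => rw [Finset.prod_insert ha, Finset.sum_insert ha, zpow_add₀ hΦ0, ih]
    rw [hsum, divOf_degree_sum, zpow_zero, one_mul]
  rw [hprod] at h1
  have hterm1 : ∀ R ∈ s, OrdGE w₁ 0 ((1 - ev R Φ • Φ⁻¹) ^ R.ord f) ∧
      ev w₁ ((1 - ev R Φ • Φ⁻¹) ^ R.ord f) = 1 := fun R _ => by
    have hb := ordGE_of_le (f := Φ⁻¹) (v := w₁) (c := 0) hw₁.le
    have he : ev w₁ (1 - ev R Φ • Φ⁻¹) = 1 := by
      rw [ev_sub _ (ordGE_one _) (hb.smul _), ev_one, ev_smul _ _ hb,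
        (ev_eq_zero_iff _ hb).2 (ordGE_of_le hw₁), mul_zero, sub_zero]
    obtain ⟨h2, h3⟩ := ord_eq_zero_of_ev_ne ((ordGE_one w₁).sub (hb.smul (ev R Φ)))
      (by rw [he]; exact one_ne_zero)
    obtain ⟨h4, h5⟩ := ev_zpow w₁ h2 h3 (R.ord f)
    exact ⟨ordGE_of_le h4.ge, h5.trans (by rw [he, one_zpow])⟩
  obtain ⟨hq1, hq2⟩ := ev_prod w₁ s fun R hR => (hterm1 R hR).1
  rw [ev_mul _ (ordGE_algebraMap _ _) hq1, ev_const, hq2,
    Finset.prod_congr rfl fun R hR => (hterm1 R hR).2, Finset.prod_const_one, mul_one] at h1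
  -- compare
  have hsupp : (divOf K Φ).support = zerosOf K Φ ∪ zerosOf K Φ⁻¹ := by
    ext v
    simp only [Finsupp.mem_support_iff, divOf_apply, Finset.mem_union, mem_zerosOf, v.ord_inv]
    omega
  have hd : Disjoint (zerosOf K Φ) (zerosOf K Φ⁻¹) := by
    rw [Finset.disjoint_left]
    intro v h2 h3
    rw [mem_zerosOf] at h2
    rw [mem_zerosOf, v.ord_inv] at h3
    omega
  have hc0 : ∏ v ∈ zerosOf K Φ⁻¹, ev v f ^ (v.ord Φ⁻¹).toNat ≠ 0 :=
    Finset.prod_ne_zero_iff.2 fun v hv => pow_ne_zero _ (ev_ne_zero_of_ord hf0 (hdisj v (by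
      rw [mem_zerosOf, v.ord_inv] at hv; omega)))
  rw [hsupp, Finset.prod_union hd]
  have e0 : ∀ v ∈ zerosOf K Φ, ev v f ^ v.ord Φ = ev v f ^ (v.ord Φ).toNat := fun v hv => by
    rw [mem_zerosOf] at hv
    rw [← zpow_natCast, Int.toNat_of_nonneg hv.le]
  have e1 : ∀ v ∈ zerosOf K Φ⁻¹, ev v f ^ v.ord Φ = (ev v f ^ (v.ord Φ⁻¹).toNat)⁻¹ := fun v hv => by
    rw [mem_zerosOf] at hv
    rw [← zpow_natCast, Int.toNat_of_nonneg hv.le, v.ord_inv, ← zpow_neg, neg_neg]
  rw [Finset.prod_congr rfl e0, Finset.prod_congr rfl e1, Finset.prod_inv_distrib, ← h0, ← h1]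
  rw [← h1] at hc0
  rw [mul_comm c, mul_assoc, mul_inv_cancel₀ hc0, mul_one]
  simp only [neg_eq_neg_one_mul (ev _ Φ), mul_zpow, Finset.prod_mul_distrib]
  have hsum : ∀ s' : Finset (Place K F),
      ∏ R ∈ s', (-1 : K) ^ R.ord f = (-1) ^ (∑ R ∈ s', R.ord f) := by
    intro s'
    induction s' using Finset.induction with
    | empty => simp
    | insert a s' ha ih =>
      rw [Finset.prod_insert ha, Finset.sum_insert ha,
        zpow_add₀ (neg_ne_zero.2 one_ne_zero), ih]
  rw [hsum, divOf_degree_sum, zpow_zero, one_mul]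

end FLTAgent.MazurPrinciple
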