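import Fermat.Agent.MazurPrinciple.Moved
import Fermat.Agent.MazurPrinciple.PlaceLift
import Fermat.Agent.MazurPrinciple.PowerDiv

/-!
# The reductions of a representative are `p`-th powers

Were the first reduction not a `p`-th power, its divisor divided by `p` would give a torsion class
of the special fibre of level `M` with the forbidden system of eigenvalues.
-/

set_option autoImplicit false
set_option linter.style.haveILetI false
set_option linter.unusedSectionVars false
set_option synthInstance.maxHeartbeats 400000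
set_option maxHeartbeats 1000000

noncomputable section

open AlgebraicCurve ModularCurve IsLocalRing

namespace FLTAgent.MazurPrinciple

open FLTAgent.Curves FLTAgent.Specialization FLTAgent.BadRed
open FLTAgent.EigenLattice (pushPic)
open FLTAgent.Kronecker (eq_of_principal_of_bounded abs_single_apply_le)

local notation "QA" => AlgebraicClosure ℚ
local notation "GG" => (AlgebraicClosure ℚ ≃ₐ[ℚ] AlgebraicClosure ℚ)

section Power

variable {L k : Type*} [Field L] [Field k] {A : ValuationSubring L} {π : A →+* k}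
  {FC Fb F : Type*} [Field FC] [Field Fb] [Field F] [Algebra L FC]
  [Algebra k Fb] [Algebra L F] [IsAlgClosed L] [IsFunctionField L FC] [IsFunctionField L F]
  [IsAlgClosed k] [IsFunctionField k Fb] {p : ℕ} [Fact p.Prime] [CharP k p]
  {S : Sheet π FC Fb F p}

/-- The product of the two reductions is a power when the norm is one. -/
theorem exists_mul_eq_pow {f : F} {c : L} {h : FC} (hh : h ≠ 0)
    (he : @Algebra.norm FC F _ _ (algebraAlong S.α) f = c • h ^ p)
    {c₁ c₂ : L} {a₁ a₂ b : Fb} (ha₁ : a₁ ≠ 0) (ha₂ : a₂ ≠ 0) (r₁ : S.R₁.Res (c₁ • f) a₁)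
    (r₂ : S.R₂.Res (c₂ • f) a₂) (hb : S.V b = a₂ ^ p) : ∃ g : Fb, a₁ * b = g ^ p := by
  have hp : p ≠ 0 := (Fact.out : p.Prime).ne_zero
  have hb0 : b ≠ 0 := fun h0 => ha₂ ((pow_eq_zero_iff hp).1 (by rw [← hb, h0, map_zero]))
  have hr := S.exists_norm_res (fun x y => pow_inj_Eb k) ha₁ ha₂ r₁ r₂ hb
  rw [he, smul_smul] at hr
  obtain ⟨e, g, hg, heg⟩ := S.MC.scaled h hh
  have hp' := heg.pow p
  rw [_root_.smul_pow] at hp'
  obtain ⟨l, hl, hlg⟩ := res_proportional hp' (pow_ne_zero p hg) hr (mul_ne_zero ha₁ hb0)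
  obtain ⟨r, hr'⟩ := IsAlgClosed.exists_pow_nat_eq l (Nat.pos_of_ne_zero hp)
  exact ⟨algebraMap k Fb r * g, by rw [mul_pow, ← map_pow, hr', hlg]⟩

/-- The second reduction is a power when the first one is. -/
theorem exists_root_of_relation (hroot : ∀ φ : Fb, ∃ ψ, S.V φ = ψ ^ p) {g₁ g₂ γ₁ Γ b : Fb}
    (hγ : γ₁ ≠ 0) (h₁ : g₁ = γ₁ ^ p) (hΓ : g₁ * b = Γ ^ p) (hb : S.V b = g₂ ^ p) :
    ∃ γ₂ : Fb, g₂ = γ₂ ^ p := by
  obtain ⟨ψ, hψ⟩ := hroot (Γ / γ₁)
  refine ⟨ψ, pow_inj_Eb k (p := p) ?_⟩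
  have hb' : b = (Γ / γ₁) ^ p := by
    rw [div_pow, eq_div_iff (pow_ne_zero _ hγ), ← hΓ, h₁, mul_comm]
  rw [← hb, hb', map_pow, hψ]

end Power

section At

variable {p : ℕ} [Fact p.Prime] [NeZero p] {M : ℕ} [NeZero M] [NeZero (M * p)] (hpM : ¬ p ∣ M)
  {A : ValuationSubring QA} [IsAlgClosed (ResidueField A)] [CharP (ResidueField A) p]
  [Curves.IsFunctionField (ResidueField A) (modularFunctionFieldFullC (ResidueField A) M)]
  (hA : A.LiesOverPrime p) (hp5 : InRange p M)
  {ζ : QA} {G : Subgroup GG} {σ₀ : GG} (hW : WildData hA ζ G σ₀)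

local notation "kk" => ResidueField A
local notation "galN" => arithmeticGalois (modularFunctionFieldFull (M * p))

include hA hpM hp5 in
/-- A class reduces to zero exactly when its divisor does so up to principal divisors. -/
theorem reduction_eq_zero_iff
    (hM : (modularModel (π := residue A) residue_surjective M (natCast_ne_zero hpM kk)).Smooth)
    (D : Divisor.degZero (K := QA) (F := X0Bar M)) :
    reductionModL A M (Pic0.mk D) = 0 ↔
      Divisor.IsPrincipal (Model.divMap hM (D : Divisor QA (X0Bar M))) := by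
  classical
  have hgood : ∀ (N : ℕ) [NeZero N], auxLevel p ∣ N → ¬ p ∣ N → GoodLevel A N :=
    fun N _ h1 h2 => GoodModel.goodLevel hA N h1 h2
  have h : ReductionInputsModL A M := reductionInputsModL hA hgood M hpM
  haveI := instIsFunctionFieldX0Bar M
  have hpl := isPlaceReductionAlong_place (natCast_ne_zero hpM kk) hM
  have hgen := principalGeneratedByIntegral hA M hpM
  have hpr := isPlaceReductionModL_placeReductionModL h
  have hagree : ∀ D : Divisor QA (modularFunctionFieldBar M), Divisor.degree D = 0 →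
      Finsupp.mapDomain (placeReductionModL h) D = Model.divMap hM D := fun D hD =>
    eq_of_principal_of_bounded
      (Finsupp.mapDomain.addMonoidHom (placeReductionModL h)) (Model.divMap hM) 1
      (fun P Q => by
        rw [Finsupp.mapDomain.addMonoidHom_apply, Finsupp.mapDomain_single]
        exact_mod_cast abs_single_apply_le _ _)
      (fun P Q => by
        rw [Model.divMap_single]
        exact_mod_cast abs_single_apply_le _ _)
      (fun E hE => Specialization.mapDomain_eq_of_principal hpr hpl hgen hE) hD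
  rw [reductionModL_mk h, ← hagree _ (Divisor.mem_degZero.1 D.2)]
  refine (QuotientAddGroup.eq_zero_iff _).trans ?_
  rw [AddSubgroup.mem_addSubgroupOf, coe_reductionDegZeroAlong]
  exact Iff.rfl

include hA in
/-- The eigen relation read on norms. -/
theorem exists_norm_relation {r : ℕ} [Fact r.Prime] [NeZero r] {f : X0Bar (M * p)} (hf : f ≠ 0)
    {D : Divisor.degZero (K := QA) (F := X0Bar (M * p))}
    (hD : ∀ v, v.ord f = (p : ℤ) * (D : Divisor QA (X0Bar (M * p))) v) {a : ℤ}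
    (heig : heckeOperatorAlong QA (M * p) r (Pic0.mk D) = a • Pic0.mk D) :
    ∃ (c : QA) (w : X0Bar (M * p)), c ≠ 0 ∧ w ≠ 0 ∧
      Kronecker.normAlpha (M * p) r (heckeBetaBar QA (M * p) r f) = c • (f ^ a * w ^ p) := by
  classical
  haveI : NeZero (M * p * r) := ⟨mul_ne_zero (NeZero.ne _) (NeZero.ne r)⟩
  haveI := instIsFunctionFieldX0Bar (M * p)
  haveI := instIsFunctionFieldX0Bar (M * p * r)
  haveI : HasPrincipalDivisors QA (modularFunctionFieldBar (M * p * r)) :=
    FLTAgent.Curves.hasPrincipalDivisors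
  have hα : HeckeAlphaBarIntegral QA (M * p) r := Kronecker.isIntegralAlong _
  have hβ : HeckeBetaBarIntegral QA (M * p) r := Kronecker.isIntegralAlong _
  obtain ⟨hTd, hTeq⟩ := Kronecker.heckeOperatorAlong_mk (M * p) r hα hβ D
  rw [hTeq] at heig
  obtain ⟨w, hw, hwv⟩ := AddSubgroup.mem_addSubgroupOf.1 (QuotientAddGroup.eq_iff_sub_mem.1
    (heig.trans (QuotientAddGroup.mk_zsmul _ _ a).symm))
  have hE : ∀ P, ((p : ℤ) • (D : Divisor QA (X0Bar (M * p)))) P = P.ord f := fun P => by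
    rw [Finsupp.smul_apply, smul_eq_mul, hD]
  set Nf := Kronecker.normAlpha (M * p) r (heckeBetaBar QA (M * p) r f)
  have hNf : Nf ≠ 0 := by
    letI := algebraAlong (heckeAlphaBar QA (M * p) r)
    haveI := isScalarTower_along (heckeAlphaBar QA (M * p) r)
    haveI : Module.Finite (X0Bar (M * p)) (X0Bar (M * p * r)) :=
      Kronecker.finiteAlong (heckeAlphaBar QA (M * p) r)
    exact Algebra.norm_ne_zero_iff.2 ((map_ne_zero _).2 hf)
  have hd : f ^ a * w ^ p ≠ 0 := mul_ne_zero (zpow_ne_zero _ hf) (pow_ne_zero _ hw)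
  obtain ⟨c, hc⟩ := Curves.eq_algebraMap_of_forall_ord_nonneg (K := QA)
    (f := Nf / (f ^ a * w ^ p)) fun v => by
      have h1 := Kronecker.heckeDivBar_apply_of_ord hα hβ hf hE v
      rw [map_zsmul, Finsupp.smul_apply, smul_eq_mul] at h1
      have h2 := hwv v
      rw [AddSubgroupClass.coe_sub, Finsupp.sub_apply, AddSubgroupClass.coe_zsmul,
        Finsupp.smul_apply, smul_eq_mul] at h2
      rw [Curves.ord_div v hNf hd, v.ord_mul (zpow_ne_zero _ hf) (pow_ne_zero _ hw), v.ord_zpow,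
        Curves.ord_pow, hD, ← h2, ← h1]
      linarith [mul_sub (p : ℤ) (heckeDivBar hα hβ (D : Divisor QA (X0Bar (M * p))) v)
        (a * (D : Divisor QA (X0Bar (M * p))) v)]
  refine ⟨c, w, fun h0 => ?_, hw, ?_⟩
  · rw [h0, map_zero] at hc
    exact div_ne_zero hNf hd hc
  · rw [Algebra.smul_def, ← hc, div_mul_cancel₀ _ hd]

variable (U : UnitData (sheetAt hpM hA))

include hp5 in
/-- The two transfers at a prime not dividing `Mp`. -/
theorem exists_transfer (hub : (U.ub : LaurentSeries kk) = unitSer kk p)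
    (hM : (modularModel (π := residue A) residue_surjective M (natCast_ne_zero hpM kk)).Smooth)
    {r : ℕ} [Fact r.Prime] [NeZero r] (hr : ¬ r ∣ M * p) {f : X0Bar (M * p)} (hf : f ≠ 0)
    {D : Divisor.degZero (K := QA) (F := X0Bar (M * p))}
    (hD : ∀ v, v.ord f = (p : ℤ) * (D : Divisor QA (X0Bar (M * p))) v) {a : ℤ}
    (heig : heckeOperatorAlong QA (M * p) r (Pic0.mk D) = a • Pic0.mk D)
    {d : QA} {g : modularFunctionFieldFullC kk M} (hg : g ≠ 0)
    (hres : (sheetAt hpM hA).R₁.Res (d • f) g)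
    [HasPrincipalDivisors QA (modularFunctionFieldBar (M * r))]
    (hα : HeckeAlphaBarIntegral QA M r) (hβ : HeckeBetaBarIntegral QA M r) :
    ∃ (T : Divisor kk (modularFunctionFieldFullC kk M) →+
        Divisor kk (modularFunctionFieldFullC kk M)) (ω : modularFunctionFieldFullC kk M), ω ≠ 0 ∧
      (∀ D, T (Model.divMap hM D) = Model.divMap hM (heckeDivBar hα hβ D)) ∧
      T (Curves.divOf kk U.ub) = ((r : ℤ) + 1) • Curves.divOf kk U.ub ∧
      T (Curves.divOf kk g) = a • Curves.divOf kk g + (p : ℤ) • Curves.divOf kk ω := by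
  classical
  set L := laurentReduction (residue A) (X0Bar (M * p))
  obtain ⟨T, R, E, hE, hTdiv, hR0, hR, hT⟩ := exists_residual_hecke (natCast_ne_zero hpM kk) hM
    (principalGeneratedByIntegral hA M hpM) (dvd_mul_right M p) hr hα hβ
  have hconst : ∀ (c : kk), c ≠ 0 → ∀ z : modularFunctionFieldFullC kk M, z ≠ 0 →
      Curves.divOf kk (algebraMap kk _ c * z) = Curves.divOf kk z := fun c hc z hz => by
    rw [Specialization.divOf_mul ((_root_.map_ne_zero _).2 hc) hz, Specialization.divOf_algebraMap,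
      zero_add]
  obtain ⟨c, w, hc, hw, hnorm⟩ := exists_norm_relation hA hf hD heig
  obtain ⟨e, ω, hω, hwres⟩ := (sheetAt hpM hA).scaled₁ w hw
  refine ⟨T, ω, hω, hTdiv, ?_, ?_⟩
  · obtain ⟨cu, hcu, hRu⟩ := exists_unit_norm (A := A) hr hR hR0
    obtain ⟨G, -, hTG, hG⟩ := hT U.ub U.ub_ne
    rw [hub, hRu] at hG
    have e1 : G = algebraMap kk _ cu * U.ub ^ (r + 1) := Subtype.ext (by
      rw [qExpand_injective (R := kk) E hG, MulMemClass.coe_mul,
        IntermediateField.coe_algebraMap_apply, IntermediateField.coe_pow, hub])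
    rw [hTG, e1, hconst cu hcu _ (pow_ne_zero _ U.ub_ne)]
    refine Finsupp.ext fun v => ?_
    rw [Curves.divOf_apply, Finsupp.smul_apply, Curves.divOf_apply, Curves.ord_pow, smul_eq_mul]
    push_cast
    ring
  · obtain ⟨c₀, c', z, G₀, hz, hG₀, hrz, hrG, hRz⟩ := exists_norm_red hA hR0 hR hf
    -- the reduction of `f`
    have hL : L.Res (d • f) (g : LaurentSeries kk) :=
      (sheet_res₁_iff hpM residue_surjective (rankOne_residue hA)).1 hres
    have hgs : (g : LaurentSeries kk) ≠ 0 := fun h0 => hg (Subtype.ext h0)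
    obtain ⟨l, hl, hlz⟩ := res_proportional hL hgs hrz hz
    -- the reduction of the norm
    have hprod : (sheetAt hpM hA).R₁.Res ((d ^ a * e ^ p) • (f ^ a * w ^ p)) (g ^ a * ω ^ p) := by
      have h1 := (res_zpow hres hg a).mul (hwres.pow p)
      convert h1 using 1
      simp only [Algebra.smul_def, mul_zpow, mul_pow, map_mul, map_pow, map_zpow₀]
      ring
    have hgω : g ^ a * ω ^ p ≠ 0 := mul_ne_zero (zpow_ne_zero _ hg) (pow_ne_zero _ hω)
    have hL' : L.Res ((d ^ a * e ^ p) • (f ^ a * w ^ p))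
        ((g ^ a * ω ^ p : modularFunctionFieldFullC kk M) : LaurentSeries kk) :=
      (sheet_res₁_iff hpM residue_surjective (rankOne_residue hA)).1 hprod
    rw [hnorm, smul_smul] at hrG
    obtain ⟨m, hm, hmG⟩ := res_proportional hL' (fun h0 => hgω (Subtype.ext h0)) hrG hG₀
    obtain ⟨G, hG, hTG, hGR⟩ := hT (algebraMap kk _ l * g)
      (mul_ne_zero ((_root_.map_ne_zero _).2 hl) hg)
    rw [MulMemClass.coe_mul, IntermediateField.coe_algebraMap_apply, ← hlz, ← hRz, hmG] at hGR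
    have e2 : G = algebraMap kk _ m * (g ^ a * ω ^ p) := Subtype.ext (by
      rw [qExpand_injective (R := kk) E hGR]
      simp only [MulMemClass.coe_mul, IntermediateField.coe_algebraMap_apply])
    rw [hconst l hl g hg, e2, hconst m hm _ hgω,
      Specialization.divOf_mul (zpow_ne_zero _ hg) (pow_ne_zero _ hω)] at hTG
    rw [hTG]
    refine Finsupp.ext fun v => ?_
    simp only [Finsupp.add_apply, Finsupp.smul_apply, Curves.divOf_apply, smul_eq_mul,
      Place.ord_zpow, Curves.ord_pow]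

set_option maxHeartbeats 4000000 in
include hp5 in
/-- **The first reduction is a `p`-th power.** -/
theorem exists_root_first (U₀ : UnitData (sheetAt hpM hA))
    (hub : (U₀.ub : LaurentSeries kk) = unitSer kk p) {c d : ℤ} (hc : c ≠ 0)
    (hcd : ∀ P : Place kk (modularFunctionFieldFullC kk M),
      0 ≤ P.ord (modularModel (π := residue A) residue_surjective M (natCast_ne_zero hpM kk)).xb →
      c * P.ord U.ub = d * P.ord U₀.ub)
    {s : Place kk (modularFunctionFieldFullC kk M)} (hs : s ∈ U.nodes)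
    (hso : ¬ (p : ℤ) ∣ s.ord U.ub)
    {f : X0Bar (M * p)} (hf : f ≠ 0)
    {D : Divisor.degZero (K := QA) (F := X0Bar (M * p))}
    (hD : ∀ v, v.ord f = (p : ℤ) * (D : Divisor QA (X0Bar (M * p))) v)
    {d₁ d₂ : QA} (hd₁ : d₁ ≠ 0) (hd₂ : d₂ ≠ 0) {g₁ g₂ ψ₀ Γ : modularFunctionFieldFullC kk M}
    (hg₁ : g₁ ≠ 0) (hg₂ : g₂ ≠ 0)
    (hr₁ : (sheetAt hpM hA).R₁.Res (d₁ • f) g₁) (hr₂ : (sheetAt hpM hA).R₂.Res (d₂ • f) g₂)
    (hψ : (sheetAt hpM hA).V ψ₀ = g₂ ^ p) (hΓ : g₁ * ψ₀ = Γ ^ p)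
    (hcross : ∀ s ∈ U.nodes, ∀ t ∈ U.nodes,
      (p : ℤ) ∣ t.ord g₁ * s.ord U.ub - s.ord g₁ * t.ord U.ub)
    (S : Finset ℕ) (a : ℕ → ℤ)
    (hl : ∃ l : ℕ, l.Prime ∧ ¬ l ∣ M * p ∧ l ∉ S ∧ ¬ (p : ℤ) ∣ a l - (l + 1))
    (hNo : NoResidualSystem A p M S a)
    (heig : ∀ l : ℕ, ∀ [NeZero l], l.Prime → ¬ l ∣ M * p → l ∉ S →
      heckeOperatorAlong QA (M * p) l (Pic0.mk D) = a l • Pic0.mk D) :
    ∃ γ₁ : modularFunctionFieldFullC kk M, γ₁ ≠ 0 ∧ g₁ = γ₁ ^ p := by
  classical
  have hp : p.Prime := Fact.out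
  have hpp : Prime (p : ℤ) := Nat.prime_iff_prime_int.1 hp
  have hpz : (p : ℤ) ≠ 0 := Int.natCast_ne_zero.2 hp.ne_zero
  haveI := instIsFunctionFieldX0Bar M
  haveI := instIsFunctionFieldX0Bar (M * p)
  set MC := modularModel (π := residue A) residue_surjective M (natCast_ne_zero hpM kk)
  have hnodes : ∀ P, P ∈ U.nodes ↔ 0 ≤ P.ord MC.xb ∧ 0 < P.ord U.ub := fun P => U.mem_nodes
  have hreg : IntegralWrt kk MC.xb U.ub := U.ub_reg
  have hM : MC.Smooth := smooth_level hpM hA hp5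
  -- the multiple of the measuring function
  obtain ⟨x, y, hxy⟩ := (hpp.coprime_iff_not_dvd.2 hso)
  set i := s.ord g₁ * y
  have hoff : ∀ P, P ∉ U.nodes → (p : ℤ) ∣ P.ord g₁ := fun P hP =>
    ord_dvd_of_notMem U (ratVal hA) (sheetAt_good hpM hA hp5) hf _ hD hd₁ hd₂ hg₁ hg₂ hr₁ hr₂
      (fun z => ⟨_, specialV_coeffMap M p z⟩) hψ (fun Q => by
        rw [← Q.ord_mul hg₁ (fun h0 => hg₂ ?_), hΓ, Curves.ord_pow]
        · exact dvd_mul_right _ _
        · exact (pow_eq_zero_iff hp.ne_zero).1 (by rw [← hψ, h0, map_zero])) hP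
  set Cc : Divisor kk (modularFunctionFieldFullC kk M) :=
    (Curves.divOf kk U.ub).filter fun P => P.ord MC.xb < 0 with hCc
  set R₀ := Curves.divOf kk g₁ - i • (Curves.divOf kk U.ub - Cc) with hR₀
  have hR₀v : ∀ P, (p : ℤ) ∣ R₀ P := by
    intro P
    simp only [hR₀, hCc, Finsupp.sub_apply, Finsupp.smul_apply, smul_eq_mul, Finsupp.filter_apply,
      Curves.divOf_apply]
    by_cases hn : P ∈ U.nodes
    · obtain ⟨hfin, -⟩ := (hnodes _).1 hn
      rw [if_neg (not_lt.2 hfin), sub_zero]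
      obtain ⟨q, hq⟩ := hcross s hs P hn
      refine ⟨x * P.ord g₁ + y * q, ?_⟩
      simp only [i]
      linear_combination -(P.ord g₁) * hxy + y * hq
    · by_cases hfin : P.ord MC.xb < 0
      · rw [if_pos hfin, sub_self, mul_zero, sub_zero]; exact hoff P hn
      · have h0 : P.ord U.ub = 0 := by
          have h1 := (hreg P (not_lt.1 hfin)).le_ord U.ub_ne
          have h2 : ¬ 0 < P.ord U.ub := fun h => hn ((hnodes _).2 ⟨not_lt.1 hfin, h⟩)
          omega
        rw [if_neg hfin, h0, sub_zero, mul_zero, sub_zero]; exact hoff P hn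
  set E' := fdiv p R₀
  have hE' : (p : ℤ) • E' = R₀ := Finsupp.ext fun P => by
    rw [Finsupp.smul_apply, smul_eq_mul, fdiv_apply, Int.mul_ediv_cancel' (hR₀v P)]
  -- the multiple vanishes modulo `p`
  obtain ⟨l₀, hl₀, hl₀M, hl₀S, hl₀a⟩ := hl
  have hi : (p : ℤ) ∣ i := by
    haveI : Fact l₀.Prime := ⟨hl₀⟩
    haveI : NeZero l₀ := ⟨hl₀.ne_zero⟩
    haveI : NeZero (M * l₀) := ⟨mul_ne_zero (NeZero.ne M) hl₀.ne_zero⟩
    haveI := instIsFunctionFieldX0Bar (M * l₀)
    haveI : HasPrincipalDivisors QA (modularFunctionFieldBar (M * l₀)) :=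
      FLTAgent.Curves.hasPrincipalDivisors
    have hα : HeckeAlphaBarIntegral QA M l₀ := Kronecker.isIntegralAlong _
    have hβ : HeckeBetaBarIntegral QA M l₀ := Kronecker.isIntegralAlong _
    obtain ⟨T, ω, hω, hTdiv, hTu, hTg⟩ := exists_transfer hpM hA hp5 U₀ hub hM hl₀M hf hD
      (heig l₀ hl₀ hl₀M hl₀S) hg₁ hr₁ hα hβ
    have hsfin := ((hnodes _).1 hs).1
    have hTC : ∀ C₀ : Divisor kk (modularFunctionFieldFullC kk M),
        (∀ P, C₀ P ≠ 0 → P.ord MC.xb < 0) → T C₀ s = 0 := by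
      intro C₀ hC₀
      obtain ⟨D₀, hD₀, hD₀p⟩ := exists_divMap_pole hM C₀ hC₀
      rw [← hD₀, hTdiv]
      by_contra hne
      obtain ⟨Q, hQ, hQs⟩ := exists_of_divMap_ne hM hne
      have hx : MC.x = Kronecker.jEl M := modelX_eq residue_surjective (natCast_ne_zero hpM kk)
      have hQ' := hecke_cusp hα hβ (fun v hv => hx ▸ hD₀p v hv) Q hQ
      have := place_pole hM (Q := Q) (by rw [hx]; exact hQ')
      rw [hQs] at this
      exact absurd this (not_lt.2 hsfin)
    set C₁ : Divisor kk (modularFunctionFieldFullC kk M) :=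
      (Curves.divOf kk U₀.ub).filter fun P => P.ord MC.xb < 0 with hC₁
    have hC₁p : ∀ P, C₁ P ≠ 0 → P.ord MC.xb < 0 := fun P hP => by
      rw [hC₁, Finsupp.filter_apply, ite_ne_right_iff] at hP; exact hP.1
    have hC₁s : C₁ s = 0 := by rw [hC₁, Finsupp.filter_apply, if_neg (not_lt.2 hsfin)]
    have hfin : c • (Curves.divOf kk U.ub - Cc) = d • (Curves.divOf kk U₀.ub - C₁) :=
      Finsupp.ext fun P => by
        simp only [hCc, hC₁, Finsupp.smul_apply, Finsupp.sub_apply, Finsupp.filter_apply,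
          smul_eq_mul, Curves.divOf_apply]
        by_cases hP : P.ord MC.xb < 0
        · rw [if_pos hP, if_pos hP, sub_self, sub_self, mul_zero, mul_zero]
        · rw [if_neg hP, if_neg hP, sub_zero, sub_zero, hcd P (not_lt.1 hP)]
    have hTs : T (Curves.divOf kk U.ub - Cc) s = ((l₀ : ℤ) + 1) * s.ord U.ub := by
      refine mul_left_cancel₀ hc ?_
      have h := congrArg (fun D => T D s) hfin
      simp only [map_zsmul, map_sub, hTu, Finsupp.smul_apply, Finsupp.sub_apply, smul_eq_mul,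
        Curves.divOf_apply, hTC C₁ hC₁p, sub_zero] at h
      rw [map_sub, Finsupp.sub_apply, h]
      linear_combination -((l₀ : ℤ) + 1) * hcd s hsfin
    have h1 : Curves.divOf kk g₁ = i • (Curves.divOf kk U.ub - Cc) + (p : ℤ) • E' := by
      rw [hE', hR₀]; abel
    have h2 := DFunLike.congr_fun hTg s
    have hCs : Cc s = 0 := by rw [hCc, Finsupp.filter_apply, if_neg (not_lt.2 hsfin)]
    rw [h1, map_add, map_zsmul, map_zsmul] at h2
    simp only [Finsupp.add_apply, Finsupp.smul_apply, Finsupp.sub_apply, smul_eq_mul,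
      Curves.divOf_apply, hTs, hCs, sub_zero] at h2
    have h3 : (p : ℤ) ∣ i * (a l₀ - (l₀ + 1)) * s.ord U.ub :=
      ⟨T E' s - a l₀ * E' s - s.ord ω, by linear_combination -h2⟩
    exact (hpp.dvd_or_dvd ((hpp.dvd_or_dvd h3).resolve_right hso)).resolve_right hl₀a
  set E₁ := fdiv p (Curves.divOf kk g₁)
  have hE₁ : (p : ℤ) • E₁ = Curves.divOf kk g₁ := Finsupp.ext fun P => by
    have h : (p : ℤ) ∣ Curves.divOf kk g₁ P := by
      have h1 := hR₀v P
      simp only [hR₀, Finsupp.sub_apply, Finsupp.smul_apply, smul_eq_mul] at h1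
      have h2 := dvd_add h1 (hi.mul_right (Curves.divOf kk U.ub P - Cc P))
      rwa [sub_add_cancel] at h2
    rw [Finsupp.smul_apply, smul_eq_mul, fdiv_apply, Int.mul_ediv_cancel' h]
  have hdeg₁ : Divisor.degree E₁ = 0 := by
    have h := congrArg Divisor.degree hE₁
    rw [map_zsmul, Curves.degree_divOf, smul_eq_mul] at h
    exact (mul_eq_zero.1 h).resolve_left hpz
  obtain ⟨D₁, hD₁, hdD₁⟩ := exists_divMap_eq hM E₁
  set y₁ : Divisor.degZero (K := QA) (F := X0Bar M) :=
    ⟨D₁, Divisor.mem_degZero.2 (hdD₁.trans hdeg₁)⟩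
  have hred : reductionModL A M (Pic0.mk y₁) = 0 := by
    refine hNo (Pic0.mk y₁) ?_ fun l _ hl hlM hlS => ?_
    · rw [← map_nsmul,
        show p • Pic0.mk y₁ = Pic0.mk (p • y₁) from (QuotientAddGroup.mk_nsmul _ _ _).symm]
      refine (reduction_eq_zero_iff hpM hA hp5 hM _).2 ⟨g₁, hg₁, fun v => ?_⟩
      rw [AddSubgroupClass.coe_nsmul, map_nsmul]
      show ((p : ℕ) • Model.divMap hM D₁) v = _
      rw [hD₁, ← natCast_zsmul, hE₁, Curves.divOf_apply]
    · haveI : Fact l.Prime := ⟨hl⟩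
      haveI : NeZero (M * l) := ⟨mul_ne_zero (NeZero.ne M) hl.ne_zero⟩
      haveI := instIsFunctionFieldX0Bar (M * l)
      haveI : HasPrincipalDivisors QA (modularFunctionFieldBar (M * l)) :=
        FLTAgent.Curves.hasPrincipalDivisors
      have hα : HeckeAlphaBarIntegral QA M l := Kronecker.isIntegralAlong _
      have hβ : HeckeBetaBarIntegral QA M l := Kronecker.isIntegralAlong _
      obtain ⟨T, ω, hω, hTdiv, -, hTg⟩ := exists_transfer hpM hA hp5 U₀ hub hM hlM hf hD
        (heig l hl hlM hlS) hg₁ hr₁ hα hβ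
      obtain ⟨hTd, hTeq⟩ := Kronecker.heckeOperatorAlong_mk M l hα hβ y₁
      have hTE : T E₁ = a l • E₁ + Curves.divOf kk ω := by
        refine smul_right_injective _ hpz ?_
        show (p : ℤ) • T E₁ = (p : ℤ) • (a l • E₁ + Curves.divOf kk ω)
        rw [← map_zsmul, hE₁, hTg, smul_add, ← smul_comm (a l), hE₁]
      rw [hTeq, ← sub_eq_zero, ← map_zsmul, ← map_sub,
        show a l • Pic0.mk y₁ = Pic0.mk (a l • y₁) from (QuotientAddGroup.mk_zsmul _ _ _).symm,
        show Pic0.mk (⟨_, hTd⟩ : Divisor.degZero (K := QA) (F := X0Bar M)) - Pic0.mk (a l • y₁) =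
          Pic0.mk (⟨_, hTd⟩ - a l • y₁) from (QuotientAddGroup.mk_sub _ _ _).symm]
      refine (reduction_eq_zero_iff hpM hA hp5 hM _).2 ⟨ω, hω, fun v => ?_⟩
      rw [AddSubgroupClass.coe_sub, AddSubgroupClass.coe_zsmul, map_sub, map_zsmul]
      show (Model.divMap hM (heckeDivBar hα hβ D₁) - a l • Model.divMap hM D₁) v = _
      rw [← hTdiv, hD₁, hTE, add_sub_cancel_left, Curves.divOf_apply]
  obtain ⟨γ, hγ, hγv⟩ := (reduction_eq_zero_iff hpM hA hp5 hM y₁).1 hred
  obtain ⟨c, hc⟩ := Curves.eq_algebraMap_of_forall_ord_nonneg (K := kk) (f := g₁ / γ ^ p)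
    fun v => by
      have h1 := hγv v
      change Model.divMap hM D₁ v = _ at h1
      rw [hD₁] at h1
      have h2 := DFunLike.congr_fun hE₁ v
      rw [Finsupp.smul_apply, smul_eq_mul, Curves.divOf_apply, h1] at h2
      rw [Curves.ord_div v hg₁ (pow_ne_zero _ hγ), Curves.ord_pow, h2, sub_self]
  obtain ⟨r, hr⟩ := IsAlgClosed.exists_pow_nat_eq c hp.pos
  have he : g₁ = (algebraMap kk _ r * γ) ^ p := by
    rw [mul_pow, ← map_pow, hr, ← hc, div_mul_cancel₀ _ (pow_ne_zero _ hγ)]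
  exact ⟨_, fun h0 => hg₁ (by rw [he, h0, zero_pow hp.ne_zero]), he⟩

end At

end FLTAgent.MazurPrinciple
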