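import Fermat.Agent.MazurPrinciple.Interface
import Fermat.Agent.MazurPrinciple.Invariant
import Fermat.Agent.MazurPrinciple.Kappa
import Fermat.Agent.MazurPrinciple.Rep

/-!
# Norms of a fixed representative, and their movement under inertia
-/

set_option autoImplicit false
set_option linter.style.haveILetI false
set_option linter.unusedSectionVars false
set_option synthInstance.maxHeartbeats 400000
set_option maxHeartbeats 1000000

noncomputable section

open AlgebraicCurve ModularCurve IsLocalRing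

namespace FLTAgent.MazurPrinciple

open FLTAgent.Curves FLTAgent.Specialization FLTAgent.BadRed
open FLTAgent.EigenLattice (pushPic isPrincipal_of_pushPic_eq_zero pushforwardAlong_smul
  exists_level_function)

local notation "QA" => AlgebraicClosure ℚ
local notation "GG" => (AlgebraicClosure ℚ ≃ₐ[ℚ] AlgebraicClosure ℚ)

theorem exists_v_eq {A : ValuationSubring QA} {k : Type*} [Field k] [IsAlgClosed k] {π : A →+* k}
    {p : ℕ} [Fact p.Prime]
    (V : RatVal π p) (r : ℚ) : ∃ x : QA, x ≠ 0 ∧ V.v x = r := by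
  obtain ⟨x, hx⟩ := IsAlgClosed.exists_pow_nat_eq ((p : QA) ^ r.num) r.pos
  have hp : (p : QA) ^ r.num ≠ 0 := zpow_ne_zero _ V.p_ne
  have hx0 : x ≠ 0 := fun h => by
    rw [h, zero_pow r.pos.ne'] at hx
    exact hp hx.symm
  refine ⟨x, hx0, ?_⟩
  have h := congrArg V.v hx
  rw [V.v_pow hx0, RatVal.v_zpow V V.p_ne, V.v_p, mul_one] at h
  rw [← Rat.num_div_den r, eq_div_iff (by exact_mod_cast r.pos.ne'), mul_comm, h]

section Orbit

variable {N : ℕ} [NeZero N]

local notation "gal" => arithmeticGalois (modularFunctionFieldFull N)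

/-- The Galois orbit of a function spans a stable space of finite dimension. -/
theorem exists_orbit_space (h : X0Bar N) :
    ∃ U : Submodule QA (X0Bar N), FiniteDimensional QA U ∧ h ∈ U ∧
      ∀ σ : GG, ∀ f ∈ U, gal σ • f ∈ U := by
  classical
  obtain ⟨L, hL, hfix⟩ := exists_level_function N h
  haveI := hL
  set O : Set (X0Bar N) := Set.range fun σ : GG => gal σ • h
  have hfin : O.Finite := by
    have hinj : ∀ σ τ : GG, (σ : QA →ₐ[ℚ] QA).comp L.val = (τ : QA →ₐ[ℚ] QA).comp L.val →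
        gal σ • h = gal τ • h := by
      intro σ τ e
      have h1 : gal (τ⁻¹ * σ) • h = h := hfix _ fun a ha => by
        have h2 : σ a = τ a := DFunLike.congr_fun e ⟨a, ha⟩
        show τ⁻¹ (σ a) = a
        rw [h2]
        exact τ.symm_apply_apply a
      conv_lhs => rw [show σ = τ * (τ⁻¹ * σ) by group, map_mul, mul_smul, h1]
    let pick : (L →ₐ[ℚ] QA) → X0Bar N := fun g =>
      if hg : ∃ σ : GG, (σ : QA →ₐ[ℚ] QA).comp L.val = g then gal hg.choose • h else 0
    refine (Set.finite_range pick).subset ?_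
    rintro _ ⟨σ, rfl⟩
    refine ⟨(σ : QA →ₐ[ℚ] QA).comp L.val, ?_⟩
    have hg : ∃ τ : GG, (τ : QA →ₐ[ℚ] QA).comp L.val = (σ : QA →ₐ[ℚ] QA).comp L.val := ⟨σ, rfl⟩
    exact (dif_pos hg).trans (hinj _ _ hg.choose_spec)
  refine ⟨Submodule.span QA O, FiniteDimensional.span_of_finite QA hfin,
    Submodule.subset_span ⟨1, by show gal 1 • h = h; rw [map_one, one_smul]⟩, fun σ f hf => ?_⟩
  induction hf using Submodule.span_induction with
  | mem x hx =>
    obtain ⟨τ, rfl⟩ := hx
    exact Submodule.subset_span ⟨σ * τ, by show gal (σ * τ) • h = _; rw [map_mul, mul_smul]⟩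
  | zero => rw [smul_zero]; exact Submodule.zero_mem _
  | add a b _ _ ha hb => rw [smul_add]; exact Submodule.add_mem _ ha hb
  | smul c a _ ha =>
    rw [FlatModel.isArith_galois.smul_smul σ]
    exact Submodule.smul_mem _ _ ha

end Orbit

section Abstract

variable {A : ValuationSubring QA} {k : Type*} [Field k] [IsAlgClosed k] {π : A →+* k}
  (hπ : Function.Surjective π) {E Eb : Type*} [Field E] [Field Eb] [Algebra QA E] [Algebra k Eb]
  {R : Reduction π E Eb} {p : ℕ} [Fact p.Prime] (V : RatVal π p)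

include hπ V in
/-- A combination of a fixed basis is moved by less than its coefficients. -/
theorem exists_comb_close {n : ℕ} {v : Fin n → E} {w : Fin n → Eb}
    (hvw : ∀ i, R.Res (v i) (w i)) (hw : LinearIndependent k w) (b : Fin n → A) {j : Fin n}
    (hj : b j = 1) {σ : QA → QA} {δ : ℚ} (hgt : ∀ i, V.GT δ (σ (b i : QA) - b i)) :
    (∑ i, (b i : QA) • v i) ≠ 0 ∧ ∃ s : QA, s ≠ 0 ∧ δ < -V.v s ∧
      s • ((∑ i, σ (b i : QA) • v i) / (∑ i, (b i : QA) • v i) - 1) ∈ R.O := by
  classical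
  set h' := ∑ i, (b i : QA) • v i
  have hr : R.Res h' (∑ i, π (b i) • w i) :=
    LRed.res_comb (R := toLRed R) (s := Finset.univ) (fun i _ => hvw i) b
  have hg0 : (∑ i, π (b i) • w i) ≠ 0 := fun hz => by
    have h1 := Fintype.linearIndependent_iff.1 hw _ hz j
    rw [hj, map_one] at h1
    exact one_ne_zero h1
  have hh'0 : h' ≠ 0 := hr.ne_zero hg0
  refine ⟨hh'0, ?_⟩
  choose r hr' hrge using fun i => (hgt i).exists_ge V
  haveI : Nonempty (Fin n) := ⟨j⟩
  obtain ⟨i₀, -, hi₀⟩ := Finset.exists_min_image Finset.univ r Finset.univ_nonempty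
  obtain ⟨s, hs0, hsv⟩ := exists_v_eq V (-r i₀)
  refine ⟨s, hs0, by rw [hsv, neg_neg]; exact hr' i₀, ?_⟩
  have hsA : ∀ i, s * (σ (b i : QA) - b i) ∈ A := fun i => by
    rcases eq_or_ne (σ (b i : QA) - b i) 0 with hz | hz
    · rw [hz, mul_zero]; exact A.zero_mem
    rw [V.mem_iff _ (mul_ne_zero hs0 hz), V.v_mul _ _ hs0 hz, hsv]
    linarith [(hrge i).le V hz, hi₀ i (Finset.mem_univ i)]
  have hnum := LRed.res_comb (R := toLRed R) (s := Finset.univ) (fun i _ => hvw i)
    fun i => (⟨_, hsA i⟩ : A)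
  have he : s • ((∑ i, σ (b i : QA) • v i) / h' - 1) =
      (∑ i, (s * (σ (b i : QA) - b i)) • v i) / h' := by
    rw [div_sub_one hh'0, ← smul_div_assoc, ← Finset.sum_sub_distrib, Finset.smul_sum]
    simp only [smul_smul, sub_smul, mul_sub, smul_sub]
  rw [he]
  exact (Reduction.Res.div hnum hr hg0).mem

end Abstract

section At

variable {p : ℕ} [Fact p.Prime] [NeZero p] {M : ℕ} [NeZero M] [NeZero (M * p)] (hpM : ¬ p ∣ M)
  {A : ValuationSubring QA} [IsAlgClosed (ResidueField A)] [CharP (ResidueField A) p]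
  [Curves.IsFunctionField (ResidueField A) (modularFunctionFieldFullC (ResidueField A) M)]
  (hA : A.LiesOverPrime p) (hp5 : InRange p M)
  {ζ : QA} {G : Subgroup GG} {σ₀ : GG} (hW : WildData hA ζ G σ₀)

local notation "kk" => ResidueField A
local notation "galM" => arithmeticGalois (modularFunctionFieldFull M)
local notation "galN" => arithmeticGalois (modularFunctionFieldFull (M * p))

include hpM hp5 hW in
/-- A fixed function of level `M` hardly moves. -/
theorem exists_ratio_close {h : X0Bar M} (h0 : h ≠ 0) (hfix : ∀ σ ∈ G, galM σ • h = h) :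
    ∃ (c : QA) (H : X0Bar M) (s : QA), galM σ₀ • h / h = c • H ∧ s ≠ 0 ∧
      1 / ((p : ℚ) * ((p : ℚ) - 1)) < -(ratVal hA).v s ∧ s • (H - 1) ∈ (sheetAt hpM hA).MC.O := by
  classical
  set V := ratVal hA
  set S := sheetAt hpM hA
  set δ : ℚ := 1 / ((p : ℚ) * ((p : ℚ) - 1))
  obtain ⟨U, hUf, hhU, hU⟩ := exists_orbit_space h
  haveI := hUf
  obtain ⟨n, v, w, hv, hvw, hw, hsp, hvfix⟩ := exists_fixed_basis_level hpM hA (smooth_level hpM hA hp5)
    (G := (A.inertiaSubgroupIn ℚ : Set GG)) subset_rfl U fun σ _ f hf => hU σ f hf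
  obtain ⟨a, ha⟩ := (Submodule.mem_span_range_iff_exists_fun QA).1 (hsp.symm ▸ hhU :
    h ∈ Submodule.span QA (Set.range v))
  have hli := LinearIndependent.of_comp (LinearMap.id) (show LinearIndependent QA
      ((LinearMap.id : X0Bar M →ₗ[QA] X0Bar M) ∘ v) from
    LRed.linearIndependent_of_res (R := toLRed S.MC.toReduction) S.MC.surj hvw hw)
  have hsmul : ∀ σ : GG, σ ∈ A.inertiaSubgroupIn ℚ →
      galM σ • h = ∑ i, σ (a i) • v i := fun σ hσ => by
    rw [← ha, Finset.smul_sum]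
    exact Finset.sum_congr rfl fun i _ => by
      rw [FlatModel.isArith_galois.smul_smul σ, hvfix σ hσ i]
  have haG : ∀ σ ∈ G, ∀ i, σ (a i) = a i := fun σ hσ i => by
    have h1 : ∑ l, (σ (a l) - a l) • v l = 0 := by
      simp only [sub_smul, Finset.sum_sub_distrib, ← hsmul σ (hW.le hσ), hfix σ hσ, ha, sub_self]
    exact sub_eq_zero.1 (Fintype.linearIndependent_iff.1 hli _ h1 i)
  obtain ⟨t, j, ht, hj⟩ := (Reduction.base_total S.MC.surj).exists_scale_family (c := a)
    fun h' => h0 (by simp [← ha, h'])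
  have ht' : ∀ i, t * a i ∈ A := ht
  have ht0 : t ≠ 0 := left_ne_zero_of_mul_eq_one hj
  have htG : ∀ σ ∈ G, σ t = t := fun σ hσ => by
    have h1 := congrArg σ hj
    rw [map_mul, haG σ hσ, map_one, ← hj] at h1
    exact mul_right_cancel₀ (right_ne_zero_of_mul_eq_one hj) h1
  set b : Fin n → A := fun i => ⟨t * a i, ht' i⟩
  have hbG : ∀ σ ∈ G, ∀ i, σ (b i : QA) = b i := fun σ hσ i => by
    show σ (t * a i) = t * a i
    rw [map_mul, htG σ hσ, haG σ hσ i]
  have hgt : ∀ i, V.GT δ (σ₀ (b i : QA) - b i) := fun i => by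
    rcases eq_or_ne (b i : QA) 0 with hz | hz
    · exact Or.inl (by rw [hz, map_zero, sub_self])
    rcases eq_or_ne (V.v (b i : QA)) 0 with hz' | hz'
    · exact hW.move_unit _ hz (fun σ hσ => hbG σ hσ i) hz'
    · have hpos : 0 < V.v (b i : QA) := lt_of_le_of_ne ((V.mem_iff _ hz).1 (b i).2) (Ne.symm hz')
      exact RatVal.GE.gt V (hW.move _ hz fun σ hσ => hbG σ hσ i)
        (by show δ < V.v (b i : QA) + δ; linarith)
  obtain ⟨-, s, hs0, hsv, hs⟩ := exists_comb_close S.MC.surj V (R := S.MC.toReduction) hvw hw b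
    (j := j) (Subtype.ext hj) (σ := σ₀) hgt
  have hb : t • h = ∑ i, (b i : QA) • v i := by
    rw [← ha, Finset.smul_sum]
    exact Finset.sum_congr rfl fun i _ => smul_smul t (a i) (v i)
  have hσb : galM σ₀ • (t • h) = ∑ i, σ₀ (b i : QA) • v i := by
    rw [hb, Finset.smul_sum]
    exact Finset.sum_congr rfl fun i _ => by
      rw [FlatModel.isArith_galois.smul_smul σ₀, hvfix σ₀ hW.mem i]
  rw [← hb, ← hσb] at hs
  refine ⟨t / σ₀ t, galM σ₀ • (t • h) / (t • h), s, ?_, hs0, hsv, hs⟩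
  have hst : σ₀ t ≠ 0 := (map_ne_zero σ₀).2 ht0
  have hgt' : galM σ₀ • (t • h) = σ₀ t • (galM σ₀ • h) :=
    FlatModel.isArith_galois.smul_smul σ₀ t h
  rw [hgt']
  simp only [Algebra.smul_def, map_div₀]
  field_simp [(_root_.map_ne_zero (algebraMap QA (X0Bar M))).2 ht0,
    (_root_.map_ne_zero (algebraMap QA (X0Bar M))).2 hst]

set_option maxHeartbeats 4000000 in
include hpM hp5 hW in
/-- The norm of a fixed representative along either degeneracy map. -/
theorem exists_norm_power (φ : X0Bar M →ₐ[QA] X0Bar (M * p))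
    (hg : ∀ (σ : GG) (z : X0Bar M), φ (galM σ • z) = galN σ • φ z)
    {f : X0Bar (M * p)} (hf : f ≠ 0)
    (D : Divisor.degZero (K := QA) (F := X0Bar (M * p)))
    (hD : ∀ v, v.ord f = (p : ℤ) * (D : Divisor QA (X0Bar (M * p))) v)
    (hfix : ∀ σ ∈ G, galN σ • f = f) (hpush : pushPic M p φ (Pic0.mk D) = 0) :
    ∃ (c : QA) (h : X0Bar M), h ≠ 0 ∧
      @Algebra.norm (X0Bar M) (X0Bar (M * p)) _ _ (algebraAlong φ) f = c • h ^ p ∧
      (∀ σ ∈ G, galM σ • h = h) ∧
      ∀ σ : GG, ∃ c' : QA,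
        @Algebra.norm (X0Bar M) (X0Bar (M * p)) _ _ (algebraAlong φ) (galN σ • f / f) =
          c' • (galM σ • h / h) ^ p := by
  classical
  haveI := instIsFunctionFieldX0Bar M
  haveI := instIsFunctionFieldX0Bar (M * p)
  have hp : p.Prime := Fact.out
  have hφ := Kronecker.isIntegralAlong φ
  have hfin : FiniteAlong QA φ := Kronecker.finiteAlong φ
  have hN : NormFormulaAlong QA φ hfin := Kronecker.normFormulaAlong φ hfin
  have hP := isPrincipal_of_pushPic_eq_zero M p φ D hpush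
  obtain ⟨c₀, h₀, hc₀, hh₀, hn₀⟩ := Sheet.exists_norm_eq hφ hfin hN (n := p) hf hD hP
  letI := algebraAlong φ
  haveI := isScalarTower_along φ
  haveI : Module.Finite (X0Bar M) (X0Bar (M * p)) := hfin
  have hne : ∀ {z : X0Bar (M * p)}, z ≠ 0 → Algebra.norm (X0Bar M) z ≠ 0 :=
    fun hz => Algebra.norm_ne_zero_iff.2 hz
  have hshift : ∀ (σ : GG) (v : Place QA (X0Bar M)),
      v.ord (Algebra.norm (X0Bar M) (galN σ • f)) =
        ((galM σ)⁻¹ • v).ord (Algebra.norm (X0Bar M) f) := by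
    intro σ v
    have hσf : galN σ • f ≠ 0 := by rw [ne_eq, smul_eq_zero_iff_eq]; exact hf
    rw [← hN (galN σ • f) hσf (galN σ • Curves.divOf QA f)
        (fun w => by rw [SemilinearAut.divisor_smul_apply, Curves.divOf_apply, ord_smul']) v,
      ← hN f hf (Curves.divOf QA f) (fun w => Curves.divOf_apply _ w) ((galM σ)⁻¹ • v)]
    show Divisor.pushforwardAlong φ hφ (galN σ • Curves.divOf QA f) v = _
    rw [pushforwardAlong_smul φ hφ (galM σ) (galN σ) (hg σ), SemilinearAut.divisor_smul_apply]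
    rfl
  have hord : ∀ v : Place QA (X0Bar M), v.ord (Algebra.norm (X0Bar M) f) = (p : ℤ) * v.ord h₀ := by
    intro v
    rw [hn₀, Algebra.smul_def, v.ord_mul ((_root_.map_ne_zero _).2 hc₀) (pow_ne_zero _ hh₀),
      Curves.ord_algebraMap, zero_add, Curves.ord_pow]
  -- a fixed choice
  set U := Submodule.span QA {h₀}
  haveI : FiniteDimensional QA U := FiniteDimensional.span_of_finite QA (Set.finite_singleton _)
  have hstab : ∀ σ ∈ G, ∀ z ∈ U, galM σ • z ∈ U := by
    intro σ hσ z hz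
    obtain ⟨e, rfl⟩ := Submodule.mem_span_singleton.1 hz
    rw [FlatModel.isArith_galois.smul_smul σ]
    refine Submodule.smul_mem _ _ ?_
    have hne' : galM σ • h₀ ≠ 0 := by rw [ne_eq, smul_eq_zero_iff_eq]; exact hh₀
    obtain ⟨d, hd⟩ := Curves.eq_algebraMap_of_forall_ord_nonneg (K := QA)
      (f := galM σ • h₀ / h₀) fun v => by
        have h1 := hshift σ v
        rw [hfix σ hσ, hord, hord] at h1
        rw [Curves.ord_div v hne' hh₀, ord_smul',
          mul_left_cancel₀ (Int.natCast_ne_zero.2 hp.ne_zero) h1, sub_self]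
    exact Submodule.mem_span_singleton.2 ⟨d, by rw [Algebra.smul_def, ← hd, div_mul_cancel₀ _ hh₀]⟩
  obtain ⟨n, v, w, hv, hvw, hw, hsp, hvfix⟩ := exists_fixed_basis_level hpM hA (smooth_level hpM hA hp5)
    (G := (G : Set GG)) (fun σ hσ => hW.le hσ) U hstab
  obtain ⟨i, hi⟩ : ∃ i, v i ≠ 0 := by
    by_contra hall
    push Not at hall
    have : h₀ ∈ Submodule.span QA (Set.range v) := hsp.symm ▸ Submodule.mem_span_singleton_self h₀
    rw [show Submodule.span QA (Set.range v) = ⊥ from Submodule.span_eq_bot.2 (by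
      rintro _ ⟨l, rfl⟩; exact hall l), Submodule.mem_bot] at this
    exact hh₀ this
  obtain ⟨e, he⟩ := Submodule.mem_span_singleton.1 (hv i)
  have he0 : e ≠ 0 := fun h => hi (by rw [← he, h, zero_smul])
  have hord' : ∀ u : Place QA (X0Bar M), u.ord (v i) = u.ord h₀ := fun u => by
    rw [← he, Algebra.smul_def, u.ord_mul ((_root_.map_ne_zero _).2 he0) hh₀,
      Curves.ord_algebraMap, zero_add]
  refine ⟨c₀ / e ^ p, v i, hi, ?_, fun σ hσ => hvfix σ hσ i, fun σ => ?_⟩
  · rw [hn₀, ← he, _root_.smul_pow, smul_smul, div_mul_cancel₀ _ (pow_ne_zero _ he0)]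
  · have hσf : galN σ • f ≠ 0 := by rw [ne_eq, smul_eq_zero_iff_eq]; exact hf
    have hσv : galM σ • v i ≠ 0 := by rw [ne_eq, smul_eq_zero_iff_eq]; exact hi
    have hσh : galM σ • v i / v i ≠ 0 := div_ne_zero hσv hi
    obtain ⟨d, hd⟩ := Curves.eq_algebraMap_of_forall_ord_nonneg (K := QA)
      (f := Algebra.norm (X0Bar M) (galN σ • f / f) / (galM σ • v i / v i) ^ p) fun u => by
        have hq : galN σ • f / f ≠ 0 := div_ne_zero hσf hf
        have e1 : u.ord (Algebra.norm (X0Bar M) (galN σ • f / f)) +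
            u.ord (Algebra.norm (X0Bar M) f) = u.ord (Algebra.norm (X0Bar M) (galN σ • f)) := by
          rw [← u.ord_mul (hne hq) (hne hf), ← MonoidHom.map_mul, div_mul_cancel₀ _ hf]
        have e2 : u.ord (galM σ • v i / v i) = ((galM σ)⁻¹ • u).ord h₀ - u.ord h₀ := by
          rw [Curves.ord_div u hσv hi, ord_smul', hord',
            hord']
        rw [hshift, hord, hord] at e1
        rw [Curves.ord_div u (hne hq) (pow_ne_zero _ hσh), Curves.ord_pow, e2, mul_sub]
        linarith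
    exact ⟨d, by rw [Algebra.smul_def, ← hd, div_mul_cancel₀ _ (pow_ne_zero _ hσh)]⟩

end At

end FLTAgent.MazurPrinciple
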