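import Fermat.Agent.MazurPrinciple.Probe

/-!
# Where the zeros of `u · α(a)ᵉ + c p¹²` are, and how many
-/

set_option autoImplicit false
set_option linter.style.haveILetI false
set_option linter.unusedSectionVars false

noncomputable section

namespace FLTAgent.MazurPrinciple

open AlgebraicCurve FLTAgent.Curves FLTAgent.Specialization FLTAgent.BadRed IntermediateField

theorem mapDomain_apply_sum {α β : Type*} [DecidableEq β] (φ : α → β) (D : α →₀ ℤ) (b : β) :
    Finsupp.mapDomain φ D b = ∑ a ∈ D.support.filter (fun a => φ a = b), D a := by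
  rw [Finsupp.mapDomain, Finsupp.sum, Finsupp.finsetSum_apply, Finset.sum_filter]
  exact Finset.sum_congr rfl fun a _ => by rw [Finsupp.single_apply]

variable {L k : Type*} [Field L] [Field k] {A : ValuationSubring L} {π : A →+* k}
  {FC Fb F : Type*} [Field FC] [Field Fb] [Field F] [Algebra L FC]
  [Algebra k Fb] [Algebra L F] [IsAlgClosed L] [IsFunctionField L FC] [IsFunctionField L F]
  [IsAlgClosed k] [IsFunctionField k Fb] {p : ℕ} [Fact p.Prime] {S : Sheet π FC Fb F p}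
  {U : UnitData S} {H : Set (SemilinearAut L F)}

open scoped Classical

/-- The zeros with finite coordinate. -/
def finZeros (S : Sheet π FC Fb F p) (Z : F) : Finset (Place L F) :=
  (divOf L Z).support.filter fun Q => 0 ≤ Q.ord S.X

theorem mem_finZeros {Z : F} {Q : Place L F} :
    Q ∈ finZeros S Z ↔ Q.ord Z ≠ 0 ∧ 0 ≤ Q.ord S.X := by
  rw [finZeros, Finset.mem_filter, Finsupp.mem_support_iff, divOf_apply]

variable {Z₀ : Divisor k Fb} {bad : Finset (Place k Fb)} {m : ℕ}
  (P₀ : Probe S U H Z₀ bad m)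

/-- The test function with exponent `e`. -/
def Probe.num (e : ℕ) (c : L) : F := numFun S U e c P₀.ψ 1

/-- The reduced norm of the test function. -/
def Probe.nrm (e : ℕ) (ch : k) : Fb := numNorm U e ch P₀.w 1

theorem Probe.nrm_eq (e : ℕ) (ch : k) : P₀.nrm e ch =
    P₀.w ^ e * (P₀.w ^ (e * p) + algebraMap k Fb (ch ^ p) * U.ub) := by
  rw [Probe.nrm, numNorm, one_pow, mul_one]

theorem Probe.num_fix {σ : SemilinearAut L F} (hσ : σ ∈ H) (hu : σ • U.u = U.u) {c : L}
    (hc : SemilinearAut.baseAut σ c = c) (e : ℕ) : σ • P₀.num e c = P₀.num e c := by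
  rw [Probe.num, numFun, map_one, one_pow, mul_one, smul_add, smul_mul', smul_pow', P₀.fix σ hσ,
    hu, SemilinearAut.smul_algebraMap, map_mul, map_pow, map_natCast, hc]

theorem ord_u_eq_zero {Q : Place L F} (hQ : 0 ≤ Q.ord S.X) (V : RatVal π p) : Q.ord U.u = 0 := by
  have hp : algebraMap L F ((p : L) ^ U.w) ≠ 0 := (_root_.map_ne_zero _).2 (pow_ne_zero _ V.p_ne)
  have h := congrArg Q.ord U.mul_eq
  rw [Q.ord_mul U.u_ne U.u'_ne, ord_algebraMap] at h
  have h1 := (U.u_int Q hQ).le_ord U.u_ne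
  have h2 := (U.u'_int Q hQ).le_ord U.u'_ne
  omega

theorem sum_ord_u (V : RatVal π p) : ∑ Q ∈ polesOf (K := L) S.X, Q.ord U.u = 0 := by
  have h := degree_divOf (K := L) U.u
  rw [degree_eq_sum (s := polesOf (K := L) S.X) fun Q hQ => ?_] at h
  · simpa using h
  · rw [Finsupp.mem_support_iff, divOf_apply] at hQ
    exact mem_polesOf.2 (not_le.1 fun h0 => hQ (ord_u_eq_zero h0 V))

theorem sum_ord_poles {K E : Type*} [Field K] [Field E] [Algebra K E] [IsAlgClosed K]
    [IsFunctionField K E] (x : E) : ∑ Q ∈ polesOf (K := K) x, Q.ord x =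
      -Divisor.degree (poleDiv K x) := by
  rw [degree_eq_sum (D := poleDiv K x) (s := polesOf x) subset_rfl, ← Finset.sum_neg_distrib]
  refine Finset.sum_congr rfl fun Q hQ => ?_
  rw [poleDiv_apply, max_eq_left (by have := mem_polesOf.1 hQ; omega), neg_neg]

theorem degree_poleDiv_X :
    Divisor.degree (poleDiv L S.X) = (p + 1 : ℕ) * S.MC.deg := by
  rw [degree_poleDiv S.transcendental_X, show Module.finrank L⟮S.X⟯ F = _ from S.finrank_eq,
    Model.deg]
  push_cast
  ring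

/-- The choices which make the test function behave. -/
structure Probe.Big (P₀ : Probe S U H Z₀ bad m) (e : ℕ) : Prop where
  pos : 0 < e
  pos_m : 0 < m
  upstairs : ∀ Q : Place L F, Q.ord S.X < 0 → Q.ord U.u + (e : ℤ) * m * Q.ord S.X < 0
  below : ∀ P : Place k Fb, P.ord S.MC.xb < 0 → (e : ℤ) * p * m * P.ord S.MC.xb < P.ord U.ub
  node : ∀ t ∈ U.nodes, 0 < Z₀ t → t.ord U.ub < (e : ℤ) * p * Z₀ t

theorem Probe.exists_big (hm : 0 < m) : ∃ e₀, ∀ e, e₀ ≤ e → P₀.Big e := by
  have hp : (1 : ℤ) ≤ p := by exact_mod_cast (Fact.out : p.Prime).one_le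
  have hm' : (1 : ℤ) ≤ m := by exact_mod_cast hm
  refine ⟨1 + (∑ Q ∈ polesOf (K := L) S.X, (Q.ord U.u).natAbs) +
    (∑ P ∈ polesOf (K := k) S.MC.xb, (P.ord U.ub).natAbs) +
    (∑ t ∈ U.nodes, (t.ord U.ub).natAbs), fun e he => ⟨by omega, hm, fun Q hQ => ?_, fun P hP => ?_,
    fun t ht hk => ?_⟩⟩
  · have h := Finset.single_le_sum (f := fun Q : Place L F => (Q.ord U.u).natAbs)
      (fun _ _ => Nat.zero_le _) (mem_polesOf.2 hQ)
    have h1 : ((Q.ord U.u).natAbs : ℤ) < e := by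
      have : (Q.ord U.u).natAbs < e := by omega
      exact_mod_cast this
    have h2 : Q.ord U.u ≤ ((Q.ord U.u).natAbs : ℤ) := Int.le_natAbs
    have h3 : (e : ℤ) ≤ (e : ℤ) * m * -Q.ord S.X :=
      le_trans (le_mul_of_one_le_right (by positivity) hm')
        (le_mul_of_one_le_right (by positivity) (by omega))
    linarith
  · have h := Finset.single_le_sum (f := fun P : Place k Fb => (P.ord U.ub).natAbs)
      (fun _ _ => Nat.zero_le _) (mem_polesOf.2 hP)
    have h1 : ((P.ord U.ub).natAbs : ℤ) < e := by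
      have : (P.ord U.ub).natAbs < e := by omega
      exact_mod_cast this
    have h2 : -P.ord U.ub ≤ ((P.ord U.ub).natAbs : ℤ) := by
      rw [← Int.natAbs_neg]; exact Int.le_natAbs
    have h3 : (e : ℤ) ≤ (e : ℤ) * p * m * -P.ord S.MC.xb :=
      le_trans (le_trans (le_mul_of_one_le_right (by positivity) hp)
        (le_mul_of_one_le_right (by positivity) hm'))
        (le_mul_of_one_le_right (by positivity) (by omega))
    linarith
  · have h := Finset.single_le_sum (f := fun t : Place k Fb => (t.ord U.ub).natAbs)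
      (fun _ _ => Nat.zero_le _) ht
    have h1 : ((t.ord U.ub).natAbs : ℤ) < e := by
      have : (t.ord U.ub).natAbs < e := by omega
      exact_mod_cast this
    have h2 : t.ord U.ub ≤ ((t.ord U.ub).natAbs : ℤ) := Int.le_natAbs
    have h3 : (e : ℤ) ≤ (e : ℤ) * p * Z₀ t :=
      le_trans (le_mul_of_one_le_right (by positivity) hp)
        (le_mul_of_one_le_right (by positivity) hk)
    linarith

omit [Algebra L F] in
theorem algMap_pow_ne {a : k} (ha : a ≠ 0) : algebraMap k Fb (a ^ p) ≠ 0 :=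
  (_root_.map_ne_zero _).2 (pow_ne_zero _ ha)

variable {e : ℕ} (he : P₀.Big e) {c : A} (hc : π c ≠ 0)
include he hc

theorem Probe.ord_num_pole (V : RatVal π p) {Q : Place L F} (hQ : Q.ord S.X < 0) :
    Q.ord (P₀.num e c) = Q.ord U.u + (e : ℤ) * m * Q.ord S.X := by
  have hψ0 : S.α P₀.ψ ≠ 0 := fun h => by
    have := P₀.w_ne
    rw [map_eq_zero] at h
    exact this (P₀.res.unique (h ▸ S.MC.res_zero))
  have h1 : Q.ord (U.u * S.α P₀.ψ ^ e) = Q.ord U.u + (e : ℤ) * m * Q.ord S.X := by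
    rw [Q.ord_mul U.u_ne (pow_ne_zero _ hψ0), ord_pow, P₀.pole' Q hQ]; ring
  rw [Probe.num, numFun, map_one, one_pow, mul_one,
    (ord_add_eq_left (mul_ne_zero U.u_ne (pow_ne_zero _ hψ0))
      (Or.inr (by rw [h1, ord_algebraMap]; exact he.upstairs Q hQ))).1, h1]

theorem Probe.ord_nrm_pole {P : Place k Fb} (hP : P.ord S.MC.xb < 0) :
    P.ord (P₀.nrm e (π c)) = (e : ℤ) * (p + 1) * m * P.ord S.MC.xb := by
  have hp := (Fact.out : p.Prime).pos
  have hw := pow_ne_zero (e * p) P₀.w_ne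
  have hcu : algebraMap k Fb (π c ^ p) * U.ub ≠ 0 :=
    mul_ne_zero (algMap_pow_ne (Fb := Fb) hc) U.ub_ne
  have hlt : P.ord (P₀.w ^ (e * p)) < P.ord (algebraMap k Fb (π c ^ p) * U.ub) := by
    rw [P.ord_mul (algMap_pow_ne (Fb := Fb) hc) U.ub_ne, ord_algebraMap, zero_add, ord_pow, P₀.pole P hP]
    have := he.below P hP
    push_cast
    linarith
  have hs : P₀.w ^ (e * p) + algebraMap k Fb (π c ^ p) * U.ub ≠ 0 := fun h0 => by
    rw [add_eq_zero_iff_eq_neg.1 h0, FLTAgent.Curves.ord_neg] at hlt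
    exact lt_irrefl _ hlt
  rw [P₀.nrm_eq, P.ord_mul (pow_ne_zero _ P₀.w_ne) hs, (ord_add_eq_left hw (Or.inr hlt)).1, ord_pow,
    ord_pow, P₀.pole P hP]
  push_cast
  ring

theorem Probe.nrm_ne : P₀.nrm e (π c) ≠ 0 := by
  obtain ⟨P, hP⟩ := exists_ord_pos (K := k) (transcendental_inv S.MC.transcendental)
  rw [P.ord_inv] at hP
  intro h0
  have h := P₀.ord_nrm_pole he hc (P := P) (by omega)
  rw [h0, Place.ord_zero] at h
  have hpos : (0 : ℤ) < (e : ℤ) * (p + 1) * m := by
    have := he.pos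
    have := he.pos_m
    positivity
  have : (e : ℤ) * (p + 1) * m * P.ord S.MC.xb < 0 := mul_neg_of_pos_of_neg hpos (by omega)
  omega

theorem Probe.ord_nrm_node {t : Place k Fb} (ht : t ∈ U.nodes) (hZ : 0 ≤ Z₀ t) :
    t.ord (P₀.nrm e (π c)) = e * Z₀ t + if Z₀ t = 0 then 0 else t.ord U.ub := by
  have hne := P₀.nrm_ne he hc
  rw [P₀.nrm_eq] at hne ⊢
  obtain ⟨h1, h2⟩ := mul_ne_zero_iff.1 hne
  have hcu : algebraMap k Fb (π c ^ p) * U.ub ≠ 0 :=
    mul_ne_zero (algMap_pow_ne (Fb := Fb) hc) U.ub_ne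
  have ho : t.ord (algebraMap k Fb (π c ^ p) * U.ub) = t.ord U.ub := by
    rw [t.ord_mul (algMap_pow_ne (Fb := Fb) hc) U.ub_ne, ord_algebraMap, zero_add]
  rw [t.ord_mul h1 h2, ord_pow, P₀.node t ht]
  congr 1
  split_ifs with hk
  · rw [(ord_add_eq_left (pow_ne_zero _ P₀.w_ne) (Or.inr (by
      rw [ho, ord_pow, P₀.node t ht, hk, mul_zero]; exact (U.mem_nodes.1 ht).2))).1, ord_pow,
      P₀.node t ht, hk, mul_zero]
  · rw [add_comm, (ord_add_eq_left hcu (Or.inr (by
      rw [ho, ord_pow, P₀.node t ht]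
      have := he.node t ht (by omega)
      push_cast
      linarith))).1, ho]

/-- At other zeros of the test function the norm has its multiplicity times `e`. -/
theorem Probe.ord_nrm_zero {P : Place k Fb} (hP : 0 ≤ P.ord S.MC.xb) (hn : P ∉ U.nodes)
    (hw : 0 < P.ord P₀.w) : P.ord (P₀.nrm e (π c)) = e * P.ord P₀.w := by
  have hne := P₀.nrm_ne he hc
  rw [P₀.nrm_eq] at hne ⊢
  obtain ⟨h1, h2⟩ := mul_ne_zero_iff.1 hne
  have hcu : algebraMap k Fb (π c ^ p) * U.ub ≠ 0 :=
    mul_ne_zero (algMap_pow_ne (Fb := Fb) hc) U.ub_ne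
  have hub : P.ord U.ub = 0 := by
    refine le_antisymm (not_lt.1 fun h => hn (U.mem_nodes.2 ⟨hP, h⟩)) ?_
    exact (U.ub_reg P hP).le_ord U.ub_ne
  have hep : (0 : ℤ) < (e * p : ℕ) := by exact_mod_cast Nat.mul_pos he.pos (Fact.out : p.Prime).pos
  rw [P.ord_mul h1 h2, ord_pow, add_comm (P₀.w ^ (e * p)), (ord_add_eq_left hcu (Or.inr (by
    rw [P.ord_mul (algMap_pow_ne (Fb := Fb) hc) U.ub_ne, ord_algebraMap, zero_add, hub, ord_pow]
    positivity))).1, P.ord_mul (algMap_pow_ne (Fb := Fb) hc) U.ub_ne, ord_algebraMap, hub, add_zero, add_zero]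

variable (V : RatVal π p) (hS : S.Good)
include V hS

theorem Probe.num_ne : P₀.num e (c : L) ≠ 0 :=
  (red_divOf_numFun U V hS P₀.res S.MC.res_one e c (P₀.nrm_ne he hc)).1

theorem Probe.sum_red {P : Place k Fb} :
    ∑ Q ∈ (divOf L (P₀.num e (c : L))).support.filter (fun Q => red hS Q = P),
      Q.ord (P₀.num e (c : L)) = P.ord (P₀.nrm e (π c)) := by
  have h := (red_divOf_numFun U V hS P₀.res S.MC.res_one e c (P₀.nrm_ne he hc)).2
  have h' := DFunLike.congr_fun h P
  rw [mapDomain_apply_sum, divOf_apply] at h'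
  simp only [divOf_apply] at h'
  exact h'

theorem Probe.ord_num_nonneg {Q : Place L F} (hQ : 0 ≤ Q.ord S.X) :
    0 ≤ Q.ord (P₀.num e (c : L)) :=
  ((numFun_int U V hS P₀.int (fun v _ => ordGE_one v) e (c : L)) Q hQ).le_ord
    (P₀.num_ne he hc V hS)

/-- No zero reduces to a pole of the coordinate. -/
theorem Probe.red_finZero {Q : Place L F} (hQ : Q ∈ finZeros S (P₀.num e (c : L))) :
    0 ≤ (red hS Q).ord S.MC.xb := by
  set N := P₀.num e (c : L) with hN
  set s := (divOf L N).support ∪ polesOf (K := L) S.X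
  have hdeg : ∑ R ∈ s, R.ord N = 0 := by
    have h := degree_divOf (K := L) N
    rw [degree_eq_sum (s := s) Finset.subset_union_left] at h
    simpa using h
  have hpoles : ∑ R ∈ polesOf (K := L) S.X, R.ord N = -((e : ℤ) * m * ((p + 1 : ℕ) * S.MC.deg)) := by
    rw [Finset.sum_congr rfl fun R hR => P₀.ord_num_pole he hc V (mem_polesOf.1 hR),
      Finset.sum_add_distrib, sum_ord_u V, ← Finset.mul_sum, sum_ord_poles, degree_poleDiv_X]
    ring
  have hsum : ∑ R ∈ polesOf (K := k) S.MC.xb, ∑ R' ∈ (divOf L N).support.filter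
      (fun R' => red hS R' = R), R'.ord N = -((e : ℤ) * m * ((p + 1 : ℕ) * S.MC.deg)) := by
    rw [Finset.sum_congr rfl fun R hR => (P₀.sum_red he hc V hS).trans
      (P₀.ord_nrm_pole he hc (mem_polesOf.1 hR)), ← Finset.mul_sum, sum_ord_poles]
    have h1 := S.MC.degree_poles_red 1
    rw [one_smul, one_mul] at h1
    rw [h1]
    push_cast
    ring
  erw [Finset.sum_fiberwise_eq_sum_filter (divOf L N).support (polesOf (K := k) S.MC.xb)
    (red hS) (fun R => R.ord N)] at hsum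
  set a := (divOf L N).support.filter fun R => red hS R ∈ polesOf S.MC.xb
  have hin : ∀ R ∈ (divOf L N).support, R.ord S.X < 0 → R ∈ a := fun R hR hneg => by
    refine Finset.mem_filter.2 ⟨hR, mem_polesOf.2 (not_le.1 fun h => ?_)⟩
    have := (inChart_of_red hS h).1
    omega
  have h3 : ∑ R ∈ a.filter (fun R => 0 ≤ R.ord S.X), R.ord N = 0 := by
    have h4 : ∑ R ∈ a.filter (fun R => ¬ 0 ≤ R.ord S.X), R.ord N =
        ∑ R ∈ polesOf (K := L) S.X, R.ord N := by
      refine Finset.sum_subset (fun R hR => ?_) (fun R hR hR' => ?_)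
      · exact mem_polesOf.2 (not_le.1 (Finset.mem_filter.1 hR).2)
      · by_contra h0
        exact hR' (Finset.mem_filter.2 ⟨hin R (Finsupp.mem_support_iff.2 (by rwa [divOf_apply]))
          (mem_polesOf.1 hR), not_le.2 (mem_polesOf.1 hR)⟩)
    have h5 := Finset.sum_filter_add_sum_filter_not a (fun R => 0 ≤ R.ord S.X) (fun R => R.ord N)
    rw [h4, hpoles, hsum] at h5
    linarith
  have h6 := (Finset.sum_eq_zero_iff_of_nonneg fun R hR =>
    P₀.ord_num_nonneg he hc V hS (Finset.mem_filter.1 hR).2).1 h3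
  rw [mem_finZeros] at hQ
  by_contra hneg
  exact hQ.1 (h6 Q (Finset.mem_filter.2 ⟨Finset.mem_filter.2
    ⟨Finsupp.mem_support_iff.2 (by rw [divOf_apply]; exact hQ.1),
      mem_polesOf.2 (not_le.1 hneg)⟩, hQ.2⟩))

end FLTAgent.MazurPrinciple
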